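import Fermat.Agent.RT8.ModSys

/-!
# The main theorems for systems of modules
-/

set_option autoImplicit false
set_option linter.unusedSectionVars false
set_option linter.unusedVariables false

namespace Fermat.Agent.RT8

open IsLocalRing Module Fermat.Agent.RT1 Fermat.Agent.LocRing Fermat.Agent.DefRing
  Fermat.Agent.RT8J

section exact

variable {O T M : Type*} [CommRing O] [IsLocalRing O] [CommRing T]
  [AddCommGroup M] [Module O M] [Module T M] [SMulCommClass T O M]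
  {d : Type*} [Fintype d] [DecidableEq d] (b : Basis d O M)

/-- the endomorphism of `M × M` given by a matrix -/
noncomputable def matEnd (t₁ t₂ t₃ t₄ : T) : M × M →ₗ[O] M × M :=
  LinearMap.prod
    ((Module.toModuleEnd O M t₁).coprod (Module.toModuleEnd O M t₂))
    ((Module.toModuleEnd O M t₃).coprod (Module.toModuleEnd O M t₄))

theorem matEnd_apply (t₁ t₂ t₃ t₄ : T) (x y : M) :
    matEnd (O := O) t₁ t₂ t₃ t₄ (x, y) = (t₁ • x + t₂ • y, t₃ • x + t₄ • y) := rfl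

theorem fst_mem_smul_top (I : Ideal O) {x : M × M} (h : x ∈ (I • ⊤ : Submodule O (M × M))) :
    x.1 ∈ (I • ⊤ : Submodule O M) := by
  have h1 := Submodule.mem_map_of_mem (f := LinearMap.fst O M M) h
  rw [Submodule.map_smul''] at h1
  exact Submodule.smul_mono le_rfl le_top h1

theorem snd_mem_smul_top (I : Ideal O) {x : M × M} (h : x ∈ (I • ⊤ : Submodule O (M × M))) :
    x.2 ∈ (I • ⊤ : Submodule O M) := by
  have h1 := Submodule.mem_map_of_mem (f := LinearMap.snd O M M) h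
  rw [Submodule.map_smul''] at h1
  exact Submodule.smul_mono le_rfl le_top h1

/-- exactness in matrix form from exactness in module form -/
theorem exact_of_mod (t₁ t₂ t₃ t₄ : T)
    (h : ∀ x y : M, t₁ • x + t₂ • y ∈ (maximalIdeal O • ⊤ : Submodule O M) →
      t₃ • x + t₄ • y ∈ (maximalIdeal O • ⊤ : Submodule O M) →
      ∃ u v : M, x - (t₁ • u + t₂ • v) ∈ (maximalIdeal O • ⊤ : Submodule O M) ∧
        y - (t₃ • u + t₄ • v) ∈ (maximalIdeal O • ⊤ : Submodule O M))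
    (w : d ⊕ d → ResidueField O)
    (hw : ((Matrix.fromBlocks (actR b T t₁) (actR b T t₂) (actR b T t₃) (actR b T t₄)).map
      (residue O)).mulVec w = 0) :
    ∃ u, ((Matrix.fromBlocks (actR b T t₁) (actR b T t₂) (actR b T t₃) (actR b T t₄)).map
      (residue O)).mulVec u = w := by
  have hE := toMatrix_prod b (matEnd (O := O) (M := M) t₁ t₂ t₃ t₄) t₁ t₂ t₃ t₄
    (fun x y => matEnd_apply t₁ t₂ t₃ t₄ x y)
  rw [← hE] at hw ⊢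
  obtain ⟨⟨x, y⟩, hx⟩ := exists_lift_vec (b.prod b) w
  have hw' : w = fun i => residue O ((b.prod b).repr (x, y) i) := funext fun i => (hx i).symm
  have h1 : matEnd (O := O) t₁ t₂ t₃ t₄ (x, y) ∈ (maximalIdeal O • ⊤ : Submodule O (M × M)) := by
    rw [basis_mem_smul_top_iff (b.prod b)]
    intro i
    rw [← residue_eq_zero_iff, ← mulVec_residue (b.prod b) (b.prod b), ← hw', hw]
    rfl
  obtain ⟨u, v, hu, hv⟩ := h x y (fst_mem_smul_top _ h1) (snd_mem_smul_top _ h1)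
  refine ⟨fun i => residue O ((b.prod b).repr (u, v) i), ?_⟩
  funext i
  rw [mulVec_residue, hw']
  have h2 : (x, y) - matEnd (O := O) t₁ t₂ t₃ t₄ (u, v) ∈
      (maximalIdeal O • ⊤ : Submodule O (M × M)) := mem_smul_top_prod _ hu hv
  have h3 := (basis_mem_smul_top_iff (b.prod b) _ _).mp h2 i
  rw [map_sub, Finsupp.sub_apply, ← residue_eq_zero_iff, map_sub, sub_eq_zero] at h3
  exact h3.symm

end exact

variable {𝒪 : Type} [CommRing 𝒪] [IsDomain 𝒪] [IsDiscreteValuationRing 𝒪]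
  [IsAdicComplete (maximalIdeal 𝒪) 𝒪] [Finite (ResidueField 𝒪)]
  {rbar : GQ →* M2 (ResidueField 𝒪)}
  {sd : SliceData rbar}

/-- `ker N = im N` on `(M / 𝔪 M)²` for a matrix `N` with entries in the Hecke algebra. -/
def ExactM (B : BMod sd) (N : M2 B.C.T) : Prop :=
  ∀ x y : B.M, N 0 0 • x + N 0 1 • y ∈ (maximalIdeal 𝒪 • ⊤ : Submodule 𝒪 B.M) →
    N 1 0 • x + N 1 1 • y ∈ (maximalIdeal 𝒪 • ⊤ : Submodule 𝒪 B.M) →
    ∃ u v : B.M, x - (N 0 0 • u + N 0 1 • v) ∈ (maximalIdeal 𝒪 • ⊤ : Submodule 𝒪 B.M) ∧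
      y - (N 1 0 • u + N 1 1 • v) ∈ (maximalIdeal 𝒪 • ⊤ : Submodule 𝒪 B.M)

variable {p g : ℕ} {Λ K : Type} [Fintype Λ] [DecidableEq Λ] [Finite K]
  (X : MSys sd p g Λ K)

/-- new levels -/
structure NewM (k : K) (l : Λ) : Prop where
  st : ∀ n, IsStPm ((X.ℓ l : ℕ) : (X.L n k).C.T) ((X.L n k).C.r (X.φ l))
    ((X.L n k).C.r (X.τ l) - 1)
  exact : ExactM (X.B k) ((X.B k).C.r (X.τ l) - 1)

/-- degeneracy data at a prime -/
structure DegPM (k k' : K) (l : Λ) where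
  W : ∀ n, DegM X n k k'
  comp : ∀ n x y, (W n).down ((W n).up (x, y)) =
      ((((X.ℓ l : ℕ) : (X.L n k').C.T) + 1) • x + ((X.L n k').C.r (X.φ l)).trace • y,
       ((X.L n k').C.r (X.φ l)).trace • x + (((X.ℓ l : ℕ) : (X.L n k').C.T) + 1) • y)
  new : ∀ n (x : (X.L n k).M), ∃ y,
      (((X.L n k).C.r (X.φ l)).trace ^ 2 - (((X.ℓ l : ℕ) : (X.L n k).C.T) + 1) ^ 2) • x =
        (W n).up y

/-- the input at the prime `l₂` -/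
def TwoM (k : K) (l₂ : Λ) : Prop :=
  rbar (X.τ l₂) ≠ 1 ∨ (IsUnit ((X.ℓ l₂ : 𝒪) + 1) ∧ ((∃ k₂, Nonempty (DegPM X k k₂ l₂)) ∨
    ∀ n, ((X.L n k).C.r (X.φ l₂)).trace ^ 2 = (((X.ℓ l₂ : ℕ) : (X.L n k).C.T) + 1) ^ 2))

variable {X} (hp : p.Prime) (hp𝒪 : (p : 𝒪) ∈ maximalIdeal 𝒪)

theorem NewM.toNewAt {k : K} {l : Λ} (h : NewM X k l) : NewAt (X.toSys hp hp𝒪) k l where
  st := h.st
  exact := fun v hv => exact_of_mod (X.B k).b
    (((X.B k).C.r (X.τ l) - 1) 0 0) (((X.B k).C.r (X.τ l) - 1) 0 1)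
    (((X.B k).C.r (X.τ l) - 1) 1 0) (((X.B k).C.r (X.τ l) - 1) 1 1) h.exact v hv

/-- degeneracy data in matrix form -/
noncomputable def DegPM.toDegPrime {k k' : K} {l : Λ} (D : DegPM X k k' l) :
    DegPrime (X.toSys hp hp𝒪) k k' l :=
  DegM.toDegPrime hp hp𝒪 D.W D.comp D.new

theorem TwoM.toTwoInput {k : K} {l₂ : Λ} (h : TwoM X k l₂) :
    TwoInput (X.toSys hp hp𝒪) k l₂ := by
  rcases h with h | ⟨h1, ⟨k₂, ⟨D⟩⟩ | h2⟩
  · exact Or.inl h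
  · exact Or.inr ⟨h1, Or.inl ⟨k₂, ⟨D.toDegPrime hp hp𝒪⟩⟩⟩
  · exact Or.inr ⟨h1, Or.inr h2⟩

theorem act₀_injective {k : K} (hinj : ∀ t : (X.B k).C.T, (∀ x : (X.B k).M, t • x = 0) → t = 0) :
    Function.Injective ((X.toSys hp hp𝒪).act₀ k) := by
  have h : Function.Injective (actR (X.B k).b (X.B k).C.T) := actR_injective (X.B k).b hinj
  exact h

/-- **Modularity, case (A), module form.** -/
theorem MSys.modularA (hN : NumC (fun l => (X.ℓ l : 𝒪))) {g' : ℕ}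
    (Z : Frm (X.toSys hp hp𝒪) Empty g') (hg : g' ≤ g)
    (κ : Finset Λ → K) (S₀ : Finset Λ) (l₂ : Λ) (hl₂ : l₂ ∈ S₀)
    (hram : ∀ S, S₀ ⊆ S → X.ram (κ S) = S) (hd : 0 < (X.B (κ S₀)).d)
    (hnew : ∀ l ∈ S₀, l ≠ l₂ → NewM X (κ S₀) l) (h2 : TwoM X (κ S₀) l₂)
    (W : ∀ S, S₀ ⊆ S → ∀ l ∉ S, DegPM X (κ (insert l S)) (κ S) l)
    (S : Finset Λ) (hdom : IsDomain X.pt.T) (hjS : ∀ l ∉ S, X.pt.r (X.τ l) = 1)
    (hj2 : X.pt.r (X.τ l₂) ≠ 1)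
    (hinj : ∀ t : (X.B (κ S)).C.T, (∀ x : (X.B (κ S)).M, t • x = 0) → t = 0) :
    S₀ ⊆ S ∧ ∃ f : (X.B (κ S)).C.T →ₐ[𝒪] X.pt.T,
      mapRep (f : (X.B (κ S)).C.T →+* X.pt.T) (X.B (κ S)).C.r = X.pt.r := by
  have hdom' : IsDomain ((X.toSys hp hp𝒪).C₀ none).T := hdom
  exact Frm.modularA₂ (Y := X.toSys hp hp𝒪) hp hp𝒪 hN Z hg κ S₀ l₂ hl₂ hram hd
    (fun l hl hl2 => (hnew l hl hl2).toNewAt hp hp𝒪) (h2.toTwoInput hp hp𝒪)
    (fun S hS l hl => (W S hS l hl).toDegPrime hp hp𝒪) S none hjS hj2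
    (act₀_injective hp hp𝒪 hinj)

/-- the input at `p` in case (B), module form. -/
def PInM {g' : ℕ} (Z : Frm (X.toSys hp hp𝒪) Bool g') (k : K) (S₀ : Finset Λ) : Prop :=
  (∀ n (x : (X.L n k).M), X.prK hp hp𝒪 n k (Z.s n false) • x = 0) ∨
  ∃ (k' : K) (W : ∀ n, DegM X n k k') (z₀ : 𝒪), X.ram k' = S₀ ∧ 0 < (X.B k').d ∧
    (∀ n (x : (X.L n k').M), X.prK hp hp𝒪 n k' (Z.s n true) • x = 0) ∧ z₀ ^ 2 = 1 ∧
    (∀ n (zi : (X.L n k').C.T),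
      (algebraMap 𝒪 _ z₀ + X.prK hp hp𝒪 n k' (Z.s n false)) * zi = 1 →
      ∀ x y, (W n).down ((W n).up (x, y)) =
        ((((p : ℕ) : (X.L n k').C.T) + 1) • x +
          (algebraMap 𝒪 _ z₀ + X.prK hp hp𝒪 n k' (Z.s n false) +
            ((p : ℕ) : (X.L n k').C.T) * zi) • y,
         (algebraMap 𝒪 _ z₀ + X.prK hp hp𝒪 n k' (Z.s n false) +
            ((p : ℕ) : (X.L n k').C.T) * zi) • x + (((p : ℕ) : (X.L n k').C.T) + 1) • y)) ∧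
    ∀ n (x : (X.L n k).M), ∃ y, X.prK hp hp𝒪 n k (Z.s n false) • x = (W n).up y

theorem actR_eq_zero {O T M : Type*} [CommRing O] [CommRing T]
    [AddCommGroup M] [Module O M] [Module T M] [SMulCommClass T O M]
    {d : Type*} [Fintype d] [DecidableEq d] (b : Basis d O M) (t : T)
    (h : ∀ x : M, t • x = 0) : actR b T t = 0 := by
  symm
  refine eq_actR b fun j => ?_
  rw [h]
  simp

theorem MSys.ρ_z (n : ℕ) (k : K) (z₀ : 𝒪) (s zi : (X.A hp hp𝒪 n).R) (q : ℕ) :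
    (X.toSys hp hp𝒪).ρ n k (algebraMap 𝒪 _ z₀ + s + (q : (X.A hp hp𝒪 n).R) * zi) =
      actR ((X.L n k).b hp hp𝒪) (X.L n k).C.T (algebraMap 𝒪 _ z₀ + X.prK hp hp𝒪 n k s +
        ((q : ℕ) : (X.L n k).C.T) * X.prK hp hp𝒪 n k zi) := by
  rw [MSys.ρ_eq]
  congr 1
  rw [map_add, map_add, map_mul, map_natCast, AlgHom.commutes]
  rfl

theorem MSys.prK_z {n : ℕ} {k : K} {z₀ : 𝒪} {s zi : (X.A hp hp𝒪 n).R}
    (h : (algebraMap 𝒪 _ z₀ + s) * zi = 1) :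
    (algebraMap 𝒪 _ z₀ + X.prK hp hp𝒪 n k s) * X.prK hp hp𝒪 n k zi = 1 := by
  rw [← AlgHom.commutes (X.prK hp hp𝒪 n k) z₀, ← map_add, ← map_mul, h, map_one]

theorem MSys.ρ_eq_zero {n : ℕ} {k : K} {s : (X.A hp hp𝒪 n).R}
    (h : ∀ x : (X.L n k).M, X.prK hp hp𝒪 n k s • x = 0) : (X.toSys hp hp𝒪).ρ n k s = 0 := by
  rw [MSys.ρ_eq]
  exact actR_eq_zero ((X.L n k).b hp hp𝒪) _ h

theorem DegM.factor {k k' : K} (W : ∀ n, DegM X n k k') {n : ℕ} {s : (X.A hp hp𝒪 n).R}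
    (h : ∀ x : (X.L n k).M, ∃ y, X.prK hp hp𝒪 n k s • x = (W n).up y) :
    ∃ Y : Matrix (Fin ((X.toSys hp hp𝒪).d k') ⊕ Fin ((X.toSys hp hp𝒪).d k'))
        (Fin ((X.toSys hp hp𝒪).d k)) (Lam p g 𝒪 n),
      (X.toSys hp hp𝒪).ρ n k s = (DegM.toDegL hp hp𝒪 W).ι n * Y := by
  rw [MSys.ρ_eq]
  exact exists_factor ((X.L n k).b hp hp𝒪) ((X.L n k').b hp hp𝒪)
    ((W n).upL hp hp𝒪) (X.prK hp hp𝒪 n k s) (fun x => by
      obtain ⟨y, hy⟩ := h x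
      exact ⟨y, hy.symm⟩)

theorem DegM.comp_z {k k' : K} (W : ∀ n, DegM X n k k') {n : ℕ} {z₀ : 𝒪}
    {s zi : (X.A hp hp𝒪 n).R} {q : ℕ} (h : ∀ x y, (W n).down ((W n).up (x, y)) =
        ((((q : ℕ) : (X.L n k').C.T) + 1) • x +
          (algebraMap 𝒪 _ z₀ + X.prK hp hp𝒪 n k' s +
            ((q : ℕ) : (X.L n k').C.T) * X.prK hp hp𝒪 n k' zi) • y,
         (algebraMap 𝒪 _ z₀ + X.prK hp hp𝒪 n k' s +
            ((q : ℕ) : (X.L n k').C.T) * X.prK hp hp𝒪 n k' zi) • x +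
              (((q : ℕ) : (X.L n k').C.T) + 1) • y)) :
    (DegM.toDegL hp hp𝒪 W).ι' n * (DegM.toDegL hp hp𝒪 W).ι n =
      Matrix.fromBlocks ((X.toSys hp hp𝒪).ρ n k' ((q : (X.A hp hp𝒪 n).R) + 1))
        ((X.toSys hp hp𝒪).ρ n k' (algebraMap 𝒪 _ z₀ + s + (q : (X.A hp hp𝒪 n).R) * zi))
        ((X.toSys hp hp𝒪).ρ n k' (algebraMap 𝒪 _ z₀ + s + (q : (X.A hp hp𝒪 n).R) * zi))
        ((X.toSys hp hp𝒪).ρ n k' ((q : (X.A hp hp𝒪 n).R) + 1)) := by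
  have h1 := toMatrix_down_up ((X.L n k).b hp hp𝒪) ((X.L n k').b hp hp𝒪)
    ((W n).upL hp hp𝒪) ((W n).downL hp hp𝒪) _ _ _ _ h
  rw [← X.ρ_nat hp hp𝒪, ← MSys.ρ_z hp hp𝒪] at h1
  exact h1

theorem PInM.toPInput {g' : ℕ} {Z : Frm (X.toSys hp hp𝒪) Bool g'} {k : K} {S₀ : Finset Λ}
    (h : PInM hp hp𝒪 Z k S₀) : PInput Z k S₀ := by
  rcases h with h | ⟨k', W, z₀, h1, h2, h3, h4, h5, h6⟩
  · exact Or.inl fun n => MSys.ρ_eq_zero hp hp𝒪 (h n)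
  · exact Or.inr ⟨k', DegM.toDegL hp hp𝒪 W, z₀, h1, h2,
      fun n => MSys.ρ_eq_zero hp hp𝒪 (h3 n), h4,
      fun n zi hzi => DegM.comp_z hp hp𝒪 W (h5 n _ (MSys.prK_z hp hp𝒪 hzi)),
      fun n => DegM.factor hp hp𝒪 W (h6 n)⟩

/-- **Modularity, case (B), module form.** -/
theorem MSys.modularB (hN : NumC (fun l => (X.ℓ l : 𝒪))) {g' : ℕ}
    (Z : Frm (X.toSys hp hp𝒪) Bool g') (hg : g' + 1 ≤ g)
    (huv : ∀ n, Z.s n false * Z.s n true = 0)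
    (κ : Finset Λ → K) (S₀ : Finset Λ) (l₂ : Λ) (hl₂ : l₂ ∈ S₀)
    (hram : ∀ S, S₀ ⊆ S → X.ram (κ S) = S) (hd : 0 < (X.B (κ S₀)).d)
    (hnew : ∀ l ∈ S₀, l ≠ l₂ → NewM X (κ S₀) l) (h2 : TwoM X (κ S₀) l₂)
    (W : ∀ S, S₀ ⊆ S → ∀ l ∉ S, DegPM X (κ (insert l S)) (κ S) l)
    (hin : PInM hp hp𝒪 Z (κ S₀) S₀)
    (S : Finset Λ) (hdom : IsDomain X.pt.T) (hjS : ∀ l ∉ S, X.pt.r (X.τ l) = 1)
    (hj2 : X.pt.r (X.τ l₂) ≠ 1)
    (hju : ∀ n, (X.A hp hp𝒪 n).pr none (Z.s n false) = 0)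
    (hinj : ∀ t : (X.B (κ S)).C.T, (∀ x : (X.B (κ S)).M, t • x = 0) → t = 0) :
    S₀ ⊆ S ∧ ∃ f : (X.B (κ S)).C.T →ₐ[𝒪] X.pt.T,
      mapRep (f : (X.B (κ S)).C.T →+* X.pt.T) (X.B (κ S)).C.r = X.pt.r := by
  have hdom' : IsDomain ((X.toSys hp hp𝒪).C₀ none).T := hdom
  exact Frm.modularB₂ (Y := X.toSys hp hp𝒪) hp hp𝒪 hN Z hg huv κ S₀ l₂ hl₂ hram hd
    (fun l hl hl2 => (hnew l hl hl2).toNewAt hp hp𝒪) (h2.toTwoInput hp hp𝒪)
    (fun S hS l hl => (W S hS l hl).toDegPrime hp hp𝒪) (hin.toPInput hp hp𝒪) S none hjS hj2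
    (fun n => by
      rw [Sys.pr_π]
      exact hju n)
    (act₀_injective hp hp𝒪 hinj)

/-- **Lowering, case (A), module form** -/
theorem MSys.lowerA (hN : NumC (fun l => (X.ℓ l : 𝒪))) {g' : ℕ}
    (Z : Frm (X.toSys hp hp𝒪) Empty g') (hg : g' ≤ g) (k : K) (hd : 0 < (X.B k).d) (l : Λ)
    (hnew : NewM X k l) : rbar (X.τ l) ≠ 1 :=
  Z.lowerA hp hp𝒪 hN hg k hd l (hnew.toNewAt hp hp𝒪)

end Fermat.Agent.RT8
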