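import Fermat.Agent.RT8.CaseB
import Fermat.Agent.RT8J.Framed

/-!
# Patching systems: the interface with the modular side
-/

set_option autoImplicit false
set_option linter.unusedSectionVars false
set_option linter.unusedVariables false

namespace Fermat.Agent.RT8

open IsLocalRing Fermat.Agent.RT1 Fermat.Agent.LocRing Fermat.Agent.DefRing Fermat.Agent.RT8J

section

variable {𝒪 : Type} [CommRing 𝒪] [IsLocalRing 𝒪] {rbar : GQ →* M2 (ResidueField 𝒪)}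

/-- A finite local `𝒪`-algebra with a normalised lift of `rbar`. -/
structure Cpt (sd : SliceData rbar) where
  /-- the ring -/
  T : Type
  [commRing : CommRing T]
  [isLocalRing : IsLocalRing T]
  [algebra : Algebra 𝒪 T]
  [isLocalHom : IsLocalHom (algebraMap 𝒪 T)]
  [finite : Module.Finite 𝒪 T]
  /-- the representation -/
  r : GQ →* M2 T
  cont : MatCont T r
  red : Red rbar r
  norm : Norm sd r

attribute [instance] Cpt.commRing Cpt.isLocalRing Cpt.algebra Cpt.isLocalHom Cpt.finite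

variable (sd : SliceData rbar)

/-- A patching system. `p` = residue characteristic, `g` = number of Taylor-Wiles primes,
`Λ` = the primes `ℓ l ≠ p` of (potential) ramification, `J` = index set of the components of the
joint rings, `K` = index set of the modular levels. -/
structure Sys (p g : ℕ) (Λ J K : Type) [Fintype Λ] [DecidableEq Λ] where
  /-- the primes -/
  ℓ : Λ → ℕ
  /-- Frobenius elements -/
  φ : Λ → GQ
  /-- inertia elements -/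
  τ : Λ → GQ
  /-- base level -/
  C₀ : J → Cpt sd
  /-- Taylor-Wiles levels -/
  C : ℕ → J → Cpt sd
  /-- base joint ring -/
  A₀ : JRing sd (fun j => (C₀ j).T) (fun j => (C₀ j).r)
  /-- joint rings -/
  A : ∀ n, JRing sd (fun j => (C n j).T) (fun j => (C n j).r)
  /-- comparison with the base level -/
  pr : ∀ n j, (C n j).T →ₐ[𝒪] (C₀ j).T
  pr_r : ∀ n j, mapRep (pr n j : (C n j).T →+* (C₀ j).T) (C n j).r = (C₀ j).r
  uni : ∀ n j l, IsUni ((ℓ l : ℕ) : (C n j).T) ((C n j).r (φ l)) ((C n j).r (τ l) - 1)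
  uni₀ : ∀ j l, IsUni ((ℓ l : ℕ) : (C₀ j).T) ((C₀ j).r (φ l)) ((C₀ j).r (τ l) - 1)
  /-- the component of a modular level -/
  lev : K → J
  gen : ∀ n k, Algebra.adjoin 𝒪 {x : (C n (lev k)).T | ∃ σ i j, x = (C n (lev k)).r σ i j} = ⊤
  gen₀ : ∀ k, Algebra.adjoin 𝒪 {x : (C₀ (lev k)).T | ∃ σ i j, x = (C₀ (lev k)).r σ i j} = ⊤
  /-- primes where the level is ramified -/
  ram : K → Finset Λ
  unr : ∀ n k, ∀ l ∉ ram k, (C n (lev k)).r (τ l) = 1
  /-- the rank -/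
  d : K → ℕ
  /-- the action on the modular forms -/
  act : ∀ n k, (C n (lev k)).T →ₐ[𝒪] Matrix (Fin (d k)) (Fin (d k)) (Lam p g 𝒪 n)
  /-- the action on the modular forms of base level -/
  act₀ : ∀ k, (C₀ (lev k)).T →ₐ[𝒪] Matrix (Fin (d k)) (Fin (d k)) 𝒪
  act_aug : ∀ n k t, (act n k t).map (augL p g 𝒪 n) = act₀ k (pr n (lev k) t)
  /-- inertia at the Taylor-Wiles primes -/
  IQ : ℕ → Set GQ
  IQ₀ : ∀ n j, ∀ σ ∈ IQ n, (C₀ j).r σ = 1
  delta : ∀ n k i, ∃ t ∈ Ideal.span {x : (C n (lev k)).T | ∃ σ ∈ IQ n, ∃ a b,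
    x = ((C n (lev k)).r σ - 1) a b}, act n k t = delm p g 𝒪 n i • 1

end

namespace Sys

variable {𝒪 : Type} [CommRing 𝒪] [IsLocalRing 𝒪] {rbar : GQ →* M2 (ResidueField 𝒪)}
  {sd : SliceData rbar} {p g : ℕ} {Λ J K : Type} [Fintype Λ] [DecidableEq Λ]
  (Y : Sys sd p g Λ J K)

/-- the action of the joint ring on a modular level -/
noncomputable def ρ (n : ℕ) (k : K) :
    (Y.A n).R →ₐ[𝒪] Matrix (Fin (Y.d k)) (Fin (Y.d k)) (Lam p g 𝒪 n) :=
  (Y.act n k).comp ((Y.A n).pr (Y.lev k))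

/-- the action of the base joint ring -/
noncomputable def ρ₀ (k : K) : Y.A₀.R →ₐ[𝒪] Matrix (Fin (Y.d k)) (Fin (Y.d k)) 𝒪 :=
  (Y.act₀ k).comp (Y.A₀.pr (Y.lev k))

theorem exists_π (n : ℕ) : ∃ π : (Y.A n).R →ₐ[𝒪] Y.A₀.R, Function.Surjective π ∧
    mapRep (π : (Y.A n).R →+* Y.A₀.R) (Y.A n).r0 = Y.A₀.r0 ∧
      ∀ j x, Y.A₀.pr j (π x) = Y.pr n j ((Y.A n).pr j x) :=
  (Y.A n).exists_map Y.A₀ id (Y.pr n) (Y.pr_r n)

/-- comparison of joint rings -/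
noncomputable def π (n : ℕ) : (Y.A n).R →ₐ[𝒪] Y.A₀.R := (Y.exists_π n).choose

theorem π_surj (n : ℕ) : Function.Surjective (Y.π n) := (Y.exists_π n).choose_spec.1

theorem π_r (n : ℕ) : mapRep (Y.π n : (Y.A n).R →+* Y.A₀.R) (Y.A n).r0 = Y.A₀.r0 :=
  (Y.exists_π n).choose_spec.2.1

theorem pr_π (n : ℕ) (j : J) (x : (Y.A n).R) :
    Y.A₀.pr j (Y.π n x) = Y.pr n j ((Y.A n).pr j x) := (Y.exists_π n).choose_spec.2.2 j x

theorem ρ_aug (n : ℕ) (k : K) (x : (Y.A n).R) :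
    (Y.ρ n k x).map (augL p g 𝒪 n) = Y.ρ₀ k (Y.π n x) := by
  show (Y.act n k ((Y.A n).pr (Y.lev k) x)).map (augL p g 𝒪 n) =
    Y.act₀ k (Y.A₀.pr (Y.lev k) (Y.π n x))
  rw [Y.act_aug, Y.pr_π]

theorem map_sub_one' {A B : Type} [CommRing A] [CommRing B] (f : A →+* B) (M : M2 A) :
    (M - 1).map f = M.map f - 1 := by
  refine Matrix.ext fun i j => ?_
  rw [Matrix.map_apply, Matrix.sub_apply, map_sub, Matrix.sub_apply, Matrix.map_apply]
  congr 1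
  by_cases h : i = j
  · subst h; rw [Matrix.one_apply_eq, map_one, Matrix.one_apply_eq]
  · rw [Matrix.one_apply_ne h, map_zero, Matrix.one_apply_ne h]

section maps

variable {T : J → Type} [∀ j, CommRing (T j)] [∀ j, Algebra 𝒪 (T j)] {r : ∀ j, GQ →* M2 (T j)}

theorem _root_.Fermat.Agent.RT8J.JRing.pr_r0_apply (A : JRing sd T r) (j : J) (σ : GQ) :
    (A.r0 σ).map (A.pr j) = r j σ := by
  rw [← A.pr_r0 j]; rfl

theorem _root_.Fermat.Agent.RT8J.JRing.uni (A : JRing sd T r) (q : ℕ) (σ σ' : GQ)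
    (h : ∀ j, IsUni (q : T j) (r j σ) (r j σ' - 1)) :
    IsUni (q : A.R) (A.r0 σ) (A.r0 σ' - 1) := by
  have h1 : IsUni ((RingHom.id A.R) (q : A.R)) ((A.r0 σ).map (RingHom.id A.R))
      ((A.r0 σ' - 1).map (RingHom.id A.R)) := by
    rw [isUni_map_iff]
    intro x hx
    rw [RingHom.id_apply]
    apply A.inj
    intro j
    have h2 : IsUni ((A.pr j : A.R →+* T j) (q : A.R)) ((A.r0 σ).map (A.pr j : A.R →+* T j))
        ((A.r0 σ' - 1).map (A.pr j : A.R →+* T j)) := by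
      have e1 : (A.r0 σ).map (A.pr j : A.R →+* T j) = r j σ := A.pr_r0_apply j σ
      have e2 : (A.r0 σ' - 1).map (A.pr j : A.R →+* T j) = r j σ' - 1 := by
        rw [map_sub_one']
        have e3 : (A.r0 σ').map (A.pr j : A.R →+* T j) = r j σ' := A.pr_r0_apply j σ'
        rw [e3]
      rw [e1, e2, map_natCast]
      exact h j
    exact (isUni_map_iff (A.pr j : A.R →+* T j)).mp h2 x hx
  have e : (A.r0 σ' - 1).map (RingHom.id A.R) = A.r0 σ' - 1 := Matrix.map_id _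
  have e' : (A.r0 σ).map (RingHom.id A.R) = A.r0 σ := Matrix.map_id _
  rw [e, e'] at h1
  exact h1

end maps

theorem pr_surj (n : ℕ) (k : K) : Function.Surjective ((Y.A n).pr (Y.lev k)) := by
  rw [← AlgHom.range_eq_top, ← top_le_iff, ← Y.gen n k, Algebra.adjoin_le_iff]
  rintro _ ⟨σ, i, j, rfl⟩
  exact ⟨(Y.A n).r0 σ i j, congrFun (congrFun ((Y.A n).pr_r0_apply (Y.lev k) σ) i) j⟩

theorem pr₀_surj (k : K) : Function.Surjective (Y.A₀.pr (Y.lev k)) := by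
  rw [← AlgHom.range_eq_top, ← top_le_iff, ← Y.gen₀ k, Algebra.adjoin_le_iff]
  rintro _ ⟨σ, i, j, rfl⟩
  exact ⟨Y.A₀.r0 σ i j, congrFun (congrFun (Y.A₀.pr_r0_apply (Y.lev k) σ) i) j⟩

theorem sub_one_apply_map {A B : Type} [CommRing A] [CommRing B] (f : A →+* B) (M : M2 A)
    (a b : Fin 2) : f ((M - 1) a b) = (M.map f - 1) a b := by
  rw [← map_sub_one']; rfl

theorem exists_delta (n : ℕ) (k : K) (i : Fin g) :
    ∃ x : (Y.A n).R, Y.ρ n k x = delm p g 𝒪 n i • 1 ∧ Y.π n x = 0 := by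
  obtain ⟨t, ht, hact⟩ := Y.delta n k i
  have hπ0 : ∀ σ ∈ Y.IQ n, ∀ a b, Y.π n (((Y.A n).r0 σ - 1) a b) = 0 := by
    intro σ hσ a b
    apply Y.A₀.inj
    intro j
    have h1 := sub_one_apply_map (((Y.A₀.pr j).comp (Y.π n) : (Y.A n).R →ₐ[𝒪] (Y.C₀ j).T) :
      (Y.A n).R →+* (Y.C₀ j).T) ((Y.A n).r0 σ) a b
    have h2 : ((Y.A n).r0 σ).map (((Y.A₀.pr j).comp (Y.π n) : (Y.A n).R →ₐ[𝒪] (Y.C₀ j).T) :
      (Y.A n).R →+* (Y.C₀ j).T) = 1 := by
      rw [← Y.IQ₀ n j σ hσ, ← Y.A₀.pr_r0_apply j σ, ← Y.π_r n]; rfl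
    rw [h2, sub_self] at h1
    exact h1
  have hlift : ∀ t ∈ Ideal.span {x : (Y.C n (Y.lev k)).T | ∃ σ ∈ Y.IQ n, ∃ a b,
      x = ((Y.C n (Y.lev k)).r σ - 1) a b}, ∃ x, (Y.A n).pr (Y.lev k) x = t ∧ Y.π n x = 0 := by
    intro t ht
    refine Submodule.span_induction ?_ ?_ ?_ ?_ ht
    · rintro _ ⟨σ, hσ, a, b, rfl⟩
      refine ⟨((Y.A n).r0 σ - 1) a b, ?_, hπ0 σ hσ a b⟩
      have h1 := sub_one_apply_map ((Y.A n).pr (Y.lev k) : (Y.A n).R →+* (Y.C n (Y.lev k)).T)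
        ((Y.A n).r0 σ) a b
      refine h1.trans ?_
      have h2 : ((Y.A n).r0 σ).map ((Y.A n).pr (Y.lev k) : (Y.A n).R →+* (Y.C n (Y.lev k)).T) =
        (Y.C n (Y.lev k)).r σ := (Y.A n).pr_r0_apply (Y.lev k) σ
      rw [h2]
    · exact ⟨0, map_zero _, map_zero _⟩
    · rintro x y _ _ ⟨a, rfl, ha⟩ ⟨b, rfl, hb⟩
      exact ⟨a + b, map_add _ _ _, by rw [map_add, ha, hb, add_zero]⟩
    · rintro c x _ ⟨a, rfl, ha⟩
      obtain ⟨c', rfl⟩ := Y.pr_surj n k c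
      exact ⟨c' * a, by rw [map_mul, smul_eq_mul], by rw [map_mul, ha, mul_zero]⟩
  obtain ⟨x, rfl, hx⟩ := hlift t ht
  exact ⟨x, hact, hx⟩

theorem augL_del (n : ℕ) (i : Fin g) :
    augL p g 𝒪 n (MonoidAlgebra.of 𝒪 (Del p g n) (del p g n i)) = 1 :=
  MonoidAlgebra.lift_of _ _

/-- scalars in the image of the joint ring -/
theorem exists_scalar [NeZero p] (n : ℕ) (k : K) (a : Lam p g 𝒪 n) :
    ∃ x : (Y.A n).R, Y.ρ n k x = a • (1 : Matrix (Fin (Y.d k)) (Fin (Y.d k)) (Lam p g 𝒪 n)) ∧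
      Y.π n x = algebraMap 𝒪 Y.A₀.R (augL p g 𝒪 n a) := by
  classical
  have hmul : ∀ a b : Lam p g 𝒪 n, (∃ x : (Y.A n).R, Y.ρ n k x =
      a • (1 : Matrix (Fin (Y.d k)) (Fin (Y.d k)) (Lam p g 𝒪 n)) ∧
      Y.π n x = algebraMap 𝒪 Y.A₀.R (augL p g 𝒪 n a)) → (∃ x : (Y.A n).R, Y.ρ n k x =
      b • (1 : Matrix (Fin (Y.d k)) (Fin (Y.d k)) (Lam p g 𝒪 n)) ∧
      Y.π n x = algebraMap 𝒪 Y.A₀.R (augL p g 𝒪 n b)) → (∃ x : (Y.A n).R, Y.ρ n k x =
      (a * b) • (1 : Matrix (Fin (Y.d k)) (Fin (Y.d k)) (Lam p g 𝒪 n)) ∧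
      Y.π n x = algebraMap 𝒪 Y.A₀.R (augL p g 𝒪 n (a * b))) := by
    rintro a b ⟨x, hx, hx'⟩ ⟨y, hy, hy'⟩
    refine ⟨x * y, ?_, by rw [map_mul, map_mul, map_mul, hx', hy']⟩
    rw [map_mul, hx, hy, Matrix.smul_mul, one_mul, smul_smul]
  have hdel : ∀ i, ∃ x : (Y.A n).R, Y.ρ n k x =
      (MonoidAlgebra.of 𝒪 (Del p g n) (del p g n i)) •
        (1 : Matrix (Fin (Y.d k)) (Fin (Y.d k)) (Lam p g 𝒪 n)) ∧
      Y.π n x = algebraMap 𝒪 Y.A₀.R (augL p g 𝒪 n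
        (MonoidAlgebra.of 𝒪 (Del p g n) (del p g n i))) := by
    intro i
    obtain ⟨x, hx, hx'⟩ := Y.exists_delta n k i
    refine ⟨x + 1, ?_, ?_⟩
    · rw [map_add, hx, map_one, delm, sub_smul, one_smul, sub_add_cancel]
    · rw [map_add, hx', map_one, augL_del, map_one, zero_add]
  have hgrp : ∀ z : Del p g n, ∃ x : (Y.A n).R, Y.ρ n k x =
      (MonoidAlgebra.of 𝒪 (Del p g n) z) •
        (1 : Matrix (Fin (Y.d k)) (Fin (Y.d k)) (Lam p g 𝒪 n)) ∧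
      Y.π n x = algebraMap 𝒪 Y.A₀.R (augL p g 𝒪 n (MonoidAlgebra.of 𝒪 (Del p g n) z)) := by
    intro z
    refine Submonoid.closure_induction (fun z hz => ?_) ?_ (fun x y _ _ hx hy => ?_)
      (del_closure n z)
    · obtain ⟨i, rfl⟩ := hz
      exact hdel i
    · refine ⟨1, ?_, ?_⟩
      · rw [map_one, map_one, one_smul]
      · rw [map_one, map_one, map_one, map_one]
    · rw [map_mul]
      exact hmul _ _ hx hy
  induction a using MonoidAlgebra.induction_on with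
  | of z => exact hgrp z
  | add a b ha hb =>
    obtain ⟨x, hx, hx'⟩ := ha
    obtain ⟨y, hy, hy'⟩ := hb
    refine ⟨x + y, ?_, ?_⟩
    · rw [map_add, hx, hy, add_smul]
    · rw [map_add, map_add, map_add, hx', hy']
  | smul o a ha =>
    obtain ⟨x, hx, hx'⟩ := ha
    refine ⟨o • x, ?_, ?_⟩
    · rw [map_smul, hx, smul_assoc]
    · rw [map_smul, map_smul, hx', Algebra.smul_def, smul_eq_mul, map_mul]

end Sys

end Fermat.Agent.RT8
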