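import Fermat.Agent.RT8.MainAB

/-!
# Descending the support; a prime with two possible types
-/

set_option autoImplicit false
set_option linter.unusedSectionVars false
set_option linter.unusedVariables false

namespace Fermat.Agent.RT8

open IsLocalRing Filter Fermat.Agent.RT1 Fermat.Agent.LocRing Fermat.Agent.DefRing Fermat.Agent.RT8J

section step

variable {p g : ℕ} {𝒪 : Type} [CommRing 𝒪] [IsDomain 𝒪] [IsDiscreteValuationRing 𝒪]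
  [IsAdicComplete (maximalIdeal 𝒪) 𝒪] [Finite (ResidueField 𝒪)] (hp : p.Prime)
  (hp𝒪 : (p : 𝒪) ∈ maximalIdeal 𝒪) {τ : Type} [Finite τ]
  {RR : Type} [CommRing RR] [IsLocalRing RR] [IsNoetherianRing RR]
  [IsAdicComplete (maximalIdeal RR) RR] [Finite (ResidueField RR)]
  {R : ℕ → Type} [∀ n, CommRing (R n)]
  (Θ : ∀ n, RR →+* MvPowerSeries τ (R n))

/-- elements mapping the big level into the old part -/
theorem kerInf_descend {m m' : Type} [Fintype m] [DecidableEq m] [Fintype m']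
    [DecidableEq m']
    (ρ : ∀ n, R n →+* Matrix m m (Lam p g 𝒪 n)) (ρ' : ∀ n, R n →+* Matrix m' m' (Lam p g 𝒪 n))
    (ι : ∀ n, Matrix m (m' ⊕ m') (Lam p g 𝒪 n))
    (hι : ∀ n r, ι n * Matrix.fromBlocks (ρ' n r) 0 0 (ρ' n r) = ρ n r * ι n)
    (r₀ : RR) (r₁ : ∀ n, R n) (hr₁ : ∀ n, Θ n r₀ = MvPowerSeries.C (r₁ n))
    (hr₀ : ∀ n, ∃ Y : Matrix (m' ⊕ m') m (Lam p g 𝒪 n), ρ n (r₁ n) = ι n * Y)
    (r : RR) (hr : r ∈ kerInf hp hp𝒪 Θ ρ') : r * r₀ ∈ kerInf hp hp𝒪 Θ ρ := by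
  set L := LB hp hp𝒪 τ g with hL
  choose Y hY using hr₀
  have h0 : L.mat (fun n => rhoB Θ ρ' n r) = 0 := hr
  have hblk : L.mat (fun n => Matrix.fromBlocks (rhoB Θ ρ' n r) 0 0 (rhoB Θ ρ' n r)) = 0 := by
    refine Matrix.ext fun i j => ?_
    rcases i with i | i <;> rcases j with j | j
    · exact congrFun (congrFun h0 i) j
    · exact map_zero L.psi
    · exact map_zero L.psi
    · exact congrFun (congrFun h0 i) j
  show L.rho (rhoB Θ ρ) (r * r₀) = 0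
  rw [L.rho_apply]
  have h1 : ∀ n, rhoB Θ ρ n (r * r₀) =
      ((ι n).map (MvPowerSeries.C : Lam p g 𝒪 n →+* MvPowerSeries τ (Lam p g 𝒪 n)) *
        Matrix.fromBlocks (rhoB Θ ρ' n r) 0 0 (rhoB Θ ρ' n r)) *
      (Y n).map (MvPowerSeries.C : Lam p g 𝒪 n →+* MvPowerSeries τ (Lam p g 𝒪 n)) := by
    intro n
    rw [rhoB_intertwine Θ ρ ρ' n (ι n) (hι n) r, Matrix.mul_assoc, ← Matrix.map_mul, ← hY n,
      map_mul, ← rhoB_of_C Θ ρ n r₀ _ (hr₁ n)]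
  simp only [h1]
  rw [L.mat_mul (fun n => (ι n).map (MvPowerSeries.C : Lam p g 𝒪 n →+*
    MvPowerSeries τ (Lam p g 𝒪 n)) * Matrix.fromBlocks (rhoB Θ ρ' n r) 0 0 (rhoB Θ ρ' n r)),
    L.mat_mul, hblk, Matrix.mul_zero, Matrix.zero_mul]

end step

section Main

variable {p g : ℕ} {𝒪 : Type} [CommRing 𝒪] [IsDomain 𝒪] [IsDiscreteValuationRing 𝒪]
  [IsAdicComplete (maximalIdeal 𝒪) 𝒪] [Finite (ResidueField 𝒪)]
  {τ : Type} [Finite τ]
  {RR : Type} [CommRing RR] [IsLocalRing RR] [IsNoetherianRing RR]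
  [IsAdicComplete (maximalIdeal RR) RR] [Finite (ResidueField RR)]
  {R : ℕ → Type} [∀ n, CommRing (R n)]
  {Λ γ : Type} [Fintype Λ] [Fintype γ] [DecidableEq Λ] {q : Λ → 𝒪}
  {F₀ N₀ : Λ → Matrix (Fin 2) (Fin 2) 𝒪} (U : FPkg γ F₀ N₀) {𝔅 : Type}
  {θ : 𝔅 → RR →+* U.R} {qq : Λ → RR} {FF NN : Λ → Matrix (Fin 2) (Fin 2) RR}
  (hC : Cmp U θ qq FF NN g τ q)
  (hp : p.Prime) (hp𝒪 : (p : 𝒪) ∈ maximalIdeal 𝒪)
  {Θ : ∀ n, RR →+* MvPowerSeries τ (R n)}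
  (D : FData Θ qq FF NN)
  {m m' : Type} [Fintype m] [DecidableEq m] [Fintype m'] [DecidableEq m']
  {ρ : ∀ n, R n →+* Matrix m m (Lam p g 𝒪 n)} {ρ' : ∀ n, R n →+* Matrix m' m' (Lam p g 𝒪 n)}

include hC

/-- **Descending the support** along the unramified type. -/
theorem supp_descend (l : Λ) (b : 𝔅) (c : CompIdx q F₀ N₀) (hcl : c.1 l = .unr)
    (hsupp : Supp U (θ := θ) hp hp𝒪 (Θ := Θ) ρ b c)
    (ι : ∀ n, Matrix m (m' ⊕ m') (Lam p g 𝒪 n))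
    (hι : ∀ n r, ι n * Matrix.fromBlocks (ρ' n r) 0 0 (ρ' n r) = ρ n r * ι n)
    (hY : ∀ n, ∃ Y : Matrix (m' ⊕ m') m (Lam p g 𝒪 n),
      ρ n ((D.F n l).trace ^ 2 - (D.q n l + 1) ^ 2) = ι n * Y) :
    Supp U (θ := θ) hp hp𝒪 (Θ := Θ) ρ' b c := by
  intro r hr
  have h1 := kerInf_descend hp hp𝒪 Θ ρ ρ' ι hι ((FF l).trace ^ 2 - (qq l + 1) ^ 2)
    (fun n => (D.F n l).trace ^ 2 - (D.q n l + 1) ^ 2) (fun n => by
      rw [map_sub, map_pow, map_pow, D.Θtr, map_add, map_one, D.Θq]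
      simp only [map_sub, map_pow, map_add, map_one]) hY r hr
  have h2 := hsupp h1
  have hprime : ((U.qI q c.1).comap (θ b)).IsPrime := by
    have := (U.component hC.hq c.1 c.2.2).1
    exact Ideal.comap_isPrime _ _
  rcases hprime.mem_or_mem h2 with h | h
  · exact h
  · exact absurd (hC.mem_comap_tr' U b _ l h) (U.trace_notMem hC.hq c.1 c.2.2 l hcl)

section all

variable {m : Finset Λ → Type} [∀ S, Fintype (m S)] [∀ S, DecidableEq (m S)]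
  {ρ : ∀ S n, R n →+* Matrix (m S) (m S) (Lam p g 𝒪 n)}

/-- All compatible components are in the support, version with prescribed types in `S₀`. -/
theorem all_supported' (S₀ : Finset Λ) (b : 𝔅)
    (hlev : IsLevel D (ρ S₀) (S₀ : Set Λ)) (c₀ : CompIdx q F₀ N₀)
    (hc₀ : Supp U (θ := θ) hp hp𝒪 (Θ := Θ) (ρ S₀) b c₀)
    (hmono : ∀ S, S₀ ⊆ S → ∀ l ∉ S,
      kerInf hp hp𝒪 Θ (ρ (insert l S)) ≤ kerInf hp hp𝒪 Θ (ρ S))
    (hraise : ∀ S, S₀ ⊆ S → ∀ l ∉ S, ∀ c c₁ : CompIdx q F₀ N₀, (c.1 l = .stp ∨ c.1 l = .stm) →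
      c₁.1 = Function.update c.1 l .unr → Supp U (θ := θ) hp hp𝒪 (Θ := Θ) (ρ S) b c₁ →
      Supp U (θ := θ) hp hp𝒪 (Θ := Θ) (ρ (insert l S)) b c)
    (S : Finset Λ) (hS : S₀ ⊆ S) (c : CompIdx q F₀ N₀) (hc : ∀ l ∉ S, c.1 l = .unr)
    (hcS₀ : ∀ l ∈ S₀, (N₀ l).map (residue 𝒪) ≠ 0 ∨ c.1 l = c₀.1 l) :
    Supp U (θ := θ) hp hp𝒪 (Θ := Θ) (ρ S) b c := by
  have hc₀unr : ∀ l ∉ S₀, c₀.1 l = .unr := fun l hl =>
    hlev.unr_of_supp U hC hp hp𝒪 D hc₀ (by simpa using hl)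
  obtain ⟨T, rfl⟩ : ∃ T, S = T ∪ S₀ := ⟨S, (Finset.union_eq_left.mpr hS).symm⟩
  clear hS
  induction T using Finset.induction_on generalizing c with
  | empty =>
    rw [Finset.empty_union] at hc ⊢
    have : c = c₀ := by
      apply Subtype.ext
      funext l
      by_cases hl : l ∈ S₀
      · rcases hcS₀ l hl with h | h
        · exact resHolds_eq_of_N U hC (c.2.1 l) (c₀.2.1 l) (c.2.2 l) (c₀.2.2 l) h
        · exact h
      · rw [hc l hl, hc₀unr l hl]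
    rw [this]
    exact hc₀
  | insert l T hl ih =>
    by_cases hlS : l ∈ T ∪ S₀
    · have e : insert l T ∪ S₀ = T ∪ S₀ := by
        rw [Finset.insert_union, Finset.insert_eq_of_mem hlS]
      rw [e] at hc ⊢
      exact ih c hcS₀ hc
    · rw [Finset.insert_union] at hc ⊢
      have hsub : S₀ ⊆ T ∪ S₀ := Finset.subset_union_right
      have hlS₀ : l ∉ S₀ := fun h => hlS (hsub h)
      rcases c.2.1 l with h | h
      · refine le_trans (hmono _ hsub l hlS) (ih c hcS₀ fun l' hl' => ?_)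
        by_cases hll : l' = l
        · rw [hll, h]
        · exact hc l' (by rw [Finset.mem_insert]; tauto)
      · let c₁ : CompIdx q F₀ N₀ := ⟨Function.update c.1 l .unr, fun l' => by
          by_cases hll : l' = l
          · rw [hll, Function.update_self]; exact Or.inl rfl
          · rw [Function.update_of_ne hll]; exact c.2.1 l', fun l' => by
          by_cases hll : l' = l
          · rw [hll, Function.update_self]
            have := c₀.2.2 l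
            rwa [hc₀unr l hlS₀] at this
          · rw [Function.update_of_ne hll]; exact c.2.2 l'⟩
        refine hraise _ hsub l hlS c c₁ h rfl (ih c₁ (fun l' hl' => ?_) fun l' hl' => ?_)
        · have hll : l' ≠ l := fun h => hlS₀ (h ▸ hl')
          show _ ∨ Function.update c.1 l .unr l' = _
          rw [Function.update_of_ne hll]
          exact hcS₀ l' hl'
        · show Function.update c.1 l .unr l' = .unr
          by_cases hll : l' = l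
          · rw [hll, Function.update_self]
          · rw [Function.update_of_ne hll]
            exact hc l' (by rw [Finset.mem_insert]; tauto)

end all

section point

variable (hΘ : ∀ n, Function.Surjective (Θ n))

include hΘ

/-- **Modularity of points**, version for a point which is ramified at some primes. -/
theorem point_modular'
    {R₀ : Type} [CommRing R₀] [IsLocalRing R₀] [IsNoetherianRing R₀]
    [IsAdicComplete (maximalIdeal R₀) R₀] [Finite (ResidueField R₀)] (alg₀ : 𝒪 →+* R₀)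
    (π : ∀ n, R n →+* R₀) (hπ : ∀ n, Function.Surjective (π n))
    (hsc : ∀ n (a : Lam p g 𝒪 n), ∃ r : R n, ρ n r = a • (1 : Matrix m m (Lam p g 𝒪 n)) ∧
      π n r = alg₀ (augL p g 𝒪 n a))
    (ρ₀ : R₀ →+* Matrix m m 𝒪) (hρ : ∀ n r, (ρ n r).map (augL p g 𝒪 n) = ρ₀ (π n r))
    (q' : Λ → R₀) (F' N' : Λ → Matrix (Fin 2) (Fin 2) R₀)
    (hq' : ∀ n l, π n (D.q n l) = q' l) (hF' : ∀ n l, (D.F n l).map (π n) = F' l)
    (hN' : ∀ n l, (D.N n l).map (π n) = N' l)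
    {A : Type*} [CommRing A] [IsDomain A] (x : R₀ →+* A) (b : 𝔅)
    (hxb : ∀ n r, θ b r = 0 → x (π n (MvPowerSeries.constantCoeff (Θ n r))) = 0)
    (hxu : ∀ l, IsUni (x (q' l)) ((F' l).map x) ((N' l).map x))
    (S : Set Λ) (hxS : ∀ l ∉ S, (N' l).map x = 0)
    (hsupp : ∀ c : CompIdx q F₀ N₀, (∀ l ∉ S, c.1 l = .unr) →
      (∀ l, (N' l).map x ≠ 0 → c.1 l ≠ .unr) →
      Supp U (θ := θ) hp hp𝒪 (Θ := Θ) ρ b c)
    (t : R₀) (ht : ρ₀ t = 0) : x t = 0 := by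
  -- the points of `U.R`
  have key : ∀ n, ∃ f : U.R →+* A, ∀ r, f (θ b r) =
      x (π n (MvPowerSeries.constantCoeff (Θ n r))) := by
    intro n
    let xn : RR →+* A := x.comp ((π n).comp
      ((MvPowerSeries.constantCoeff (σ := τ) (R := R n)).comp (Θ n)))
    have h1 : RingHom.ker (θ b) ≤ RingHom.ker xn := fun r hr => hxb n r hr
    exact ⟨(θ b).liftOfSurjective (hC.θs b) ⟨xn, h1⟩, fun r =>
      RingHom.liftOfRightInverse_comp_apply _ _ _ ⟨xn, h1⟩ r⟩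
  choose f hf using key
  have hfq : ∀ n l, f n (U.ι (q l)) = x (q' l) := by
    intro n l
    rw [← hC.θq b l, hf, D.Θq, MvPowerSeries.constantCoeff_C, hq']
  have hfF : ∀ n l, (U.F l).map (f n) = (F' l).map x := by
    intro n l
    rw [← hC.θF b l, ← hF' n l, ← D.cc_F n l]
    refine Matrix.ext fun i j => ?_
    simp only [Matrix.map_apply]
    exact hf n _
  have hfN : ∀ n l, (U.N l).map (f n) = (N' l).map x := by
    intro n l
    rw [← hC.θN b l, ← hN' n l, ← D.cc_N n l]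
    refine Matrix.ext fun i j => ?_
    simp only [Matrix.map_apply]
    exact hf n _
  have hprime : (RingHom.ker (f 0)).IsPrime := RingHom.ker_isPrime _
  obtain ⟨c, hc1, hc2, hc3, -, hc5⟩ := U.exists_qI_le hC.hq (RingHom.ker (f 0)) hprime
    (fun l => by
      have h1 : IsUni (f 0 (U.ι (q l))) ((U.F l).map (f 0)) ((U.N l).map (f 0)) := by
        rw [hfq, hfF, hfN]
        exact hxu l
      exact (isUni_map_iff (f 0)).mp h1) ∅ (by simp)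
  have hcS : ∀ l ∉ S, c l = .unr := by
    intro l hl
    refine hc5 l (by simp) fun i j => ?_
    have h1 := hfN 0 l
    rw [hxS l hl] at h1
    exact congrFun (congrFun h1 i) j
  have hcN : ∀ l, (N' l).map x ≠ 0 → c l ≠ .unr := by
    intro l hl hcl
    apply hl
    have h1 := (U.qI_le_ker_iff (f 0) c).mp hc3 l
    rw [hcl] at h1
    have h2 : (U.N l).map (f 0) = 0 := IsUnr.N0 h1
    rw [← hfN 0 l, h2]
  have hs := hsupp ⟨c, hc1, hc2⟩ hcS hcN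
  refine RT8.point_step hp hp𝒪 Θ ρ alg₀ π hπ hΘ hsc ρ₀ hρ x ((U.qI q c).comap (θ b)) hs ?_ t ht
  intro n r hr
  rw [← hf]
  have h1 : U.qI q c ≤ RingHom.ker (f n) := by
    rw [U.qI_le_ker_iff]
    intro l
    rw [hfq, hfF, hfN, ← hfq 0, ← hfF 0, ← hfN 0]
    exact (U.qI_le_ker_iff (f 0) c).mp hc3 l
  exact h1 hr

end point

end Main

section frm

variable {𝒪 : Type} [CommRing 𝒪] [IsDomain 𝒪] [IsDiscreteValuationRing 𝒪]
  [IsAdicComplete (maximalIdeal 𝒪) 𝒪] [Finite (ResidueField 𝒪)]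
  {rbar : GQ →* M2 (ResidueField 𝒪)}
  {sd : SliceData rbar} {p g : ℕ} {Λ J K : Type} [Fintype Λ] [DecidableEq Λ]
  {Y : Sys sd p g Λ J K} {Υ : Type} [Finite Υ] {g' : ℕ} (Z : Frm Y Υ g')
  (hp : p.Prime) (hp𝒪 : (p : 𝒪) ∈ maximalIdeal 𝒪)
  {γ : Type} [Fintype γ] {U : FPkg γ Z.F₀ Z.N₀} {𝔅 : Type} [Finite 𝔅] {θ : 𝔅 → Z.V.R →+* U.R}
  (hC : Cmp U θ (fun l => Z.V.ι (Y.q l)) Z.V.F Z.V.N g (Λ × Fin 3) Y.q)

include hC

/-- descending the support -/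
theorem Frm.descend (k k' : K) (l : Λ) (W : DegPrime Y k k' l) (b : 𝔅)
    (c : CompIdx Y.q Z.F₀ Z.N₀) (hcl : c.1 l = .unr) (h : Z.Sup hp hp𝒪 U θ k b c) :
    Z.Sup hp hp𝒪 U θ k' b c :=
  supp_descend U hC hp hp𝒪 Z.D (ρ := Y.rh k) (ρ' := Y.rh k') l b c hcl h W.ι W.hι W.new

/-- compatibility of types with the residual representation: the sign is determined -/
theorem sign_unique {l : Λ} (hu : IsUnit (Y.q l + 1)) (c c' : CompIdx Y.q Z.F₀ Z.N₀)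
    (hc : c.1 l ≠ .unr) (hc' : c'.1 l ≠ .unr) : c.1 l = c'.1 l := by
  have h2 : (2 : ResidueField 𝒪) ≠ 0 := by
    have h3 := hC.h2.map (residue 𝒪)
    rw [map_ofNat] at h3
    exact h3.ne_zero
  have key : ∀ {A : Type} [Field A] {q : A} {F N : Matrix (Fin 2) (Fin 2) A}, (2 : A) ≠ 0 →
      q + 1 ≠ 0 → IsSt q F N → IsSt q (-F) N → False := by
    intro A _ q F N h2 hq ha hb
    have e1 := ha.trF
    have e2 := hb.trF
    rw [Matrix.trace_neg, e1] at e2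
    have e3 : 2 * (q + 1) = 0 := by linear_combination -e2
    rcases mul_eq_zero.mp e3 with h | h
    · exact h2 h
    · exact hq h
  have hq : residue 𝒪 (Y.q l) + 1 ≠ 0 := by
    have h3 := hu.map (residue 𝒪)
    rw [map_add, map_one] at h3
    exact h3.ne_zero
  have h1 := c.2.2 l
  have h1' := c'.2.2 l
  rcases c.2.1 l with h | h | h <;> rcases c'.2.1 l with h' | h' | h' <;>
    first
    | exact absurd h hc
    | exact absurd h' hc'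
    | (rw [h, h']; done)
    | (exfalso
       rw [h] at h1
       rw [h'] at h1'
       first
       | exact key h2 hq h1 h1'
       | exact key h2 hq h1' h1)

/-- all components compatible with a supported one -/
theorem Frm.all_sup' [NeZero p] (κ : Finset Λ → K) (S₀ : Finset Λ)
    (hram : ∀ S, S₀ ⊆ S → Y.ram (κ S) = S) (b : 𝔅) (B : Set 𝔅)
    (hB : ∀ S, S₀ ⊆ S → Z.PP hp hp𝒪 U θ (κ S) B)
    (c₀ : CompIdx Y.q Z.F₀ Z.N₀) (hbase : Z.Sup hp hp𝒪 U θ (κ S₀) b c₀)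
    (W : ∀ S, S₀ ⊆ S → ∀ l ∉ S, DegPrime Y (κ (insert l S)) (κ S) l)
    (S : Finset Λ) (hS : S₀ ⊆ S) (c : CompIdx Y.q Z.F₀ Z.N₀) (hc : ∀ l ∉ S, c.1 l = .unr)
    (hcS₀ : ∀ l ∈ S₀, (Z.N₀ l).map (residue 𝒪) ≠ 0 ∨ c.1 l = c₀.1 l) :
    Z.Sup hp hp𝒪 U θ (κ S) b c := by
  have hlev : IsLevel Z.D (Y.rh (κ S₀)) (S₀ : Set Λ) := by
    have h := Z.isLevel (κ S₀)
    rwa [hram S₀ (Finset.Subset.refl _)] at h
  refine RT8.all_supported' U hC hp hp𝒪 Z.D (m := fun S => Fin (Y.d (κ S)))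
    (ρ := fun S => Y.rh (κ S)) S₀ b hlev c₀ hbase ?_ ?_ S hS c hc hcS₀
  · intro S hS l hl
    exact kerInf_le_of_injective hp hp𝒪 Z.th (Y.rh _) (Y.rh _) (W S hS l hl).ι (W S hS l hl).hι
      (W S hS l hl).inj
  · intro S hS l hl c c₁ h1 h2 h3
    exact Z.raise hp hp𝒪 hC _ _ (hB _ (hS.trans (Finset.subset_insert _ _))) l (W S hS l hl)
      b c c₁ h1 h2 h3

/-- **Points are modular**, version for points ramified at some primes. -/
theorem Frm.point' [NeZero p] (k : K) (j : J) [IsDomain (Y.C₀ j).T] (b : 𝔅)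
    (hxb : ∀ n (r : Z.V.R), θ b r = 0 →
      Y.A₀.pr j (Y.π n (MvPowerSeries.constantCoeff (Z.th n r))) = 0)
    (hS : ∀ l ∉ Y.ram k, (Y.C₀ j).r (Y.τ l) = 1)
    (hsupp : ∀ c : CompIdx Y.q Z.F₀ Z.N₀, (∀ l ∉ Y.ram k, c.1 l = .unr) →
      (∀ l, (Y.C₀ j).r (Y.τ l) ≠ 1 → c.1 l ≠ .unr) → Z.Sup hp hp𝒪 U θ k b c)
    (t : Y.A₀.R) (ht : Y.ρ₀ k t = 0) : Y.A₀.pr j t = 0 := by
  have i1 : Finite (ResidueField Y.A₀.R) := by
    refine Finite.of_surjective (fun x : ResidueField 𝒪 => ResidueField.map (algebraMap 𝒪 Y.A₀.R) x)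
      fun y => ?_
    obtain ⟨o, ho⟩ := Y.A₀.surj y
    exact ⟨residue 𝒪 o, by rw [← ho]; exact ResidueField.map_residue _ _⟩
  have hN : ∀ l, (Y.A₀.r0 (Y.τ l) - 1).map (Y.A₀.pr j : Y.A₀.R →+* (Y.C₀ j).T) =
      (Y.C₀ j).r (Y.τ l) - 1 := fun l => by
    have e2 : (Y.A₀.r0 (Y.τ l)).map (Y.A₀.pr j : Y.A₀.R →+* (Y.C₀ j).T) =
        (Y.C₀ j).r (Y.τ l) := Y.A₀.pr_r0_apply j _
    rw [Sys.map_sub_one', e2]
  refine RT8.point_modular' U hC hp hp𝒪 Z.D (ρ := Y.rh k) Z.th_surj (algebraMap 𝒪 Y.A₀.R)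
    (fun n => (Y.π n : (Y.A n).R →+* Y.A₀.R)) (fun n => Y.π_surj n)
    (fun n a => Y.exists_scalar n k a)
    (Y.ρ₀ k : Y.A₀.R →+* Matrix (Fin (Y.d k)) (Fin (Y.d k)) 𝒪) (fun n x => Y.ρ_aug n k x)
    (fun l => (Y.ℓ l : Y.A₀.R)) (fun l => Y.A₀.r0 (Y.φ l)) (fun l => Y.A₀.r0 (Y.τ l) - 1)
    (fun n l => map_natCast _ _) (fun n l => ?_) (fun n l => ?_)
    (Y.A₀.pr j : Y.A₀.R →+* (Y.C₀ j).T) b hxb (fun l => ?_) (Y.ram k : Set Λ) (fun l hl => ?_)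
    (fun c hc hcN => hsupp c (fun l hl => hc l (by simpa using hl)) fun l hl => hcN l ?_) t ht
  · rw [Z.D_F, ← Y.π_r n]; rfl
  · rw [Z.D_N, Sys.map_sub_one', ← Y.π_r n]; rfl
  · have e1 : (Y.A₀.r0 (Y.φ l)).map (Y.A₀.pr j : Y.A₀.R →+* (Y.C₀ j).T) =
        (Y.C₀ j).r (Y.φ l) := Y.A₀.pr_r0_apply j _
    rw [map_natCast, e1, hN]
    exact Y.uni₀ j l
  · rw [hN, hS l (by simpa using hl), sub_self]
  · rw [hN, sub_ne_zero]
    exact hl

end frm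

section main

variable {𝒪 : Type} [CommRing 𝒪] [IsDomain 𝒪] [IsDiscreteValuationRing 𝒪]
  [IsAdicComplete (maximalIdeal 𝒪) 𝒪] [Finite (ResidueField 𝒪)]
  {rbar : GQ →* M2 (ResidueField 𝒪)}
  {sd : SliceData rbar} {p g : ℕ} {Λ J K : Type} [Fintype Λ] [DecidableEq Λ]
  {Y : Sys sd p g Λ J K}

/-- the input at the prime `l₂` (the prime `2` in the application): either the residual
representation is ramified there or the sign is determined and either there is a level without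
`l₂` or all forms are new at `l₂`. -/
def TwoInput (Y : Sys sd p g Λ J K) (k : K) (l₂ : Λ) : Prop :=
  rbar (Y.τ l₂) ≠ 1 ∨ (IsUnit (Y.q l₂ + 1) ∧ ((∃ k₂, Nonempty (DegPrime Y k k₂ l₂)) ∨
    ∀ n, ((Y.C n (Y.lev k)).r (Y.φ l₂)).trace ^ 2 =
      (((Y.ℓ l₂ : ℕ) : (Y.C n (Y.lev k)).T) + 1) ^ 2))

variable {Υ : Type} [Finite Υ] {g' : ℕ} (Z : Frm Y Υ g')
  (hp : p.Prime) (hp𝒪 : (p : 𝒪) ∈ maximalIdeal 𝒪)
  {γ : Type} [Fintype γ] {U : FPkg γ Z.F₀ Z.N₀} {𝔅 : Type} [Finite 𝔅] {θ : 𝔅 → Z.V.R →+* U.R}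
  (hC : Cmp U θ (fun l => Z.V.ι (Y.q l)) Z.V.F Z.V.N g (Λ × Fin 3) Y.q)

include hC in
/-- a supported component is not unramified at a prime at which all forms are new -/
theorem Frm.not_unr_of_new (k : K) (l : Λ)
    (hnew : ∀ n, ((Y.C n (Y.lev k)).r (Y.φ l)).trace ^ 2 =
      (((Y.ℓ l : ℕ) : (Y.C n (Y.lev k)).T) + 1) ^ 2)
    (b : 𝔅) (c : CompIdx Y.q Z.F₀ Z.N₀) (h : Z.Sup hp hp𝒪 U θ k b c) : c.1 l ≠ .unr := by
  intro hcl
  have h1 : (Z.V.F l).trace ^ 2 - (Z.V.ι (Y.q l) + 1) ^ 2 ∈ kerInf hp hp𝒪 Z.th (Y.rh k) := by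
    refine mem_kerInf hp hp𝒪 fun n => ?_
    refine rhoB_zero_of_C (a := ((Z.D.F n l).trace ^ 2 - (Z.D.q n l + 1) ^ 2)) ?_ ?_
    · rw [map_sub, map_pow, map_pow, Z.D.Θtr, map_add, map_one, Z.D.Θq]
      simp only [map_sub, map_pow, map_add, map_one]
    · refine Sys.rh_eq_zero ?_
      rw [Z.D_F, Z.D_q, map_sub, map_pow, map_pow, map_add, map_one, map_natCast, ← trace_map',
        Y.prR_r0, hnew n, sub_self]
  have h2 := h h1
  exact hC.mem_comap_tr' U b _ l h2 |> (U.trace_notMem hC.hq c.1 c.2.2 l hcl)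

include hC in
/-- the modularity argument, given the support at the base level -/
theorem Frm.main [NeZero p] (κ : Finset Λ → K) (S₀ : Finset Λ) (l₂ : Λ) (hl₂ : l₂ ∈ S₀)
    (hram : ∀ S, S₀ ⊆ S → Y.ram (κ S) = S) (b : 𝔅) (B : Set 𝔅)
    (hB : ∀ S, S₀ ⊆ S → Z.PP hp hp𝒪 U θ (κ S) B)
    (hlow : ∀ l ∈ S₀, l ≠ l₂ → (Z.N₀ l).map (residue 𝒪) ≠ 0)
    (h2 : TwoInput Y (κ S₀) l₂) (hbase : ∃ c, Z.Sup hp hp𝒪 U θ (κ S₀) b c)
    (W : ∀ S, S₀ ⊆ S → ∀ l ∉ S, DegPrime Y (κ (insert l S)) (κ S) l)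
    (S : Finset Λ) (j : J) [IsDomain (Y.C₀ j).T] (hjS : ∀ l ∉ S, (Y.C₀ j).r (Y.τ l) = 1)
    (hj2 : (Y.C₀ j).r (Y.τ l₂) ≠ 1)
    (hxb : ∀ n (r : Z.V.R), θ b r = 0 →
      Y.A₀.pr j (Y.π n (MvPowerSeries.constantCoeff (Z.th n r))) = 0)
    (hinj : Function.Injective (Y.act₀ (κ S))) :
    S₀ ⊆ S ∧ ∃ f : (Y.C₀ (Y.lev (κ S))).T →ₐ[𝒪] (Y.C₀ j).T,
      mapRep (f : (Y.C₀ (Y.lev (κ S))).T →+* (Y.C₀ j).T) (Y.C₀ (Y.lev (κ S))).r = (Y.C₀ j).r := by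
  have hSS : S₀ ⊆ S := by
    intro l hl
    by_contra hlS
    by_cases hl2 : l = l₂
    · exact hj2 (hl2 ▸ hjS l hlS)
    · exact ram_of_res Z l j (hlow l hl hl2) (hjS l hlS)
  refine ⟨hSS, Sys.exists_hom (κ S) j hinj fun t ht => ?_⟩
  refine Z.point' hp hp𝒪 hC (κ S) j b hxb ?_ ?_ t ht
  · rw [hram S hSS]; exact hjS
  · rw [hram S hSS]
    intro c hc hcN
    have hc2 : c.1 l₂ ≠ .unr := hcN l₂ hj2
    -- a supported component at the base level with the right type at `l₂`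
    obtain ⟨c₀, hc₀, hc₀2⟩ : ∃ c₀, Z.Sup hp hp𝒪 U θ (κ S₀) b c₀ ∧
        ((Z.N₀ l₂).map (residue 𝒪) ≠ 0 ∨ c.1 l₂ = c₀.1 l₂) := by
      obtain ⟨c₀, hc₀⟩ := hbase
      rcases h2 with h2 | ⟨hu, ⟨k₂, ⟨W₂⟩⟩ | hnew⟩
      · refine ⟨c₀, hc₀, Or.inl ?_⟩
        rw [Z.hN₀]
        exact sub_ne_zero.mpr h2
      · by_cases hc₀2 : c₀.1 l₂ = .unr
        · have h1 := Z.descend hp hp𝒪 hC _ _ l₂ W₂ b c₀ hc₀2 hc₀
          let c₁ : CompIdx Y.q Z.F₀ Z.N₀ := ⟨Function.update c₀.1 l₂ (c.1 l₂), fun l' => by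
            by_cases hll : l' = l₂
            · rw [hll, Function.update_self]; exact c.2.1 l₂
            · rw [Function.update_of_ne hll]; exact c₀.2.1 l', fun l' => by
            by_cases hll : l' = l₂
            · rw [hll, Function.update_self]; exact c.2.2 l₂
            · rw [Function.update_of_ne hll]; exact c₀.2.2 l'⟩
          have hc₁2 : c₁.1 l₂ = c.1 l₂ := Function.update_self _ _ _
          refine ⟨c₁, ?_, Or.inr hc₁2.symm⟩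
          refine Z.raise hp hp𝒪 hC _ _ (hB S₀ (Finset.Subset.refl _)) l₂ W₂ b c₁ c₀ ?_ ?_ h1
          · rw [hc₁2]
            rcases c.2.1 l₂ with h | h | h
            · exact absurd h hc2
            · exact Or.inl h
            · exact Or.inr h
          · funext l'
            show c₀.1 l' = Function.update (Function.update c₀.1 l₂ (c.1 l₂)) l₂ .unr l'
            by_cases hll : l' = l₂
            · rw [hll, Function.update_self, hc₀2]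
            · rw [Function.update_of_ne hll, Function.update_of_ne hll]
        · exact ⟨c₀, hc₀, Or.inr (sign_unique Z hC hu c c₀ hc2 hc₀2)⟩
      · refine ⟨c₀, hc₀, Or.inr (sign_unique Z hC hu c c₀ hc2 fun hc₀2 => ?_)⟩
        exact Z.not_unr_of_new hp hp𝒪 hC (κ S₀) l₂ hnew b c₀ hc₀ hc₀2
    refine Z.all_sup' hp hp𝒪 hC κ S₀ hram b B hB c₀ hc₀ W S hSS c hc fun l hl => ?_
    by_cases hl2 : l = l₂
    · rw [hl2]; exact hc₀2
    · exact Or.inl (hlow l hl hl2)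

end main

section AB

variable {𝒪 : Type} [CommRing 𝒪] [IsDomain 𝒪] [IsDiscreteValuationRing 𝒪]
  [IsAdicComplete (maximalIdeal 𝒪) 𝒪] [Finite (ResidueField 𝒪)]
  {rbar : GQ →* M2 (ResidueField 𝒪)}
  {sd : SliceData rbar} {p g : ℕ} {Λ J K : Type} [Fintype Λ] [DecidableEq Λ]
  {Y : Sys sd p g Λ J K} (hp : p.Prime) (hp𝒪 : (p : 𝒪) ∈ maximalIdeal 𝒪) (hN : NumC Y.q)

include hp hp𝒪 hN

/-- **Modularity, case (A)**, with the prime `l₂` always in the level. -/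
theorem Frm.modularA₂ {g' : ℕ} (Z : Frm Y Empty g') (hg : g' ≤ g)
    (κ : Finset Λ → K) (S₀ : Finset Λ) (l₂ : Λ) (hl₂ : l₂ ∈ S₀)
    (hram : ∀ S, S₀ ⊆ S → Y.ram (κ S) = S) (hd : 0 < Y.d (κ S₀))
    (hnew : ∀ l ∈ S₀, l ≠ l₂ → NewAt Y (κ S₀) l) (h2 : TwoInput Y (κ S₀) l₂)
    (W : ∀ S, S₀ ⊆ S → ∀ l ∉ S, DegPrime Y (κ (insert l S)) (κ S) l)
    (S : Finset Λ) (j : J) [IsDomain (Y.C₀ j).T] (hjS : ∀ l ∉ S, (Y.C₀ j).r (Y.τ l) = 1)
    (hj2 : (Y.C₀ j).r (Y.τ l₂) ≠ 1)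
    (hinj : Function.Injective (Y.act₀ (κ S))) :
    S₀ ⊆ S ∧ ∃ f : (Y.C₀ (Y.lev (κ S))).T →ₐ[𝒪] (Y.C₀ j).T,
      mapRep (f : (Y.C₀ (Y.lev (κ S))).T →+* (Y.C₀ j).T) (Y.C₀ (Y.lev (κ S))).r = (Y.C₀ j).r := by
  have i1 : NeZero p := ⟨hp.ne_zero⟩
  have hC := Z.cmpA hN hg
  obtain ⟨b, -, c₀, hc₀⟩ := Z.exists_sup hp hp𝒪 hC (κ S₀) hd (Z.ppA hp hp𝒪 _)
  refine Z.main hp hp𝒪 hC κ S₀ l₂ hl₂ hram () Set.univ (fun S _ => Z.ppA hp hp𝒪 _)
    (fun l hl hl2 => Z.lower hp hp𝒪 hC (κ S₀) hd (Z.ppA hp hp𝒪 _) l (hnew l hl hl2)) h2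
    ⟨c₀, hc₀⟩ W S j hjS hj2 (fun n r hr => ?_) hinj
  have h1 : r = 0 := hr
  rw [h1, map_zero, map_zero, map_zero, map_zero]

/-- **Modularity, case (B)**, with the prime `l₂` always in the level. -/
theorem Frm.modularB₂ {g' : ℕ} (Z : Frm Y Bool g') (hg : g' + 1 ≤ g)
    (huv : ∀ n, Z.s n false * Z.s n true = 0) (κ : Finset Λ → K) (S₀ : Finset Λ)
    (l₂ : Λ) (hl₂ : l₂ ∈ S₀)
    (hram : ∀ S, S₀ ⊆ S → Y.ram (κ S) = S) (hd : 0 < Y.d (κ S₀))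
    (hnew : ∀ l ∈ S₀, l ≠ l₂ → NewAt Y (κ S₀) l) (h2 : TwoInput Y (κ S₀) l₂)
    (W : ∀ S, S₀ ⊆ S → ∀ l ∉ S, DegPrime Y (κ (insert l S)) (κ S) l)
    (hin : PInput Z (κ S₀) S₀)
    (S : Finset Λ) (j : J) [IsDomain (Y.C₀ j).T] (hjS : ∀ l ∉ S, (Y.C₀ j).r (Y.τ l) = 1)
    (hj2 : (Y.C₀ j).r (Y.τ l₂) ≠ 1)
    (hju : ∀ n, Y.A₀.pr j (Y.π n (Z.s n false)) = 0)
    (hinj : Function.Injective (Y.act₀ (κ S))) :
    S₀ ⊆ S ∧ ∃ f : (Y.C₀ (Y.lev (κ S))).T →ₐ[𝒪] (Y.C₀ j).T,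
      mapRep (f : (Y.C₀ (Y.lev (κ S))).T →+* (Y.C₀ j).T) (Y.C₀ (Y.lev (κ S))).r = (Y.C₀ j).r := by
  have i1 : NeZero p := ⟨hp.ne_zero⟩
  obtain ⟨θ, hθ⟩ := exists_specB Z.V (fullPkg (Unit ⊕ Fin g') Z.F₀ Z.N₀)
  have hC := Z.cmpB hθ hN hg
  have hbase := Z.baseB hp hp𝒪 hN hg hθ huv (κ S₀) S₀ (hram S₀ (Finset.Subset.refl _)) hd hin
  refine Z.main hp hp𝒪 hC κ S₀ l₂ hl₂ hram false Set.univ (fun S _ => Z.ppB hp hp𝒪 hθ huv _)
    (fun l hl hl2 => Z.lower hp hp𝒪 hC (κ S₀) hd (Z.ppB hp hp𝒪 hθ huv _) l (hnew l hl hl2)) h2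
    hbase W S j hjS hj2 (fun n r hr => ?_) hinj
  have h1 : r ∈ RingHom.ker (θ false) := hr
  rw [(hθ.surj false).2, Ideal.mem_span_singleton] at h1
  obtain ⟨y, rfl⟩ := h1
  have h2 : Z.th n (Z.V.x (Sum.inl false)) = MvPowerSeries.C (Z.s n false) := Z.th_xu n false
  rw [map_mul, h2, map_mul, MvPowerSeries.constantCoeff_C, map_mul, map_mul, hju, zero_mul]

end AB

end Fermat.Agent.RT8
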