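import Fermat.Agent.RT8.Sys
import Mathlib.RingTheory.Henselian

/-!
# The character `θ` of inertia at a Taylor-Wiles prime, in coordinates
-/

set_option autoImplicit false
set_option linter.unusedSectionVars false
set_option linter.unusedVariables false

namespace Fermat.Agent.RT8

open IsLocalRing Fermat.Agent.RT1 Fermat.Agent.LocRing Fermat.Agent.DefRing Fermat.Agent.RT8J

section

variable {𝒪 : Type} [CommRing 𝒪] [IsLocalRing 𝒪]

/-- Taylor-Wiles data at one prime: a Frobenius `φ` with distinct residual eigenvalues, and an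
element `s` of inertia. -/
structure TWP (rbar : GQ →* M2 (ResidueField 𝒪)) where
  φ : GQ
  s : GQ
  a : 𝒪
  b : 𝒪
  tr : (rbar φ).trace = residue 𝒪 (a + b)
  det : (rbar φ).det = residue 𝒪 (a * b)
  ne : residue 𝒪 a ≠ residue 𝒪 b

variable {rbar : GQ →* M2 (ResidueField 𝒪)} (P : TWP rbar)
  {T : Type} [CommRing T] [Algebra 𝒪 T]

/-- eigenvalue of Frobenius near `a` -/
structure IsEig [IsLocalRing T] (r : GQ →* M2 T) (α : T) : Prop where
  root : α ^ 2 - (r P.φ).trace * α + (r P.φ).det = 0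
  red : α - algebraMap 𝒪 T P.a ∈ maximalIdeal T

theorem mem_of_residue_eq [IsLocalRing T] [IsLocalHom (algebraMap 𝒪 T)] {o o' : 𝒪}
    (h : residue 𝒪 o = residue 𝒪 o') :
    algebraMap 𝒪 T o - algebraMap 𝒪 T o' ∈ maximalIdeal T := by
  rw [← map_sub]
  have h1 : o - o' ∈ maximalIdeal 𝒪 := by
    rw [← residue_eq_zero_iff, map_sub, sub_eq_zero]; exact h
  rw [mem_maximalIdeal, mem_nonunits_iff] at h1 ⊢
  exact fun hu => h1 (isUnit_of_map_unit (algebraMap 𝒪 T) _ hu)

theorem trace_red [IsLocalRing T] [IsLocalHom (algebraMap 𝒪 T)] {r : GQ →* M2 T}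
    (hr : Red rbar r) (σ : GQ) {o : 𝒪} (ho : (rbar σ).trace = residue 𝒪 o) :
    (r σ).trace - algebraMap 𝒪 T o ∈ maximalIdeal T := by
  choose c hc using fun i j => residue_surjective (R := 𝒪) (rbar σ i j)
  have h1 : ∀ i j, r σ i j - algebraMap 𝒪 T (c i j) ∈ maximalIdeal T := fun i j =>
    hr σ i j _ (hc i j)
  have h2 : algebraMap 𝒪 T (c 0 0 + c 1 1) - algebraMap 𝒪 T o ∈ maximalIdeal T := by
    apply mem_of_residue_eq
    rw [map_add, hc, hc, ← ho, Matrix.trace_fin_two]
  have e : (r σ).trace - algebraMap 𝒪 T o = (r σ 0 0 - algebraMap 𝒪 T (c 0 0)) +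
      (r σ 1 1 - algebraMap 𝒪 T (c 1 1)) +
      (algebraMap 𝒪 T (c 0 0 + c 1 1) - algebraMap 𝒪 T o) := by
    rw [Matrix.trace_fin_two, map_add]; ring
  rw [e]
  exact Ideal.add_mem _ (Ideal.add_mem _ (h1 0 0) (h1 1 1)) h2

theorem det_red [IsLocalRing T] [IsLocalHom (algebraMap 𝒪 T)] {r : GQ →* M2 T}
    (hr : Red rbar r) (σ : GQ) {o : 𝒪} (ho : (rbar σ).det = residue 𝒪 o) :
    (r σ).det - algebraMap 𝒪 T o ∈ maximalIdeal T := by
  choose c hc using fun i j => residue_surjective (R := 𝒪) (rbar σ i j)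
  have h1 : ∀ i j, r σ i j - algebraMap 𝒪 T (c i j) ∈ maximalIdeal T := fun i j =>
    hr σ i j _ (hc i j)
  have h2 : algebraMap 𝒪 T (c 0 0 * c 1 1 - c 0 1 * c 1 0) - algebraMap 𝒪 T o ∈
      maximalIdeal T := by
    apply mem_of_residue_eq
    rw [map_sub, map_mul, map_mul, hc, hc, hc, hc, ← ho, Matrix.det_fin_two]
  have e : (r σ).det - algebraMap 𝒪 T o =
      (r σ 0 0 - algebraMap 𝒪 T (c 0 0)) * r σ 1 1 +
      algebraMap 𝒪 T (c 0 0) * (r σ 1 1 - algebraMap 𝒪 T (c 1 1)) -
      ((r σ 0 1 - algebraMap 𝒪 T (c 0 1)) * r σ 1 0 +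
      algebraMap 𝒪 T (c 0 1) * (r σ 1 0 - algebraMap 𝒪 T (c 1 0))) +
      (algebraMap 𝒪 T (c 0 0 * c 1 1 - c 0 1 * c 1 0) - algebraMap 𝒪 T o) := by
    rw [Matrix.det_fin_two, map_sub, map_mul, map_mul]; ring
  rw [e]
  exact Ideal.add_mem _ (Ideal.sub_mem _ (Ideal.add_mem _ (Ideal.mul_mem_right _ _ (h1 0 0))
    (Ideal.mul_mem_left _ _ (h1 1 1))) (Ideal.add_mem _ (Ideal.mul_mem_right _ _ (h1 0 1))
    (Ideal.mul_mem_left _ _ (h1 1 0)))) h2

theorem isUnit_sub [IsLocalRing T] [IsLocalHom (algebraMap 𝒪 T)] {x : T}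
    (hx : x - algebraMap 𝒪 T (P.a - P.b) ∈ maximalIdeal T) : IsUnit x := by
  by_contra hcon
  have h1 : x ∈ maximalIdeal T := hcon
  have h2 := Ideal.sub_mem _ h1 hx
  rw [sub_sub_cancel] at h2
  have h3 : IsUnit (P.a - P.b) := by
    rw [← residue_ne_zero_iff_isUnit, map_sub, sub_ne_zero]
    exact P.ne
  exact h2 (h3.map _)

variable [IsLocalRing T] [IsLocalHom (algebraMap 𝒪 T)]

theorem IsEig.isUnit {r : GQ →* M2 T} (hr : Red rbar r) {α : T} (h : IsEig P r α) :
    IsUnit (2 * α - (r P.φ).trace) := by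
  apply isUnit_sub P
  have h1 := trace_red hr P.φ P.tr
  have e : 2 * α - (r P.φ).trace - algebraMap 𝒪 T (P.a - P.b) =
      2 * (α - algebraMap 𝒪 T P.a) - ((r P.φ).trace - algebraMap 𝒪 T (P.a + P.b)) := by
    rw [map_sub, map_add]; ring
  rw [e]
  exact Ideal.sub_mem _ (Ideal.mul_mem_left _ _ h.red) h1

theorem IsEig.unique {r : GQ →* M2 T} (hr : Red rbar r) {α α' : T} (h : IsEig P r α)
    (h' : IsEig P r α') : α = α' := by
  have h1 := trace_red hr P.φ P.tr
  have hu : IsUnit (α + α' - (r P.φ).trace) := by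
    apply isUnit_sub P
    have e : α + α' - (r P.φ).trace - algebraMap 𝒪 T (P.a - P.b) =
        (α - algebraMap 𝒪 T P.a) + (α' - algebraMap 𝒪 T P.a) -
          ((r P.φ).trace - algebraMap 𝒪 T (P.a + P.b)) := by
      rw [map_sub, map_add]; ring
    rw [e]
    exact Ideal.sub_mem _ (Ideal.add_mem _ h.red h'.red) h1
  have h2 : (α + α' - (r P.φ).trace) * (α - α') = 0 := by
    linear_combination h.root - h'.root
  rw [← sub_eq_zero]
  exact hu.mul_right_eq_zero.mp h2

open Polynomial in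
theorem exists_isEig [IsAdicComplete (maximalIdeal T) T] {r : GQ →* M2 T} (hr : Red rbar r) :
    ∃ α, IsEig P r α := by
  have h1 := trace_red hr P.φ P.tr
  have h2 := det_red hr P.φ P.det
  set t := (r P.φ).trace with ht
  set d := (r P.φ).det with hd
  have hmon : (X ^ 2 - C t * X + C d : T[X]).Monic := by
    have e : (X ^ 2 - C t * X + C d : T[X]) = X ^ 2 + (C (-t) * X + C d) := by
      rw [map_neg]; ring
    rw [e]
    refine monic_X_pow_add ?_
    refine lt_of_le_of_lt (degree_linear_le) ?_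
    norm_num
  have hev : ∀ x : T, (X ^ 2 - C t * X + C d : T[X]).eval x = x ^ 2 - t * x + d := by
    intro x; simp
  have hder : ∀ x : T, (X ^ 2 - C t * X + C d : T[X]).derivative.eval x = 2 * x - t := by
    intro x; simp; ring
  obtain ⟨α, hα, hα'⟩ := HenselianRing.is_henselian (I := maximalIdeal T)
    (X ^ 2 - C t * X + C d : T[X]) hmon (algebraMap 𝒪 T P.a) (by
      rw [hev]
      have e : algebraMap 𝒪 T P.a ^ 2 - t * algebraMap 𝒪 T P.a + d =
        (d - algebraMap 𝒪 T (P.a * P.b)) -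
          (t - algebraMap 𝒪 T (P.a + P.b)) * algebraMap 𝒪 T P.a := by
        rw [map_mul, map_add]; ring
      rw [e]
      exact Ideal.sub_mem _ h2 (Ideal.mul_mem_right _ _ h1)) (by
      refine IsUnit.map _ ?_
      rw [hder]
      apply isUnit_sub P
      have e : 2 * algebraMap 𝒪 T P.a - t - algebraMap 𝒪 T (P.a - P.b) =
        -(t - algebraMap 𝒪 T (P.a + P.b)) := by rw [map_sub, map_add]; ring
      rw [e]
      exact neg_mem h1)
  refine ⟨α, ?_, hα'⟩
  rw [← hev]
  exact hα

open Classical in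
/-- the eigenvalue near `a` -/
noncomputable def eig (r : GQ →* M2 T) : T :=
  if h : ∃ α, IsEig P r α then h.choose else 0

theorem eig_spec [IsAdicComplete (maximalIdeal T) T] {r : GQ →* M2 T} (hr : Red rbar r) :
    IsEig P r (eig P r) := by
  rw [eig, dif_pos (exists_isEig P hr)]
  exact (exists_isEig P hr).choose_spec

/-- the character on inertia -/
noncomputable def theta (r : GQ →* M2 T) : T :=
  Ring.inverse (2 * eig P r - (r P.φ).trace) *
    ((r P.φ - ((r P.φ).trace - eig P r) • 1) * r P.s).trace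

variable [IsAdicComplete (maximalIdeal T) T]

theorem theta_mul {r : GQ →* M2 T} (hr : Red rbar r) :
    (2 * eig P r - (r P.φ).trace) * theta P r =
      ((r P.φ - ((r P.φ).trace - eig P r) • 1) * r P.s).trace := by
  rw [theta, ← mul_assoc, Ring.mul_inverse_cancel _ ((eig_spec P hr).isUnit P hr), one_mul]

theorem theta_eq {r : GQ →* M2 T} (hr : Red rbar r) {x : T}
    (hx : (2 * eig P r - (r P.φ).trace) * x =
      ((r P.φ - ((r P.φ).trace - eig P r) • 1) * r P.s).trace) : theta P r = x := by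
  rw [← theta_mul P hr] at hx
  exact (((eig_spec P hr).isUnit P hr).mul_right_injective hx).symm

theorem trace_proj (r : GQ →* M2 T) :
    (r P.φ - ((r P.φ).trace - eig P r) • (1 : M2 T)).trace = 2 * eig P r - (r P.φ).trace := by
  rw [Matrix.trace_sub, Matrix.trace_smul, Matrix.trace_one, Fintype.card_fin, smul_eq_mul]
  push_cast
  ring

/-- `θ - 1` lies in the ideal of the entries of `r(s) - 1`. -/
theorem theta_sub_one_mem {r : GQ →* M2 T} (hr : Red rbar r) :
    theta P r - 1 ∈ Ideal.span {x : T | ∃ a b, x = (r P.s - 1) a b} := by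
  have h1 : (2 * eig P r - (r P.φ).trace) * (theta P r - 1) =
      ((r P.φ - ((r P.φ).trace - eig P r) • 1) * (r P.s - 1)).trace := by
    rw [mul_sub, theta_mul P hr, mul_one, Matrix.mul_sub, Matrix.trace_sub, Matrix.mul_one,
      trace_proj]
  have h2 : ((r P.φ - ((r P.φ).trace - eig P r) • 1) * (r P.s - 1)).trace ∈
      Ideal.span {x : T | ∃ a b, x = (r P.s - 1) a b} := by
    have e : ((r P.φ - ((r P.φ).trace - eig P r) • 1) * (r P.s - 1)).trace =
      ∑ i, ∑ j, (r P.φ - ((r P.φ).trace - eig P r) • 1) i j * (r P.s - 1) j i := rfl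
    rw [e]
    exact Ideal.sum_mem _ fun i _ => Ideal.sum_mem _ fun j _ =>
      Ideal.mul_mem_left _ _ (Ideal.subset_span ⟨j, i, rfl⟩)
  obtain ⟨u, hu⟩ := (eig_spec P hr).isUnit P hr
  rw [← h1, ← hu] at h2
  have h3 := Ideal.mul_mem_left _ (((u⁻¹ : Tˣ) : T)) h2
  rwa [← mul_assoc, Units.inv_mul, one_mul] at h3

theorem theta_eq_one {r : GQ →* M2 T} (hr : Red rbar r) (h : r P.s = 1) : theta P r = 1 := by
  apply theta_eq P hr
  rw [h, Matrix.mul_one, trace_proj, mul_one]

theorem matrix_cayley {A : Type} [CommRing A] (M : M2 A) :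
    M * M - M.trace • M + M.det • (1 : M2 A) = 0 := by
  refine Matrix.ext fun i j => ?_
  rw [Matrix.trace_fin_two, Matrix.det_fin_two]
  fin_cases i <;> fin_cases j <;>
    simp [Matrix.mul_apply, Fin.sum_univ_two] <;> ring

/-- `θ` is an eigenvalue of `r(s)` if `r(s)` commutes with `r(φ)`. -/
theorem theta_root {r : GQ →* M2 T} (hr : Red rbar r) (hc : r P.φ * r P.s = r P.s * r P.φ) :
    theta P r ^ 2 - (r P.s).trace * theta P r + (r P.s).det = 0 := by
  set α := eig P r with hα
  set F := r P.φ with hF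
  set M := r P.s with hM
  set δ := 2 * α - F.trace with hδ
  set E : M2 T := F - (F.trace - α) • 1 with hE
  have hu : IsUnit δ := (eig_spec P hr).isUnit P hr
  have hroot := (eig_spec P hr).root
  rw [← hα, ← hF] at hroot
  have hθ : δ * theta P r = (E * M).trace := theta_mul P hr
  have hdet : E.det = 0 := by
    rw [hE, Matrix.det_fin_two]
    simp only [Matrix.sub_apply, Matrix.smul_apply, Matrix.one_apply_eq,
      Matrix.one_apply_ne (show (0 : Fin 2) ≠ 1 by decide),
      Matrix.one_apply_ne (show (1 : Fin 2) ≠ 0 by decide), smul_eq_mul, mul_one, mul_zero,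
      sub_zero]
    rw [Matrix.det_fin_two, Matrix.trace_fin_two] at hroot
    rw [Matrix.trace_fin_two]
    linear_combination hroot
  have htr : E.trace = δ := trace_proj P r
  have hcomm : E * M = M * E := by
    rw [hE, Matrix.sub_mul, Matrix.mul_sub, hc, Matrix.smul_mul, Matrix.mul_smul, one_mul,
      mul_one]
  -- `E M E = tr(E M) E`
  have key : E * M * E = (E * M).trace • E := by
    rw [Matrix.det_fin_two] at hdet
    refine Matrix.ext fun i j => ?_
    rw [Matrix.smul_apply, smul_eq_mul, Matrix.trace_fin_two]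
    fin_cases i <;> fin_cases j
    · simp only [Matrix.mul_apply, Fin.sum_univ_two, Fin.zero_eta, Fin.mk_one, Fin.isValue]
      linear_combination (-(M 1 1)) * hdet
    · simp only [Matrix.mul_apply, Fin.sum_univ_two, Fin.zero_eta, Fin.mk_one, Fin.isValue]
      linear_combination (M 0 1) * hdet
    · simp only [Matrix.mul_apply, Fin.sum_univ_two, Fin.zero_eta, Fin.mk_one, Fin.isValue]
      linear_combination (M 1 0) * hdet
    · simp only [Matrix.mul_apply, Fin.sum_univ_two, Fin.zero_eta, Fin.mk_one, Fin.isValue]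
      linear_combination (-(M 0 0)) * hdet
  have hEE : E * E = δ • E := by
    have h := matrix_cayley E
    rw [hdet, zero_smul, add_zero, htr] at h
    exact sub_eq_zero.mp h
  have hME : M * E = theta P r • E := by
    have h1 : δ • (M * E) = δ • (theta P r • E) := by
      rw [smul_smul, hθ, ← key, hcomm, Matrix.mul_assoc, hEE, Matrix.mul_smul]
    obtain ⟨u, hu'⟩ := hu
    have h2 := congrArg (fun X : M2 T => ((u⁻¹ : Tˣ) : T) • X) h1
    simp only [smul_smul, ← hu', Units.inv_mul, one_smul] at h2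
    rw [h2, ← mul_assoc, Units.inv_mul, one_mul]
  have hMM := matrix_cayley M
  have h3 : (M * M - M.trace • M + M.det • (1 : M2 T)) * E =
      (theta P r ^ 2 - M.trace * theta P r + M.det) • E := by
    rw [Matrix.add_mul, Matrix.sub_mul, Matrix.mul_assoc, hME, Matrix.mul_smul, hME,
      Matrix.smul_mul, hME, Matrix.smul_mul, Matrix.one_mul]
    simp only [smul_smul, add_smul, sub_smul, pow_two]
  rw [hMM, Matrix.zero_mul] at h3
  have h4 := congrArg Matrix.trace h3
  rw [Matrix.trace_zero, Matrix.trace_smul, htr, smul_eq_mul] at h4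
  exact (hu.mul_left_eq_zero).mp h4.symm

end

section nat

variable {𝒪 : Type} [CommRing 𝒪] [IsLocalRing 𝒪] {rbar : GQ →* M2 (ResidueField 𝒪)}
  (P : TWP rbar) {T T' : Type} [CommRing T] [Algebra 𝒪 T] [IsLocalRing T]
  [IsLocalHom (algebraMap 𝒪 T)] [IsAdicComplete (maximalIdeal T) T]
  [CommRing T'] [Algebra 𝒪 T'] [IsLocalRing T']
  [IsLocalHom (algebraMap 𝒪 T')] [IsAdicComplete (maximalIdeal T') T']

omit [IsAdicComplete (maximalIdeal T) T] [IsAdicComplete (maximalIdeal T') T'] in
/-- homomorphisms of finite local algebras are local -/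
theorem map_mem_maximalIdeal [IsNoetherianRing 𝒪] [Module.Finite 𝒪 T] (f : T →ₐ[𝒪] T') {x : T}
    (hx : x ∈ maximalIdeal T) : f x ∈ maximalIdeal T' := by
  obtain ⟨N, hN⟩ := exists_pow_le_map (O := 𝒪) (T := T)
  have h1 : x ^ N ∈ (maximalIdeal 𝒪).map (algebraMap 𝒪 T) := hN (Ideal.pow_mem_pow hx N)
  have h2 : f (x ^ N) ∈ maximalIdeal T' := by
    have h3 : (maximalIdeal 𝒪).map (algebraMap 𝒪 T) ≤ (maximalIdeal T').comap f := by
      rw [Ideal.map_le_iff_le_comap]
      intro o ho
      show f (algebraMap 𝒪 T o) ∈ maximalIdeal T'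
      rw [AlgHom.commutes]
      exact map_nonunit (algebraMap 𝒪 T') o ho
    exact h3 h1
  rw [map_pow] at h2
  exact (maximalIdeal.isMaximal T').isPrime.mem_of_pow_mem N h2

variable [IsNoetherianRing 𝒪] [Module.Finite 𝒪 T] (f : T →ₐ[𝒪] T') {r : GQ →* M2 T}
  {r' : GQ →* M2 T'} (hf : mapRep (f : T →+* T') r = r') (hr : Red rbar r) (hr' : Red rbar r')

include hf hr hr'

omit hr hr' in
theorem map_r (σ : GQ) : r' σ = (r σ).map f := by rw [← hf]; rfl

theorem map_eig : f (eig P r) = eig P r' := by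
  refine IsEig.unique P hr' ⟨?_, ?_⟩ (eig_spec P hr')
  · have h := congrArg f (eig_spec P hr).root
    rw [map_zero, map_add, map_sub, map_pow, map_mul] at h
    have e1 : (r' P.φ).trace = f (r P.φ).trace := by
      rw [map_r f hf, Matrix.trace_fin_two, Matrix.trace_fin_two, map_add]; rfl
    have e2 : (r' P.φ).det = f (r P.φ).det := by
      rw [map_r f hf, Matrix.det_fin_two, Matrix.det_fin_two, map_sub, map_mul, map_mul]; rfl
    rw [e1, e2]
    exact h
  · have h := map_mem_maximalIdeal f (eig_spec P hr).red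
    rwa [map_sub, AlgHom.commutes] at h

theorem map_theta : f (theta P r) = theta P r' := by
  symm
  apply theta_eq P hr'
  have h := congrArg f (theta_mul P hr)
  rw [map_mul, map_sub, map_mul, map_ofNat, map_eig P f hf hr hr'] at h
  have e1 : (r' P.φ).trace = f (r P.φ).trace := by
    rw [map_r f hf, Matrix.trace_fin_two, Matrix.trace_fin_two, map_add]; rfl
  rw [← e1] at h
  rw [h]
  have e2 : ((r P.φ - ((r P.φ).trace - eig P r) • (1 : M2 T)) * r P.s).map f =
      (r' P.φ - ((r' P.φ).trace - eig P r') • (1 : M2 T')) * r' P.s := by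
    rw [map_r f hf P.s]
    have e3 : (r P.φ - ((r P.φ).trace - eig P r) • (1 : M2 T)).map f =
        r' P.φ - ((r' P.φ).trace - eig P r') • (1 : M2 T') := by
      rw [e1, ← map_eig P f hf hr hr', map_r f hf P.φ]
      refine Matrix.ext fun i j => ?_
      rw [Matrix.map_apply, Matrix.sub_apply, Matrix.smul_apply, Matrix.sub_apply,
        Matrix.smul_apply, Matrix.map_apply, map_sub, smul_eq_mul, map_mul, map_sub, smul_eq_mul]
      congr 2
      by_cases h : i = j
      · subst h; rw [Matrix.one_apply_eq, Matrix.one_apply_eq, map_one]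
      · rw [Matrix.one_apply_ne h, Matrix.one_apply_ne h, map_zero]
    rw [← e3]
    refine Matrix.ext fun i j => ?_
    simp only [Matrix.map_apply, Matrix.mul_apply, map_sum, map_mul]
  rw [← e2]
  exact (trace_map' (f : T →+* T')).symm

end nat

section gam

variable {𝒪 : Type} [CommRing 𝒪] [IsLocalRing 𝒪] {rbar : GQ →* M2 (ResidueField 𝒪)}
  {p g : ℕ} {n : ℕ} (P : Fin g → TWP rbar) {T : Type} [CommRing T] [Algebra 𝒪 T] [IsLocalRing T]

theorem exists_gam (hp : 0 < p) (u : Fin g → T) (hu : ∀ i, u i ^ p ^ (n + 1) = 1) :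
    ∃ γ : Lam p g 𝒪 n →ₐ[𝒪] T, ∀ i, γ (delm p g 𝒪 n i) = u i - 1 := by
  obtain ⟨f, hf⟩ := exists_hom_del (g := g) n u hu hp
  refine ⟨MonoidAlgebra.lift 𝒪 T (Del p g n) f, fun i => ?_⟩
  rw [delm, map_sub, map_one, MonoidAlgebra.lift_of, hf]

theorem gam_unique [NeZero p] {γ γ' : Lam p g 𝒪 n →ₐ[𝒪] T}
    (h : ∀ i, γ (delm p g 𝒪 n i) = γ' (delm p g 𝒪 n i)) : γ = γ' := by
  have h1 : ∀ z : Del p g n, γ (MonoidAlgebra.of 𝒪 (Del p g n) z) =
      γ' (MonoidAlgebra.of 𝒪 (Del p g n) z) := by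
    intro z
    refine Submonoid.closure_induction (fun z hz => ?_) ?_ (fun x y _ _ hx hy => ?_)
      (del_closure n z)
    · obtain ⟨i, rfl⟩ := hz
      have h2 := h i
      rw [delm, map_sub, map_sub, map_one, map_one] at h2
      exact sub_left_injective h2
    · rw [map_one, map_one, map_one]
    · rw [map_mul, map_mul, map_mul, hx, hy]
  ext z
  exact h1 z

/-- the structure of algebra over the group ring defined by `θ` -/
noncomputable def gam (hp : 0 < p) (r : GQ →* M2 T)
    (hθ : ∀ i, theta (P i) r ^ p ^ (n + 1) = 1) : Lam p g 𝒪 n →ₐ[𝒪] T :=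
  (exists_gam hp (fun i => theta (P i) r) hθ).choose

theorem gam_delm (hp : 0 < p) (r : GQ →* M2 T)
    (hθ : ∀ i, theta (P i) r ^ p ^ (n + 1) = 1) (i : Fin g) :
    gam P hp r hθ (delm p g 𝒪 n i) = theta (P i) r - 1 :=
  (exists_gam hp (fun i => theta (P i) r) hθ).choose_spec i

end gam

end Fermat.Agent.RT8
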