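import Fermat.Agent.RT8.ModMat
import Fermat.Agent.RT8.Desc
import Fermat.Agent.RT8.Theta

/-!
# Levels given by modules
-/

set_option autoImplicit false
set_option linter.unusedSectionVars false
set_option linter.unusedVariables false

namespace Fermat.Agent.RT8

open IsLocalRing Module Fermat.Agent.RT1 Fermat.Agent.LocRing Fermat.Agent.DefRing
  Fermat.Agent.RT8J

section aug

variable {p g : ℕ} {𝒪 : Type} [CommRing 𝒪] {n : ℕ}

theorem of_sub_one_mem [NeZero p] (x : Del p g n) :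
    MonoidAlgebra.of 𝒪 (Del p g n) x - 1 ∈ Ideal.span (Set.range (delm p g 𝒪 n)) := by
  have hx := del_closure n x
  induction hx using Submonoid.closure_induction with
  | mem d hd =>
    obtain ⟨i, rfl⟩ := hd
    exact Ideal.subset_span ⟨i, rfl⟩
  | one => rw [map_one, sub_self]; exact Ideal.zero_mem _
  | mul a b _ _ ha hb =>
    rw [map_mul]
    have e : MonoidAlgebra.of 𝒪 (Del p g n) a * MonoidAlgebra.of 𝒪 (Del p g n) b - 1 =
      MonoidAlgebra.of 𝒪 (Del p g n) b * (MonoidAlgebra.of 𝒪 (Del p g n) a - 1) +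
        (MonoidAlgebra.of 𝒪 (Del p g n) b - 1) := by ring
    rw [e]
    exact Ideal.add_mem _ (Ideal.mul_mem_left _ _ ha) hb

theorem sub_augL_mem [NeZero p] (x : Lam p g 𝒪 n) :
    x - algebraMap 𝒪 _ (augL p g 𝒪 n x) ∈ Ideal.span (Set.range (delm p g 𝒪 n)) := by
  induction x using MonoidAlgebra.induction_on with
  | of z =>
    have h1 : augL p g 𝒪 n (MonoidAlgebra.of 𝒪 (Del p g n) z) = 1 := MonoidAlgebra.lift_of _ _
    rw [h1, map_one]
    exact of_sub_one_mem z
  | add x y hx hy =>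
    rw [map_add, map_add]
    have e : x + y - (algebraMap 𝒪 (Lam p g 𝒪 n) (augL p g 𝒪 n x) +
      algebraMap 𝒪 _ (augL p g 𝒪 n y)) = (x - algebraMap 𝒪 _ (augL p g 𝒪 n x)) +
        (y - algebraMap 𝒪 _ (augL p g 𝒪 n y)) := by ring
    rw [e]
    exact Ideal.add_mem _ hx hy
  | smul o x hx =>
    rw [map_smul, smul_eq_mul, map_mul, Algebra.smul_def, ← mul_sub]
    exact Ideal.mul_mem_left _ _ hx

theorem mem_span_delm [NeZero p] {x : Lam p g 𝒪 n} (hx : augL p g 𝒪 n x = 0) :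
    x ∈ Ideal.span (Set.range (delm p g 𝒪 n)) := by
  have h := sub_augL_mem (p := p) (g := g) (n := n) x
  rwa [hx, map_zero, sub_zero] at h

variable [IsLocalRing 𝒪]

theorem ker_kapL [NeZero p] : RingHom.ker (kapL p g 𝒪 n) = JLam p g 𝒪 n := by
  apply le_antisymm
  · intro x hx
    have h1 : residue 𝒪 (augL p g 𝒪 n x) = 0 := hx
    rw [residue_eq_zero_iff] at h1
    have h2 := sub_augL_mem (p := p) (g := g) (n := n) x
    have e : x = algebraMap 𝒪 _ (augL p g 𝒪 n x) + (x - algebraMap 𝒪 _ (augL p g 𝒪 n x)) := by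
      ring
    rw [e]
    exact Ideal.add_mem _ (Ideal.mem_sup_left (Ideal.mem_map_of_mem _ h1))
      (Ideal.mem_sup_right h2)
  · rw [JLam, sup_le_iff]
    constructor
    · rw [Ideal.map_le_iff_le_comap]
      intro o ho
      show residue 𝒪 (augL p g 𝒪 n (algebraMap 𝒪 _ o)) = 0
      rw [AlgHom.commutes]
      exact (residue_eq_zero_iff _).mpr ho
    · rw [Ideal.span_le]
      rintro _ ⟨i, rfl⟩
      show residue 𝒪 (augL p g 𝒪 n (delm p g 𝒪 n i)) = 0
      rw [augL_delm, map_zero]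

theorem kapL_surjective : Function.Surjective (kapL p g 𝒪 n) := by
  intro y
  obtain ⟨o, rfl⟩ := residue_surjective y
  refine ⟨algebraMap 𝒪 _ o, ?_⟩
  show residue 𝒪 (augL p g 𝒪 n (algebraMap 𝒪 _ o)) = _
  rw [AlgHom.commutes]
  rfl

end aug

section basis

variable {p g : ℕ} {𝒪 : Type} [CommRing 𝒪] [IsDomain 𝒪] [IsDiscreteValuationRing 𝒪]
  [IsAdicComplete (maximalIdeal 𝒪) 𝒪] {n : ℕ}

theorem span_delm_le_jacobson (hp : p.Prime) (hp𝒪 : (p : 𝒪) ∈ maximalIdeal 𝒪) :
    Ideal.span (Set.range (delm p g 𝒪 n)) ≤ Ideal.jacobson (⊥ : Ideal (Lam p g 𝒪 n)) := by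
  have := isAdicComplete_Lam (g := g) hp hp𝒪 n
  exact le_trans le_sup_right (IsAdicComplete.le_jacobson_bot (JLam p g 𝒪 n))

/-- **Lifting bases** along the augmentation. -/
theorem exists_basis_lift (hp : p.Prime) (hp𝒪 : (p : 𝒪) ∈ maximalIdeal 𝒪)
    {M M₀ : Type*} [AddCommGroup M] [Module (Lam p g 𝒪 n) M] [Module.Free (Lam p g 𝒪 n) M]
    [Module.Finite (Lam p g 𝒪 n) M] [AddCommGroup M₀] [Module 𝒪 M₀] {d : ℕ}
    (b₀ : Basis (Fin d) 𝒪 M₀) (π : M →+ M₀) (hπ : ∀ (a : Lam p g 𝒪 n) x,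
      π (a • x) = augL p g 𝒪 n a • π x) (hs : Function.Surjective π)
    (hker : ∀ x, π x = 0 →
      x ∈ (Ideal.span (Set.range (delm p g 𝒪 n)) • ⊤ : Submodule (Lam p g 𝒪 n) M)) :
    ∃ b : Basis (Fin d) (Lam p g 𝒪 n) M, ∀ i, π (b i) = b₀ i := by
  have hne : NeZero p := ⟨hp.ne_zero⟩
  have hnt : Nontrivial (Lam p g 𝒪 n) := by
    have : Nontrivial 𝒪 := inferInstance
    exact (augL p g 𝒪 n).toRingHom.domain_nontrivial
  choose x hx using fun i => hs (b₀ i)
  -- the lifts generate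
  have hspan : Submodule.span (Lam p g 𝒪 n) (Set.range x) = ⊤ := by
    rw [← top_le_iff]
    refine Submodule.le_of_le_smul_of_le_jacobson_bot (Module.Finite.fg_top)
      (span_delm_le_jacobson (g := g) (n := n) hp hp𝒪) ?_
    intro y _
    have h1 : y - ∑ i, algebraMap 𝒪 (Lam p g 𝒪 n) (b₀.repr (π y) i) • x i ∈
        (Ideal.span (Set.range (delm p g 𝒪 n)) • ⊤ : Submodule (Lam p g 𝒪 n) M) := by
      apply hker
      rw [map_sub, map_sum]
      have h2 : ∀ i, π (algebraMap 𝒪 (Lam p g 𝒪 n) (b₀.repr (π y) i) • x i) =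
          b₀.repr (π y) i • b₀ i := fun i => by
        rw [hπ, AlgHom.commutes, hx]; rfl
      simp only [h2]
      rw [Basis.sum_repr, sub_self]
    have e : y = (∑ i, algebraMap 𝒪 (Lam p g 𝒪 n) (b₀.repr (π y) i) • x i) +
        (y - ∑ i, algebraMap 𝒪 (Lam p g 𝒪 n) (b₀.repr (π y) i) • x i) := by abel
    rw [e]
    refine Submodule.add_mem_sup (Submodule.sum_mem _ fun i _ =>
      Submodule.smul_mem _ _ (Submodule.subset_span ⟨i, rfl⟩)) h1
  -- ranks
  set r := Module.finrank (Lam p g 𝒪 n) M with hr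
  let c : Basis (Fin r) (Lam p g 𝒪 n) M := Module.finBasis _ _
  have hcspan : Submodule.span 𝒪 (Set.range fun j => π (c j)) = ⊤ := by
    rw [eq_top_iff]
    intro y _
    obtain ⟨z, rfl⟩ := hs y
    rw [← c.sum_repr z, map_sum]
    refine Submodule.sum_mem _ fun j _ => ?_
    rw [hπ]
    exact Submodule.smul_mem _ _ (Submodule.subset_span ⟨j, rfl⟩)
  have h1 : d ≤ r := by
    have := finrank_le_of_span_eq_top (R := 𝒪) (v := fun j => π (c j)) hcspan
    rwa [Module.finrank_eq_card_basis b₀, Fintype.card_fin, Fintype.card_fin] at this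
  have h2 : r ≤ d := by
    have := finrank_le_of_span_eq_top (R := Lam p g 𝒪 n) (v := x) hspan
    rwa [Fintype.card_fin] at this
  have hrd : r = d := le_antisymm h2 h1
  let c' : Basis (Fin d) (Lam p g 𝒪 n) M := c.reindex (finCongr hrd)
  -- the surjection `Λ^d → M` is bijective
  let f : (Fin d → Lam p g 𝒪 n) →ₗ[Lam p g 𝒪 n] M := Fintype.linearCombination _ x
  have hf : Function.Surjective f := by
    rw [← LinearMap.range_eq_top, Fintype.range_linearCombination, hspan]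
  let e : M ≃ₗ[Lam p g 𝒪 n] (Fin d → Lam p g 𝒪 n) := c'.equivFun
  have hinj : Function.Injective (e.toLinearMap ∘ₗ f) :=
    OrzechProperty.injective_of_surjective_endomorphism _ (e.surjective.comp hf)
  have hfinj : Function.Injective f := fun a b hab => hinj (congrArg e hab)
  let b := Basis.ofEquivFun (LinearEquiv.ofBijective f ⟨hfinj, hf⟩).symm
  refine ⟨b, fun i => ?_⟩
  have h3 : b i = x i := by
    show (Basis.ofEquivFun (LinearEquiv.ofBijective f ⟨hfinj, hf⟩).symm) i = x i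
    rw [Basis.coe_ofEquivFun, LinearEquiv.symm_symm]
    show Fintype.linearCombination (Lam p g 𝒪 n) x (Pi.single i 1) = x i
    rw [Fintype.linearCombination_apply_single, one_smul]
  rw [h3, hx]

end basis

section residue

variable {O k : Type*} [CommRing O] [CommRing k] (κ : O →+* k) (hκ : Function.Surjective κ)
  {M N : Type*} [AddCommGroup M] [Module O M]
  [AddCommGroup N] [Module O N] {d d' : Type*} [Fintype d] [DecidableEq d] [Fintype d']
  [DecidableEq d'] (b : Basis d O M) (c : Basis d' O N) (f : M →ₗ[O] N)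

theorem basis_mem_smul_top_iff' (I : Ideal O) (x : M) :
    x ∈ (I • ⊤ : Submodule O M) ↔ ∀ i, b.repr x i ∈ I := by
  constructor
  · intro hx i
    refine Submodule.smul_induction_on hx (fun a ha y _ => ?_) (fun y z hy hz => ?_)
    · rw [map_smul]
      exact Ideal.mul_mem_right _ _ ha
    · rw [map_add]
      exact Ideal.add_mem _ hy hz
  · intro h
    rw [← Basis.sum_repr b x]
    exact Submodule.sum_mem _ fun i _ => Submodule.smul_mem_smul (h i) trivial

include hκ in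
theorem exists_lift_vec' (v : d → k) : ∃ x : M, ∀ i, κ (b.repr x i) = v i := by
  choose o ho using fun i => hκ (v i)
  refine ⟨∑ i, o i • b i, fun i => ?_⟩
  rw [Basis.repr_sum_self, ho]

theorem mulVec_map (x : M) (i : d') :
    ((LinearMap.toMatrix b c f).map κ).mulVec (fun j => κ (b.repr x j)) i =
      κ (c.repr (f x) i) := by
  have h1 : (LinearMap.toMatrix b c f).mulVec (b.repr x) = c.repr (f x) :=
    LinearMap.toMatrix_mulVec_repr b c f x
  rw [← h1]
  simp only [Matrix.mulVec, dotProduct, Matrix.map_apply, map_sum, map_mul]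

include hκ in
/-- injectivity of the residual matrix -/
theorem mulVec_injective_of_sat'
    (hf : ∀ x, f x ∈ (RingHom.ker κ • ⊤ : Submodule O N) →
      x ∈ (RingHom.ker κ • ⊤ : Submodule O M)) :
    Function.Injective (((LinearMap.toMatrix b c f).map κ).mulVec) := by
  have h0 : ∀ v : d → k, ((LinearMap.toMatrix b c f).map κ).mulVec v = 0 → v = 0 := by
    intro v hv
    obtain ⟨x, hx⟩ := exists_lift_vec' κ hκ b v
    have hv' : v = fun i => κ (b.repr x i) := funext fun i => (hx i).symm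
    have h1 : f x ∈ (RingHom.ker κ • ⊤ : Submodule O N) := by
      rw [basis_mem_smul_top_iff' c]
      intro i
      rw [RingHom.mem_ker, ← mulVec_map κ b c f x i, ← hv', hv]
      rfl
    have h2 := (basis_mem_smul_top_iff' b _ _).mp (hf x h1)
    rw [hv']
    funext i
    exact h2 i
  intro v w hvw
  rw [← sub_eq_zero]
  apply h0
  rw [Matrix.mulVec_sub, hvw, sub_self]

include hκ in
theorem mulVec_surjective_of_surj' (hf : Function.Surjective f) :
    Function.Surjective (((LinearMap.toMatrix b c f).map κ).mulVec) := by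
  intro w
  obtain ⟨y, hy⟩ := exists_lift_vec' κ hκ c w
  obtain ⟨x, rfl⟩ := hf y
  refine ⟨fun j => κ (b.repr x j), ?_⟩
  funext i
  rw [mulVec_map, hy]

end residue

/-! ### Module levels -/

section lev

variable {𝒪 : Type} [CommRing 𝒪] [IsDomain 𝒪] [IsDiscreteValuationRing 𝒪]
  [IsAdicComplete (maximalIdeal 𝒪) 𝒪] {rbar : GQ →* M2 (ResidueField 𝒪)}
  {sd : SliceData rbar}

instance (C : Cpt sd) : IsAdicComplete (maximalIdeal C.T) C.T :=
  IsLocalRing.isAdicComplete_of_module_finite (𝒪 := 𝒪) (T := C.T)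

/-- A base level given by a module. -/
structure BMod (sd : SliceData rbar) where
  /-- Hecke algebra and representation -/
  C : Cpt sd
  gen : Algebra.adjoin 𝒪 {x : C.T | ∃ σ i j, x = C.r σ i j} = ⊤
  /-- module -/
  M : Type
  [acg : AddCommGroup M]
  [modO : Module 𝒪 M]
  [modT : Module C.T M]
  tower : ∀ (o : 𝒪) (x : M), algebraMap 𝒪 C.T o • x = o • x
  /-- rank -/
  d : ℕ
  /-- basis -/
  b : Basis (Fin d) 𝒪 M

attribute [instance] BMod.acg BMod.modO BMod.modT

instance (B : BMod sd) : SMulCommClass B.C.T 𝒪 B.M where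
  smul_comm t o x := by
    rw [← B.tower, ← B.tower, smul_smul, smul_smul, mul_comm]

/-- the base level -/
noncomputable def BMod.toBLev (B : BMod sd) : BLev sd where
  C := B.C
  gen := B.gen
  d := B.d
  act := actA (𝒪 := 𝒪) (L := 𝒪) B.b B.tower

/-- A Taylor-Wiles level over the base level `B`, given by a module. -/
structure TMod (p : ℕ) {g : ℕ} (P : Fin g → TWP rbar) (n : ℕ) (B : BMod sd) where
  /-- Hecke algebra and representation -/
  C : Cpt sd
  gen : Algebra.adjoin 𝒪 {x : C.T | ∃ σ i j, x = C.r σ i j} = ⊤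
  /-- comparison with the base level -/
  pr : C.T →ₐ[𝒪] B.C.T
  pr_r : mapRep (pr : C.T →+* B.C.T) C.r = B.C.r
  /-- module -/
  M : Type
  [acg : AddCommGroup M]
  [modL : Module (Lam p g 𝒪 n) M]
  [modT : Module C.T M]
  /-- the group algebra acts through the Hecke algebra -/
  γ : Lam p g 𝒪 n →ₐ[𝒪] C.T
  γ_delm : ∀ i, γ (delm p g 𝒪 n i) = theta (P i) C.r - 1
  γ_smul : ∀ a (x : M), γ a • x = a • x
  [free : Module.Free (Lam p g 𝒪 n) M]
  [finite : Module.Finite (Lam p g 𝒪 n) M]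
  /-- comparison of the modules -/
  π : M →+ B.M
  π_smul : ∀ (t : C.T) x, π (t • x) = pr t • π x
  π_surj : Function.Surjective π
  π_ker : ∀ x, π x = 0 →
    x ∈ (Ideal.span (Set.range (delm p g 𝒪 n)) • ⊤ : Submodule (Lam p g 𝒪 n) M)
  triv : ∀ i, B.C.r (P i).s = 1

attribute [instance] TMod.acg TMod.modL TMod.modT TMod.free TMod.finite

variable {p g n : ℕ} {P : Fin g → TWP rbar} {B : BMod sd} (L : TMod p P n B)

instance : SMulCommClass L.C.T (Lam p g 𝒪 n) L.M where
  smul_comm t a x := by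
    rw [← L.γ_smul, ← L.γ_smul, smul_smul, smul_smul, mul_comm]

theorem TMod.pr_γ [NeZero p] (a : Lam p g 𝒪 n) :
    L.pr (L.γ a) = algebraMap 𝒪 B.C.T (augL p g 𝒪 n a) := by
  have h : (L.pr.comp L.γ) = (Algebra.ofId 𝒪 B.C.T).comp (augL p g 𝒪 n) := by
    refine gam_unique fun i => ?_
    show L.pr (L.γ (delm p g 𝒪 n i)) = algebraMap 𝒪 B.C.T (augL p g 𝒪 n (delm p g 𝒪 n i))
    rw [L.γ_delm, augL_delm, map_zero, map_sub, map_one,
      map_theta (P i) L.pr L.pr_r L.C.red B.C.red, theta_eq_one (P i) B.C.red (L.triv i), sub_self]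
  exact DFunLike.congr_fun h a

theorem TMod.π_lam [NeZero p] (a : Lam p g 𝒪 n) (x : L.M) :
    L.π (a • x) = augL p g 𝒪 n a • L.π x := by
  rw [← L.γ_smul, L.π_smul, L.pr_γ, B.tower]

/-- basis lifting the basis of the base level -/
theorem TMod.exists_basis (hp : p.Prime) (hp𝒪 : (p : 𝒪) ∈ maximalIdeal 𝒪) :
    ∃ b : Basis (Fin B.d) (Lam p g 𝒪 n) L.M, ∀ i, L.π (b i) = B.b i := by
  have hne : NeZero p := ⟨hp.ne_zero⟩
  exact exists_basis_lift hp hp𝒪 B.b L.π (fun a x => L.π_lam a x) L.π_surj L.π_ker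

/-- basis -/
noncomputable def TMod.b (hp : p.Prime) (hp𝒪 : (p : 𝒪) ∈ maximalIdeal 𝒪) :
    Basis (Fin B.d) (Lam p g 𝒪 n) L.M := (L.exists_basis hp hp𝒪).choose

theorem TMod.π_b (hp : p.Prime) (hp𝒪 : (p : 𝒪) ∈ maximalIdeal 𝒪) (i : Fin B.d) :
    L.π (L.b hp hp𝒪 i) = B.b i := (L.exists_basis hp hp𝒪).choose_spec i

theorem TMod.h𝒪 (o : 𝒪) (x : L.M) :
    algebraMap 𝒪 L.C.T o • x = algebraMap 𝒪 (Lam p g 𝒪 n) o • x := by
  rw [← L.γ_smul, AlgHom.commutes]

/-- inertia at the Taylor-Wiles primes -/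
def IQs (P : Fin g → TWP rbar) : Set GQ := {σ | ∃ i, σ = (P i).s}

/-- the Taylor-Wiles level in matrix form -/
noncomputable def TMod.toTLev (hp : p.Prime) (hp𝒪 : (p : 𝒪) ∈ maximalIdeal 𝒪) :
    TLev p g n B.toBLev (IQs P) where
  C := L.C
  gen := L.gen
  pr := L.pr
  pr_r := L.pr_r
  act := actA (𝒪 := 𝒪) (L := Lam p g 𝒪 n) (L.b hp hp𝒪) L.h𝒪
  act_aug t := by
    have hne : NeZero p := ⟨hp.ne_zero⟩
    exact actR_map (L.b hp hp𝒪) B.b (augL p g 𝒪 n : Lam p g 𝒪 n →+* 𝒪)
      (L.pr : L.C.T →+* B.C.T) L.π (fun a x => L.π_lam a x) L.π_smul (L.π_b hp hp𝒪) t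
  delta i := by
    refine ⟨L.γ (delm p g 𝒪 n i), ?_, ?_⟩
    · rw [L.γ_delm]
      refine Ideal.span_mono ?_ (theta_sub_one_mem (P i) L.C.red)
      rintro _ ⟨a, b, rfl⟩
      exact ⟨(P i).s, ⟨i, rfl⟩, a, b, rfl⟩
    · exact actR_smul (L.b hp hp𝒪) (L.γ : Lam p g 𝒪 n →+* L.C.T) L.γ_smul _

end lev

end Fermat.Agent.RT8
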