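import Fermat.Agent.RT8.MainAB

/-!
# Building patching systems
-/

set_option autoImplicit false
set_option linter.unusedSectionVars false
set_option linter.unusedVariables false

namespace Fermat.Agent.RT8

open IsLocalRing Fermat.Agent.RT1 Fermat.Agent.LocRing Fermat.Agent.DefRing Fermat.Agent.RT8J

section

variable {𝒪 : Type} [CommRing 𝒪] [IsLocalRing 𝒪] {rbar : GQ →* M2 (ResidueField 𝒪)}
  {sd : SliceData rbar} {p g : ℕ} {Λ : Type}

/-- A base modular level. -/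
structure BLev (sd : SliceData rbar) where
  /-- Hecke algebra and representation -/
  C : Cpt sd
  gen : Algebra.adjoin 𝒪 {x : C.T | ∃ σ i j, x = C.r σ i j} = ⊤
  /-- rank -/
  d : ℕ
  /-- action -/
  act : C.T →ₐ[𝒪] Matrix (Fin d) (Fin d) 𝒪

/-- A Taylor-Wiles modular level over a base level `B`, `IQ` = inertia at the Taylor-Wiles primes. -/
structure TLev (p g n : ℕ) (B : BLev sd) (IQ : Set GQ) where
  /-- Hecke algebra and representation -/
  C : Cpt sd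
  gen : Algebra.adjoin 𝒪 {x : C.T | ∃ σ i j, x = C.r σ i j} = ⊤
  /-- comparison with the base level -/
  pr : C.T →ₐ[𝒪] B.C.T
  pr_r : mapRep (pr : C.T →+* B.C.T) C.r = B.C.r
  /-- action -/
  act : C.T →ₐ[𝒪] Matrix (Fin B.d) (Fin B.d) (Lam p g 𝒪 n)
  act_aug : ∀ t, (act t).map (augL p g 𝒪 n) = B.act (pr t)
  delta : ∀ i, ∃ t ∈ Ideal.span {x : C.T | ∃ σ ∈ IQ, ∃ a b, x = (C.r σ - 1) a b},
    act t = delm p g 𝒪 n i • 1

end

section

variable {𝒪 : Type} [CommRing 𝒪] [IsDomain 𝒪] [IsDiscreteValuationRing 𝒪]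
  [IsAdicComplete (maximalIdeal 𝒪) 𝒪] [Finite (ResidueField 𝒪)]
  {rbar : GQ →* M2 (ResidueField 𝒪)}
  {sd : SliceData rbar} {p g : ℕ} {Λ K : Type} [Fintype Λ] [DecidableEq Λ] [Finite K]

/-- components: a point and the levels -/
def cpts (pt : Cpt sd) (C : K → Cpt sd) : Option K → Cpt sd
  | none => pt
  | some k => C k

theorem exists_joint (C : Option K → Cpt sd) :
    Nonempty (JRing sd (fun j => (C j).T) (fun j => (C j).r)) :=
  exists_jring sd (T := fun j => (C j).T) (r := fun j => (C j).r) (fun j => (C j).cont)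
    (fun j => (C j).red) (fun j => (C j).norm)

/-- Local condition at the primes of `Λ`. -/
def LocU (ℓ : Λ → ℕ) (φ τ : Λ → GQ) (C : Cpt sd) : Prop :=
  ∀ l, IsUni ((ℓ l : ℕ) : C.T) (C.r (φ l)) (C.r (τ l) - 1)

/-- The patching system of a family of levels. -/
noncomputable def Sys.ofLevels (ℓ : Λ → ℕ) (φ τ : Λ → GQ) (pt : Cpt sd) (B : K → BLev sd)
    (IQ : ℕ → Set GQ) (L : ∀ n k, TLev p g n (B k) (IQ n)) (ram : K → Finset Λ)
    (hpt : LocU ℓ φ τ pt) (hB : ∀ k, LocU ℓ φ τ (B k).C) (hL : ∀ n k, LocU ℓ φ τ (L n k).C)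
    (hIpt : ∀ n, ∀ σ ∈ IQ n, pt.r σ = 1) (hIB : ∀ n k, ∀ σ ∈ IQ n, (B k).C.r σ = 1)
    (hram : ∀ n k, ∀ l ∉ ram k, (L n k).C.r (τ l) = 1) :
    Sys sd p g Λ (Option K) K where
  ℓ := ℓ
  φ := φ
  τ := τ
  C₀ := cpts pt fun k => (B k).C
  C n := cpts pt fun k => (L n k).C
  A₀ := (exists_joint _).some
  A n := (exists_joint _).some
  pr n
    | none => AlgHom.id 𝒪 _
    | some k => (L n k).pr
  pr_r n
    | none => by
      refine MonoidHom.ext fun σ => ?_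
      exact Matrix.map_id _
    | some k => (L n k).pr_r
  uni n
    | none => hpt
    | some k => hL n k
  uni₀
    | none => hpt
    | some k => hB k
  lev := some
  gen n k := (L n k).gen
  gen₀ k := (B k).gen
  ram := ram
  unr := hram
  d k := (B k).d
  act n k := (L n k).act
  act₀ k := (B k).act
  act_aug n k t := (L n k).act_aug t
  IQ := IQ
  IQ₀ n
    | none => hIpt n
    | some k => hIB n k
  delta n k i := (L n k).delta i

end

section trace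

variable {𝒪 : Type} [CommRing 𝒪] [IsDomain 𝒪] [IsDiscreteValuationRing 𝒪]
  [IsAdicComplete (maximalIdeal 𝒪) 𝒪] [Finite (ResidueField 𝒪)]
  {rbar : GQ →* M2 (ResidueField 𝒪)}
  {sd : SliceData rbar} {p g : ℕ} {Λ J K : Type} [Fintype Λ] [DecidableEq Λ]
  {Y : Sys sd p g Λ J K}

theorem Sys.ρ_trace (n : ℕ) (k : K) (σ : GQ) :
    Y.ρ n k ((Y.A n).r0 σ).trace = Y.act n k ((Y.C n (Y.lev k)).r σ).trace := by
  show Y.act n k (Y.prR k n ((Y.A n).r0 σ).trace) = _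
  rw [← trace_map', Y.prR_r0]

theorem Sys.ρ_algebraMap (n : ℕ) (k : K) (o : 𝒪) :
    Y.ρ n k (algebraMap 𝒪 _ o) = algebraMap 𝒪 _ o := (Y.ρ n k).commutes o

theorem fromBlocks_diag_add {d : Type*} {A : Type*} [CommRing A] (X X' : Matrix d d A) :
    Matrix.fromBlocks (X + X') 0 0 (X + X') =
      Matrix.fromBlocks X 0 0 X + Matrix.fromBlocks X' 0 0 X' := by
  rw [Matrix.fromBlocks_add, add_zero]

theorem fromBlocks_diag_mul {d : Type*} [Fintype d] {A : Type*} [CommRing A]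
    (X X' : Matrix d d A) :
    Matrix.fromBlocks (X * X') 0 0 (X * X') =
      Matrix.fromBlocks X 0 0 X * Matrix.fromBlocks X' 0 0 X' := by
  rw [Matrix.fromBlocks_multiply]; simp

/-- linearity from commutation with the traces: maps out of two copies. -/
theorem lin_of_trace {n : ℕ} {k k' : K} (𝓕 : Set GQ)
    (htr : Algebra.adjoin 𝒪 {x : (Y.A n).R | ∃ σ ∈ 𝓕, x = ((Y.A n).r0 σ).trace} = ⊤)
    (ι : Matrix (Fin (Y.d k)) (Fin (Y.d k') ⊕ Fin (Y.d k')) (Lam p g 𝒪 n))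
    (h : ∀ σ ∈ 𝓕, ι * Matrix.fromBlocks (Y.act n k' ((Y.C n (Y.lev k')).r σ).trace) 0 0
      (Y.act n k' ((Y.C n (Y.lev k')).r σ).trace) = Y.act n k ((Y.C n (Y.lev k)).r σ).trace * ι)
    (x : (Y.A n).R) :
    ι * Matrix.fromBlocks (Y.ρ n k' x) 0 0 (Y.ρ n k' x) = Y.ρ n k x * ι := by
  have hx : x ∈ Algebra.adjoin 𝒪 {x : (Y.A n).R | ∃ σ ∈ 𝓕, x = ((Y.A n).r0 σ).trace} := by
    rw [htr]; trivial
  induction hx using Algebra.adjoin_induction with
  | mem x hx =>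
    obtain ⟨σ, hσ, rfl⟩ := hx
    rw [Y.ρ_trace, Y.ρ_trace]
    exact h σ hσ
  | algebraMap o =>
    rw [Y.ρ_algebraMap, Y.ρ_algebraMap]
    have e1 : Matrix.fromBlocks (algebraMap 𝒪 (Matrix (Fin (Y.d k')) (Fin (Y.d k'))
        (Lam p g 𝒪 n)) o) 0 0 (algebraMap 𝒪 _ o) = algebraMap 𝒪 (Lam p g 𝒪 n) o •
          (1 : Matrix (Fin (Y.d k') ⊕ Fin (Y.d k')) (Fin (Y.d k') ⊕ Fin (Y.d k'))
            (Lam p g 𝒪 n)) := by
      rw [← Matrix.fromBlocks_one, Matrix.fromBlocks_smul, smul_zero,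
        Algebra.algebraMap_eq_smul_one, algebraMap_smul]
    have e2 : algebraMap 𝒪 (Matrix (Fin (Y.d k)) (Fin (Y.d k)) (Lam p g 𝒪 n)) o =
        algebraMap 𝒪 (Lam p g 𝒪 n) o • (1 : Matrix (Fin (Y.d k)) (Fin (Y.d k))
            (Lam p g 𝒪 n)) := by
      rw [Algebra.algebraMap_eq_smul_one, algebraMap_smul]
    rw [e1, e2, Matrix.mul_smul, Matrix.smul_mul, Matrix.mul_one, Matrix.one_mul]
  | add x y _ _ hx hy =>
    rw [map_add, map_add, fromBlocks_diag_add, Matrix.mul_add, hx, hy, Matrix.add_mul]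
  | mul x y _ _ hx hy =>
    rw [map_mul, map_mul, fromBlocks_diag_mul, ← Matrix.mul_assoc, hx, Matrix.mul_assoc, hy,
      Matrix.mul_assoc]

/-- linearity from commutation with the traces: maps to two copies. -/
theorem lin_of_trace' {n : ℕ} {k k' : K} (𝓕 : Set GQ)
    (htr : Algebra.adjoin 𝒪 {x : (Y.A n).R | ∃ σ ∈ 𝓕, x = ((Y.A n).r0 σ).trace} = ⊤)
    (ι : Matrix (Fin (Y.d k') ⊕ Fin (Y.d k')) (Fin (Y.d k)) (Lam p g 𝒪 n))
    (h : ∀ σ ∈ 𝓕, ι * Y.act n k ((Y.C n (Y.lev k)).r σ).trace =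
      Matrix.fromBlocks (Y.act n k' ((Y.C n (Y.lev k')).r σ).trace) 0 0
      (Y.act n k' ((Y.C n (Y.lev k')).r σ).trace) * ι)
    (x : (Y.A n).R) :
    ι * Y.ρ n k x = Matrix.fromBlocks (Y.ρ n k' x) 0 0 (Y.ρ n k' x) * ι := by
  have hx : x ∈ Algebra.adjoin 𝒪 {x : (Y.A n).R | ∃ σ ∈ 𝓕, x = ((Y.A n).r0 σ).trace} := by
    rw [htr]; trivial
  induction hx using Algebra.adjoin_induction with
  | mem x hx =>
    obtain ⟨σ, hσ, rfl⟩ := hx
    rw [Y.ρ_trace, Y.ρ_trace]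
    exact h σ hσ
  | algebraMap o =>
    rw [Y.ρ_algebraMap, Y.ρ_algebraMap]
    have e1 : Matrix.fromBlocks (algebraMap 𝒪 (Matrix (Fin (Y.d k')) (Fin (Y.d k'))
        (Lam p g 𝒪 n)) o) 0 0 (algebraMap 𝒪 _ o) = algebraMap 𝒪 (Lam p g 𝒪 n) o •
          (1 : Matrix (Fin (Y.d k') ⊕ Fin (Y.d k')) (Fin (Y.d k') ⊕ Fin (Y.d k'))
            (Lam p g 𝒪 n)) := by
      rw [← Matrix.fromBlocks_one, Matrix.fromBlocks_smul, smul_zero,
        Algebra.algebraMap_eq_smul_one, algebraMap_smul]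
    have e2 : algebraMap 𝒪 (Matrix (Fin (Y.d k)) (Fin (Y.d k)) (Lam p g 𝒪 n)) o =
        algebraMap 𝒪 (Lam p g 𝒪 n) o • (1 : Matrix (Fin (Y.d k)) (Fin (Y.d k))
            (Lam p g 𝒪 n)) := by
      rw [Algebra.algebraMap_eq_smul_one, algebraMap_smul]
    rw [e1, e2, Matrix.mul_smul, Matrix.smul_mul, Matrix.mul_one, Matrix.one_mul]
  | add x y _ _ hx hy =>
    rw [map_add, map_add, fromBlocks_diag_add, Matrix.mul_add, hx, hy, Matrix.add_mul]
  | mul x y _ _ hx hy =>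
    rw [map_mul, map_mul, fromBlocks_diag_mul, ← Matrix.mul_assoc, hx, Matrix.mul_assoc, hy,
      Matrix.mul_assoc]

/-- degeneracy data from finite level data, with commutation with traces only -/
def DegL.ofTrace {k k' : K} (𝓕 : ℕ → Set GQ)
    (htr : ∀ n, Algebra.adjoin 𝒪 {x : (Y.A n).R | ∃ σ ∈ 𝓕 n, x = ((Y.A n).r0 σ).trace} = ⊤)
    (ι : ∀ n, Matrix (Fin (Y.d k)) (Fin (Y.d k') ⊕ Fin (Y.d k')) (Lam p g 𝒪 n))
    (ι' : ∀ n, Matrix (Fin (Y.d k') ⊕ Fin (Y.d k')) (Fin (Y.d k)) (Lam p g 𝒪 n))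
    (h : ∀ n, ∀ σ ∈ 𝓕 n, ι n * Matrix.fromBlocks (Y.act n k' ((Y.C n (Y.lev k')).r σ).trace) 0 0
      (Y.act n k' ((Y.C n (Y.lev k')).r σ).trace) = Y.act n k ((Y.C n (Y.lev k)).r σ).trace * ι n)
    (h' : ∀ n, ∀ σ ∈ 𝓕 n, ι' n * Y.act n k ((Y.C n (Y.lev k)).r σ).trace =
      Matrix.fromBlocks (Y.act n k' ((Y.C n (Y.lev k')).r σ).trace) 0 0
      (Y.act n k' ((Y.C n (Y.lev k')).r σ).trace) * ι' n)
    (inj : ∀ n, Function.Injective ((ι n).map (kapL p g 𝒪 n)).mulVec)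
    (surj : ∀ n, Function.Surjective ((ι' n).map (kapL p g 𝒪 n)).mulVec) : DegL Y k k' where
  ι := ι
  ι' := ι'
  hι n := lin_of_trace (𝓕 n) (htr n) (ι n) (h n)
  hι' n := lin_of_trace' (𝓕 n) (htr n) (ι' n) (h' n)
  inj := inj
  surj := surj

end trace

end Fermat.Agent.RT8
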