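import Fermat.Agent.RT8.Sys

/-!
# Assembly of the patching argument
-/

set_option autoImplicit false
set_option linter.unusedSectionVars false
set_option linter.unusedVariables false

namespace Fermat.Agent.RT8

open IsLocalRing Fermat.Agent.RT1 Fermat.Agent.LocRing Fermat.Agent.DefRing Fermat.Agent.RT8J

section residue

variable {O : Type} [CommRing O] [IsLocalRing O] [Finite (ResidueField O)] {Λ γ : Type}
    {F₀ N₀ : Λ → Matrix (Fin 2) (Fin 2) O}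

theorem finite_residueField_pkg (V : FPkg γ F₀ N₀) : Finite (ResidueField V.R) := by
  have hloc := V.isLocalHom
  have h : Function.Surjective (ResidueField.map V.ι) := by
    intro y
    obtain ⟨x, rfl⟩ := residue_surjective y
    obtain ⟨b, hb⟩ := V.resSurj x
    refine ⟨residue O b, ?_⟩
    rw [ResidueField.map_residue]
    rw [← residue_eq_zero_iff, map_sub, sub_eq_zero] at hb
    exact hb.symm
  exact Finite.of_surjective _ h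

end residue

/-- the equations of `±`-Steinberg pairs -/
structure IsStPm {A : Type*} [CommRing A] (q : A) (F N : Matrix (Fin 2) (Fin 2) A) : Prop where
  tr : F.trace ^ 2 = (q + 1) ^ 2
  XN : (F * F - 1) * N = (q ^ 2 - 1) • N
  NX : N * (F * F - 1) = 0
  trX : (F * F - 1).trace = q ^ 2 - 1
  detX : (F * F - 1).det = 0

section

variable {A : Type*} [CommRing A] {q : A} {F N : Matrix (Fin 2) (Fin 2) A}

theorem isStPm_of_isSt (h : IsSt q F N) : IsStPm q F N := by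
  have htr := h.trF
  have hdet := h.detF
  rw [Matrix.trace_fin_two] at htr
  rw [Matrix.det_fin_two] at hdet
  refine ⟨by rw [h.trF], ?_, ?_, ?_, ?_⟩
  · rw [Matrix.sub_mul, Matrix.one_mul, Matrix.mul_assoc, h.FN, Matrix.mul_smul, h.FN, smul_smul,
      sub_smul, one_smul, pow_two]
  · rw [Matrix.mul_sub, Matrix.mul_one, ← Matrix.mul_assoc, h.NF, h.NF, sub_self]
  · rw [Matrix.trace_fin_two]
    simp only [Matrix.sub_apply, Matrix.mul_apply, Fin.sum_univ_two, Matrix.one_apply_eq]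
    linear_combination (F 0 0 + F 1 1 + (q + 1)) * htr - 2 * hdet
  · rw [Matrix.det_fin_two]
    simp only [Matrix.sub_apply, Matrix.mul_apply, Fin.sum_univ_two, Matrix.one_apply_eq,
      Matrix.one_apply_ne (show (0 : Fin 2) ≠ 1 by decide),
      Matrix.one_apply_ne (show (1 : Fin 2) ≠ 0 by decide)]
    have e : (F 0 0 * F 0 0 + F 0 1 * F 1 0 - 1) * (F 1 0 * F 0 1 + F 1 1 * F 1 1 - 1) -
        (F 0 0 * F 0 1 + F 0 1 * F 1 1 - 0) * (F 1 0 * F 0 0 + F 1 1 * F 1 0 - 0) =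
        (F 0 0 * F 1 1 - F 0 1 * F 1 0) ^ 2 - (F 0 0 + F 1 1) ^ 2 +
          2 * (F 0 0 * F 1 1 - F 0 1 * F 1 0) + 1 := by ring
    rw [e, htr, hdet]
    ring

theorem isStPm_of_isSt_neg (h : IsSt q (-F) N) : IsStPm q F N := by
  obtain ⟨h1, h2, h3, h4, h5⟩ := isStPm_of_isSt h
  have e : -F * -F = F * F := by rw [neg_mul_neg]
  rw [e] at h2 h3 h4 h5
  refine ⟨?_, h2, h3, h4, h5⟩
  rw [Matrix.trace_neg, neg_sq] at h1
  exact h1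

theorem IsStPm.map {A' : Type*} [CommRing A'] (f : A →+* A') (h : IsStPm q F N) :
    IsStPm (f q) (F.map f) (N.map f) := by
  have e : (F * F - 1).map f = F.map f * F.map f - 1 := map_sq_sub_one f F
  refine ⟨?_, ?_, ?_, ?_, ?_⟩
  · rw [trace_map', ← map_pow, h.tr]; simp
  · rw [← e, ← Matrix.map_mul, h.XN]
    refine Matrix.ext fun i j => ?_
    simp
  · rw [← e, ← Matrix.map_mul, h.NX]
    refine Matrix.ext fun i j => ?_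
    simp
  · rw [← e, trace_map', h.trX]; simp
  · rw [← e, det_map', h.detX, map_zero]

end

/-- framings of a patching system -/
structure Frm {𝒪 : Type} [CommRing 𝒪] [IsLocalRing 𝒪] {rbar : GQ →* M2 (ResidueField 𝒪)}
    {sd : SliceData rbar} {p g : ℕ} {Λ J K : Type} [Fintype Λ] [DecidableEq Λ]
    (Y : Sys sd p g Λ J K) (Υ : Type) (g' : ℕ) where
  F₀ : Λ → M2 𝒪
  N₀ : Λ → M2 𝒪
  hN₀ : ∀ l, (N₀ l).map (residue 𝒪) = rbar (Y.τ l) - 1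
  s : ∀ n, Υ → (Y.A n).R
  Θ : ∀ n, MvPowerSeries (FIdx Λ (Υ ⊕ Fin g')) 𝒪 →ₐ[𝒪] MvPowerSeries (Λ × Fin 3) (Y.A n).R
  surj : ∀ n, Function.Surjective (Θ n)
  ΘF : ∀ n l i j, Θ n (fullF (Υ ⊕ Fin g') F₀ l i j) = frM l ((Y.A n).r0 (Y.φ l)) i j
  ΘN : ∀ n l i j, Θ n (fullN (Υ ⊕ Fin g') N₀ l i j) = frM l ((Y.A n).r0 (Y.τ l) - 1) i j
  Θs : ∀ n u, Θ n (MvPowerSeries.X (Sum.inr (Sum.inl u))) = MvPowerSeries.C (s n u)

section frm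

variable {𝒪 : Type} [CommRing 𝒪] [IsDomain 𝒪] [IsDiscreteValuationRing 𝒪]
  [IsAdicComplete (maximalIdeal 𝒪) 𝒪] [Finite (ResidueField 𝒪)]
  {rbar : GQ →* M2 (ResidueField 𝒪)}
  {sd : SliceData rbar} {p g : ℕ} {Λ J K : Type} [Fintype Λ] [DecidableEq Λ]
  {Y : Sys sd p g Λ J K} {Υ : Type} [Finite Υ] {g' : ℕ} (Z : Frm Y Υ g')

/-- the big power series ring -/
noncomputable abbrev Frm.V : FPkg (Υ ⊕ Fin g') Z.F₀ Z.N₀ := fullPkg (Υ ⊕ Fin g') Z.F₀ Z.N₀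

instance : Finite (ResidueField Z.V.R) := finite_residueField_pkg Z.V

/-- the residue classes of the primes -/
def Sys.q (Y : Sys sd p g Λ J K) (l : Λ) : 𝒪 := (Y.ℓ l : 𝒪)

/-- the framed surjections -/
noncomputable def Frm.th (n : ℕ) : Z.V.R →+* MvPowerSeries (Λ × Fin 3) (Y.A n).R :=
  (Z.Θ n : MvPowerSeries (FIdx Λ (Υ ⊕ Fin g')) 𝒪 →+* MvPowerSeries (Λ × Fin 3) (Y.A n).R)

theorem Frm.th_surj (n : ℕ) : Function.Surjective (Z.th n) := Z.surj n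

theorem map_fg_cc {R : Type} [CommRing R] (l : Λ) :
    (fg R l).map (MvPowerSeries.constantCoeff (σ := Λ × Fin 3) (R := R)) = 1 := by
  have h := map_fg (Λ := Λ) (π := RingHom.id R) l
  have e : (piA Λ (RingHom.id R)) = MvPowerSeries.constantCoeff (σ := Λ × Fin 3) (R := R) := by
    rw [piA]; rfl
  rw [e] at h
  exact h

/-- framed data -/
noncomputable def Frm.D : FData Z.th (fun l => Z.V.ι (Y.q l)) Z.V.F Z.V.N where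
  q n l := (Y.ℓ l : (Y.A n).R)
  F n l := (Y.A n).r0 (Y.φ l)
  N n l := (Y.A n).r0 (Y.τ l) - 1
  G n l := fg _ l
  H n l := fginv _ l
  GH n l := fg_mul_fginv l
  HG n l := fginv_mul_fg l
  Gc n l := map_fg_cc l
  Θq n l := by
    have h1 : Z.V.ι (Y.q l) = ((Y.ℓ l : ℕ) : Z.V.R) := by
      rw [Sys.q]; exact map_natCast Z.V.ι _
    rw [h1, map_natCast, map_natCast]
  ΘF n l := by
    refine Matrix.ext fun i j => ?_
    exact Z.ΘF n l i j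
  ΘN n l := by
    refine Matrix.ext fun i j => ?_
    exact Z.ΘN n l i j

theorem Frm.D_q (n : ℕ) (l : Λ) : Z.D.q n l = (Y.ℓ l : (Y.A n).R) := rfl
theorem Frm.D_F (n : ℕ) (l : Λ) : Z.D.F n l = (Y.A n).r0 (Y.φ l) := rfl
theorem Frm.D_N (n : ℕ) (l : Λ) : Z.D.N n l = (Y.A n).r0 (Y.τ l) - 1 := rfl

/-- the action -/
noncomputable def Sys.rh (Y : Sys sd p g Λ J K) (k : K) (n : ℕ) :
    (Y.A n).R →+* Matrix (Fin (Y.d k)) (Fin (Y.d k)) (Lam p g 𝒪 n) :=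
  (Y.ρ n k : (Y.A n).R →+* Matrix (Fin (Y.d k)) (Fin (Y.d k)) (Lam p g 𝒪 n))

theorem Sys.rh_apply (k : K) (n : ℕ) (x : (Y.A n).R) : Y.rh k n x = Y.ρ n k x := rfl

theorem Frm.isLevel [NeZero p] (k : K) : IsLevel Z.D (Y.rh k) (Y.ram k : Set Λ) where
  sc n a := by
    obtain ⟨x, hx, -⟩ := Y.exists_scalar n k a
    exact ⟨x, hx⟩
  uni n l x hx := by
    have h1 := (Y.A n).uni (Y.ℓ l) (Y.φ l) (Y.τ l) (fun j => Y.uni n j l)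
    have h2 : IsUni ((RingHom.id (Y.A n).R) (Y.ℓ l : (Y.A n).R))
        (((Y.A n).r0 (Y.φ l)).map (RingHom.id (Y.A n).R))
        (((Y.A n).r0 (Y.τ l) - 1).map (RingHom.id (Y.A n).R)) := by
      have e : ((Y.A n).r0 (Y.τ l) - 1).map (RingHom.id (Y.A n).R) = (Y.A n).r0 (Y.τ l) - 1 :=
        Matrix.map_id _
      have e' : ((Y.A n).r0 (Y.φ l)).map (RingHom.id (Y.A n).R) = (Y.A n).r0 (Y.φ l) :=
        Matrix.map_id _
      rw [e, e']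
      exact h1
    have h3 : x = 0 := (isUni_map_iff (RingHom.id (Y.A n).R)).mp h2 x hx
    rw [h3, map_zero]
  unr n l hl i j := by
    have h1 : (Y.A n).pr (Y.lev k) (((Y.A n).r0 (Y.τ l) - 1) i j) = 0 := by
      have h2 := Sys.sub_one_apply_map
        ((Y.A n).pr (Y.lev k) : (Y.A n).R →+* (Y.C n (Y.lev k)).T) ((Y.A n).r0 (Y.τ l)) i j
      have h3 : ((Y.A n).r0 (Y.τ l)).map
          ((Y.A n).pr (Y.lev k) : (Y.A n).R →+* (Y.C n (Y.lev k)).T) = 1 := by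
        rw [← Y.unr n k l (by simpa using hl)]
        exact (Y.A n).pr_r0_apply (Y.lev k) (Y.τ l)
      rw [h3, sub_self] at h2
      exact h2
    rw [Z.D_N, Sys.rh_apply]
    show Y.act n k ((Y.A n).pr (Y.lev k) _) = 0
    rw [h1, map_zero]


/-- degeneracy maps from the level `k'` to the level `k` -/
structure DegL (Y : Sys sd p g Λ J K) (k k' : K) where
  ι : ∀ n, Matrix (Fin (Y.d k)) (Fin (Y.d k') ⊕ Fin (Y.d k')) (Lam p g 𝒪 n)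
  ι' : ∀ n, Matrix (Fin (Y.d k') ⊕ Fin (Y.d k')) (Fin (Y.d k)) (Lam p g 𝒪 n)
  hι : ∀ n (x : (Y.A n).R), ι n * Matrix.fromBlocks (Y.ρ n k' x) 0 0 (Y.ρ n k' x) =
    Y.ρ n k x * ι n
  hι' : ∀ n (x : (Y.A n).R), ι' n * Y.ρ n k x =
    Matrix.fromBlocks (Y.ρ n k' x) 0 0 (Y.ρ n k' x) * ι' n
  inj : ∀ n, Function.Injective ((ι n).map (kapL p g 𝒪 n)).mulVec
  surj : ∀ n, Function.Surjective ((ι' n).map (kapL p g 𝒪 n)).mulVec

/-- degeneracy maps at the prime `l` -/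
structure DegPrime (Y : Sys sd p g Λ J K) (k k' : K) (l : Λ) extends DegL Y k k' where
  comp : ∀ n, ι' n * ι n = Matrix.fromBlocks (Y.ρ n k' ((Y.ℓ l : (Y.A n).R) + 1))
    (Y.ρ n k' ((Y.A n).r0 (Y.φ l)).trace) (Y.ρ n k' ((Y.A n).r0 (Y.φ l)).trace)
    (Y.ρ n k' ((Y.ℓ l : (Y.A n).R) + 1))
  new : ∀ n, ∃ X : Matrix (Fin (Y.d k') ⊕ Fin (Y.d k')) (Fin (Y.d k)) (Lam p g 𝒪 n),
    Y.ρ n k (((Y.A n).r0 (Y.φ l)).trace ^ 2 - ((Y.ℓ l : (Y.A n).R) + 1) ^ 2) = ι n * X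

/-- a level is new at `l` and the monodromy operator is exact modulo the maximal ideal -/
structure NewAt (Y : Sys sd p g Λ J K) (k : K) (l : Λ) : Prop where
  st : ∀ n, IsStPm ((Y.ℓ l : ℕ) : (Y.C n (Y.lev k)).T) ((Y.C n (Y.lev k)).r (Y.φ l))
    ((Y.C n (Y.lev k)).r (Y.τ l) - 1)
  exact : ∀ v : Fin (Y.d k) ⊕ Fin (Y.d k) → ResidueField 𝒪,
    ((Matrix.fromBlocks (Y.act₀ k (((Y.C₀ (Y.lev k)).r (Y.τ l) - 1) 0 0))
      (Y.act₀ k (((Y.C₀ (Y.lev k)).r (Y.τ l) - 1) 0 1))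
      (Y.act₀ k (((Y.C₀ (Y.lev k)).r (Y.τ l) - 1) 1 0))
      (Y.act₀ k (((Y.C₀ (Y.lev k)).r (Y.τ l) - 1) 1 1))).map (residue 𝒪)).mulVec v = 0 →
    ∃ u, ((Matrix.fromBlocks (Y.act₀ k (((Y.C₀ (Y.lev k)).r (Y.τ l) - 1) 0 0))
      (Y.act₀ k (((Y.C₀ (Y.lev k)).r (Y.τ l) - 1) 0 1))
      (Y.act₀ k (((Y.C₀ (Y.lev k)).r (Y.τ l) - 1) 1 0))
      (Y.act₀ k (((Y.C₀ (Y.lev k)).r (Y.τ l) - 1) 1 1))).map (residue 𝒪)).mulVec u = v

theorem Sys.ρ_kap (k : K) (n : ℕ) (x : (Y.A n).R) :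
    (Y.rh k n x).map (kapL p g 𝒪 n) = (Y.act₀ k (Y.pr n (Y.lev k)
      ((Y.A n).pr (Y.lev k) x))).map (residue 𝒪) := by
  rw [← Y.act_aug]
  refine Matrix.ext fun i j => ?_
  rfl

/-- projection as a ring hom -/
noncomputable def Sys.prR (Y : Sys sd p g Λ J K) (k : K) (n : ℕ) :
    (Y.A n).R →+* (Y.C n (Y.lev k)).T :=
  ((Y.A n).pr (Y.lev k) : (Y.A n).R →+* (Y.C n (Y.lev k)).T)

theorem Sys.prR_r0 (k : K) (n : ℕ) (σ : GQ) :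
    ((Y.A n).r0 σ).map (Y.prR k n) = (Y.C n (Y.lev k)).r σ := (Y.A n).pr_r0_apply (Y.lev k) σ

theorem Sys.prR_N (k : K) (n : ℕ) (l : Λ) :
    ((Y.A n).r0 (Y.τ l) - 1).map (Y.prR k n) = (Y.C n (Y.lev k)).r (Y.τ l) - 1 := by
  rw [Sys.map_sub_one', Y.prR_r0]

theorem Sys.rh_eq_zero {k : K} {n : ℕ} {x : (Y.A n).R} (h : Y.prR k n x = 0) :
    Y.rh k n x = 0 := by
  show Y.act n k (Y.prR k n x) = 0
  rw [h, map_zero]

theorem Sys.pr_N (k : K) (n : ℕ) (l : Λ) (i j : Fin 2) :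
    (Y.A n).pr (Y.lev k) (((Y.A n).r0 (Y.τ l) - 1) i j) =
      ((Y.C n (Y.lev k)).r (Y.τ l) - 1) i j := by
  have h2 := Sys.sub_one_apply_map
    ((Y.A n).pr (Y.lev k) : (Y.A n).R →+* (Y.C n (Y.lev k)).T) ((Y.A n).r0 (Y.τ l)) i j
  have h3 : ((Y.A n).r0 (Y.τ l)).map
      ((Y.A n).pr (Y.lev k) : (Y.A n).R →+* (Y.C n (Y.lev k)).T) =
        (Y.C n (Y.lev k)).r (Y.τ l) := (Y.A n).pr_r0_apply (Y.lev k) (Y.τ l)
  rw [h3] at h2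
  exact h2

theorem Sys.pr_pr_N (k : K) (n : ℕ) (l : Λ) (i j : Fin 2) :
    Y.pr n (Y.lev k) (((Y.C n (Y.lev k)).r (Y.τ l) - 1) i j) =
      ((Y.C₀ (Y.lev k)).r (Y.τ l) - 1) i j := by
  have h2 := Sys.sub_one_apply_map
    (Y.pr n (Y.lev k) : (Y.C n (Y.lev k)).T →+* (Y.C₀ (Y.lev k)).T)
      ((Y.C n (Y.lev k)).r (Y.τ l)) i j
  have h3 : ((Y.C n (Y.lev k)).r (Y.τ l)).map
      (Y.pr n (Y.lev k) : (Y.C n (Y.lev k)).T →+* (Y.C₀ (Y.lev k)).T) =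
        (Y.C₀ (Y.lev k)).r (Y.τ l) := by rw [← Y.pr_r n]; rfl
  rw [h3] at h2
  exact h2

theorem Sys.ρ_N_kap (k : K) (n : ℕ) (l : Λ) (i j : Fin 2) :
    (Y.rh k n (((Y.A n).r0 (Y.τ l) - 1) i j)).map (kapL p g 𝒪 n) =
      (Y.act₀ k (((Y.C₀ (Y.lev k)).r (Y.τ l) - 1) i j)).map (residue 𝒪) := by
  rw [Y.ρ_kap, Y.pr_N, Y.pr_pr_N]

section supp

variable (hp : p.Prime) (hp𝒪 : (p : 𝒪) ∈ maximalIdeal 𝒪)
  {γ : Type} [Fintype γ] {U : FPkg γ Z.F₀ Z.N₀} {𝔅 : Type} [Finite 𝔅] {θ : 𝔅 → Z.V.R →+* U.R}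
  (hC : Cmp U θ (fun l => Z.V.ι (Y.q l)) Z.V.F Z.V.N g (Λ × Fin 3) Y.q)

/-- support -/
def Frm.Sup (U : FPkg γ Z.F₀ Z.N₀) (θ : 𝔅 → Z.V.R →+* U.R) (k : K) (b : 𝔅)
    (c : CompIdx Y.q Z.F₀ Z.N₀) : Prop :=
  RT8.Supp U (θ := θ) hp hp𝒪 (Θ := Z.th) (Y.rh k) b c

/-- `p`-part -/
def Frm.PP (U : FPkg γ Z.F₀ Z.N₀) (θ : 𝔅 → Z.V.R →+* U.R) (k : K) (B : Set 𝔅) : Prop :=
  RT8.PPart U (θ := θ) hp hp𝒪 (Θ := Z.th) (Y.rh k) B

include hC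

/-- **Lowering.** -/
theorem Frm.lower [NeZero p] (k : K) (hd : 0 < Y.d k) {B : Set 𝔅} (hB : Z.PP hp hp𝒪 U θ k B)
    (l : Λ) (hnew : NewAt Y k l) : (Z.N₀ l).map (residue 𝒪) ≠ 0 := by
  have i1 : Nonempty (Fin (Y.d k)) := ⟨⟨0, hd⟩⟩
  refine RT8.lower U hC hp hp𝒪 Z.th_surj Z.D (ρ := Y.rh k) (Z.isLevel k) hB l
    (fun n => Sys.rh_eq_zero ?_) (fun n i j => Sys.rh_eq_zero ?_)
    (fun n i j => Sys.rh_eq_zero ?_) (fun n => Sys.rh_eq_zero ?_) (fun n => Sys.rh_eq_zero ?_)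
    (fun n v hv => ?_)
  · rw [Z.D_F, Z.D_q, map_sub, map_pow, map_pow, map_add, map_one, map_natCast, ← trace_map',
      Y.prR_r0, (hnew.st n).tr, sub_self]
  · have h1 := congrFun (congrFun (hnew.st n).XN i) j
    rw [← sub_eq_zero, ← Matrix.sub_apply] at h1
    rw [← h1, Z.D_F, Z.D_q, Z.D_N]
    rw [← Y.prR_N k n l, ← Y.prR_r0 k n, ← map_sq_sub_one, ← Matrix.map_mul]
    simp only [Matrix.sub_apply, Matrix.smul_apply, Matrix.map_apply, smul_eq_mul, map_sub,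
      map_mul, map_pow, map_natCast, map_one]
  · have h1 := congrFun (congrFun (hnew.st n).NX i) j
    rw [← Y.prR_N k n l, ← Y.prR_r0 k n, ← map_sq_sub_one, ← Matrix.map_mul] at h1
    exact h1
  · have h1 := (hnew.st n).trX
    rw [← Y.prR_r0 k n, ← map_sq_sub_one, trace_map'] at h1
    rw [Z.D_F, Z.D_q, map_sub, h1, map_sub, map_pow, map_natCast, map_one, sub_self]
  · have h1 := (hnew.st n).detX
    rw [← Y.prR_r0 k n, ← map_sq_sub_one, det_map'] at h1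
    exact h1
  · rw [Matrix.fromBlocks_map] at hv ⊢
    simp only [Z.D_N, Y.ρ_N_kap] at hv ⊢
    have h1 := hnew.exact v
    rw [Matrix.fromBlocks_map] at h1
    exact h1 hv

/-- **Raising.** -/
theorem Frm.raise [NeZero p] (k k' : K) {B : Set 𝔅} (hB : Z.PP hp hp𝒪 U θ k B) (l : Λ)
    (W : DegPrime Y k k' l) (b : 𝔅) (c c₁ : CompIdx Y.q Z.F₀ Z.N₀)
    (hcl : c.1 l = .stp ∨ c.1 l = .stm) (hc₁ : c₁.1 = Function.update c.1 l .unr)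
    (hsupp : Z.Sup hp hp𝒪 U θ k' b c₁) : Z.Sup hp hp𝒪 U θ k b c :=
  RT8.raise U hC hp hp𝒪 Z.th_surj Z.D (ρ := Y.rh k) (ρ' := Y.rh k') (Z.isLevel k)
    (Z.isLevel k') hB l b c c₁ hcl hc₁ hsupp W.ι W.ι' W.hι W.hι' W.inj W.surj W.comp W.new

/-- **Raising at `p`.** -/
theorem Frm.raise_p [NeZero p] (k k' : K) {B : Set 𝔅} (hB : Z.PP hp hp𝒪 U θ k B)
    (W : DegL Y k k') (b b₁ : 𝔅) (c : CompIdx Y.q Z.F₀ Z.N₀)
    (hsupp : Z.Sup hp hp𝒪 U θ k' b₁ c)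
    (tp : ∀ n, (Y.A n).R) (tp' : Z.V.R) (htp : ∀ n, Z.th n tp' = MvPowerSeries.C (tp n))
    (hcomp : ∀ n, W.ι' n * W.ι n = Matrix.fromBlocks (Y.ρ n k' ((p : (Y.A n).R) + 1))
      (Y.ρ n k' (tp n)) (Y.ρ n k' (tp n)) (Y.ρ n k' ((p : (Y.A n).R) + 1)))
    (u : Z.V.R) (un : ∀ n, (Y.A n).R) (hu : ∀ n, Z.th n u = MvPowerSeries.C (un n))
    (hY : ∀ n, ∃ X : Matrix (Fin (Y.d k') ⊕ Fin (Y.d k')) (Fin (Y.d k)) (Lam p g 𝒪 n),
      Y.ρ n k (un n) = W.ι n * X)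
    (P : Ideal Z.V.R) (hP : P.IsPrime) (hPb : (U.qI Y.q c.1).comap (θ b₁) ≤ P)
    (hdet : ((p : Z.V.R) + 1) ^ 2 - tp' ^ 2 ∈ P)
    (hPc : ∀ (b' : 𝔅) (c' : CompIdx Y.q Z.F₀ Z.N₀), (U.qI Y.q c'.1).comap (θ b') ≤ P →
      u ∈ (U.qI Y.q c'.1).comap (θ b') → (b', c') = (b, c)) :
    Z.Sup hp hp𝒪 U θ k b c :=
  RT8.raise_p U hC hp hp𝒪 Z.th_surj Z.D (ρ := Y.rh k) (ρ' := Y.rh k') (Z.isLevel k)
    (Z.isLevel k') hB b b₁ c hsupp W.ι W.ι' W.hι W.hι' W.inj W.surj tp tp' htp hcomp u un hu hY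
    P hP hPb hdet hPc

/-- existence of a supported component -/
theorem Frm.exists_sup [NeZero p] (k : K) (hd : 0 < Y.d k) {B : Set 𝔅}
    (hB : Z.PP hp hp𝒪 U θ k B) :
    ∃ b ∈ B, ∃ c : CompIdx Y.q Z.F₀ Z.N₀, Z.Sup hp hp𝒪 U θ k b c := by
  have i1 : Nonempty (Fin (Y.d k)) := ⟨⟨0, hd⟩⟩
  exact (Z.isLevel k).exists_supp U hC hp hp𝒪 Z.th_surj Z.D hB

omit hC in
/-- monotonicity -/
theorem Frm.mono (k k' : K) (W : DegL Y k k') (b : 𝔅) (c : CompIdx Y.q Z.F₀ Z.N₀)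
    (h : Z.Sup hp hp𝒪 U θ k' b c) : Z.Sup hp hp𝒪 U θ k b c :=
  le_trans (kerInf_le_of_injective hp hp𝒪 Z.th (Y.rh k) (Y.rh k') W.ι W.hι W.inj) h

/-- all compatible components -/
theorem Frm.all_sup [NeZero p] (κ : Finset Λ → K) (S₀ : Finset Λ)
    (hram : ∀ S, S₀ ⊆ S → Y.ram (κ S) = S) (b : 𝔅) (B : Set 𝔅)
    (hB : ∀ S, S₀ ⊆ S → Z.PP hp hp𝒪 U θ (κ S) B)
    (hS₀ : ∀ l ∈ S₀, (Z.N₀ l).map (residue 𝒪) ≠ 0)
    (hbase : ∃ c, Z.Sup hp hp𝒪 U θ (κ S₀) b c)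
    (W : ∀ S, S₀ ⊆ S → ∀ l ∉ S, DegPrime Y (κ (insert l S)) (κ S) l)
    (S : Finset Λ) (hS : S₀ ⊆ S) (c : CompIdx Y.q Z.F₀ Z.N₀) (hc : ∀ l ∉ S, c.1 l = .unr) :
    Z.Sup hp hp𝒪 U θ (κ S) b c := by
  have hlev : IsLevel Z.D (Y.rh (κ S₀)) (S₀ : Set Λ) := by
    have h := Z.isLevel (κ S₀)
    rwa [hram S₀ (Finset.Subset.refl _)] at h
  refine RT8.all_supported U hC hp hp𝒪 Z.D (m := fun S => Fin (Y.d (κ S)))
    (ρ := fun S => Y.rh (κ S)) S₀ b hlev hS₀ hbase ?_ ?_ S hS c hc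
  · intro S hS l hl
    exact kerInf_le_of_injective hp hp𝒪 Z.th (Y.rh _) (Y.rh _) (W S hS l hl).ι (W S hS l hl).hι
      (W S hS l hl).inj
  · intro S hS l hl c c₁ h1 h2 h3
    exact Z.raise hp hp𝒪 hC _ _ (hB _ (hS.trans (Finset.subset_insert _ _))) l (W S hS l hl)
      b c c₁ h1 h2 h3

/-- **Points are modular.** -/
theorem Frm.point [NeZero p] (k : K) (j : J) [IsDomain (Y.C₀ j).T] (b : 𝔅)
    (hxb : ∀ n (r : Z.V.R), θ b r = 0 →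
      Y.A₀.pr j (Y.π n (MvPowerSeries.constantCoeff (Z.th n r))) = 0)
    (hS : ∀ l ∉ Y.ram k, (Y.C₀ j).r (Y.τ l) = 1)
    (hsupp : ∀ c : CompIdx Y.q Z.F₀ Z.N₀, (∀ l ∉ Y.ram k, c.1 l = .unr) →
      Z.Sup hp hp𝒪 U θ k b c)
    (t : Y.A₀.R) (ht : Y.ρ₀ k t = 0) : Y.A₀.pr j t = 0 := by
  have i1 : Finite (ResidueField Y.A₀.R) := by
    refine Finite.of_surjective (fun x : ResidueField 𝒪 => ResidueField.map (algebraMap 𝒪 Y.A₀.R) x)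
      fun y => ?_
    obtain ⟨o, ho⟩ := Y.A₀.surj y
    exact ⟨residue 𝒪 o, by rw [← ho]; exact ResidueField.map_residue _ _⟩
  refine RT8.point_modular U hC hp hp𝒪 Z.th_surj Z.D (ρ := Y.rh k) (algebraMap 𝒪 Y.A₀.R)
    (fun n => (Y.π n : (Y.A n).R →+* Y.A₀.R)) (fun n => Y.π_surj n)
    (fun n a => Y.exists_scalar n k a)
    (Y.ρ₀ k : Y.A₀.R →+* Matrix (Fin (Y.d k)) (Fin (Y.d k)) 𝒪) (fun n x => Y.ρ_aug n k x)
    (fun l => (Y.ℓ l : Y.A₀.R)) (fun l => Y.A₀.r0 (Y.φ l)) (fun l => Y.A₀.r0 (Y.τ l) - 1)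
    (fun n l => map_natCast _ _) (fun n l => ?_) (fun n l => ?_)
    (Y.A₀.pr j : Y.A₀.R →+* (Y.C₀ j).T) b hxb (fun l => ?_) (Y.ram k : Set Λ) (fun l hl => ?_)
    (fun c hc => hsupp c fun l hl => hc l (by simpa using hl)) t ht
  · rw [Z.D_F, ← Y.π_r n]; rfl
  · rw [Z.D_N, Sys.map_sub_one', ← Y.π_r n]; rfl
  · have e1 : (Y.A₀.r0 (Y.φ l)).map (Y.A₀.pr j : Y.A₀.R →+* (Y.C₀ j).T) =
        (Y.C₀ j).r (Y.φ l) := Y.A₀.pr_r0_apply j _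
    have e2 : (Y.A₀.r0 (Y.τ l)).map (Y.A₀.pr j : Y.A₀.R →+* (Y.C₀ j).T) =
        (Y.C₀ j).r (Y.τ l) := Y.A₀.pr_r0_apply j _
    rw [map_natCast, e1, Sys.map_sub_one', e2]
    exact Y.uni₀ j l
  · have e2 : (Y.A₀.r0 (Y.τ l)).map (Y.A₀.pr j : Y.A₀.R →+* (Y.C₀ j).T) =
        (Y.C₀ j).r (Y.τ l) := Y.A₀.pr_r0_apply j _
    rw [Sys.map_sub_one', e2, hS l (by simpa using hl), sub_self]

end supp

end frm

end Fermat.Agent.RT8
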