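import Fermat.Agent.TWP.Tame2
import Fermat.Agent.ORD.Hilb
import Fermat.Agent.RT8.Assemble

/-!
# Unipotent inertia and the tame relation
-/

set_option autoImplicit false
set_option linter.unusedSectionVars false
set_option linter.unusedVariables false

namespace Fermat.Agent.RT8

open IsLocalRing Fermat.Agent.LocRing Fermat.Agent.DefRing
open Fermat.Agent.TWP (Qb Pl Pl_lies tame_gen)

section kum

variable {q : Nat.Primes}

/-- the Kummer homomorphism on inertia -/
noncomputable def kumG (m : ℕ) (hm0 : 0 < m) (hm : m.Coprime (q : ℕ)) (c : Qb) (hc0 : c ≠ 0)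
    (hc : c ^ m = ((q : ℕ) : Qb)) : ↥((Pl q).inertiaSubgroupIn ℚ) →* Qbˣ where
  toFun σ := Units.mk0 (σ.1 c / c) (div_ne_zero ((map_ne_zero σ.1).mpr hc0) hc0)
  map_one' := Units.ext (div_self hc0)
  map_mul' σ τ := by
    apply Units.ext
    show σ.1 (τ.1 c) / c = σ.1 c / c * (τ.1 c / c)
    have h1 : (τ.1 c / c) ^ m = 1 := by
      rw [div_pow, ← map_pow, hc, map_natCast, div_self]
      exact_mod_cast q.2.ne_zero
    have h2 := Fermat.Agent.QuadRep.inertia_smul_root q.2 (Pl_lies q) σ.2 hm0 hm _ h1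
    have h3 : σ.1 (τ.1 c) = σ.1 c * (τ.1 c / c) := by
      rw [map_div₀] at h2
      have : σ.1 c ≠ 0 := (map_ne_zero σ.1).mpr hc0
      rw [← h2, mul_div_cancel₀ _ this]
    rw [h3, mul_div_right_comm]

variable {p : ℕ} [hp : Fact p.Prime]

/-- **Tame relation** in every quotient in which inertia becomes a `p`-group. -/
theorem tame_conj (hq : (q : ℕ) ≠ p) {c : Qb} (hc : c ^ p = ((q : ℕ) : Qb)) {τ φ : GQ}
    (hτ : τ ∈ (Pl q).inertiaSubgroupIn ℚ) (hτc : τ c ≠ c) (hφ : (Pl q).IsFrobeniusAt φ q)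
    {H : Type*} [Group H] (f : GQ →* H)
    (L : IntermediateField ℚ (AlgebraicClosure ℚ)) [FiniteDimensional ℚ L]
    (hf : ∀ σ : GQ, (∀ x ∈ L, σ x = x) → f σ = 1)
    (hfp : ∀ σ ∈ (Pl q).inertiaSubgroupIn ℚ, ∃ k, f σ ^ p ^ k = 1) :
    f (φ * τ * φ⁻¹) = f τ ^ (q : ℕ) := by
  obtain ⟨k, hk⟩ := hfp τ hτ
  obtain ⟨c', hc'⟩ := IsAlgClosed.exists_pow_nat_eq c (pow_pos hp.out.pos k)
  have hc0 : c ≠ 0 := by
    rintro rfl
    rw [zero_pow hp.out.ne_zero] at hc
    exact q.2.ne_zero (by exact_mod_cast hc.symm)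
  have hc'0 : c' ≠ 0 := by
    rintro rfl
    rw [zero_pow (pow_pos hp.out.pos k).ne'] at hc'
    exact hc0 hc'.symm
  have hcc : c' ^ p ^ (k + 1) = ((q : ℕ) : Qb) := by
    rw [pow_succ, pow_mul, hc', hc]
  have hm0 : 0 < p ^ (k + 1) := pow_pos hp.out.pos _
  have hm : (p ^ (k + 1)).Coprime (q : ℕ) :=
    Nat.Coprime.pow_left _ ((Nat.coprime_primes hp.out q.2).mpr (Ne.symm hq))
  set κ := kumG (p ^ (k + 1)) hm0 hm c' hc'0 hcc with hκ
  have hκp : ∀ σ, κ σ ^ p ^ (k + 1) = 1 := by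
    intro σ
    apply Units.ext
    rw [Units.val_pow_eq_pow_val, Units.val_one]
    show (σ.1 c' / c') ^ p ^ (k + 1) = 1
    rw [div_pow, ← map_pow, hcc, map_natCast, div_self]
    exact_mod_cast q.2.ne_zero
  have hcfd : FiniteDimensional ℚ (IntermediateField.adjoin ℚ {c'}) :=
    IntermediateField.adjoin.finiteDimensional (Algebra.IsAlgebraic.isAlgebraic c').isIntegral
  have hφD : φ ∈ (Pl q).decompositionSubgroup ℚ := hφ.mem_decompositionSubgroup
  have hσI : φ * τ * φ⁻¹ ∈ (Pl q).inertiaSubgroupIn ℚ :=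
    Fermat.Agent.ORD.conj_mem_inertia hφD hτ
  obtain ⟨j, hj⟩ := tame_gen hq hc hτ hτc
    ((f.comp (Subgroup.subtype _)).prod κ) (L ⊔ IntermediateField.adjoin ℚ {c'}) (by
      intro σ hσ
      rw [MonoidHom.prod_apply, MonoidHom.comp_apply]
      have h0 : f ((Subgroup.subtype _) σ) = 1 :=
        hf σ.1 fun x hx => hσ x ((le_sup_left : L ≤ _) hx)
      have h1 : κ σ = 1 := by
        apply Units.ext
        show σ.1 c' / c' = 1
        rw [hσ c' ((le_sup_right : IntermediateField.adjoin ℚ {c'} ≤ _)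
          (IntermediateField.mem_adjoin_simple_self ℚ c')), div_self hc'0]
      rw [h0, h1]
      rfl) (by
      intro σ
      obtain ⟨a, ha⟩ := hfp σ.1 σ.2
      refine ⟨a + (k + 1), ?_⟩
      rw [MonoidHom.prod_apply, Prod.pow_mk, Prod.mk_eq_one, pow_add]
      constructor
      · rw [pow_mul]
        show (f σ.1 ^ p ^ a) ^ p ^ (k + 1) = 1
        rw [ha, one_pow]
      · rw [mul_comm, pow_mul, hκp, one_pow]) ⟨φ * τ * φ⁻¹, hσI⟩
  have hj1 : f (φ * τ * φ⁻¹) = f τ ^ j := congrArg Prod.fst hj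
  have hj2 : κ ⟨φ * τ * φ⁻¹, hσI⟩ = κ ⟨τ, hτ⟩ ^ j := congrArg Prod.snd hj
  -- the value of the Kummer character on the conjugate
  have hconj : κ ⟨φ * τ * φ⁻¹, hσI⟩ = κ ⟨τ, hτ⟩ ^ (q : ℕ) := by
    apply Units.ext
    rw [Units.val_pow_eq_pow_val]
    show (φ * τ * φ⁻¹ : GQ) c' / c' = (τ c' / c') ^ (q : ℕ)
    have h1 : (τ c' / c') ^ p ^ (k + 1) = 1 := by
      have := congrArg Units.val (hκp ⟨τ, hτ⟩)
      rw [Units.val_pow_eq_pow_val, Units.val_one] at this
      exact this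
    rw [← Fermat.Agent.QuadRep.frobenius_smul_root q.2 (Pl_lies q) hφ hm0 hm _ h1]
    set ζ := (φ⁻¹ : GQ) c' / c' with hζ
    have h2 : ζ ^ p ^ (k + 1) = 1 := by
      rw [hζ, div_pow, ← map_pow, hcc, map_natCast, div_self]
      exact_mod_cast q.2.ne_zero
    have h3 : τ ζ = ζ :=
      Fermat.Agent.QuadRep.inertia_smul_root q.2 (Pl_lies q) hτ hm0 hm _ h2
    have h4 : (φ⁻¹ : GQ) c' = ζ * c' := by rw [hζ, div_mul_cancel₀ _ hc'0]
    have h5 : φ ζ * φ c' = c' := by
      rw [← map_mul, ← h4]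
      exact φ.apply_symm_apply c'
    rw [AlgEquiv.mul_apply, AlgEquiv.mul_apply, h4, map_mul, h3, map_mul]
    have h6 : φ (τ c') = φ (τ c' / c') * φ c' := by
      rw [← map_mul, div_mul_cancel₀ _ hc'0]
    rw [h6]
    field_simp
    linear_combination (φ (τ c' / c')) * h5
  -- the order of the Kummer character at `τ`
  have hne : κ ⟨τ, hτ⟩ ^ p ^ k ≠ 1 := by
    intro h
    apply hτc
    have h1 := congrArg Units.val h
    rw [Units.val_pow_eq_pow_val, Units.val_one] at h1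
    have h2 : (τ c' / c') ^ p ^ k = 1 := h1
    rw [div_pow, ← map_pow, hc', div_eq_one_iff_eq hc0] at h2
    exact h2
  have hord : orderOf (κ ⟨τ, hτ⟩) = p ^ (k + 1) := orderOf_eq_prime_pow hne (hκp _)
  have hz : κ ⟨τ, hτ⟩ ^ (j - (q : ℕ)) = 1 := by
    rw [zpow_sub, ← hj2, hconj, zpow_natCast, mul_inv_cancel]
  have hdvd : ((p ^ (k + 1) : ℕ) : ℤ) ∣ j - (q : ℕ) := by
    rw [← hord]
    exact orderOf_dvd_iff_zpow_eq_one.mpr hz
  obtain ⟨i, hi⟩ := hdvd
  have hfin : f τ ^ (j - (q : ℕ) : ℤ) = 1 := by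
    rw [hi, Nat.cast_pow, pow_succ, mul_assoc, zpow_mul]
    have h1 : f τ ^ ((p : ℤ) ^ k) = 1 := by
      rw [← Nat.cast_pow, zpow_natCast, hk]
    rw [h1, one_zpow]
  rw [zpow_sub, mul_inv_eq_one, zpow_natCast] at hfin
  rw [hj1, hfin]

end kum

section mat

variable {R : Type*} [CommRing R]

theorem one_add_pow_of_sq {N : Matrix (Fin 2) (Fin 2) R} (hN : N * N = 0) (m : ℕ) :
    (1 + N) ^ m = 1 + (m : R) • N := by
  induction m with
  | zero => simp
  | succ m ih =>
    rw [pow_succ, ih, add_mul, one_mul, mul_add, mul_one, smul_mul_assoc, hN, smul_zero, add_zero,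
      Nat.cast_succ, add_smul, one_smul]
    abel

/-- trace and determinant of the monodromy -/
theorem tr_det_zero {N : Matrix (Fin 2) (Fin 2) R} (hN : N * N = 0) (hdet : (1 + N).det = 1) :
    N.trace = 0 ∧ N.det = 0 := by
  have h1 : N.trace + N.det = 0 := by
    rw [Matrix.det_fin_two, Matrix.add_apply, Matrix.add_apply, Matrix.add_apply,
      Matrix.add_apply, Matrix.one_apply_eq, Matrix.one_apply_eq,
      Matrix.one_apply_ne (show (0 : Fin 2) ≠ 1 by decide),
      Matrix.one_apply_ne (show (1 : Fin 2) ≠ 0 by decide)] at hdet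
    rw [Matrix.trace_fin_two, Matrix.det_fin_two]
    linear_combination hdet
  have h00 := congrFun (congrFun hN 0) 0
  have h01 := congrFun (congrFun hN 0) 1
  have h10 := congrFun (congrFun hN 1) 0
  have h11 := congrFun (congrFun hN 1) 1
  rw [Matrix.mul_apply, Fin.sum_univ_two, Matrix.zero_apply] at h00 h01 h10 h11
  have h2 : N.trace = 0 := by
    rw [Matrix.trace_fin_two, Matrix.det_fin_two] at h1
    rw [Matrix.trace_fin_two]
    have hdet' := hdet
    rw [Matrix.det_fin_two, Matrix.add_apply, Matrix.add_apply, Matrix.add_apply,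
      Matrix.add_apply, Matrix.one_apply_eq, Matrix.one_apply_eq,
      Matrix.one_apply_ne (show (0 : Fin 2) ≠ 1 by decide),
      Matrix.one_apply_ne (show (1 : Fin 2) ≠ 0 by decide)] at hdet'
    -- `t (1 + N) = 0` with `t = tr N`
    have e00 : (N 0 0 + N 1 1) * (1 + N 0 0) = 0 := by linear_combination h00 + h1
    have e01 : (N 0 0 + N 1 1) * N 0 1 = 0 := by linear_combination h01
    have e10 : (N 0 0 + N 1 1) * N 1 0 = 0 := by linear_combination h10
    have e11 : (N 0 0 + N 1 1) * (1 + N 1 1) = 0 := by linear_combination h11 + h1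
    linear_combination (-(N 0 0 + N 1 1)) * hdet' + (1 + N 1 1) * e00 - N 1 0 * e01
  exact ⟨h2, by rw [h2, zero_add] at h1; exact h1⟩

end mat

section uni

variable {T : Type} [CommRing T] [IsLocalRing T] [IsHausdorff (maximalIdeal T) T] {p : ℕ}
  [hp : Fact p.Prime] (hpT : (p : T) ∈ maximalIdeal T) (r : GQ →* M2 T) (hcont : MatCont T r)
  {q : Nat.Primes} (hq : (q : ℕ) ≠ p) {c : Qb} (hc : c ^ p = ((q : ℕ) : Qb)) {τ φ : GQ}
  (hτ : τ ∈ (Pl q).inertiaSubgroupIn ℚ) (hτc : τ c ≠ c) (hφ : (Pl q).IsFrobeniusAt φ q)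
  (hI : ∀ σ ∈ (Pl q).inertiaSubgroupIn ℚ, (r σ - 1) * (r σ - 1) = 0)

include hpT hcont hq hc hτ hτc hφ hI in
/-- the relation between Frobenius and monodromy -/
theorem frob_mono : r φ * (r τ - 1) = ((q : ℕ) : T) • ((r τ - 1) * r φ) := by
  rw [← sub_eq_zero]
  have key : ∀ n : ℕ, ∀ i j, (r φ * (r τ - 1) - ((q : ℕ) : T) • ((r τ - 1) * r φ)) i j ∈
      maximalIdeal T ^ n := by
    intro n
    obtain ⟨L, hLf, hL⟩ := hcont n
    let π : T →+* T ⧸ maximalIdeal T ^ n := Ideal.Quotient.mk _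
    let s : GQ →* M2 (T ⧸ maximalIdeal T ^ n) := mapRep π r
    have hs : ∀ σ, s σ = (r σ).map π := fun σ => rfl
    have hs1 : ∀ σ, s σ - 1 = (r σ - 1).map π := fun σ => by
      rw [Sys.map_sub_one', hs]
    have hsI : ∀ σ ∈ (Pl q).inertiaSubgroupIn ℚ, (s σ - 1) * (s σ - 1) = 0 := by
      intro σ hσ
      rw [hs1, ← Matrix.map_mul, hI σ hσ]
      exact Matrix.map_zero π (map_zero π)
    have hp0 : ((p ^ n : ℕ) : T ⧸ maximalIdeal T ^ n) = 0 := by
      rw [Nat.cast_pow, ← map_natCast π, ← map_pow]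
      exact Ideal.Quotient.eq_zero_iff_mem.mpr (Ideal.pow_mem_pow hpT n)
    have hpow : ∀ σ ∈ (Pl q).inertiaSubgroupIn ℚ, ∀ m : ℕ,
        s σ ^ m = 1 + (m : T ⧸ maximalIdeal T ^ n) • (s σ - 1) := by
      intro σ hσ m
      have h1 := one_add_pow_of_sq (hsI σ hσ) m
      rwa [add_sub_cancel] at h1
    have h1 := tame_conj hq hc hτ hτc hφ s.toHomUnits L (by
      intro σ hσ
      apply Units.ext
      rw [MonoidHom.coe_toHomUnits, Units.val_one, ← sub_eq_zero, hs1]
      refine Matrix.ext fun i j => ?_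
      exact Ideal.Quotient.eq_zero_iff_mem.mpr (hL σ hσ i j)) (by
      intro σ hσ
      refine ⟨n, Units.ext ?_⟩
      rw [Units.val_pow_eq_pow_val, MonoidHom.coe_toHomUnits, hpow σ hσ, hp0, zero_smul, add_zero,
        Units.val_one])
    have h2 : s (φ * τ * φ⁻¹) = s τ ^ (q : ℕ) := by
      have := congrArg Units.val h1
      rwa [Units.val_pow_eq_pow_val, MonoidHom.coe_toHomUnits, MonoidHom.coe_toHomUnits] at this
    have h3 : s φ * s τ = (1 + ((q : ℕ) : T ⧸ maximalIdeal T ^ n) • (s τ - 1)) * s φ := by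
      rw [← hpow τ hτ, ← h2, ← map_mul, ← map_mul]
      congr 1
      group
    have h4 : s φ * (s τ - 1) - ((q : ℕ) : T ⧸ maximalIdeal T ^ n) • ((s τ - 1) * s φ) = 0 := by
      rw [mul_sub, mul_one, h3, add_mul, one_mul, smul_mul_assoc]
      abel
    intro i j
    rw [← Ideal.Quotient.eq_zero_iff_mem]
    have h5 : (r φ * (r τ - 1) - ((q : ℕ) : T) • ((r τ - 1) * r φ)).map π = 0 := by
      rw [← h4, hs1]
      refine Matrix.ext fun a b => ?_
      simp only [Matrix.map_apply, Matrix.sub_apply, Matrix.smul_apply, smul_eq_mul, map_sub,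
        map_mul, map_natCast, Matrix.mul_apply, Fin.sum_univ_two, map_add, hs]
    exact congrFun (congrFun h5 i) j
  refine Matrix.ext fun i j => ?_
  have h1 : (r φ * (r τ - 1) - ((q : ℕ) : T) • ((r τ - 1) * r φ)) i j ∈
      (⨅ n : ℕ, (maximalIdeal T ^ n • ⊤ : Submodule T T)) := by
    rw [Submodule.mem_iInf]
    intro n
    have := key n i j
    rwa [smul_eq_mul, Ideal.mul_top]
  rw [IsHausdorff.iInf_pow_smul inferInstance] at h1
  exact h1

include hpT hcont hq hc hτ hτc hφ hI in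
/-- **Unipotent inertia** gives a unipotent pair. -/
theorem isUni_of_unip (hdφ : (r φ).det = ((q : ℕ) : T)) (hdτ : (r τ).det = 1) :
    IsUni ((q : ℕ) : T) (r φ) (r τ - 1) := by
  have h1 := hI τ hτ
  have h2 := tr_det_zero h1 (by rw [add_sub_cancel]; exact hdτ)
  exact ⟨hdφ, frob_mono hpT r hcont hq hc hτ hτc hφ hI, h1, h2.1, h2.2⟩

end uni

section dom

variable {A : Type*} [CommRing A] [IsDomain A] {q : A} {F N : Matrix (Fin 2) (Fin 2) A}

/-- the Steinberg relations over a domain -/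
theorem isStPm_of_isUni (hq : q ≠ 0) (h : IsUni q F N) (htr : F.trace ^ 2 = (q + 1) ^ 2) :
    IsStPm q F N := by
  rcases h.cover hq with h1 | h1 | h1
  · have hN : N = 0 := h1.N0
    have e : (F.trace - (q + 1)) * (F.trace + (q + 1)) = 0 := by linear_combination htr
    subst hN
    rcases mul_eq_zero.mp e with h2 | h2
    · refine isStPm_of_isSt ⟨sub_eq_zero.mp h2, h.detF, ?_, ?_, ?_, ?_⟩ <;> simp
    · refine isStPm_of_isSt_neg ⟨?_, ?_, ?_, ?_, ?_, ?_⟩
      · rw [Matrix.trace_neg]; linear_combination -h2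
      · have h3 := h.detF
        rw [Matrix.det_fin_two] at h3 ⊢
        simp only [Matrix.neg_apply]
        linear_combination h3
      all_goals simp
  · exact isStPm_of_isSt h1
  · exact isStPm_of_isSt_neg h1

end dom

section family

variable {T : Type*} [CommRing T] {J : Type*} {T' : J → Type*} [∀ j, CommRing (T' j)]
  (f : ∀ j, T →+* T' j) (hf : ∀ x, (∀ j, f j x = 0) → x = 0)
  {q : T} {F N : Matrix (Fin 2) (Fin 2) T}

include hf in
theorem isUni_of_family (h : ∀ j, IsUni (f j q) (F.map (f j)) (N.map (f j))) : IsUni q F N := by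
  have h1 : IsUni ((RingHom.id T) q) (F.map (RingHom.id T)) (N.map (RingHom.id T)) := by
    rw [isUni_map_iff]
    intro x hx
    rw [RingHom.id_apply]
    exact hf x fun j => (isUni_map_iff (f j)).mp (h j) x hx
  have e : N.map (RingHom.id T) = N := Matrix.map_id _
  have e' : F.map (RingHom.id T) = F := Matrix.map_id _
  rwa [e, e'] at h1

include hf in
theorem matrix_eq_of_family {X Y : Matrix (Fin 2) (Fin 2) T}
    (h : ∀ j, X.map (f j) = Y.map (f j)) : X = Y := by
  refine Matrix.ext fun a b => ?_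
  rw [← sub_eq_zero]
  refine hf _ fun j => ?_
  rw [map_sub, sub_eq_zero]
  exact congrFun (congrFun (h j) a) b

include hf in
theorem isStPm_of_family (h : ∀ j, IsStPm (f j q) (F.map (f j)) (N.map (f j))) :
    IsStPm q F N := by
  have h0 : ∀ {x y : T}, (∀ j, f j x = f j y) → x = y := fun {x y} h => by
    rw [← sub_eq_zero]
    exact hf _ fun j => by rw [map_sub, h j, sub_self]
  have e : ∀ j, (F * F - 1).map (f j) = F.map (f j) * F.map (f j) - 1 := fun j =>
    map_sq_sub_one (f j) F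
  refine ⟨?_, ?_, ?_, ?_, ?_⟩
  · refine h0 fun j => ?_
    rw [map_pow, ← trace_map', (h j).tr, map_pow, map_add, map_one]
  · refine matrix_eq_of_family f hf fun j => ?_
    rw [Matrix.map_mul, e, (h j).XN]
    refine Matrix.ext fun a b => ?_
    simp
  · refine matrix_eq_of_family f hf fun j => ?_
    rw [Matrix.map_mul, e, (h j).NX]
    refine Matrix.ext fun a b => ?_
    simp
  · refine h0 fun j => ?_
    rw [← trace_map', e, (h j).trX]
    simp
  · refine h0 fun j => ?_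
    rw [← det_map', e, (h j).detX, map_zero]

end family

end Fermat.Agent.RT8
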