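import Fermat.Agent.RT8.ModMain
import Fermat.Agent.TW.TrGen

/-!
# Degeneracy data between two Taylor-Wiles levels
-/

set_option autoImplicit false
set_option linter.unusedSectionVars false
set_option linter.unusedVariables false

namespace Fermat.Agent.RT8

open IsLocalRing Module Fermat.Agent.RT1 Fermat.Agent.LocRing Fermat.Agent.DefRing
  Fermat.Agent.RT8J

section

variable {𝒪 : Type} [CommRing 𝒪] [IsDomain 𝒪] [IsDiscreteValuationRing 𝒪]
  [IsAdicComplete (maximalIdeal 𝒪) 𝒪] {rbar : GQ →* M2 (ResidueField 𝒪)}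
  {sd : SliceData rbar} {p g n : ℕ} {P : Fin g → TWP rbar}

/-- the Frobenius elements at the primes not dividing `m` -/
def FrobsOut (m : ℕ) : Set GQ :=
  {σ | ∃ l : ℕ, l.Prime ∧ ¬ l ∣ m ∧ ∃ A : ValuationSubring (AlgebraicClosure ℚ),
    A.LiesOverPrime l ∧ A.IsFrobeniusAt σ l}

/-- Degeneracy maps between the modules of two Taylor-Wiles levels. -/
structure DegT {B B₂ : BMod sd} (L : TMod p P n B) (L₂ : TMod p P n B₂) (𝓕 : Set GQ) where
  up : L₂.M × L₂.M →+ L.M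
  down : L.M →+ L₂.M × L₂.M
  upO : ∀ (o : 𝒪) x y, up (algebraMap 𝒪 L₂.C.T o • x, algebraMap 𝒪 L₂.C.T o • y) =
    algebraMap 𝒪 L.C.T o • up (x, y)
  downO : ∀ (o : 𝒪) x, down (algebraMap 𝒪 L.C.T o • x) =
    (algebraMap 𝒪 L₂.C.T o • (down x).1, algebraMap 𝒪 L₂.C.T o • (down x).2)
  up_tr : ∀ σ ∈ 𝓕, ∀ x y, up ((L₂.C.r σ).trace • x, (L₂.C.r σ).trace • y) =
    (L.C.r σ).trace • up (x, y)
  down_tr : ∀ σ ∈ 𝓕, ∀ x, down ((L.C.r σ).trace • x) =
    ((L₂.C.r σ).trace • (down x).1, (L₂.C.r σ).trace • (down x).2)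
  inj : ∀ x y, up (x, y) ∈ (JLam p g 𝒪 n • ⊤ : Submodule (Lam p g 𝒪 n) L.M) →
    x ∈ (JLam p g 𝒪 n • ⊤ : Submodule (Lam p g 𝒪 n) L₂.M) ∧
    y ∈ (JLam p g 𝒪 n • ⊤ : Submodule (Lam p g 𝒪 n) L₂.M)
  surj : Function.Surjective down

/-- Degeneracy maps with the composition formula and the structure of the new part at `ℓ`,
with Frobenius `φ`. -/
structure DegPT {B B₂ : BMod sd} (L : TMod p P n B) (L₂ : TMod p P n B₂) (𝓕 : Set GQ)
    (ℓ : ℕ) (φ : GQ) extends DegT L L₂ 𝓕 where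
  comp : ∀ x y, down (up (x, y)) =
      (((ℓ : L₂.C.T) + 1) • x + (L₂.C.r φ).trace • y,
       (L₂.C.r φ).trace • x + ((ℓ : L₂.C.T) + 1) • y)
  new : ∀ x : L.M, ∃ y, ((L.C.r φ).trace ^ 2 - ((ℓ : L.C.T) + 1) ^ 2) • x = up y

/-- the structure of new levels at the Taylor-Wiles level -/
def NewT {B : BMod sd} (L : TMod p P n B) (ℓ : ℕ) (φ τ : GQ) : Prop :=
  IsStPm (ℓ : L.C.T) (L.C.r φ) (L.C.r τ - 1)

theorem adjoin_frobsOut {J : Type} {T : J → Type} [∀ j, CommRing (T j)] [∀ j, Algebra 𝒪 (T j)]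
    {r : ∀ j, GQ →* M2 (T j)} (A : RT8J.JRing sd T r)
    (hspan : Submodule.span (ResidueField 𝒪) (Set.range rbar) = ⊤) {m : ℕ} (hm : m ≠ 0) :
    Algebra.adjoin 𝒪 {x : A.R | ∃ σ ∈ FrobsOut m, x = (A.r0 σ).trace} = ⊤ := by
  refine TW.jring_top A hspan _ m.divisors fun l hl hlm B hB τ hτ => ?_
  refine Algebra.subset_adjoin ⟨τ, ⟨l, hl, fun h => hlm ?_, B, hB, hτ⟩, rfl⟩
  exact Nat.mem_divisors.mpr ⟨h, hm⟩

variable {Λ K : Type} [Fintype Λ] [DecidableEq Λ] [Finite K] (X : MSys sd p g Λ K)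

/-- degeneracy maps in a system -/
def DegT.toDegM {n : ℕ} {k k' : K} {m : ℕ} (W : DegT (X.L n k) (X.L n k') (FrobsOut m))
    (hspan : Submodule.span (ResidueField 𝒪) (Set.range rbar) = ⊤) (hm : m ≠ 0) :
    DegM X n k k' where
  up := W.up
  down := W.down
  upO := W.upO
  downO := W.downO
  𝓕 := FrobsOut m
  htr := fun A => adjoin_frobsOut A hspan hm
  up_tr := W.up_tr
  down_tr := W.down_tr
  inj := W.inj
  surj := W.surj

/-- degeneracy data in a system -/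
def DegPT.toDegPM {k k' : K} {l : Λ} {m : ℕ → ℕ}
    (W : ∀ n, DegPT (X.L n k) (X.L n k') (FrobsOut (m n)) (X.ℓ l) (X.φ l))
    (hspan : Submodule.span (ResidueField 𝒪) (Set.range rbar) = ⊤) (hm : ∀ n, m n ≠ 0) :
    DegPM X k k' l where
  W := fun n => (W n).toDegT.toDegM X hspan (hm n)
  comp := fun n => (W n).comp
  new := fun n => (W n).new

theorem NewM.mk' {k : K} {l : Λ} (h : ∀ n, NewT (X.L n k) (X.ℓ l) (X.φ l) (X.τ l))
    (hex : ExactM (X.B k) ((X.B k).C.r (X.τ l) - 1)) : NewM X k l := ⟨h, hex⟩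

end

end Fermat.Agent.RT8
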