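import Fermat.Agent.RT8.ThetaFree
import Fermat.Agent.TW.FreeTheta

/-!
# Taylor-Wiles levels from the diamond operators
-/

set_option autoImplicit false
set_option linter.unusedSectionVars false
set_option linter.unusedVariables false

namespace Fermat.Agent.RT8

open IsLocalRing Module Fermat.Agent.RT1 Fermat.Agent.LocRing Fermat.Agent.DefRing
  Fermat.Agent.RT8J

section ofDiamond

variable {p g n : ℕ} {𝒪 : Type} [CommRing 𝒪] [IsDomain 𝒪] [IsDiscreteValuationRing 𝒪]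
  [IsAdicComplete (maximalIdeal 𝒪) 𝒪] {rbar : GQ →* M2 (ResidueField 𝒪)} {sd : SliceData rbar}
  (hp : p.Prime) (hp2 : p ≠ 2) (hp𝒪 : (p : 𝒪) ∈ maximalIdeal 𝒪)
  (P : Fin g → TWP rbar) (C : Cpt sd) {M : Type} [AddCommGroup M] [Module 𝒪 M] [Module C.T M]
  (tower : ∀ (o : 𝒪) (x : M), algebraMap 𝒪 C.T o • x = o • x) [Module.Finite 𝒪 M]
  {Δ : Type} [CommGroup Δ] [Fintype Δ] (hcard : Fintype.card Δ = (p ^ (n + 1)) ^ g)
  (d : Fin g → Δ) (hd : Subgroup.closure (Set.range d) = ⊤) (hd1 : ∀ i, d i ^ (p ^ (n + 1)) = 1)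
  (ρ : Representation 𝒪 Δ M) {r : ℕ} (w : Fin r → M) (hb : Function.Bijective (TW.freeMap ρ w))
  (hc : ∀ (t : C.T) δ (x : M), t • ρ δ x = ρ δ (t • x))
  (hplus : ∀ i (x : M), theta (P i) C.r • theta (P i) C.r • x + x =
    theta (P i) C.r • ρ (d i) x + theta (P i) C.r • ρ (d i)⁻¹ x)
  (h1 : ∀ i (x : M), ∃ y, theta (P i) C.r • x - x = ρ (d i) y - y)

theorem plus_of_trace {P : TWP rbar} {C : Cpt sd} {M : Type} [AddCommGroup M] [Module C.T M]
    (hcm : C.r P.φ * C.r P.s = C.r P.s * C.r P.φ) (hdet : (C.r P.s).det = 1)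
    {x y z : M} (htr : (C.r P.s).trace • x = y + z) :
    theta P C.r • theta P C.r • x + x = theta P C.r • y + theta P C.r • z := by
  have h := theta_root P C.red hcm
  rw [← smul_add, ← htr, smul_smul, smul_smul]
  have h2 : theta P C.r * theta P C.r = (C.r P.s).trace * theta P C.r - 1 := by
    rw [hdet] at h
    linear_combination h
  rw [h2, sub_smul, one_smul, sub_add_cancel, mul_comm]

/-- multiplication by an element of the Hecke algebra as an `𝒪`-linear map -/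
def mulO (C : Cpt sd) {M : Type} [AddCommGroup M] [Module 𝒪 M] [Module C.T M]
    (tower : ∀ (o : 𝒪) (x : M), algebraMap 𝒪 C.T o • x = o • x) (t : C.T) : M →ₗ[𝒪] M where
  toFun x := t • x
  map_add' := smul_add t
  map_smul' o x := by
    rw [RingHom.id_apply, ← tower, ← tower, smul_smul, smul_smul, mul_comm]

theorem mulO_pow (t : C.T) (k : ℕ) (x : M) : (mulO C tower t ^ k) x = t ^ k • x := by
  induction k generalizing x with
  | zero => rw [pow_zero, pow_zero, one_smul]; rfl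
  | succ k ih => rw [pow_succ, pow_succ, Module.End.mul_apply, ih, mul_smul]; rfl

include hp hp2 hp𝒪 hcard hd hd1 hb hc hplus h1 tower in
theorem range_eq_theta (i : Fin g) :
    (∀ x : M, theta (P i) C.r ^ (p ^ (n + 1)) • x = x) ∧
      ∀ y, (∃ x, ρ (d i) x - x = y) ↔ ∃ x : M, theta (P i) C.r • x - x = y := by
  have h := range_eq hp hp2 hp𝒪 hcard d hd hd1 ρ w hb i (mulO C tower (theta (P i) C.r))
    (fun δ x => hc _ δ x) (fun x => hplus i x) (fun x => h1 i x)
  refine ⟨fun x => ?_, h.2⟩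
  rw [← mulO_pow C tower]
  exact h.1 x

include hp hp2 hp𝒪 hcard hd hd1 hb hc hplus h1 tower in
theorem theta_pow_eq_one (hfaith : ∀ t : C.T, (∀ x : M, t • x = 0) → t = 0) (i : Fin g) :
    theta (P i) C.r ^ p ^ (n + 1) = 1 := by
  rw [← sub_eq_zero]
  apply hfaith
  intro x
  rw [sub_smul, one_smul, (range_eq_theta hp hp2 hp𝒪 P C tower hcard d hd hd1 ρ w hb hc
    hplus h1 i).1, sub_self]

include hp hp2 hp𝒪 hcard hd hd1 hb hc hplus h1 tower in
/-- freeness over the group algebra acting through `θ` -/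
theorem free_theta (hfaith : ∀ t : C.T, (∀ x : M, t • x = 0) → t = 0)
    (γ : Lam p g 𝒪 n →ₐ[𝒪] C.T) (hγ : ∀ i, γ (delm p g 𝒪 n i) = theta (P i) C.r - 1)
    [modL : Module (Lam p g 𝒪 n) M] (hL : ∀ (a : Lam p g 𝒪 n) (x : M), a • x = γ a • x) :
    Module.Free (RT8.Lam p g 𝒪 n) M ∧ Module.Finite (RT8.Lam p g 𝒪 n) M ∧
      ∀ z : Δ → M, (∑ δ, (ρ δ (z δ) - z δ)) ∈
        (Ideal.span (Set.range (RT8.delm p g 𝒪 n)) • ⊤ : Submodule (RT8.Lam p g 𝒪 n) M) := by
  have ht : IsScalarTower 𝒪 (Lam p g 𝒪 n) M := ⟨fun o a x => by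
    rw [hL, hL, map_smul, ← tower, smul_smul, Algebra.smul_def]⟩
  refine TW.free_of_range_eq hp hp𝒪 hcard d hd ρ w hb (fun δ a x => ?_) fun i y => ?_
  · rw [hL, hL, hc]
  · rw [(range_eq_theta hp hp2 hp𝒪 P C tower hcard d hd hd1 ρ w hb hc hplus h1 i).2 y]
    refine exists_congr fun x => ?_
    rw [hL, hγ, sub_smul, one_smul]

/-- **A Taylor-Wiles level from diamond data.** -/
noncomputable def TMod.ofDiamond (B : BMod sd)
    (gen : Algebra.adjoin 𝒪 {x : C.T | ∃ σ i j, x = C.r σ i j} = ⊤)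
    (pr : C.T →ₐ[𝒪] B.C.T) (pr_r : mapRep (pr : C.T →+* B.C.T) C.r = B.C.r)
    (hfaith : ∀ t : C.T, (∀ x : M, t • x = 0) → t = 0)
    (π : M →+ B.M) (π_smul : ∀ (t : C.T) x, π (t • x) = pr t • π x)
    (π_surj : Function.Surjective π)
    (π_ker : ∀ x, π x = 0 → ∃ z : Δ → M, x = ∑ δ, (ρ δ (z δ) - z δ))
    (triv : ∀ i, B.C.r (P i).s = 1) : TMod p P n B :=
  let hθ := theta_pow_eq_one hp hp2 hp𝒪 P C tower hcard d hd hd1 ρ w hb hc hplus h1 hfaith
  let γ := gam P hp.pos C.r hθ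
  letI modL : Module (Lam p g 𝒪 n) M := Module.compHom M (γ : Lam p g 𝒪 n →+* C.T)
  have hL : ∀ (a : Lam p g 𝒪 n) (x : M), a • x = γ a • x := fun a x => rfl
  have key := free_theta hp hp2 hp𝒪 P C tower hcard d hd hd1 ρ w hb hc hplus h1 hfaith γ
    (gam_delm P hp.pos C.r hθ) hL
  { C := C
    gen := gen
    pr := pr
    pr_r := pr_r
    M := M
    γ := γ
    γ_delm := gam_delm P hp.pos C.r hθ
    γ_smul := fun a x => rfl
    free := key.1
    finite := key.2.1
    π := π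
    π_smul := π_smul
    π_surj := π_surj
    π_ker := fun x hx => by
      obtain ⟨z, rfl⟩ := π_ker x hx
      exact key.2.2 z
    triv := triv }

end ofDiamond

end Fermat.Agent.RT8
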