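import Fermat.Agent.RT8.PkgMaps

/-!
# The comparison data in the two cases
-/

set_option autoImplicit false
set_option linter.unusedSectionVars false
set_option linter.unusedVariables false

namespace Fermat.Agent.RT8

open IsLocalRing Fermat.Agent.RT1 Fermat.Agent.LocRing

section

variable {O : Type} [CommRing O] [IsDomain O] [IsDiscreteValuationRing O]
  [IsAdicComplete (maximalIdeal O) O] {Λ ι : Type} [Fintype Λ] [Fintype ι] [DecidableEq Λ]
  {q : Λ → O} {F₀ N₀ : Λ → Matrix (Fin 2) (Fin 2) O} {g : ℕ} {τ : Type}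

/-- numerical conditions -/
structure NumC (q : Λ → O) : Prop where
  hq : ∀ l, IsUnit (q l)
  h2 : IsUnit (2 : O)
  h20 : (2 : O) ≠ 0
  hq1 : ∀ l, q l + 1 ≠ 0
  hqm1 : ∀ l, q l - 1 ≠ 0

/-- comparison data in the simple case -/
theorem cmpA (U : FPkg ι F₀ N₀) (h : NumC q)
    (hγ : Fintype.card ι + 3 * Fintype.card Λ ≤ Nat.card τ + g) :
    Cmp U (fun _ : Unit => RingHom.id U.R) (fun l => U.ι (q l)) U.F U.N g τ q where
  hq := h.hq
  h2 := h.h2
  h20 := h.h20
  hq1 := h.hq1
  hqm1 := h.hqm1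
  θs _ := Function.surjective_id
  θq _ _ := rfl
  θF _ l := Matrix.map_id _
  θN _ l := Matrix.map_id _
  inc _ _ _ _ _ := rfl
  hγ := hγ

variable (V : FPkg (Bool ⊕ ι) F₀ N₀) (U : FPkg (Unit ⊕ ι) F₀ N₀)

/-- specialisations in case (B): `θ b` kills the variable `b`. -/
structure SpecB (θ : Bool → V.R →+* U.R) : Prop where
  loc : ∀ b, IsLocalHom (θ b)
  alg : ∀ b, (θ b).comp V.ι = U.ι
  F : ∀ b l, (V.F l).map (θ b) = U.F l
  N : ∀ b l, (V.N l).map (θ b) = U.N l
  x0 : ∀ b, θ b (V.x (Sum.inl b)) = 0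
  x1 : ∀ b, θ b (V.x (Sum.inl (!b))) = U.x (Sum.inl ())
  xr : ∀ b i, θ b (V.x (Sum.inr i)) = U.x (Sum.inr i)

theorem exists_specB : ∃ θ : Bool → V.R →+* U.R, SpecB V U θ := by
  have key : ∀ b, ∃ θ : V.R →+* U.R, IsLocalHom θ ∧ θ.comp V.ι = U.ι ∧
      (∀ l, (V.F l).map θ = U.F l) ∧ (∀ l, (V.N l).map θ = U.N l) ∧
      ∀ i, θ (V.x i) = Sum.elim (fun b' => if b' = b then 0 else U.x (Sum.inl ()))
        (fun i => U.x (Sum.inr i)) i := fun b => exists_spec V U _ (by
      rintro (b' | i)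
      · show (if b' = b then 0 else U.x (Sum.inl ())) ∈ _
        split_ifs
        · exact Ideal.zero_mem _
        · exact U.x_mem _
      · exact U.x_mem _)
  choose θ h0 h1 h2 h3 h4 using key
  refine ⟨θ, h0, h1, h2, h3, fun b => ?_, fun b => ?_, fun b i => ?_⟩
  · rw [h4]; simp
  · rw [h4]; cases b <;> simp
  · rw [h4]; rfl

variable {V U} {θ : Bool → V.R →+* U.R} (hθ : SpecB V U θ)

include hθ

theorem SpecB.surj (b : Bool) : Function.Surjective (θ b) ∧
    RingHom.ker (θ b) = Ideal.span {V.x (Sum.inl b)} := by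
  obtain ⟨h1, h2⟩ := spec_kill (hθ.loc b) (hθ.alg b) (hθ.F b) (hθ.N b)
    (Sum.map (fun _ : Unit => !b) id) (by
      rintro (u | i)
      · exact hθ.x1 b
      · exact hθ.xr b i) (by
      rintro (b' | i) hi
      · have : b' = b := by
          by_contra hne
          apply hi
          refine ⟨Sum.inl (), ?_⟩
          show Sum.inl (!b) = Sum.inl b'
          congr 1
          cases b <;> cases b' <;> simp_all
        rw [this]
        exact hθ.x0 b
      · exact absurd ⟨Sum.inr i, rfl⟩ hi)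
  refine ⟨h1, ?_⟩
  rw [h2]
  congr 1
  ext y
  constructor
  · rintro ⟨(b' | i), hi, rfl⟩
    · have : b' = b := by
        by_contra hne
        apply hi
        refine ⟨Sum.inl (), ?_⟩
        show Sum.inl (!b) = Sum.inl b'
        congr 1
        cases b <;> cases b' <;> simp_all
      rw [this]
      rfl
    · exact absurd ⟨Sum.inr i, rfl⟩ hi
  · rintro rfl
    refine ⟨Sum.inl b, ?_, rfl⟩
    rintro ⟨(u | i), hi⟩
    · have : (!b) = b := Sum.inl_injective hi
      cases b <;> simp at this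
    · exact absurd hi (by rintro ⟨⟩)

/-- comparison data in case (B) -/
theorem SpecB.cmp (h : NumC q)
    (hγ : Fintype.card (Unit ⊕ ι) + 3 * Fintype.card Λ ≤ Nat.card τ + g) :
    Cmp U θ (fun l => V.ι (q l)) V.F V.N g τ q where
  hq := h.hq
  h2 := h.h2
  h20 := h.h20
  hq1 := h.hq1
  hqm1 := h.hqm1
  θs b := (hθ.surj b).1
  θq b l := DFunLike.congr_fun (hθ.alg b) (q l)
  θF := hθ.F
  θN := hθ.N
  inc b b' T hT hle := by
    by_contra hne
    have h1 : V.x (Sum.inl b') ∈ RingHom.ker (θ b') := hθ.x0 b'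
    have h2 := hle h1
    have h3 : b' = !b := by cases b <;> cases b' <;> simp_all
    rw [Ideal.mem_comap, h3, hθ.x1 b] at h2
    exact x_notMem U h.hq T hT _ h2
  hγ := hγ

/-- covering: a prime containing the product of the two variables -/
theorem SpecB.cover (P : Ideal V.R) (hP : P.IsPrime)
    (h : V.x (Sum.inl false) * V.x (Sum.inl true) ∈ P) : ∃ b, RingHom.ker (θ b) ≤ P := by
  rcases hP.mem_or_mem h with h1 | h1
  · exact ⟨false, by rw [(hθ.surj false).2, Ideal.span_singleton_le_iff_mem]; exact h1⟩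
  · exact ⟨true, by rw [(hθ.surj true).2, Ideal.span_singleton_le_iff_mem]; exact h1⟩

/-- the intersection prime -/
theorem SpecB.exists_prime (h : NumC q) (c : CompIdx q F₀ N₀) :
    ∃ P : Ideal V.R, P.IsPrime ∧ (∀ b, (U.qI q c.1).comap (θ b) ≤ P) ∧
      (∀ b, V.x (Sum.inl b) ∈ P) ∧
      ∀ (b' : Bool) (c' : CompIdx q F₀ N₀), (U.qI q c'.1).comap (θ b') ≤ P →
        V.x (Sum.inl false) ∈ (U.qI q c'.1).comap (θ b') → (b', c') = (false, c) := by
  obtain ⟨ψ, h0, h1, h2, h3, h4⟩ := exists_spec U U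
    (Sum.elim (fun _ => 0) (fun i => U.x (Sum.inr i))) (by
      rintro (u | i)
      · exact Ideal.zero_mem _
      · exact U.x_mem _)
  have hψθ : ∀ b b', ψ.comp (θ b) = ψ.comp (θ b') := by
    have key : ∀ b i, ψ (θ b (V.x i)) =
        Sum.elim (fun _ => 0) (fun i => U.x (Sum.inr i)) i := by
      rintro b (b' | i)
      · by_cases hb : b' = b
        · rw [hb, hθ.x0, map_zero]; rfl
        · have h3 : b' = !b := by cases b <;> cases b' <;> simp_all
          rw [h3, hθ.x1, h4]; rfl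
      · rw [hθ.xr, h4]; rfl
    intro b b'
    have i1 := hθ.loc b
    have i2 := hθ.loc b'
    refine V.uniq _ _ inferInstance inferInstance ?_ (fun l => ?_) (fun l => ?_) (fun i => ?_)
    · rw [RingHom.comp_assoc, RingHom.comp_assoc, hθ.alg, hθ.alg]
    · have e1 : (V.F l).map (ψ.comp (θ b)) = ((V.F l).map (θ b)).map ψ := rfl
      have e2 : (V.F l).map (ψ.comp (θ b')) = ((V.F l).map (θ b')).map ψ := rfl
      rw [e1, e2, hθ.F, hθ.F]
    · have e1 : (V.N l).map (ψ.comp (θ b)) = ((V.N l).map (θ b)).map ψ := rfl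
      have e2 : (V.N l).map (ψ.comp (θ b')) = ((V.N l).map (θ b')).map ψ := rfl
      rw [e1, e2, hθ.N, hθ.N]
    · rw [RingHom.comp_apply, RingHom.comp_apply, key, key]
  have hprime : (U.qI q c.1).IsPrime := (U.component h.hq c.1 c.2.2).1
  refine ⟨(U.qI q c.1).comap (ψ.comp (θ false)), Ideal.comap_isPrime _ _, ?_, ?_, ?_⟩
  · intro b r hr
    rw [hψθ false b, Ideal.mem_comap, RingHom.comp_apply]
    exact qI_le_comap U h1 h2 h3 c.1 hr
  · intro b
    rw [hψθ false b, Ideal.mem_comap, RingHom.comp_apply, hθ.x0, map_zero]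
    exact Ideal.zero_mem _
  · intro b' c' hle hmem
    have hb' : b' = false := by
      by_contra hne
      have h5 : b' = true := by simpa using hne
      have h6 : θ true (V.x (Sum.inl false)) = U.x (Sum.inl ()) := hθ.x1 true
      rw [h5, Ideal.mem_comap, h6] at hmem
      exact x_notMem U h.hq c'.1 c'.2.2 _ hmem
    subst hb'
    congr 1
    have h5 : U.qI q c'.1 ≤ (U.qI q c.1).comap ψ := by
      intro y hy
      obtain ⟨x, rfl⟩ := (hθ.surj false).1 y
      exact hle hy
    have h6 : U.qI q c'.1 ≤ U.qI q c.1 := qI_le_of_comap U h1 h2 h3 _ _ h5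
    rw [U.qI_le_qI_iff h.hq h.h20 h.hq1 c'.1 c.1 c.2.2] at h6
    apply Subtype.ext
    funext l
    exact ((c.2.1 l).spec_iff.mp (h6 l)).symm

end

end Fermat.Agent.RT8
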