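import Fermat.Agent.RT1.PowSer
import Fermat.Agent.RT1.Eval

/-!
# Finite algebras over a complete noetherian local ring are complete
-/

set_option autoImplicit false
set_option linter.unusedSectionVars false
set_option linter.unusedVariables false

namespace Fermat.Agent.RT8

open IsLocalRing

section

variable {O A : Type*} [CommRing O] [CommRing A] [Algebra O A]

theorem mem_map_pow_of_sum {n : ℕ} (a : Fin n → A)
    (ha : ∀ x : A, ∃ c : Fin n → O, x = ∑ i, algebraMap O A (c i) * a i) (I : Ideal O) (m : ℕ)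
    (x : A) (hx : x ∈ (I.map (algebraMap O A)) ^ m) :
    ∃ c : Fin n → O, (∀ i, c i ∈ I ^ m) ∧ x = ∑ i, algebraMap O A (c i) * a i := by
  rw [← Ideal.map_pow] at hx
  refine Submodule.span_induction (p := fun x _ => ∃ c : Fin n → O, (∀ i, c i ∈ I ^ m) ∧
    x = ∑ i, algebraMap O A (c i) * a i) ?_ ?_ ?_ ?_ hx
  · rintro _ ⟨o, ho, rfl⟩
    obtain ⟨c, hc⟩ := ha 1
    refine ⟨fun i => o * c i, fun i => Ideal.mul_mem_right _ _ ho, ?_⟩
    calc algebraMap O A o = algebraMap O A o * 1 := by rw [mul_one]
      _ = _ := by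
        rw [hc, Finset.mul_sum]
        exact Finset.sum_congr rfl fun i _ => by rw [map_mul, mul_assoc]
  · exact ⟨0, fun i => Ideal.zero_mem _, by simp⟩
  · rintro x y _ _ ⟨c, hc, rfl⟩ ⟨d, hd, rfl⟩
    refine ⟨c + d, fun i => Ideal.add_mem _ (hc i) (hd i), ?_⟩
    rw [← Finset.sum_add_distrib]
    exact Finset.sum_congr rfl fun i _ => by rw [Pi.add_apply, map_add, add_mul]
  · rintro y x _ ⟨c, hc, rfl⟩
    choose d hd using fun i => ha (y * a i)
    refine ⟨fun j => ∑ i, c i * d i j, fun j => Ideal.sum_mem _ fun i _ =>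
      Ideal.mul_mem_right _ _ (hc i), ?_⟩
    rw [smul_eq_mul, Finset.mul_sum]
    have h1 : ∀ i, y * (algebraMap O A (c i) * a i) =
        ∑ j, algebraMap O A (c i * d i j) * a j := by
      intro i
      calc y * (algebraMap O A (c i) * a i) = algebraMap O A (c i) * (y * a i) := by ring
        _ = _ := by
          rw [hd i, Finset.mul_sum]
          exact Finset.sum_congr rfl fun j _ => by rw [map_mul, mul_assoc]
    rw [Finset.sum_congr rfl fun i _ => h1 i, Finset.sum_comm]
    refine Finset.sum_congr rfl fun j _ => ?_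
    rw [map_sum, Finset.sum_mul]

theorem exists_generators [Module.Finite O A] : ∃ (n : ℕ) (a : Fin n → A),
    ∀ x : A, ∃ c : Fin n → O, x = ∑ i, algebraMap O A (c i) * a i := by
  obtain ⟨n, a, ha⟩ := Module.Finite.exists_fin (R := O) (M := A)
  refine ⟨n, a, fun x => ?_⟩
  have hx : x ∈ Submodule.span O (Set.range a) := by rw [ha]; exact Submodule.mem_top
  rw [Submodule.mem_span_range_iff_exists_fun] at hx
  obtain ⟨c, hc⟩ := hx
  exact ⟨c, by rw [← hc]; exact Finset.sum_congr rfl fun i _ => by rw [Algebra.smul_def]⟩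

end

section

variable {O : Type*} [CommRing O]

/-- limits of series in a complete ring -/
theorem exists_tsum (I : Ideal O) [IsAdicComplete I O] (c : ℕ → O) (hc : ∀ m, c m ∈ I ^ m) :
    ∃ L : O, ∀ m, (∑ j ∈ Finset.range m, c j) - L ∈ I ^ m := by
  have hcauchy : ∀ {m n : ℕ}, m ≤ n → (∑ j ∈ Finset.range m, c j) ≡ (∑ j ∈ Finset.range n, c j)
      [SMOD (I ^ m • ⊤ : Submodule O O)] := by
    intro m n hmn
    rw [SModEq.sub_mem, smul_eq_mul, Ideal.mul_top]
    induction n, hmn using Nat.le_induction with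
    | base => rw [sub_self]; exact Ideal.zero_mem _
    | succ n hmn ih =>
      rw [Finset.sum_range_succ, ← sub_sub]
      exact Ideal.sub_mem _ ih (Ideal.pow_le_pow_right hmn (hc n))
  obtain ⟨L, hL⟩ := IsPrecomplete.prec (inferInstance : IsPrecomplete I O)
    (f := fun m => ∑ j ∈ Finset.range m, c j) hcauchy
  refine ⟨L, fun m => ?_⟩
  have := hL m
  rwa [SModEq.sub_mem, smul_eq_mul, Ideal.mul_top] at this

end

section

variable {O A : Type*} [CommRing O] [IsLocalRing O] [IsNoetherianRing O]
  [IsAdicComplete (maximalIdeal O) O] [CommRing A] [Algebra O A] [Module.Finite O A]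

/-- A finite algebra over a complete noetherian local ring is complete for any ideal defining
the `𝔪_O`-adic topology. -/
theorem isAdicComplete_of_finite (J : Ideal A)
    (h1 : (maximalIdeal O).map (algebraMap O A) ≤ J) (N : ℕ)
    (h2 : J ^ N ≤ (maximalIdeal O).map (algebraMap O A)) : IsAdicComplete J A := by
  set K := (maximalIdeal O).map (algebraMap O A) with hK
  have hKH : ∀ x : A, (∀ m, x ∈ K ^ m) → x = 0 := by
    intro x hx
    have h3 : (⨅ i : ℕ, (maximalIdeal O) ^ i • (⊤ : Submodule O A)) = ⊥ :=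
      Ideal.iInf_pow_smul_eq_bot_of_isLocalRing (I := maximalIdeal O) (M := A)
        (Ideal.IsMaximal.ne_top inferInstance)
    have h4 : x ∈ (⨅ i : ℕ, (maximalIdeal O) ^ i • (⊤ : Submodule O A)) := by
      rw [Submodule.mem_iInf]
      intro i
      have h5 := hx i
      rw [hK, ← Ideal.map_pow] at h5
      have : x ∈ ((maximalIdeal O ^ i).map (algebraMap O A)).restrictScalars O := h5
      rwa [← Ideal.smul_top_eq_map] at this
    rw [h3, Submodule.mem_bot] at h4
    exact h4
  have hN : ∀ m, J ^ (N * m) ≤ K ^ m := fun m => by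
    rw [pow_mul]
    exact Ideal.pow_right_mono h2 m
  refine { haus' := ?_, prec' := ?_ }
  · intro x hx
    apply hKH
    intro m
    have h3 := hx (N * m)
    rw [SModEq.zero, smul_eq_mul, Ideal.mul_top] at h3
    exact hN m h3
  · intro f hf
    obtain ⟨n, a, ha⟩ := exists_generators (O := O) (A := A)
    -- the subsequence
    set M := N + 1 with hM
    have hM' : ∀ m, J ^ (M * m) ≤ K ^ m := fun m =>
      (Ideal.pow_le_pow_right (Nat.mul_le_mul_right m (Nat.le_succ N))).trans (hN m)
    have hg : ∀ m, f (M * (m + 1)) - f (M * m) ∈ K ^ m := by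
      intro m
      have h3 := hf (m := M * m) (n := M * (m + 1)) (Nat.mul_le_mul_left M (Nat.le_succ m))
      rw [SModEq.sub_mem, smul_eq_mul, Ideal.mul_top] at h3
      have h4 := hM' m h3
      have : f (M * (m + 1)) - f (M * m) = -(f (M * m) - f (M * (m + 1))) := by ring
      rw [this]
      exact (Ideal.neg_mem_iff _).2 h4
    choose c hc1 hc2 using fun m => mem_map_pow_of_sum a ha (maximalIdeal O) m _ (hg m)
    choose L hL using fun i => exists_tsum (maximalIdeal O) (fun m => c m i) fun m => hc1 m i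
    have hsum : ∀ m, f (M * m) = f 0 + ∑ i, algebraMap O A (∑ j ∈ Finset.range m, c j i) * a i := by
      intro m
      induction m with
      | zero => simp
      | succ m ih =>
        have h3 : f (M * (m + 1)) = f (M * m) + (f (M * (m + 1)) - f (M * m)) := by ring
        rw [h3, hc2 m, ih, add_assoc, ← Finset.sum_add_distrib]
        congr 1
        refine Finset.sum_congr rfl fun i _ => ?_
        rw [Finset.sum_range_succ, map_add, add_mul]
    refine ⟨f 0 + ∑ i, algebraMap O A (L i) * a i, fun m => ?_⟩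
    rw [SModEq.sub_mem, smul_eq_mul, Ideal.mul_top]
    have e1 : f m - f (M * m) ∈ J ^ m := by
      have h3 := hf (m := m) (n := M * m) (Nat.le_mul_of_pos_left m (Nat.succ_pos N))
      rwa [SModEq.sub_mem, smul_eq_mul, Ideal.mul_top] at h3
    have e2 : f (M * m) - (f 0 + ∑ i, algebraMap O A (L i) * a i) ∈ J ^ m := by
      rw [hsum m, add_sub_add_left_eq_sub, ← Finset.sum_sub_distrib]
      refine Ideal.sum_mem _ fun i _ => ?_
      rw [← sub_mul, ← map_sub]
      refine Ideal.mul_mem_right _ _ ?_
      have h5 := Ideal.mem_map_of_mem (algebraMap O A) (hL i m)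
      rw [Ideal.map_pow] at h5
      exact Ideal.pow_right_mono h1 m h5
    have : f m - (f 0 + ∑ i, algebraMap O A (L i) * a i) =
      (f m - f (M * m)) + (f (M * m) - (f 0 + ∑ i, algebraMap O A (L i) * a i)) := by ring
    rw [this]
    exact Ideal.add_mem _ e1 e2

end

end Fermat.Agent.RT8
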