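import Fermat.Agent.RT1.Main
import Fermat.Agent.RT1.PowSer

/-!
# Power series and matrices; the framed levels
-/

set_option autoImplicit false
set_option linter.unusedSectionVars false
set_option linter.unusedVariables false

namespace Fermat.Agent.RT8

open IsLocalRing Filter Fermat.Agent.RT1

/-- a power series from its coefficients -/
def mkMv {τ A : Type*} (g : (τ →₀ ℕ) → A) : MvPowerSeries τ A := g

theorem coeff_mkMv {τ A : Type*} [CommRing A] (g : (τ →₀ ℕ) → A) (e : τ →₀ ℕ) :
    MvPowerSeries.coeff e (mkMv g) = g e := rfl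

section MvMat

variable {τ : Type*} {m : Type*} [Fintype m] [DecidableEq m] {A : Type*} [CommRing A]

/-- `M_m(A)[[τ]] → M_m(A[[τ]])` -/
noncomputable def mvMatrix : MvPowerSeries τ (Matrix m m A) →+* Matrix m m (MvPowerSeries τ A) where
  toFun f := Matrix.of fun i j => fun e => MvPowerSeries.coeff e f i j
  map_one' := by
    classical
    ext i j e
    show (MvPowerSeries.coeff e (1 : MvPowerSeries τ (Matrix m m A))) i j = _
    rw [MvPowerSeries.coeff_one, Matrix.one_apply]
    split_ifs with h1 h2 h2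
    · rw [MvPowerSeries.coeff_one, if_pos h1, h2, Matrix.one_apply_eq]
    · rw [Matrix.one_apply_ne h2]; rfl
    · rw [MvPowerSeries.coeff_one, if_neg h1]; rfl
    · rfl
  map_zero' := by
    ext i j e
    rfl
  map_add' f g := by
    ext i j e
    rfl
  map_mul' f g := by
    classical
    ext i j e
    show (MvPowerSeries.coeff e (f * g)) i j = _
    rw [MvPowerSeries.coeff_mul, Matrix.mul_apply, map_sum, Matrix.sum_apply]
    simp only [MvPowerSeries.coeff_mul, Matrix.mul_apply]
    rw [Finset.sum_comm]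
    rfl

theorem coeff_mvMatrix (f : MvPowerSeries τ (Matrix m m A)) (i j : m) (e : τ →₀ ℕ) :
    MvPowerSeries.coeff e (mvMatrix f i j) = MvPowerSeries.coeff e f i j := rfl

variable {R : Type*} [CommRing R]

/-- coefficientwise extension of a matrix representation -/
noncomputable def mvRep (τ : Type*) (ρ : R →+* Matrix m m A) :
    MvPowerSeries τ R →+* Matrix m m (MvPowerSeries τ A) :=
  mvMatrix.comp (MvPowerSeries.map ρ)

theorem coeff_mvRep (ρ : R →+* Matrix m m A) (f : MvPowerSeries τ R) (i j : m) (e : τ →₀ ℕ) :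
    MvPowerSeries.coeff e (mvRep τ ρ f i j) = ρ (MvPowerSeries.coeff e f) i j := by
  rw [mvRep, RingHom.comp_apply, coeff_mvMatrix, MvPowerSeries.coeff_map]

theorem mvRep_C (ρ : R →+* Matrix m m A) (r : R) :
    mvRep τ ρ (MvPowerSeries.C r) = (ρ r).map (MvPowerSeries.C : A →+* MvPowerSeries τ A) := by
  classical
  ext i j e
  rw [coeff_mvRep, Matrix.map_apply, MvPowerSeries.coeff_C, MvPowerSeries.coeff_C]
  split_ifs with h
  · rfl
  · rw [map_zero]; rfl

/-- intertwining extends coefficientwise -/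
theorem mvRep_intertwine {m' : Type*} [Fintype m'] [DecidableEq m'] (ρ : R →+* Matrix m m A)
    (ρ' : R →+* Matrix m' m' A) (I : Matrix m m' A) (h : ∀ r, I * ρ' r = ρ r * I)
    (f : MvPowerSeries τ R) :
    I.map (MvPowerSeries.C : A →+* MvPowerSeries τ A) * mvRep τ ρ' f =
      mvRep τ ρ f * I.map (MvPowerSeries.C : A →+* MvPowerSeries τ A) := by
  classical
  ext i j e
  rw [Matrix.mul_apply, Matrix.mul_apply, map_sum, map_sum]
  have h1 := congrFun (congrFun (h (MvPowerSeries.coeff e f)) i) j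
  rw [Matrix.mul_apply, Matrix.mul_apply] at h1
  have e1 : ∀ x, MvPowerSeries.coeff e
      ((I.map (MvPowerSeries.C : A →+* MvPowerSeries τ A)) i x * mvRep τ ρ' f x j) =
      I i x * ρ' (MvPowerSeries.coeff e f) x j := by
    intro x
    rw [Matrix.map_apply, MvPowerSeries.coeff_C_mul, coeff_mvRep]
  have e2 : ∀ x, MvPowerSeries.coeff e
      (mvRep τ ρ f i x * (I.map (MvPowerSeries.C : A →+* MvPowerSeries τ A)) x j) =
      ρ (MvPowerSeries.coeff e f) i x * I x j := by
    intro x
    rw [Matrix.map_apply, mul_comm, MvPowerSeries.coeff_C_mul, coeff_mvRep, mul_comm]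
  rw [Finset.sum_congr rfl fun x _ => e1 x, Finset.sum_congr rfl fun x _ => e2 x, h1]

/-- scalars -/
theorem exists_mvRep_scalar {R₀ : Type*} [CommRing R₀] (ρ : R →+* Matrix m m A)
    (π : R →+* R₀) (ι₀ : A →+* R₀)
    (h : ∀ a : A, ∃ r : R, ρ r = a • (1 : Matrix m m A) ∧ π r = ι₀ a) (f : MvPowerSeries τ A) :
    ∃ r : MvPowerSeries τ R, mvRep τ ρ r = f • (1 : Matrix m m (MvPowerSeries τ A)) ∧
      MvPowerSeries.map π r = MvPowerSeries.map ι₀ f := by
  choose r hr1 hr2 using h
  refine ⟨mkMv fun e => r (MvPowerSeries.coeff e f), ?_, ?_⟩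
  · ext i j e
    rw [coeff_mvRep, coeff_mkMv, Matrix.smul_apply, hr1, Matrix.smul_apply]
    by_cases hij : i = j
    · rw [hij, Matrix.one_apply_eq, Matrix.one_apply_eq, smul_eq_mul, smul_eq_mul, mul_one, mul_one]
    · rw [Matrix.one_apply_ne hij, Matrix.one_apply_ne hij, smul_zero, smul_zero, map_zero]
  · ext e
    rw [MvPowerSeries.coeff_map, MvPowerSeries.coeff_map, coeff_mkMv]
    exact hr2 _

end MvMat

section MvLevels

variable {A : Type*} [CommRing A] [IsLocalRing A]

/-- A power series with all coefficients in `J ^ k`... -/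
theorem mem_map_C_of_coeff {τ : Type*} {A : Type*} [CommRing A] (J : Ideal A) (hJ : J.FG)
    (f : MvPowerSeries τ A) (h : ∀ e, MvPowerSeries.coeff e f ∈ J) :
    f ∈ J.map (MvPowerSeries.C : A →+* MvPowerSeries τ A) := by
  classical
  obtain ⟨s, hs⟩ := hJ
  have h1 : ∀ e, ∃ c : s → A, ∑ i, c i * (i : A) = MvPowerSeries.coeff e f := by
    intro e
    have := h e
    rw [← hs, Ideal.span, Submodule.mem_span_finset'] at this
    obtain ⟨c, hc⟩ := this
    exact ⟨c, by simpa using hc⟩
  choose c hc using h1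
  have h2 : f = ∑ i : s, mkMv (fun e => c e i) * MvPowerSeries.C (i : A) := by
    ext e
    rw [map_sum, ← hc]
    refine Finset.sum_congr rfl fun i _ => ?_
    rw [mul_comm, mul_comm (mkMv _), MvPowerSeries.coeff_C_mul, coeff_mkMv]
  rw [h2]
  refine Ideal.sum_mem _ fun i _ => Ideal.mul_mem_left _ _ (Ideal.mem_map_of_mem _ ?_)
  rw [← hs]
  exact Ideal.subset_span i.2

theorem C_mem_maximalIdeal {τ : Type*} {a : A} (ha : a ∈ maximalIdeal A) :
    (MvPowerSeries.C a : MvPowerSeries τ A) ∈ maximalIdeal (MvPowerSeries τ A) := by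
  rw [mem_maximalIdeal, mem_nonunits_iff] at ha ⊢
  intro h
  apply ha
  have := h.map (MvPowerSeries.constantCoeff (σ := τ) (R := A))
  rwa [MvPowerSeries.constantCoeff_C] at this

theorem mem_pow_of_coeff {τ : Type*} [IsNoetherianRing A] (k : ℕ)
    (f : MvPowerSeries τ A) (h : ∀ e, MvPowerSeries.coeff e f ∈ maximalIdeal A ^ k) :
    f ∈ maximalIdeal (MvPowerSeries τ A) ^ k := by
  have h1 := mem_map_C_of_coeff (maximalIdeal A ^ k) (IsNoetherian.noetherian _) f h
  rw [Ideal.map_pow] at h1
  refine Ideal.pow_right_mono ?_ k h1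
  rw [Ideal.map_le_iff_le_comap]
  intro a ha
  exact C_mem_maximalIdeal ha

end MvLevels

end Fermat.Agent.RT8
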