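import Fermat.Agent.RT8.FinAlg
import Fermat.Agent.RT8.MvMat

/-!
# The group algebras `𝒪[Δ_n]`, `Δ_n = (ℤ/p^{n+1})^g`, as levels for `𝒪[[y_1..y_g]]`
-/

set_option autoImplicit false
set_option linter.unusedSectionVars false
set_option linter.unusedVariables false

namespace Fermat.Agent.RT8

open IsLocalRing Filter Fermat.Agent.RT1

/-- `Levels` for power series rings. -/
noncomputable def mvLevels (τ : Type*) {A : Type*} [CommRing A] [IsLocalRing A]
    [IsNoetherianRing A] {Λ : ℕ → Type*} [∀ n, CommRing (Λ n)] (L : Levels A Λ) :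
    Levels (MvPowerSeries τ A) (fun n => MvPowerSeries τ (Λ n)) where
  q n := MvPowerSeries.map (L.q n)
  surj n := by
    intro f
    refine ⟨mkMv fun e => (L.surj n (MvPowerSeries.coeff e f)).choose, ?_⟩
    ext e
    rw [MvPowerSeries.coeff_map, coeff_mkMv]
    exact (L.surj n (MvPowerSeries.coeff e f)).choose_spec
  ker_le k := by
    filter_upwards [L.ker_le k] with n hn f hf
    refine mem_pow_of_coeff k f fun e => hn ?_
    rw [RingHom.mem_ker] at hf ⊢
    rw [← MvPowerSeries.coeff_map, hf, map_zero]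

section GA

variable (p g : ℕ)

/-- the groups `(ℤ/p^{n+1})^g` -/
abbrev Del (n : ℕ) : Type := Multiplicative (Fin g → ZMod (p ^ (n + 1)))

/-- the generators -/
def del (n : ℕ) (i : Fin g) : Del p g n := Multiplicative.ofAdd (Pi.single i 1)

variable {p g}

theorem del_pow (n : ℕ) (i : Fin g) : del p g n i ^ (p ^ (n + 1)) = 1 := by
  rw [del, ← ofAdd_nsmul, ← ofAdd_zero]
  congr 1
  funext j
  rw [Pi.smul_apply, Pi.zero_apply]
  by_cases h : j = i
  · subst h
    rw [Pi.single_eq_same, nsmul_one]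
    exact_mod_cast CharP.cast_eq_zero (ZMod (p ^ (n + 1))) (p ^ (n + 1))
  · rw [Pi.single_eq_of_ne h, smul_zero]

theorem del_closure (n : ℕ) [NeZero p] (x : Del p g n) :
    x ∈ Submonoid.closure (Set.range (del p g n)) := by
  have h : x = ∏ i, del p g n i ^ (x.toAdd i).val := by
    apply Multiplicative.toAdd.injective
    rw [toAdd_prod]
    funext j
    rw [Finset.sum_apply, Finset.sum_eq_single j]
    · rw [toAdd_pow, del, toAdd_ofAdd, Pi.smul_apply, Pi.single_eq_same, nsmul_one,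
        ZMod.natCast_zmod_val]
    · intro i _ hij
      rw [toAdd_pow, del, toAdd_ofAdd, Pi.smul_apply, Pi.single_eq_of_ne (Ne.symm hij), smul_zero]
    · intro h
      exact absurd (Finset.mem_univ j) h
  rw [h]
  exact Submonoid.prod_mem _ fun i _ => Submonoid.pow_mem _ (Submonoid.subset_closure (Set.mem_range_self i)) _

/-- homs out of `Del` -/
theorem exists_hom_del {B : Type*} [CommRing B] (n : ℕ) (u : Fin g → B)
    (hu : ∀ i, u i ^ (p ^ (n + 1)) = 1) (hp : 0 < p) :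
    ∃ f : Del p g n →* B, ∀ i, f (del p g n i) = u i := by
  classical
  have hunit : ∀ i, IsUnit (u i) := fun i =>
    IsUnit.of_pow_eq_one (hu i) (pow_pos hp _).ne'
  have hv : ∀ i, ((hunit i).unit) ^ (p ^ (n + 1)) = 1 := fun i => by
    ext
    rw [Units.val_pow_eq_pow_val, IsUnit.unit_spec, hu i, Units.val_one]
  let z : ∀ i : Fin g, {f : ℤ →+ Additive Bˣ // f (p ^ (n + 1) : ℕ) = 0} := fun i =>
    ⟨(zmultiplesHom (Additive Bˣ)) (Additive.ofMul (hunit i).unit), by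
      rw [zmultiplesHom_apply, natCast_zsmul, ← ofMul_pow, hv i, ofMul_one]⟩
  let f₁ : ∀ i : Fin g, ZMod (p ^ (n + 1)) →+ Additive Bˣ := fun i =>
    ZMod.lift (p ^ (n + 1)) (z i)
  have hf₁ : ∀ i, f₁ i 1 = Additive.ofMul (hunit i).unit := by
    intro i
    have h1 := ZMod.lift_coe (p ^ (n + 1)) (z i) 1
    rw [Int.cast_one] at h1
    refine h1.trans ?_
    show (zmultiplesHom (Additive Bˣ)) (Additive.ofMul (hunit i).unit) 1 = _
    rw [zmultiplesHom_apply, one_zsmul]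
  let f₂ : (Fin g → ZMod (p ^ (n + 1))) →+ Additive Bˣ :=
    ∑ i, (f₁ i).comp (Pi.evalAddMonoidHom _ i)
  have hf₂ : ∀ i, f₂ (Pi.single i 1) = Additive.ofMul (hunit i).unit := by
    intro i
    show (∑ j, (f₁ j).comp (Pi.evalAddMonoidHom _ j)) (Pi.single i 1) = _
    rw [AddMonoidHom.finsetSum_apply, Finset.sum_eq_single i]
    · show f₁ i ((Pi.single i (1 : ZMod (p ^ (n + 1))) : Fin g → ZMod (p ^ (n + 1))) i) = _
      rw [Pi.single_eq_same, hf₁]
    · intro j _ hij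
      show f₁ j ((Pi.single i (1 : ZMod (p ^ (n + 1))) : Fin g → ZMod (p ^ (n + 1))) j) = _
      rw [Pi.single_eq_of_ne hij, map_zero]
    · intro h
      exact absurd (Finset.mem_univ i) h
  refine ⟨(Units.coeHom B).comp (AddMonoidHom.toMultiplicativeLeft f₂), fun i => ?_⟩
  show ((f₂ (Pi.single i 1)).toMul : B) = u i
  rw [hf₂]
  exact IsUnit.unit_spec _

end GA

section Lam

variable (p g : ℕ) (𝒪 : Type) [CommRing 𝒪]

/-- the group algebra -/
abbrev Lam (n : ℕ) : Type := MonoidAlgebra 𝒪 (Del p g n)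

/-- `δ_i - 1` -/
noncomputable def delm (n : ℕ) (i : Fin g) : Lam p g 𝒪 n :=
  MonoidAlgebra.of 𝒪 (Del p g n) (del p g n i) - 1

variable [IsLocalRing 𝒪]

/-- the ideal `(𝔪, δ_i - 1)` -/
noncomputable def JLam (n : ℕ) : Ideal (Lam p g 𝒪 n) :=
  (maximalIdeal 𝒪).map (algebraMap 𝒪 (Lam p g 𝒪 n)) ⊔ Ideal.span (Set.range (delm p g 𝒪 n))

variable {p g 𝒪}

theorem delm_mem (n : ℕ) (i : Fin g) : delm p g 𝒪 n i ∈ JLam p g 𝒪 n :=
  Ideal.mem_sup_right (Ideal.subset_span ⟨i, rfl⟩)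

variable [IsNoetherianRing 𝒪] [IsAdicComplete (maximalIdeal 𝒪) 𝒪]

theorem finite_Lam (hp : p.Prime) (n : ℕ) : Module.Finite 𝒪 (Lam p g 𝒪 n) := by
  have hne : NeZero p := ⟨hp.ne_zero⟩
  have h1 : Finite (Del p g n) := inferInstanceAs (Finite (Fin g → ZMod (p ^ (n + 1))))
  have h2 : Module.Finite 𝒪 (Del p g n →₀ 𝒪) := inferInstance
  exact Module.Finite.equiv
    (MonoidAlgebra.coeffLinearEquiv (R := 𝒪) (M := Del p g n) (S := 𝒪)).symm

theorem isNoetherianRing_Lam (hp : p.Prime) (n : ℕ) : IsNoetherianRing (Lam p g 𝒪 n) := by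
  have := finite_Lam (g := g) (𝒪 := 𝒪) hp n
  exact IsNoetherianRing.of_finite 𝒪 _

theorem exists_pow_JLam (hp : p.Prime) (hp𝒪 : (p : 𝒪) ∈ maximalIdeal 𝒪) (n : ℕ) :
    ∃ N, JLam p g 𝒪 n ^ N ≤ (maximalIdeal 𝒪).map (algebraMap 𝒪 (Lam p g 𝒪 n)) := by
  set K := (maximalIdeal 𝒪).map (algebraMap 𝒪 (Lam p g 𝒪 n)) with hK
  by_cases htop : K = ⊤
  · exact ⟨0, by rw [htop]; exact le_top⟩
  have hnt : Nontrivial (Lam p g 𝒪 n ⧸ K) := Ideal.Quotient.nontrivial_iff.2 htop
  have hpK : ((p : ℕ) : Lam p g 𝒪 n ⧸ K) = 0 := by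
    have h1 : algebraMap 𝒪 (Lam p g 𝒪 n) (p : 𝒪) ∈ K := Ideal.mem_map_of_mem _ hp𝒪
    rw [map_natCast] at h1
    rw [← map_natCast (Ideal.Quotient.mk K), Ideal.Quotient.eq_zero_iff_mem]
    exact h1
  have hchar : CharP (Lam p g 𝒪 n ⧸ K) p := by
    refine ⟨fun x => ?_⟩
    constructor
    · intro hx
      by_contra hnd
      have hcop : Nat.Coprime x p := (Nat.Coprime.symm ((Nat.Prime.coprime_iff_not_dvd hp).2 hnd))
      have hone : (1 : Lam p g 𝒪 n ⧸ K) = 0 := by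
        have e := Nat.isCoprime_iff_coprime.2 hcop
        obtain ⟨a, b, hab⟩ := e
        have h3 : ((a * (x : ℤ) + b * (p : ℤ) : ℤ) : Lam p g 𝒪 n ⧸ K) = 1 := by
          rw [hab, Int.cast_one]
        rw [← h3]
        push_cast
        rw [hx, hpK]
        ring
      exact one_ne_zero hone
    · rintro ⟨y, rfl⟩
      rw [Nat.cast_mul, hpK, zero_mul]
  have hfact : Fact p.Prime := ⟨hp⟩
  have hnil : (JLam p g 𝒪 n).map (Ideal.Quotient.mk K) ≤ nilradical (Lam p g 𝒪 n ⧸ K) := by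
    rw [JLam, Ideal.map_sup, sup_le_iff]
    constructor
    · rw [← hK, Ideal.map_quotient_self]
      exact bot_le
    · rw [Ideal.map_span, Ideal.span_le]
      rintro _ ⟨_, ⟨i, rfl⟩, rfl⟩
      rw [SetLike.mem_coe, mem_nilradical]
      refine ⟨p ^ (n + 1), ?_⟩
      rw [delm, map_sub, sub_pow_char_pow, ← map_pow, ← map_pow, del_pow, map_one, map_one,
        one_pow, sub_self]
  have hfg : (JLam p g 𝒪 n).FG := by
    have := isNoetherianRing_Lam hp (g := g) (𝒪 := 𝒪) n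
    exact IsNoetherian.noetherian _
  have h1 := (hfg.map (Ideal.Quotient.mk K)).isNilpotent_iff_le_nilradical.2 hnil
  obtain ⟨N, hN⟩ := h1
  refine ⟨N, ?_⟩
  rw [← Ideal.map_pow, Ideal.zero_eq_bot, Ideal.map_eq_bot_iff_le_ker, Ideal.mk_ker] at hN
  exact hN

theorem isAdicComplete_Lam (hp : p.Prime) (hp𝒪 : (p : 𝒪) ∈ maximalIdeal 𝒪) (n : ℕ) :
    IsAdicComplete (JLam p g 𝒪 n) (Lam p g 𝒪 n) := by
  obtain ⟨N, hN⟩ := exists_pow_JLam (g := g) hp hp𝒪 n
  have := finite_Lam (g := g) (𝒪 := 𝒪) hp n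
  exact isAdicComplete_of_finite _ le_sup_left N hN

/-- `𝒪[[y]] → 𝒪[Δ_n]`, `y_i ↦ δ_i - 1` -/
noncomputable def lamHom (hp : p.Prime) (hp𝒪 : (p : 𝒪) ∈ maximalIdeal 𝒪) (n : ℕ) :
    MvPowerSeries (Fin g) 𝒪 →ₐ[𝒪] Lam p g 𝒪 n :=
  haveI := isAdicComplete_Lam (g := g) hp hp𝒪 n
  evalHom (JLam p g 𝒪 n) (delm p g 𝒪 n) (delm_mem n)

theorem lamHom_X (hp : p.Prime) (hp𝒪 : (p : 𝒪) ∈ maximalIdeal 𝒪) (n : ℕ) (i : Fin g) :
    lamHom (g := g) hp hp𝒪 n (MvPowerSeries.X i) = delm p g 𝒪 n i := by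
  have := isAdicComplete_Lam (g := g) hp hp𝒪 n
  exact evalHom_X _ _ _ _

theorem lamHom_surjective (hp : p.Prime) (hp𝒪 : (p : 𝒪) ∈ maximalIdeal 𝒪) (n : ℕ) :
    Function.Surjective (lamHom (g := g) hp hp𝒪 n) := by
  have hne : NeZero p := ⟨hp.ne_zero⟩
  intro x
  have hx : x ∈ (lamHom (g := g) hp hp𝒪 n).range := by
    have hof : ∀ d : Del p g n, MonoidAlgebra.of 𝒪 (Del p g n) d ∈
        (lamHom (g := g) hp hp𝒪 n).range := by
      intro d
      have hd := del_closure n d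
      induction hd using Submonoid.closure_induction with
      | mem d hd =>
        obtain ⟨i, rfl⟩ := hd
        refine ⟨MvPowerSeries.X i + 1, ?_⟩
        show lamHom (g := g) hp hp𝒪 n (MvPowerSeries.X i + 1) = _
        rw [map_add, lamHom_X, delm, map_one, sub_add_cancel]
      | one => rw [map_one]; exact one_mem _
      | mul a b _ _ ha hb => rw [map_mul]; exact mul_mem ha hb
    induction x using MonoidAlgebra.induction_on with
    | of d => exact hof d
    | add x y hx hy => exact add_mem hx hy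
    | smul r x hx => exact Subalgebra.smul_mem _ hx r
  exact hx

theorem one_add_pow_sub_one_mem {B : Type*} [CommRing B] (I : Ideal B) (hpI : (p : B) ∈ I)
    (hp : p.Prime) (x : B) (hx : x ∈ I) (m : ℕ) : (1 + x) ^ (p ^ m) - 1 ∈ I ^ (m + 1) := by
  induction m with
  | zero => simpa using hx
  | succ m ih =>
    obtain ⟨y, hy⟩ : ∃ y, (1 + x) ^ (p ^ m) - 1 = y := ⟨_, rfl⟩
    rw [hy] at ih
    have h1 : (1 + x) ^ (p ^ (m + 1)) = (1 + y) ^ p := by
      rw [pow_succ, pow_mul, ← hy]; ring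
    rw [h1]
    -- (1 + y)^p - 1 = sum
    have h0 : (1 + y) ^ p - 1 = ∑ i ∈ Finset.range p, y ^ (i + 1) * ((p.choose (i + 1) : ℕ) : B) := by
      rw [add_comm, add_pow, Finset.sum_range_succ']
      simp
    rw [h0]
    refine Ideal.sum_mem _ fun i hi => ?_
    rw [Finset.mem_range] at hi
    by_cases hip : i + 1 = p
    · have h3 : y ^ (i + 1) ∈ I ^ ((m + 1) * (i + 1)) := by
        rw [pow_mul]
        exact Ideal.pow_mem_pow ih _
      refine Ideal.mul_mem_right _ _ (Ideal.pow_le_pow_right ?_ h3)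
      have h4 : 2 ≤ i + 1 := by rw [hip]; exact hp.two_le
      nlinarith
    · have h3 : p ∣ p.choose (i + 1) := hp.dvd_choose_self (Nat.succ_ne_zero i)
        (lt_of_le_of_ne (Nat.succ_le_of_lt hi) hip)
      obtain ⟨c, hc⟩ := h3
      rw [hc, Nat.cast_mul]
      have h4 : y ^ (i + 1) ∈ I ^ (m + 1) := by
        rw [pow_succ y]
        exact Ideal.mul_mem_left _ _ ih
      have h5 : y ^ (i + 1) * (p : B) ∈ I ^ (m + 1 + 1) := by
        rw [pow_succ I (m + 1)]
        exact Ideal.mul_mem_mul h4 hpI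
      have h6 : y ^ (i + 1) * ((p : B) * (c : B)) = y ^ (i + 1) * (p : B) * c := by ring
      rw [h6]
      exact Ideal.mul_mem_right _ _ h5

theorem lamHom_ker_le (hp : p.Prime) (hp𝒪 : (p : 𝒪) ∈ maximalIdeal 𝒪) (k n : ℕ) (hkn : k ≤ n) :
    RingHom.ker (lamHom (g := g) hp hp𝒪 n) ≤ maximalIdeal (MvPowerSeries (Fin g) 𝒪) ^ k := by
  set A := MvPowerSeries (Fin g) 𝒪 with hA
  set Q := A ⧸ maximalIdeal A ^ k with hQ
  have hpA : (p : A) ∈ maximalIdeal A := by
    have := C_mem_maximalIdeal (τ := Fin g) hp𝒪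
    rwa [map_natCast] at this
  have hXA : ∀ i, (MvPowerSeries.X i : A) ∈ maximalIdeal A := by
    intro i
    rw [mem_maximalIdeal, mem_nonunits_iff]
    intro h
    have := h.map (MvPowerSeries.constantCoeff (σ := Fin g) (R := 𝒪))
    rw [MvPowerSeries.constantCoeff_X] at this
    exact not_isUnit_zero this
  obtain ⟨f, hf⟩ := exists_hom_del (p := p) (g := g) (B := Q) n
    (fun i => 1 + Ideal.Quotient.mk (maximalIdeal A ^ k) (MvPowerSeries.X i)) (fun i => by
      have h1 := one_add_pow_sub_one_mem (maximalIdeal A) hpA hp (MvPowerSeries.X i) (hXA i) (n + 1)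
      have h2 := Ideal.pow_le_pow_right (show k ≤ n + 1 + 1 by omega) h1
      rw [← Ideal.Quotient.eq_zero_iff_mem, map_sub, map_pow, map_add, map_one, sub_eq_zero] at h2
      exact h2) hp.pos
  let θ : Lam p g 𝒪 n →ₐ[𝒪] Q := MonoidAlgebra.lift 𝒪 Q (Del p g n) f
  have hθ : ∀ i, θ (delm p g 𝒪 n i) = Ideal.Quotient.mk (maximalIdeal A ^ k)
      (MvPowerSeries.X i) := by
    intro i
    rw [delm, map_sub, map_one]
    have h3 : θ (MonoidAlgebra.of 𝒪 (Del p g n) (del p g n i)) = f (del p g n i) :=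
      MonoidAlgebra.lift_of _ _
    rw [h3, hf, add_sub_cancel_left]
  have hcomp : (θ.toRingHom.comp (lamHom (g := g) hp hp𝒪 n).toRingHom) =
      Ideal.Quotient.mk (maximalIdeal A ^ k) := by
    have hH : IsHausdorff ((maximalIdeal A).map (Ideal.Quotient.mk (maximalIdeal A ^ k))) Q := by
      refine ⟨fun x hx => ?_⟩
      have h4 := hx k
      rw [SModEq.zero, smul_eq_mul, Ideal.mul_top, ← Ideal.map_pow, Ideal.map_quotient_self,
        Ideal.mem_bot] at h4
      exact h4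
    refine hom_ext ((maximalIdeal A).map (Ideal.Quotient.mk (maximalIdeal A ^ k))) _ _ ?_ ?_ ?_
    · intro o
      have h5 := (θ.comp (lamHom (g := g) hp hp𝒪 n)).commutes o
      exact h5
    · intro i
      show θ (lamHom (g := g) hp hp𝒪 n (MvPowerSeries.X i)) = _
      rw [lamHom_X, hθ]
    · intro i
      show θ (lamHom (g := g) hp hp𝒪 n (MvPowerSeries.X i)) ∈ _
      rw [lamHom_X, hθ]
      exact Ideal.mem_map_of_mem _ (hXA i)
  intro x hx
  rw [RingHom.mem_ker] at hx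
  rw [← Ideal.Quotient.eq_zero_iff_mem, ← hcomp]
  show θ (lamHom (g := g) hp hp𝒪 n x) = 0
  have hx' : lamHom (g := g) hp hp𝒪 n x = 0 := hx
  rw [hx', map_zero]

/-- the group algebras as levels. -/
noncomputable def lamLevels (g : ℕ) (hp : p.Prime) (hp𝒪 : (p : 𝒪) ∈ maximalIdeal 𝒪) :
    Levels (MvPowerSeries (Fin g) 𝒪) (fun n => Lam p g 𝒪 n) where
  q n := (lamHom (g := g) hp hp𝒪 n).toRingHom
  surj n := lamHom_surjective hp hp𝒪 n
  ker_le k := by
    filter_upwards [eventually_ge_atTop k] with n hn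
    exact lamHom_ker_le hp hp𝒪 k n hn

end Lam

end Fermat.Agent.RT8
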