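import Fermat.Agent.RT8.Steps
import Fermat.Agent.LocRing.Full

/-!
# Components and induction on the level
-/

set_option autoImplicit false
set_option linter.unusedSectionVars false
set_option linter.unusedVariables false

namespace Fermat.Agent.RT8

open IsLocalRing Filter Fermat.Agent.RT1 Fermat.Agent.LocRing

section Comp

variable {p g : ℕ} {𝒪 : Type} [CommRing 𝒪] [IsDomain 𝒪] [IsDiscreteValuationRing 𝒪]
  [IsAdicComplete (maximalIdeal 𝒪) 𝒪] [Finite (ResidueField 𝒪)] {τ : Type} [Finite τ]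
  {Λ γ : Type} [Fintype Λ] [Fintype γ] [DecidableEq Λ] {q : Λ → 𝒪}
  {F₀ N₀ : Λ → Matrix (Fin 2) (Fin 2) 𝒪} (U : FPkg γ F₀ N₀)
  {RR : Type} [CommRing RR] {𝔅 : Type} (θ : 𝔅 → RR →+* U.R)

/-- the components -/
noncomputable def comps (g : ℕ) (τ : Type) [Finite τ] (hq : ∀ l, IsUnit (q l))
    (hθ : ∀ b, Function.Surjective (θ b))
    (hγ : Fintype.card γ + 3 * Fintype.card Λ ≤ Nat.card τ + g) :
    Components (SInf g 𝒪 τ) RR (𝔅 × CompIdx q F₀ N₀) where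
  q c := (U.qI q c.2.1).comap (θ c.1)
  prime c := by
    have := (U.component hq c.2.1 c.2.2.2).1
    exact Ideal.comap_isPrime _ _
  δ := Fintype.card γ + 3 * Fintype.card Λ + 1
  dim_le c := by
    have h1 := U.dim_le hq c.2
    have h2 : Function.Surjective ((Ideal.Quotient.mk (U.qI q c.2.1)).comp (θ c.1)) :=
      Ideal.Quotient.mk_surjective.comp (hθ c.1)
    have h3 : RingHom.ker ((Ideal.Quotient.mk (U.qI q c.2.1)).comp (θ c.1)) =
        (U.qI q c.2.1).comap (θ c.1) := by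
      rw [← RingHom.comap_ker, Ideal.mk_ker]
    have e : (RR ⧸ (U.qI q c.2.1).comap (θ c.1)) ≃+* (U.R ⧸ U.qI q c.2.1) :=
      (Ideal.quotEquivOfEq h3.symm).trans (RingHom.quotientKerEquivOfSurjective h2)
    rw [ringKrullDim_eq_of_ringEquiv e]
    exact h1
  le_dim := by
    refine le_trans ?_ (le_dim_SInf (𝒪 := 𝒪) (g := g) τ)
    exact_mod_cast Nat.add_le_add_right hγ 1

end Comp

/-! ### Unipotent pairs and conjugation -/

section Conj

theorem isUni_conj {A : Type*} [CommRing A] {q : A} {F N G H : Matrix (Fin 2) (Fin 2) A}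
    (hGH : G * H = 1) (h : IsUni q F N) : IsUni q (H * F * G) (H * N * G) := by
  have hmid : ∀ X Y : Matrix (Fin 2) (Fin 2) A,
      (H * X * G) * (H * Y * G) = H * (X * Y) * G := by
    intro X Y
    calc (H * X * G) * (H * Y * G) = H * X * (G * H) * Y * G := by
          simp only [Matrix.mul_assoc]
      _ = _ := by rw [hGH]; simp only [Matrix.mul_assoc, Matrix.one_mul]
  have hdet : ∀ X : Matrix (Fin 2) (Fin 2) A, (H * X * G).det = X.det := by
    intro X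
    rw [Matrix.det_mul, Matrix.det_mul, mul_comm H.det, mul_assoc, ← Matrix.det_mul,
      Matrix.det_mul_comm, hGH, Matrix.det_one, mul_one]
  have htr : ∀ X : Matrix (Fin 2) (Fin 2) A, (H * X * G).trace = X.trace := by
    intro X
    rw [Matrix.trace_mul_comm, ← Matrix.mul_assoc, hGH, Matrix.one_mul]
  refine ⟨?_, ?_, ?_, ?_, ?_⟩
  · rw [hdet, h.detF]
  · rw [hmid, hmid, h.FN, Matrix.mul_smul, Matrix.smul_mul]
  · rw [hmid, h.NN, Matrix.mul_zero, Matrix.zero_mul]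
  · rw [htr, h.trN]
  · rw [hdet, h.detN]

end Conj

section Level

variable {p g : ℕ} {𝒪 : Type} [CommRing 𝒪] [IsDomain 𝒪] [IsDiscreteValuationRing 𝒪]
  [IsAdicComplete (maximalIdeal 𝒪) 𝒪] [Finite (ResidueField 𝒪)] (hp : p.Prime)
  (hp𝒪 : (p : 𝒪) ∈ maximalIdeal 𝒪) {τ : Type} [Finite τ]
  {RR : Type} [CommRing RR] [IsLocalRing RR] [IsNoetherianRing RR]
  [IsAdicComplete (maximalIdeal RR) RR] [Finite (ResidueField RR)]
  {R : ℕ → Type} [∀ n, CommRing (R n)]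
  (Θ : ∀ n, RR →+* MvPowerSeries τ (R n))
  {Λ : Type} (qq : Λ → RR) (FF NN : Λ → Matrix (Fin 2) (Fin 2) RR)

/-- framed local data at the finite levels -/
structure FData where
  q : ∀ n, Λ → R n
  F : ∀ n, Λ → Matrix (Fin 2) (Fin 2) (R n)
  N : ∀ n, Λ → Matrix (Fin 2) (Fin 2) (R n)
  G : ∀ n, Λ → Matrix (Fin 2) (Fin 2) (MvPowerSeries τ (R n))
  H : ∀ n, Λ → Matrix (Fin 2) (Fin 2) (MvPowerSeries τ (R n))
  GH : ∀ n l, G n l * H n l = 1
  HG : ∀ n l, H n l * G n l = 1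
  Gc : ∀ n l, (G n l).map (MvPowerSeries.constantCoeff (σ := τ) (R := R n)) = 1
  Θq : ∀ n l, Θ n (qq l) = MvPowerSeries.C (q n l)
  ΘF : ∀ n l, (FF l).map (Θ n) =
    H n l * (F n l).map (MvPowerSeries.C : R n →+* MvPowerSeries τ (R n)) * G n l
  ΘN : ∀ n l, (NN l).map (Θ n) =
    H n l * (N n l).map (MvPowerSeries.C : R n →+* MvPowerSeries τ (R n)) * G n l

variable {qq FF NN Θ} (D : FData Θ qq FF NN)

theorem FData.Θtr (n : ℕ) (l : Λ) : Θ n (FF l).trace = MvPowerSeries.C (D.F n l).trace := by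
  have h1 : ((FF l).map (Θ n)).trace = MvPowerSeries.C (D.F n l).trace := by
    rw [D.ΘF n l, Matrix.trace_mul_comm, ← Matrix.mul_assoc, D.GH n l, Matrix.one_mul]
    simp [Matrix.trace_fin_two]
  rw [← h1]
  simp [Matrix.trace_fin_two]

/-- the conditions on a level with ramification in `S`. -/
structure IsLevel {m : Type} [Fintype m] [DecidableEq m]
    (ρ : ∀ n, R n →+* Matrix m m (Lam p g 𝒪 n)) (S : Set Λ) : Prop where
  sc : ∀ n (a : Lam p g 𝒪 n), ∃ r : R n, ρ n r = a • (1 : Matrix m m (Lam p g 𝒪 n))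
  uni : ∀ n l, ∀ r ∈ uniRel (D.q n l) (D.F n l) (D.N n l), ρ n r = 0
  unr : ∀ n, ∀ l ∉ S, ∀ i j, ρ n (D.N n l i j) = 0

variable {m : Type} [Fintype m] [DecidableEq m]
    {ρ : ∀ n, R n →+* Matrix m m (Lam p g 𝒪 n)} {S : Set Λ}

theorem mvRep_eq_zero_of_map_mk {R A : Type*} [CommRing R] [CommRing A] {m : Type*} [Fintype m]
    [DecidableEq m] (ρ : R →+* Matrix m m A) (f : MvPowerSeries τ R)
    (h : MvPowerSeries.map (Ideal.Quotient.mk (RingHom.ker ρ)) f = 0) : mvRep τ ρ f = 0 := by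
  ext i j e
  rw [coeff_mvRep]
  have h1 : Ideal.Quotient.mk (RingHom.ker ρ) (MvPowerSeries.coeff e f) = 0 := by
    rw [← MvPowerSeries.coeff_map, h, map_zero]
  rw [Ideal.Quotient.eq_zero_iff_mem, RingHom.mem_ker] at h1
  rw [h1]
  rfl

theorem IsLevel.uni_rhoB (h : IsLevel D ρ S) (n : ℕ) (l : Λ) (r : RR)
    (hr : r ∈ uniRel (qq l) (FF l) (NN l)) : rhoB Θ ρ n r = 0 := by
  refine mvRep_eq_zero_of_map_mk (ρ n) (Θ n r) ?_
  set φ := Ideal.Quotient.mk (RingHom.ker (ρ n)) with hφ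
  have h1 : IsUni (φ (D.q n l)) ((D.F n l).map φ) ((D.N n l).map φ) := by
    rw [isUni_map_iff]
    intro r hr
    rw [hφ, Ideal.Quotient.eq_zero_iff_mem, RingHom.mem_ker]
    exact h.uni n l r hr
  set C' : (R n ⧸ RingHom.ker (ρ n)) →+* MvPowerSeries τ (R n ⧸ RingHom.ker (ρ n)) :=
    MvPowerSeries.C with hC'
  set ψ : MvPowerSeries τ (R n) →+* MvPowerSeries τ (R n ⧸ RingHom.ker (ρ n)) :=
    MvPowerSeries.map φ with hψ
  have hψC : ∀ a, ψ (MvPowerSeries.C a) = C' (φ a) := fun a => by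
    rw [hψ, MvPowerSeries.map_C]
  have h2 : IsUni (C' (φ (D.q n l))) (((D.F n l).map φ).map C') (((D.N n l).map φ).map C') := by
    have h2' : IsUni ((C'.comp φ) (D.q n l)) ((D.F n l).map (C'.comp φ))
        ((D.N n l).map (C'.comp φ)) := by
      rw [isUni_map_iff]
      intro r hr
      rw [RingHom.comp_apply, (isUni_map_iff φ).1 h1 r hr, map_zero]
    exact h2'
  have hGH : (D.G n l).map ψ * (D.H n l).map ψ = 1 := by
    rw [← Matrix.map_mul, D.GH]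
    exact Matrix.map_one _ (map_zero _) (map_one _)
  have h3 := isUni_conj hGH h2
  have e1 : ∀ M : Matrix (Fin 2) (Fin 2) (R n), (M.map φ).map C' =
      (M.map (MvPowerSeries.C : R n →+* MvPowerSeries τ (R n))).map ψ := by
    intro M
    ext i j : 2
    rw [Matrix.map_apply, Matrix.map_apply, Matrix.map_apply, Matrix.map_apply, hψC]
  rw [e1, e1, ← Matrix.map_mul, ← Matrix.map_mul, ← Matrix.map_mul, ← Matrix.map_mul,
    ← D.ΘF, ← D.ΘN, ← hψC, ← D.Θq] at h3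
  have h4 : IsUni ((ψ.comp (Θ n)) (qq l)) ((FF l).map (ψ.comp (Θ n)))
      ((NN l).map (ψ.comp (Θ n))) := h3
  rw [isUni_map_iff] at h4
  exact h4 r hr

theorem IsLevel.unr_rhoB (h : IsLevel D ρ S) (n : ℕ) (l : Λ) (hl : l ∉ S) (i j : Fin 2) :
    rhoB Θ ρ n (NN l i j) = 0 := by
  have h1 : Θ n (NN l i j) = (D.H n l * (D.N n l).map
      (MvPowerSeries.C : R n →+* MvPowerSeries τ (R n)) * D.G n l) i j :=
    congrFun (congrFun (D.ΘN n l) i) j
  rw [rhoB, RingHom.comp_apply, h1]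
  exact mvRep_conj_zero (ρ n) (D.G n l) (D.H n l) _ (h.unr n l hl) i j

/-- elements killed at all levels belong to `kerInf` -/
theorem mem_kerInf {r : RR} (h : ∀ n, rhoB Θ ρ n r = 0) : r ∈ kerInf hp hp𝒪 Θ ρ :=
  rho_eq_zero_of_forall _ _ h

end Level


/-! ### The main induction -/

section Main

variable {p g : ℕ} {𝒪 : Type} [CommRing 𝒪] [IsDomain 𝒪] [IsDiscreteValuationRing 𝒪]
  [IsAdicComplete (maximalIdeal 𝒪) 𝒪] [Finite (ResidueField 𝒪)] 
  {τ : Type} [Finite τ]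
  {RR : Type} [CommRing RR] [IsLocalRing RR] [IsNoetherianRing RR]
  [IsAdicComplete (maximalIdeal RR) RR] [Finite (ResidueField RR)]
  {R : ℕ → Type} [∀ n, CommRing (R n)]
  {Λ γ : Type} [Fintype Λ] [Fintype γ] [DecidableEq Λ] {q : Λ → 𝒪}
  {F₀ N₀ : Λ → Matrix (Fin 2) (Fin 2) 𝒪} (U : FPkg γ F₀ N₀) {𝔅 : Type}
  (θ : 𝔅 → RR →+* U.R) (qq : Λ → RR) (FF NN : Λ → Matrix (Fin 2) (Fin 2) RR)

/-- the comparison of the big ring with the universal rings of pairs -/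
structure Cmp (g : ℕ) (τ : Type) (q : Λ → 𝒪) : Prop where
  hq : ∀ l, IsUnit (q l)
  h2 : IsUnit (2 : 𝒪)
  h20 : (2 : 𝒪) ≠ 0
  hq1 : ∀ l, q l + 1 ≠ 0
  hqm1 : ∀ l, q l - 1 ≠ 0
  θs : ∀ b, Function.Surjective (θ b)
  θq : ∀ b l, θ b (qq l) = U.ι (q l)
  θF : ∀ b l, (FF l).map (θ b) = U.F l
  θN : ∀ b l, (NN l).map (θ b) = U.N l
  inc : ∀ b b' (T : Λ → Ty), (∀ l, ResHolds (T l) (q l) (F₀ l) (N₀ l)) →
    RingHom.ker (θ b') ≤ (U.qI q T).comap (θ b) → b' = b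
  hγ : Fintype.card γ + 3 * Fintype.card Λ ≤ Nat.card τ + g

variable {θ qq FF NN} (hC : Cmp U θ qq FF NN g τ q)

section gen

include hC

theorem Cmp.mem_comap_tr (b : 𝔅) (P : Ideal U.R) (l : Λ)
    (h : (U.F l).trace ^ 2 - (U.ι (q l) + 1) ^ 2 ∈ P) :
    (FF l).trace ^ 2 - (qq l + 1) ^ 2 ∈ P.comap (θ b) := by
  rw [Ideal.mem_comap]
  have e : θ b (FF l).trace = (U.F l).trace := by
    rw [← hC.θF b l, trace_map']
  rw [map_sub, map_pow, map_pow, map_add, map_one, hC.θq, e]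
  exact h

theorem Cmp.mem_comap_tr' (b : 𝔅) (P : Ideal U.R) (l : Λ)
    (h : (FF l).trace ^ 2 - (qq l + 1) ^ 2 ∈ P.comap (θ b)) :
    (U.F l).trace ^ 2 - (U.ι (q l) + 1) ^ 2 ∈ P := by
  rw [Ideal.mem_comap] at h
  have e : θ b (FF l).trace = (U.F l).trace := by
    rw [← hC.θF b l, trace_map']
  rw [map_sub, map_pow, map_pow, map_add, map_one, hC.θq, e] at h
  exact h

theorem Cmp.uniRel_image (b : 𝔅) (l : Λ) {r : U.R}
    (hr : r ∈ uniRel (U.ι (q l)) (U.F l) (U.N l)) :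
    ∃ r' ∈ uniRel (qq l) (FF l) (NN l), θ b r' = r := by
  have h1 : (U.F l).det = θ b (FF l).det := by rw [← hC.θF b l, det_map']
  have h2 : (U.N l).det = θ b (NN l).det := by rw [← hC.θN b l, det_map']
  have h3 : (U.N l).trace = θ b (NN l).trace := by rw [← hC.θN b l, trace_map']
  have h4 : ∀ i j, (U.F l * U.N l - U.ι (q l) • (U.N l * U.F l)) i j =
      θ b ((FF l * NN l - qq l • (NN l * FF l)) i j) := by
    intro i j
    rw [← hC.θF b l, ← hC.θN b l, ← hC.θq b l, ← Matrix.map_mul, ← Matrix.map_mul]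
    simp only [Matrix.sub_apply, Matrix.smul_apply, Matrix.map_apply, smul_eq_mul, map_sub,
      map_mul]
  have h5 : ∀ i j, (U.N l * U.N l) i j = θ b ((NN l * NN l) i j) := by
    intro i j
    rw [← hC.θN b l, ← Matrix.map_mul, Matrix.map_apply]
  rcases hr with (hr | ⟨⟨i, j⟩, rfl⟩) | ⟨⟨i, j⟩, rfl⟩
  · rcases hr with rfl | rfl | rfl
    · exact ⟨(FF l).det - qq l, Or.inl (Or.inl (Or.inl rfl)), by
        rw [map_sub, ← h1, hC.θq]⟩
    · exact ⟨(NN l).trace, Or.inl (Or.inl (Or.inr (Or.inl rfl))), h3.symm⟩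
    · exact ⟨(NN l).det, Or.inl (Or.inl (Or.inr (Or.inr rfl))), h2.symm⟩
  · exact ⟨_, Or.inl (Or.inr ⟨(i, j), rfl⟩), (h4 i j).symm⟩
  · exact ⟨_, Or.inr ⟨(i, j), rfl⟩, (h5 i j).symm⟩

/-- **Covering lemma.** -/
theorem Cmp.cover {I : Ideal RR} (hI : ∀ l, ∀ r ∈ uniRel (qq l) (FF l) (NN l), r ∈ I)
    (B : Set 𝔅) (hB : ∀ P : Ideal RR, P.IsPrime → I ≤ P → ∃ b ∈ B, RingHom.ker (θ b) ≤ P)
    (P : Ideal RR) (hP : P.IsPrime) (hIP : I ≤ P) (X : Set Λ)
    (hX : ∀ l ∈ X, (FF l).trace ^ 2 - (qq l + 1) ^ 2 ∈ P) :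
    ∃ b ∈ B, ∃ c : CompIdx q F₀ N₀, (U.qI q c.1).comap (θ b) ≤ P ∧
      (∀ l ∈ X, c.1 l = .stp ∨ c.1 l = .stm) ∧
      ∀ l ∉ X, (∀ i j, NN l i j ∈ P) → c.1 l = .unr := by
  obtain ⟨b, hb, hker⟩ := hB P hP hIP
  set P' := P.map (θ b) with hP'
  have hcomap : P'.comap (θ b) = P := by
    rw [hP', Ideal.comap_map_of_surjective' _ (hC.θs b)]
    exact sup_eq_left.mpr hker
  have hprime : P'.IsPrime := Ideal.map_isPrime_of_surjective (hC.θs b) hker
  have key : ∀ x, θ b x ∈ P' ↔ x ∈ P := by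
    intro x
    rw [← Ideal.mem_comap, hcomap]
  obtain ⟨c, hc1, hc2, hc3, hc4, hc5⟩ := U.exists_qI_le hC.hq P' hprime
    (fun l r hr => by
      obtain ⟨r', hr', rfl⟩ := hC.uniRel_image U b l hr
      exact (key _).mpr (hIP (hI l r' hr'))) X
    (fun l hl => by
      apply hC.mem_comap_tr' U b P' l
      rw [hcomap]
      exact hX l hl)
  refine ⟨b, hb, ⟨c, hc1, hc2⟩, ?_, hc4, fun l hl hN => hc5 l hl fun i j => ?_⟩
  · rw [← hcomap]
    exact Ideal.comap_mono hc3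
  · have h1 : U.N l i j = θ b (NN l i j) := by rw [← hC.θN b l]; rfl
    rw [h1, key]
    exact hN i j

end gen


section comp

include hC

theorem Cmp.spec {b b' : 𝔅} {c' : Λ → Ty} {T : Λ → Ty}
    (hT : ∀ l, ResHolds (T l) (q l) (F₀ l) (N₀ l))
    (h : (U.qI q c').comap (θ b') ≤ (U.qI q T).comap (θ b)) :
    b' = b ∧ ∀ l, (T l).Spec (c' l) := by
  have h1 : RingHom.ker (θ b') ≤ (U.qI q T).comap (θ b) := by
    refine le_trans ?_ h
    intro x hx
    rw [RingHom.mem_ker] at hx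
    rw [Ideal.mem_comap, hx]
    exact Ideal.zero_mem _
  obtain rfl := hC.inc b b' T hT h1
  refine ⟨rfl, ?_⟩
  have h2 : U.qI q c' ≤ U.qI q T := by
    intro x hx
    obtain ⟨y, rfl⟩ := hC.θs b' x
    exact h hx
  exact (U.qI_le_qI_iff hC.hq hC.h20 hC.hq1 c' T hT).mp h2

theorem resHolds_eq_of_N {l : Λ} {T T' : Ty} (hT : T.IsComp) (hT' : T'.IsComp)
    (h : ResHolds T (q l) (F₀ l) (N₀ l)) (h' : ResHolds T' (q l) (F₀ l) (N₀ l))
    (hN : (N₀ l).map (residue 𝒪) ≠ 0) : T = T' := by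
  have h2 : (2 : ResidueField 𝒪) ≠ 0 := by
    have h3 := hC.h2.map (residue 𝒪)
    rw [map_ofNat] at h3
    exact h3.ne_zero
  have key : ∀ {A : Type} [Field A] {q : A} {F N : Matrix (Fin 2) (Fin 2) A}, (2 : A) ≠ 0 →
      IsSt q F N → IsSt q (-F) N → N = 0 := by
    intro A _ q F N h2 ha hb
    have e1 := ha.NF
    have e2 := hb.NF
    rw [mul_neg, e1] at e2
    ext i j
    have e3 := congrFun (congrFun e2 i) j
    rw [Matrix.neg_apply] at e3
    have e4 : 2 * N i j = 0 := by linear_combination -e3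
    rcases mul_eq_zero.mp e4 with h | h
    · exact absurd h h2
    · exact h
  rcases hT with rfl | rfl | rfl <;> rcases hT' with rfl | rfl | rfl
  · rfl
  · exact absurd (IsUnr.N0 h) hN
  · exact absurd (IsUnr.N0 h) hN
  · exact absurd (IsUnr.N0 h') hN
  · rfl
  · exact absurd (key h2 h h') hN
  · exact absurd (IsUnr.N0 h') hN
  · exact absurd (key h2 h' h) hN
  · rfl

end comp

section lev

variable (hp : p.Prime) (hp𝒪 : (p : 𝒪) ∈ maximalIdeal 𝒪)
  {Θ : ∀ n, RR →+* MvPowerSeries τ (R n)} (hΘ : ∀ n, Function.Surjective (Θ n))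
  (D : FData Θ qq FF NN)
  {m m' : Type} [Fintype m] [DecidableEq m] [Fintype m'] [DecidableEq m']
  {ρ : ∀ n, R n →+* Matrix m m (Lam p g 𝒪 n)} {ρ' : ∀ n, R n →+* Matrix m' m' (Lam p g 𝒪 n)}
  {S : Set Λ}

/-- the component `(b, c)` is in the support of the level `ρ`. -/
def Supp (ρ : ∀ n, R n →+* Matrix m m (Lam p g 𝒪 n)) (b : 𝔅) (c : CompIdx q F₀ N₀) : Prop :=
  kerInf hp hp𝒪 Θ ρ ≤ (U.qI q c.1).comap (θ b)

/-- the `p`-part of the level `ρ` is contained in `B`. -/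
def PPart (ρ : ∀ n, R n →+* Matrix m m (Lam p g 𝒪 n)) (B : Set 𝔅) : Prop :=
  ∀ P : Ideal RR, P.IsPrime → kerInf hp hp𝒪 Θ ρ ≤ P → ∃ b ∈ B, RingHom.ker (θ b) ≤ P

theorem IsLevel.uni_mem (h : IsLevel D ρ S) (l : Λ) (r : RR)
    (hr : r ∈ uniRel (qq l) (FF l) (NN l)) : r ∈ kerInf hp hp𝒪 Θ ρ :=
  mem_kerInf hp hp𝒪 fun n => h.uni_rhoB D n l r hr

theorem IsLevel.unr_mem (h : IsLevel D ρ S) (l : Λ) (hl : l ∉ S) (i j : Fin 2) :
    NN l i j ∈ kerInf hp hp𝒪 Θ ρ :=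
  mem_kerInf hp hp𝒪 fun n => h.unr_rhoB D n l hl i j

include hC

theorem IsLevel.hcov (h : IsLevel D ρ S) {B : Set 𝔅} (hB : PPart U (θ := θ) hp hp𝒪 (Θ := Θ) ρ B)
    (P : Ideal RR) (hP : P.IsPrime) (hle : kerInf hp hp𝒪 Θ ρ ≤ P) (X : Set Λ)
    (hX : ∀ l ∈ X, (FF l).trace ^ 2 - (qq l + 1) ^ 2 ∈ P) :
    ∃ b ∈ B, ∃ c : CompIdx q F₀ N₀, (U.qI q c.1).comap (θ b) ≤ P ∧
      (∀ l ∈ X, c.1 l = .stp ∨ c.1 l = .stm) ∧
      ∀ l ∉ X, (∀ i j, NN l i j ∈ P) → c.1 l = .unr :=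
  hC.cover U (fun l r hr => h.uni_mem hp hp𝒪 D l r hr) B hB P hP hle X hX

/-- unramified types in the support -/
theorem IsLevel.unr_of_supp (h : IsLevel D ρ S) {b : 𝔅} {c : CompIdx q F₀ N₀}
    (hs : Supp U (θ := θ) hp hp𝒪 (Θ := Θ) ρ b c) {l : Λ} (hl : l ∉ S) : c.1 l = .unr := by
  by_contra hne
  have h1 : c.1 l = .stp ∨ c.1 l = .stm := by
    rcases c.2.1 l with h | h | h
    · exact absurd h hne
    · exact Or.inl h
    · exact Or.inr h
  obtain ⟨i, j, hij⟩ := U.N_notMem hC.hq c.1 c.2.2 l h1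
  apply hij
  have h2 := hs (h.unr_mem hp hp𝒪 D l hl i j)
  rw [Ideal.mem_comap] at h2
  have h3 : U.N l i j = θ b (NN l i j) := by rw [← hC.θN b l]; rfl
  rw [h3]
  exact h2

include hΘ in
/-- some component is in the support -/
theorem IsLevel.exists_supp [Finite 𝔅] [Nonempty m] (h : IsLevel D ρ S) {B : Set 𝔅}
    (hB : PPart U (θ := θ) hp hp𝒪 (Θ := Θ) ρ B) :
    ∃ b ∈ B, ∃ c : CompIdx q F₀ N₀, Supp U (θ := θ) hp hp𝒪 (Θ := Θ) ρ b c := by
  obtain ⟨⟨⟨b, c⟩, hb⟩, hc⟩ := RT8.exists_supp hp hp𝒪 Θ hΘ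
    (subComponents (comps U θ g τ hC.hq hC.θs hC.hγ) fun x => x.1 ∈ B) ρ h.sc
    (by
      intro P hP hle
      obtain ⟨b, hb, c, hc, -, -⟩ := h.hcov U hC hp hp𝒪 D hB P hP hle ∅ (by simp)
      exact ⟨⟨(b, c), hb⟩, hc⟩)
  exact ⟨b, hb, c, hc⟩

end lev


section raise

variable (hp : p.Prime) (hp𝒪 : (p : 𝒪) ∈ maximalIdeal 𝒪)
  {Θ : ∀ n, RR →+* MvPowerSeries τ (R n)} (hΘ : ∀ n, Function.Surjective (Θ n))
  (D : FData Θ qq FF NN)
  {m m' : Type} [Fintype m] [DecidableEq m] [Fintype m'] [DecidableEq m']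
  {ρ : ∀ n, R n →+* Matrix m m (Lam p g 𝒪 n)} {ρ' : ∀ n, R n →+* Matrix m' m' (Lam p g 𝒪 n)}
  {S S' : Set Λ}

/-- the intersection type -/
def Ty.inter : Ty → Ty
  | .stp => .pp
  | .stm => .pm
  | _ => .unr

theorem resHolds_inter {T : Ty} (hT : T = .stp ∨ T = .stm) {q : 𝒪}
    {F₀ N₀ : Matrix (Fin 2) (Fin 2) 𝒪} (h : ResHolds T q F₀ N₀) (h' : ResHolds .unr q F₀ N₀) :
    ResHolds (Ty.inter T) q F₀ N₀ := by
  have hN : N₀.map (residue 𝒪) = 0 := IsUnr.N0 h'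
  rcases hT with rfl | rfl
  · exact ⟨IsSt.trF h, IsSt.detF h, hN⟩
  · exact ⟨IsSt.trF h, IsSt.detF h, hN⟩

include hC hΘ

/-- **Level raising.** -/
theorem raise [Finite 𝔅] (hlev : IsLevel D ρ S') (hlev' : IsLevel D ρ' S) {B : Set 𝔅}
    (hB : PPart U (θ := θ) hp hp𝒪 (Θ := Θ) ρ B)
    (l : Λ) (b : 𝔅) (c c₁ : CompIdx q F₀ N₀) (hcl : c.1 l = .stp ∨ c.1 l = .stm)
    (hc₁ : c₁.1 = Function.update c.1 l .unr)
    (hsupp : Supp U (θ := θ) hp hp𝒪 (Θ := Θ) ρ' b c₁)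
    (ι : ∀ n, Matrix m (m' ⊕ m') (Lam p g 𝒪 n)) (ι' : ∀ n, Matrix (m' ⊕ m') m (Lam p g 𝒪 n))
    (hι : ∀ n r, ι n * Matrix.fromBlocks (ρ' n r) 0 0 (ρ' n r) = ρ n r * ι n)
    (hι' : ∀ n r, ι' n * ρ n r = Matrix.fromBlocks (ρ' n r) 0 0 (ρ' n r) * ι' n)
    (hinj : ∀ n, Function.Injective ((ι n).map (kapL p g 𝒪 n)).mulVec)
    (hsurj : ∀ n, Function.Surjective ((ι' n).map (kapL p g 𝒪 n)).mulVec)
    (hcomp : ∀ n, ι' n * ι n =
      Matrix.fromBlocks (ρ' n (D.q n l + 1)) (ρ' n (D.F n l).trace) (ρ' n (D.F n l).trace)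
        (ρ' n (D.q n l + 1)))
    (hY : ∀ n, ∃ Y : Matrix (m' ⊕ m') m (Lam p g 𝒪 n),
      ρ n ((D.F n l).trace ^ 2 - (D.q n l + 1) ^ 2) = ι n * Y) :
    Supp U (θ := θ) hp hp𝒪 (Θ := Θ) ρ b c := by
  set T : Λ → Ty := Function.update c.1 l (Ty.inter (c.1 l)) with hTdef
  have hTl : T l = Ty.inter (c.1 l) := Function.update_self _ _ _
  have hTne : ∀ l' ≠ l, T l' = c.1 l' := fun l' h => Function.update_of_ne h _ _
  have hc₁l : c₁.1 l = .unr := by rw [hc₁, Function.update_self]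
  have hc₁ne : ∀ l' ≠ l, c₁.1 l' = c.1 l' := fun l' h => by rw [hc₁, Function.update_of_ne h]
  have hT : ∀ l, ResHolds (T l) (q l) (F₀ l) (N₀ l) := by
    intro l'
    by_cases h : l' = l
    · subst h
      rw [hTl]
      refine resHolds_inter hcl (c.2.2 l') ?_
      have := c₁.2.2 l'
      rwa [hc₁l] at this
    · rw [hTne l' h]
      exact c.2.2 l'
  have hprime : (U.qI q T).IsPrime := (U.component hC.hq T hT).1
  set P := (U.qI q T).comap (θ b) with hPdef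
  have hPprime : P.IsPrime := Ideal.comap_isPrime _ _
  have hspec1 : U.qI q c₁.1 ≤ U.qI q T := by
    rw [U.qI_le_qI_iff hC.hq hC.h20 hC.hq1 c₁.1 T hT]
    intro l'
    by_cases h : l' = l
    · subst h
      rw [hTl, hc₁l]
      rcases hcl with h | h <;> rw [h]
      · exact Or.inr (Or.inl ⟨rfl, Or.inl rfl⟩)
      · exact Or.inr (Or.inr ⟨rfl, Or.inl rfl⟩)
    · rw [hTne l' h, hc₁ne l' h]
      exact Or.inl rfl
  have hdetU : (U.F l).trace ^ 2 - (U.ι (q l) + 1) ^ 2 ∈ U.qI q T := by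
    have h1 := (U.qI_le_ker_iff (Ideal.Quotient.mk (U.qI q T)) T).mp (by rw [Ideal.mk_ker]) l
    rw [hTl] at h1
    rw [← Ideal.Quotient.eq_zero_iff_mem, map_sub, map_pow, map_pow, map_add, map_one,
      ← trace_map' (Ideal.Quotient.mk (U.qI q T))]
    rcases hcl with h | h <;> rw [h] at h1
    · rw [IsP.trF h1, sub_self]
    · have h2 := IsP.trF h1
      rw [Matrix.trace_neg] at h2
      have h3 : ((U.F l).map (Ideal.Quotient.mk (U.qI q T))).trace =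
        -(Ideal.Quotient.mk (U.qI q T) (U.ι (q l)) + 1) := by linear_combination -h2
      rw [h3]
      ring
  have hdet : (FF l).trace ^ 2 - (qq l + 1) ^ 2 ∈ P := hC.mem_comap_tr U b _ l hdetU
  have hΘtr : ∀ n, Θ n (FF l).trace = MvPowerSeries.C (D.F n l).trace := fun n => D.Θtr n l
  have hΘq : ∀ n, Θ n (qq l + 1) = MvPowerSeries.C (D.q n l + 1) := fun n => by
    rw [map_add, map_one, map_add, map_one, D.Θq]
  refine RT8.raise_step hp hp𝒪 Θ hΘ (comps U θ g τ hC.hq hC.θs hC.hγ) ρ ρ' hlev.sc hlev'.sc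
    (by
      intro P hP hle
      obtain ⟨b, hb, c, hc, -, -⟩ := hlev.hcov U hC hp hp𝒪 D hB P hP hle ∅ (by simp)
      exact ⟨(b, c), hc⟩)
    ι ι' hι hι' hinj hsurj (fun n => D.q n l + 1) (fun n => (D.F n l).trace)
    (fun n => (D.F n l).trace) (fun n => D.q n l + 1) hcomp
    (qq l + 1) (FF l).trace (FF l).trace (qq l + 1) hΘq hΘtr hΘtr hΘq P hPprime ?_ ?_
    ((FF l).trace ^ 2 - (qq l + 1) ^ 2) (fun n => (D.F n l).trace ^ 2 - (D.q n l + 1) ^ 2)
    (fun n => ?_) hY (b, c) ?_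
  · have e : (qq l + 1) * (qq l + 1) - (FF l).trace * (FF l).trace =
      -((FF l).trace ^ 2 - (qq l + 1) ^ 2) := by ring
    rw [e]
    exact P.neg_mem hdet
  · exact le_trans hsupp (Ideal.comap_mono hspec1)
  · rw [map_sub, map_pow, map_pow, hΘtr, hΘq]
    simp only [map_sub, map_pow]
  · rintro ⟨b', c'⟩ hle hmem
    have hle' : (U.qI q c'.1).comap (θ b') ≤ (U.qI q T).comap (θ b) := hle
    obtain ⟨rfl, hsp⟩ := hC.spec U hT hle'
    congr 1
    apply Subtype.ext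
    funext l'
    have hsp' := hsp l'
    by_cases h : l' = l
    · subst h
      rw [hTl] at hsp'
      have hmem' : (U.F l').trace ^ 2 - (U.ι (q l') + 1) ^ 2 ∈ U.qI q c'.1 :=
        hC.mem_comap_tr' U b' _ l' hmem
      have hne : c'.1 l' ≠ .unr := by
        intro h0
        exact U.trace_notMem hC.hq c'.1 c'.2.2 l' h0 hmem'
      rcases hcl with h | h <;> rw [h] at hsp' ⊢
      · rcases hsp' with h1 | ⟨-, h1 | h1⟩ | ⟨h1, -⟩
        · have h2 := c'.2.1 l'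
          rw [← h1] at h2
          rcases h2 with h2 | h2 | h2 <;> exact absurd h2 (by decide)
        · exact absurd h1 hne
        · exact h1
        · exact absurd h1 (by decide)
      · rcases hsp' with h1 | ⟨h1, -⟩ | ⟨-, h1 | h1⟩
        · have h2 := c'.2.1 l'
          rw [← h1] at h2
          rcases h2 with h2 | h2 | h2 <;> exact absurd h2 (by decide)
        · exact absurd h1 (by decide)
        · exact absurd h1 hne
        · exact h1
    · rw [hTne l' h] at hsp'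
      exact ((c.2.1 l').spec_iff.mp hsp').symm

end raise


section raiseP

variable (hp : p.Prime) (hp𝒪 : (p : 𝒪) ∈ maximalIdeal 𝒪)
  {Θ : ∀ n, RR →+* MvPowerSeries τ (R n)} (hΘ : ∀ n, Function.Surjective (Θ n))
  (D : FData Θ qq FF NN)
  {m m' : Type} [Fintype m] [DecidableEq m] [Fintype m'] [DecidableEq m']
  {ρ : ∀ n, R n →+* Matrix m m (Lam p g 𝒪 n)} {ρ' : ∀ n, R n →+* Matrix m' m' (Lam p g 𝒪 n)}
  {S S' : Set Λ}

include hC hΘ

/-- **Level raising at `p`.** -/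
theorem raise_p [Finite 𝔅] (hlev : IsLevel D ρ S') (hlev' : IsLevel D ρ' S) {B : Set 𝔅}
    (hB : PPart U (θ := θ) hp hp𝒪 (Θ := Θ) ρ B)
    (b b₁ : 𝔅) (c : CompIdx q F₀ N₀)
    (hsupp : Supp U (θ := θ) hp hp𝒪 (Θ := Θ) ρ' b₁ c)
    (ι : ∀ n, Matrix m (m' ⊕ m') (Lam p g 𝒪 n)) (ι' : ∀ n, Matrix (m' ⊕ m') m (Lam p g 𝒪 n))
    (hι : ∀ n r, ι n * Matrix.fromBlocks (ρ' n r) 0 0 (ρ' n r) = ρ n r * ι n)
    (hι' : ∀ n r, ι' n * ρ n r = Matrix.fromBlocks (ρ' n r) 0 0 (ρ' n r) * ι' n)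
    (hinj : ∀ n, Function.Injective ((ι n).map (kapL p g 𝒪 n)).mulVec)
    (hsurj : ∀ n, Function.Surjective ((ι' n).map (kapL p g 𝒪 n)).mulVec)
    (tp : ∀ n, R n) (tp' : RR) (htp : ∀ n, Θ n tp' = MvPowerSeries.C (tp n))
    (hcomp : ∀ n, ι' n * ι n =
      Matrix.fromBlocks (ρ' n ((p : R n) + 1)) (ρ' n (tp n)) (ρ' n (tp n)) (ρ' n ((p : R n) + 1)))
    (u : RR) (un : ∀ n, R n) (hu : ∀ n, Θ n u = MvPowerSeries.C (un n))
    (hY : ∀ n, ∃ Y : Matrix (m' ⊕ m') m (Lam p g 𝒪 n), ρ n (un n) = ι n * Y)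
    (P : Ideal RR) (hP : P.IsPrime) (hPb : (U.qI q c.1).comap (θ b₁) ≤ P)
    (hdet : ((p : RR) + 1) ^ 2 - tp' ^ 2 ∈ P)
    (hPc : ∀ (b' : 𝔅) (c' : CompIdx q F₀ N₀), (U.qI q c'.1).comap (θ b') ≤ P →
      u ∈ (U.qI q c'.1).comap (θ b') → (b', c') = (b, c)) :
    Supp U (θ := θ) hp hp𝒪 (Θ := Θ) ρ b c := by
  have hΘp : ∀ n, Θ n ((p : RR) + 1) = MvPowerSeries.C ((p : R n) + 1) := fun n => by
    rw [map_add, map_one, map_natCast, map_add, map_one, map_natCast]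
  refine RT8.raise_step hp hp𝒪 Θ hΘ (comps U θ g τ hC.hq hC.θs hC.hγ) ρ ρ' hlev.sc hlev'.sc
    (by
      intro P hP hle
      obtain ⟨b, hb, c, hc, -, -⟩ := hlev.hcov U hC hp hp𝒪 D hB P hP hle ∅ (by simp)
      exact ⟨(b, c), hc⟩)
    ι ι' hι hι' hinj hsurj (fun n => (p : R n) + 1) tp tp (fun n => (p : R n) + 1) hcomp
    ((p : RR) + 1) tp' tp' ((p : RR) + 1) hΘp htp htp hΘp P hP ?_ (hsupp.trans hPb)
    u un hu hY (b, c) ?_
  · have e : ((p : RR) + 1) * ((p : RR) + 1) - tp' * tp' = ((p : RR) + 1) ^ 2 - tp' ^ 2 := by ring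
    rw [e]
    exact hdet
  · rintro ⟨b', c'⟩ hle hmem
    exact hPc b' c' hle hmem

end raiseP

section lower

variable (hp : p.Prime) (hp𝒪 : (p : 𝒪) ∈ maximalIdeal 𝒪)
  {Θ : ∀ n, RR →+* MvPowerSeries τ (R n)} (hΘ : ∀ n, Function.Surjective (Θ n))
  (D : FData Θ qq FF NN)
  {m : Type} [Fintype m] [DecidableEq m]
  {ρ : ∀ n, R n →+* Matrix m m (Lam p g 𝒪 n)}
  {S : Set Λ}

theorem map_sq_sub_one {A B : Type*} [CommRing A] [CommRing B] (f : A →+* B)
    (M : Matrix (Fin 2) (Fin 2) A) : (M * M - 1).map f = M.map f * M.map f - 1 := by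
  rw [← Matrix.map_mul]
  ext1 i j
  rw [Matrix.map_apply, Matrix.sub_apply, Matrix.sub_apply, map_sub, Matrix.map_apply]
  congr 1
  by_cases hij : i = j
  · subst hij; rw [Matrix.one_apply_eq, map_one, Matrix.one_apply_eq]
  · rw [Matrix.one_apply_ne hij, map_zero, Matrix.one_apply_ne hij]

theorem conj_sq_sub_one {A : Type*} [CommRing A] {G H M : Matrix (Fin 2) (Fin 2) A}
    (hGH : G * H = 1) (hHG : H * G = 1) :
    (H * M * G) * (H * M * G) - 1 = H * (M * M - 1) * G := by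
  have h1 : (H * M * G) * (H * M * G) = H * (M * M) * G := by
    calc (H * M * G) * (H * M * G) = H * M * (G * H) * M * G := by simp only [Matrix.mul_assoc]
      _ = H * (M * M) * G := by rw [hGH]; simp only [Matrix.mul_assoc, Matrix.one_mul]
  rw [h1, Matrix.mul_sub, Matrix.sub_mul, Matrix.mul_one, hHG]

theorem FData.ΘX (n : ℕ) (l : Λ) : (FF l * FF l - 1).map (Θ n) = D.H n l *
    (D.F n l * D.F n l - 1).map (MvPowerSeries.C : R n →+* MvPowerSeries τ (R n)) * D.G n l := by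
  rw [map_sq_sub_one, map_sq_sub_one, D.ΘF, conj_sq_sub_one (D.GH n l) (D.HG n l)]

theorem rhoB_zero_of_C {n : ℕ} {r : RR} {a : R n} (h : Θ n r = MvPowerSeries.C a)
    (ha : ρ n a = 0) : rhoB Θ ρ n r = 0 := by
  rw [rhoB_of_C Θ ρ n r a h, ha]
  ext i j
  simp

include hC hΘ

/-- **Level lowering**: if all forms are new at `l` then the residual representation is ramified
at `l`. -/
theorem lower [Finite 𝔅] [Nonempty m] (hlev : IsLevel D ρ S) {B : Set 𝔅}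
    (hB : PPart U (θ := θ) hp hp𝒪 (Θ := Θ) ρ B) (l : Λ)
    (hnew : ∀ n, ρ n ((D.F n l).trace ^ 2 - (D.q n l + 1) ^ 2) = 0)
    (r2 : ∀ n i j, ρ n (((D.F n l * D.F n l - 1) * D.N n l -
      (D.q n l ^ 2 - 1) • D.N n l : Matrix (Fin 2) (Fin 2) (R n)) i j) = 0)
    (r3 : ∀ n i j, ρ n ((D.N n l * (D.F n l * D.F n l - 1)) i j) = 0)
    (r4 : ∀ n, ρ n ((D.F n l * D.F n l - 1).trace - (D.q n l ^ 2 - 1)) = 0)
    (r5 : ∀ n, ρ n (D.F n l * D.F n l - 1).det = 0)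
    (hexact : ∀ n, ∀ v : m ⊕ m → ResidueField 𝒪,
      ((Matrix.fromBlocks (ρ n (D.N n l 0 0)) (ρ n (D.N n l 0 1)) (ρ n (D.N n l 1 0))
        (ρ n (D.N n l 1 1))).map (kapL p g 𝒪 n)).mulVec v = 0 →
      ∃ u, ((Matrix.fromBlocks (ρ n (D.N n l 0 0)) (ρ n (D.N n l 0 1)) (ρ n (D.N n l 1 0))
        (ρ n (D.N n l 1 1))).map (kapL p g 𝒪 n)).mulVec u = v) :
    (N₀ l).map (residue 𝒪) ≠ 0 := by
  intro hN₀
  obtain ⟨b, hb, c, hc⟩ := hlev.exists_supp U hC hp hp𝒪 hΘ D hB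
  have hΘtr : ∀ n, Θ n ((FF l).trace ^ 2 - (qq l + 1) ^ 2) =
      MvPowerSeries.C ((D.F n l).trace ^ 2 - (D.q n l + 1) ^ 2) := fun n => by
    rw [map_sub, map_pow, map_pow, D.Θtr, map_add, map_one, D.Θq]
    simp only [map_sub, map_pow, map_add, map_one]
  have hker : (FF l).trace ^ 2 - (qq l + 1) ^ 2 ∈ kerInf hp hp𝒪 Θ ρ :=
    mem_kerInf hp hp𝒪 fun n => rhoB_zero_of_C (hΘtr n) (hnew n)
  have hcl : c.1 l = .stp ∨ c.1 l = .stm := by
    rcases c.2.1 l with h | h | h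
    · exact absurd (hC.mem_comap_tr' U b _ l (hc hker)) (U.trace_notMem hC.hq c.1 c.2.2 l h)
    · exact Or.inl h
    · exact Or.inr h
  have hunr : ResHolds .unr (q l) (F₀ l) (N₀ l) := by
    refine ⟨?_, hN₀⟩
    have h1 := c.2.2 l
    rcases hcl with h | h <;> rw [h] at h1
    · exact IsSt.detF h1
    · have h2 := IsSt.detF h1
      rw [Matrix.det_neg] at h2
      simpa using h2
  set T : Λ → Ty := Function.update c.1 l (Ty.inter (c.1 l)) with hTdef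
  have hTl : T l = Ty.inter (c.1 l) := Function.update_self _ _ _
  have hTne : ∀ l' ≠ l, T l' = c.1 l' := fun l' h => Function.update_of_ne h _ _
  have hT : ∀ l, ResHolds (T l) (q l) (F₀ l) (N₀ l) := by
    intro l'
    by_cases h : l' = l
    · subst h
      rw [hTl]
      exact resHolds_inter hcl (c.2.2 l') hunr
    · rw [hTne l' h]
      exact c.2.2 l'
  have hprime : (U.qI q T).IsPrime := (U.component hC.hq T hT).1
  set P := (U.qI q T).comap (θ b) with hPdef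
  have hPprime : P.IsPrime := Ideal.comap_isPrime _ _
  have hspec1 : U.qI q c.1 ≤ U.qI q T := by
    rw [U.qI_le_qI_iff hC.hq hC.h20 hC.hq1 c.1 T hT]
    intro l'
    by_cases h : l' = l
    · subst h
      rw [hTl]
      rcases hcl with h | h <;> rw [h]
      · exact Or.inr (Or.inl ⟨rfl, Or.inr rfl⟩)
      · exact Or.inr (Or.inr ⟨rfl, Or.inr rfl⟩)
    · rw [hTne l' h]
      exact Or.inl rfl
  have hNT : ∀ i j, U.N l i j ∈ U.qI q T := by
    intro i j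
    have h1 := (U.qI_le_ker_iff (Ideal.Quotient.mk (U.qI q T)) T).mp (by rw [Ideal.mk_ker]) l
    rw [hTl] at h1
    have h2 : (U.N l).map (Ideal.Quotient.mk (U.qI q T)) = 0 := by
      rcases hcl with h | h <;> rw [h] at h1
      · exact IsP.N0 h1
      · exact IsP.N0 h1
    exact Ideal.Quotient.eq_zero_iff_mem.mp (congrFun (congrFun h2 i) j)
  have hθN : ∀ (b : 𝔅) i j, θ b (NN l i j) = U.N l i j := fun b i j => by
    rw [← hC.θN b l]; rfl
  refine RT8.lower_step hp hp𝒪 Θ hΘ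
    (subComponents (comps U θ g τ hC.hq hC.θs hC.hγ)
      fun x => x.2.1 l = .stp ∨ x.2.1 l = .stm) ρ hlev.sc ?_
    (NN l) (FF l * FF l - 1) (qq l ^ 2 - 1) (fun n => D.N n l)
    (fun n => D.F n l * D.F n l - 1) (fun n => D.q n l ^ 2 - 1) (fun n => D.G n l)
    (fun n => D.H n l) (fun n => D.GH n l) (fun n => D.HG n l) (fun n => D.Gc n l)
    (fun n => D.ΘN n l) ?_ ?_ ?_ r2 r3 r4 r5 hexact P hPprime ?_ ?_ ?_ ?_
  · intro P' hP' hle
    obtain ⟨b', hb', c', hc', hX, -⟩ := hlev.hcov U hC hp hp𝒪 D hB P' hP' hle {l} (by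
      rintro _ rfl
      exact hle hker)
    exact ⟨⟨(b', c'), hX l rfl⟩, hc'⟩
  · intro n
    exact D.ΘX n l
  · intro n
    rw [map_sub, map_pow, map_one, D.Θq]
    simp only [map_sub, map_pow, map_one]
  · intro n i j
    exact hlev.uni n l _ (Or.inr ⟨(i, j), rfl⟩)
  · intro i j
    rw [hPdef, Ideal.mem_comap, hθN]
    exact hNT i j
  · rw [hPdef, Ideal.mem_comap, map_sub, map_pow, map_one, hC.θq]
    have e : U.ι (q l) ^ 2 - 1 = U.ι ((q l - 1) * (q l + 1)) := by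
      simp only [map_mul, map_sub, map_add, map_one]; ring
    rw [e]
    exact U.ι_notMem hC.hq T hT _ (mul_ne_zero (hC.hqm1 l) (hC.hq1 l))
  · exact le_trans hc (Ideal.comap_mono hspec1)
  · rintro ⟨⟨b', c'⟩, hc'⟩ -
    obtain ⟨i, j, hij⟩ := U.N_notMem hC.hq c'.1 c'.2.2 l hc'
    refine ⟨i, j, fun h => hij ?_⟩
    have h1 : θ b' (NN l i j) ∈ U.qI q c'.1 := h
    rwa [hθN] at h1

end lower


section all

variable (hp : p.Prime) (hp𝒪 : (p : 𝒪) ∈ maximalIdeal 𝒪)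
  {Θ : ∀ n, RR →+* MvPowerSeries τ (R n)}
  (D : FData Θ qq FF NN)
  {m : Finset Λ → Type} [∀ S, Fintype (m S)] [∀ S, DecidableEq (m S)]
  {ρ : ∀ S, ∀ n, R n →+* Matrix (m S) (m S) (Lam p g 𝒪 n)}

include hC

/-- **All compatible components are in the support.** -/
theorem all_supported (S₀ : Finset Λ) (b : 𝔅)
    (hlev : IsLevel D (ρ S₀) (S₀ : Set Λ))
    (hram : ∀ l ∈ S₀, (N₀ l).map (residue 𝒪) ≠ 0)
    (hbase : ∃ c : CompIdx q F₀ N₀, Supp U (θ := θ) hp hp𝒪 (Θ := Θ) (ρ S₀) b c)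
    (hmono : ∀ S, S₀ ⊆ S → ∀ l ∉ S,
      kerInf hp hp𝒪 Θ (ρ (insert l S)) ≤ kerInf hp hp𝒪 Θ (ρ S))
    (hraise : ∀ S, S₀ ⊆ S → ∀ l ∉ S, ∀ c c₁ : CompIdx q F₀ N₀, (c.1 l = .stp ∨ c.1 l = .stm) →
      c₁.1 = Function.update c.1 l .unr → Supp U (θ := θ) hp hp𝒪 (Θ := Θ) (ρ S) b c₁ →
      Supp U (θ := θ) hp hp𝒪 (Θ := Θ) (ρ (insert l S)) b c)
    (S : Finset Λ) (hS : S₀ ⊆ S) (c : CompIdx q F₀ N₀) (hc : ∀ l ∉ S, c.1 l = .unr) :
    Supp U (θ := θ) hp hp𝒪 (Θ := Θ) (ρ S) b c := by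
  obtain ⟨c₀, hc₀⟩ := hbase
  have hc₀unr : ∀ l ∉ S₀, c₀.1 l = .unr := fun l hl =>
    hlev.unr_of_supp U hC hp hp𝒪 D hc₀ (by simpa using hl)
  obtain ⟨T, rfl⟩ : ∃ T, S = T ∪ S₀ := ⟨S, (Finset.union_eq_left.mpr hS).symm⟩
  clear hS
  induction T using Finset.induction_on generalizing c with
  | empty =>
    rw [Finset.empty_union] at hc ⊢
    have : c = c₀ := by
      apply Subtype.ext
      funext l
      by_cases hl : l ∈ S₀
      · exact resHolds_eq_of_N U hC (c.2.1 l) (c₀.2.1 l) (c.2.2 l) (c₀.2.2 l) (hram l hl)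
      · rw [hc l hl, hc₀unr l hl]
    rw [this]
    exact hc₀
  | insert l T hl ih =>
    by_cases hlS : l ∈ T ∪ S₀
    · have e : insert l T ∪ S₀ = T ∪ S₀ := by
        rw [Finset.insert_union, Finset.insert_eq_of_mem hlS]
      rw [e] at hc ⊢
      exact ih c hc
    · rw [Finset.insert_union] at hc ⊢
      have hsub : S₀ ⊆ T ∪ S₀ := Finset.subset_union_right
      have hlS₀ : l ∉ S₀ := fun h => hlS (hsub h)
      rcases c.2.1 l with h | h
      · refine le_trans (hmono _ hsub l hlS) (ih c fun l' hl' => ?_)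
        by_cases hll : l' = l
        · rw [hll, h]
        · exact hc l' (by rw [Finset.mem_insert]; tauto)
      · let c₁ : CompIdx q F₀ N₀ := ⟨Function.update c.1 l .unr, fun l' => by
          by_cases hll : l' = l
          · rw [hll, Function.update_self]; exact Or.inl rfl
          · rw [Function.update_of_ne hll]; exact c.2.1 l', fun l' => by
          by_cases hll : l' = l
          · rw [hll, Function.update_self]
            have := c₀.2.2 l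
            rwa [hc₀unr l hlS₀] at this
          · rw [Function.update_of_ne hll]; exact c.2.2 l'⟩
        refine hraise _ hsub l hlS c c₁ h rfl (ih c₁ fun l' hl' => ?_)
        show Function.update c.1 l .unr l' = .unr
        by_cases hll : l' = l
        · rw [hll, Function.update_self]
        · rw [Function.update_of_ne hll]
          exact hc l' (by rw [Finset.mem_insert]; tauto)

end all

section point

variable (hp : p.Prime) (hp𝒪 : (p : 𝒪) ∈ maximalIdeal 𝒪)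
  {Θ : ∀ n, RR →+* MvPowerSeries τ (R n)} (hΘ : ∀ n, Function.Surjective (Θ n))
  (D : FData Θ qq FF NN)
  {m : Type} [Fintype m] [DecidableEq m]
  {ρ : ∀ n, R n →+* Matrix m m (Lam p g 𝒪 n)}

theorem FData.cc_F (n : ℕ) (l : Λ) : (FF l).map (fun r =>
    MvPowerSeries.constantCoeff (Θ n r)) = D.F n l := by
  have hH : (D.H n l).map (MvPowerSeries.constantCoeff (σ := τ) (R := R n)) = 1 := by
    have h1 := congrArg (fun M => M.map (MvPowerSeries.constantCoeff (σ := τ) (R := R n)))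
      (D.GH n l)
    simp only [Matrix.map_mul, D.Gc n l, one_mul] at h1
    rw [h1]
    exact Matrix.map_one _ (map_zero _) (map_one _)
  have h2 := congrArg (fun M => M.map (MvPowerSeries.constantCoeff (σ := τ) (R := R n)))
    (D.ΘF n l)
  simp only [Matrix.map_mul, D.Gc n l, hH, mul_one, one_mul] at h2
  refine Matrix.ext fun i j => ?_
  have h3 := congrFun (congrFun h2 i) j
  simp only [Matrix.map_apply, MvPowerSeries.constantCoeff_C] at h3
  exact h3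

theorem FData.cc_N (n : ℕ) (l : Λ) : (NN l).map (fun r =>
    MvPowerSeries.constantCoeff (Θ n r)) = D.N n l := by
  have hH : (D.H n l).map (MvPowerSeries.constantCoeff (σ := τ) (R := R n)) = 1 := by
    have h1 := congrArg (fun M => M.map (MvPowerSeries.constantCoeff (σ := τ) (R := R n)))
      (D.GH n l)
    simp only [Matrix.map_mul, D.Gc n l, one_mul] at h1
    rw [h1]
    exact Matrix.map_one _ (map_zero _) (map_one _)
  have h2 := congrArg (fun M => M.map (MvPowerSeries.constantCoeff (σ := τ) (R := R n)))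
    (D.ΘN n l)
  simp only [Matrix.map_mul, D.Gc n l, hH, mul_one, one_mul] at h2
  refine Matrix.ext fun i j => ?_
  have h3 := congrFun (congrFun h2 i) j
  simp only [Matrix.map_apply, MvPowerSeries.constantCoeff_C] at h3
  exact h3

include hC hΘ

/-- **Modularity of points.** -/
theorem point_modular
    {R₀ : Type} [CommRing R₀] [IsLocalRing R₀] [IsNoetherianRing R₀]
    [IsAdicComplete (maximalIdeal R₀) R₀] [Finite (ResidueField R₀)] (alg₀ : 𝒪 →+* R₀)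
    (π : ∀ n, R n →+* R₀) (hπ : ∀ n, Function.Surjective (π n))
    (hsc : ∀ n (a : Lam p g 𝒪 n), ∃ r : R n, ρ n r = a • (1 : Matrix m m (Lam p g 𝒪 n)) ∧
      π n r = alg₀ (augL p g 𝒪 n a))
    (ρ₀ : R₀ →+* Matrix m m 𝒪) (hρ : ∀ n r, (ρ n r).map (augL p g 𝒪 n) = ρ₀ (π n r))
    (q' : Λ → R₀) (F' N' : Λ → Matrix (Fin 2) (Fin 2) R₀)
    (hq' : ∀ n l, π n (D.q n l) = q' l) (hF' : ∀ n l, (D.F n l).map (π n) = F' l)
    (hN' : ∀ n l, (D.N n l).map (π n) = N' l)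
    {A : Type*} [CommRing A] [IsDomain A] (x : R₀ →+* A) (b : 𝔅)
    (hxb : ∀ n r, θ b r = 0 → x (π n (MvPowerSeries.constantCoeff (Θ n r))) = 0)
    (hxu : ∀ l, IsUni (x (q' l)) ((F' l).map x) ((N' l).map x))
    (S : Set Λ) (hxS : ∀ l ∉ S, (N' l).map x = 0)
    (hsupp : ∀ c : CompIdx q F₀ N₀, (∀ l ∉ S, c.1 l = .unr) →
      Supp U (θ := θ) hp hp𝒪 (Θ := Θ) ρ b c)
    (t : R₀) (ht : ρ₀ t = 0) : x t = 0 := by
  -- the points of `U.R`
  have key : ∀ n, ∃ f : U.R →+* A, ∀ r, f (θ b r) =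
      x (π n (MvPowerSeries.constantCoeff (Θ n r))) := by
    intro n
    let xn : RR →+* A := x.comp ((π n).comp
      ((MvPowerSeries.constantCoeff (σ := τ) (R := R n)).comp (Θ n)))
    have h1 : RingHom.ker (θ b) ≤ RingHom.ker xn := fun r hr => hxb n r hr
    exact ⟨(θ b).liftOfSurjective (hC.θs b) ⟨xn, h1⟩, fun r =>
      RingHom.liftOfRightInverse_comp_apply _ _ _ ⟨xn, h1⟩ r⟩
  choose f hf using key
  have hfq : ∀ n l, f n (U.ι (q l)) = x (q' l) := by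
    intro n l
    rw [← hC.θq b l, hf, D.Θq, MvPowerSeries.constantCoeff_C, hq']
  have hfF : ∀ n l, (U.F l).map (f n) = (F' l).map x := by
    intro n l
    rw [← hC.θF b l, ← hF' n l, ← D.cc_F n l]
    refine Matrix.ext fun i j => ?_
    simp only [Matrix.map_apply]
    exact hf n _
  have hfN : ∀ n l, (U.N l).map (f n) = (N' l).map x := by
    intro n l
    rw [← hC.θN b l, ← hN' n l, ← D.cc_N n l]
    refine Matrix.ext fun i j => ?_
    simp only [Matrix.map_apply]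
    exact hf n _
  have hprime : (RingHom.ker (f 0)).IsPrime := RingHom.ker_isPrime _
  obtain ⟨c, hc1, hc2, hc3, -, hc5⟩ := U.exists_qI_le hC.hq (RingHom.ker (f 0)) hprime
    (fun l => by
      have h1 : IsUni (f 0 (U.ι (q l))) ((U.F l).map (f 0)) ((U.N l).map (f 0)) := by
        rw [hfq, hfF, hfN]
        exact hxu l
      exact (isUni_map_iff (f 0)).mp h1) ∅ (by simp)
  have hcS : ∀ l ∉ S, c l = .unr := by
    intro l hl
    refine hc5 l (by simp) fun i j => ?_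
    have h1 := hfN 0 l
    rw [hxS l hl] at h1
    exact congrFun (congrFun h1 i) j
  have hs := hsupp ⟨c, hc1, hc2⟩ hcS
  refine RT8.point_step hp hp𝒪 Θ ρ alg₀ π hπ hΘ hsc ρ₀ hρ x ((U.qI q c).comap (θ b)) hs ?_ t ht
  intro n r hr
  rw [← hf]
  have h1 : U.qI q c ≤ RingHom.ker (f n) := by
    rw [U.qI_le_ker_iff]
    intro l
    rw [hfq, hfF, hfN, ← hfq 0, ← hfF 0, ← hfN 0]
    exact (U.qI_le_ker_iff (f 0) c).mp hc3 l
  exact h1 hr

end point

end Main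

end Fermat.Agent.RT8
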