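import Fermat.Agent.RT8.Assemble

/-!
# The main patching theorems in the two cases
-/

set_option autoImplicit false
set_option linter.unusedSectionVars false
set_option linter.unusedVariables false

namespace Fermat.Agent.RT8

open IsLocalRing Fermat.Agent.RT1 Fermat.Agent.LocRing Fermat.Agent.DefRing Fermat.Agent.RT8J

section

variable {𝒪 : Type} [CommRing 𝒪] [IsDomain 𝒪] [IsDiscreteValuationRing 𝒪]
  [IsAdicComplete (maximalIdeal 𝒪) 𝒪] [Finite (ResidueField 𝒪)]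
  {rbar : GQ →* M2 (ResidueField 𝒪)}
  {sd : SliceData rbar} {p g : ℕ} {Λ J K : Type} [Fintype Λ] [DecidableEq Λ]
  {Y : Sys sd p g Λ J K} 

theorem ram_of_res {Υ : Type} [Finite Υ] {g' : ℕ} (Z : Frm Y Υ g') (l : Λ) (j : J)
    (hl : (Z.N₀ l).map (residue 𝒪) ≠ 0) : (Y.C₀ j).r (Y.τ l) ≠ 1 := by
  intro h1
  apply hl
  rw [Z.hN₀]
  refine Matrix.ext fun a b => ?_
  obtain ⟨o, ho⟩ := residue_surjective (R := 𝒪) (rbar (Y.τ l) a b)
  have h2 := (Y.C₀ j).red (Y.τ l) a b o ho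
  rw [h1] at h2
  rw [Matrix.sub_apply, Matrix.zero_apply, ← ho, sub_eq_zero]
  by_contra hne
  have h3 : (1 : M2 (Y.C₀ j).T) a b - algebraMap 𝒪 _ o =
      algebraMap 𝒪 (Y.C₀ j).T ((1 : M2 𝒪) a b - o) := by
    rw [map_sub]
    congr 1
    by_cases hab : a = b
    · subst hab; simp
    · simp [Matrix.one_apply_ne hab]
  rw [h3] at h2
  have h4 : (1 : M2 𝒪) a b - o ∈ maximalIdeal 𝒪 := by
    rw [mem_maximalIdeal, mem_nonunits_iff] at h2 ⊢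
    exact fun h => h2 (h.map _)
  rw [← residue_eq_zero_iff, map_sub, sub_eq_zero] at h4
  apply hne
  rw [← h4]
  by_cases hab : a = b
  · subst hab; simp
  · simp [Matrix.one_apply_ne hab]

/-- factorisation through the Hecke algebra -/
theorem Sys.exists_hom (k : K) (j : J) (hinj : Function.Injective (Y.act₀ k))
    (h : ∀ t : Y.A₀.R, Y.ρ₀ k t = 0 → Y.A₀.pr j t = 0) :
    ∃ f : (Y.C₀ (Y.lev k)).T →ₐ[𝒪] (Y.C₀ j).T,
      mapRep (f : (Y.C₀ (Y.lev k)).T →+* (Y.C₀ j).T) (Y.C₀ (Y.lev k)).r = (Y.C₀ j).r := by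
  have hker : RingHom.ker (Y.A₀.pr (Y.lev k) : Y.A₀.R →+* (Y.C₀ (Y.lev k)).T) ≤
      RingHom.ker (Y.A₀.pr j : Y.A₀.R →+* (Y.C₀ j).T) := by
    intro t ht
    apply h
    show Y.act₀ k (Y.A₀.pr (Y.lev k) t) = 0
    have h1 : Y.A₀.pr (Y.lev k) t = 0 := ht
    rw [h1, map_zero]
  have hs : Function.Surjective (Y.A₀.pr (Y.lev k) : Y.A₀.R →+* (Y.C₀ (Y.lev k)).T) :=
    Y.pr₀_surj k
  let f₀ : (Y.C₀ (Y.lev k)).T →+* (Y.C₀ j).T :=
    (Y.A₀.pr (Y.lev k) : Y.A₀.R →+* (Y.C₀ (Y.lev k)).T).liftOfSurjective hs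
      ⟨(Y.A₀.pr j : Y.A₀.R →+* (Y.C₀ j).T), hker⟩
  have hf₀ : ∀ t, f₀ (Y.A₀.pr (Y.lev k) t) = Y.A₀.pr j t := fun t =>
    RingHom.liftOfRightInverse_comp_apply _ _ _ ⟨(Y.A₀.pr j : Y.A₀.R →+* (Y.C₀ j).T), hker⟩ t
  let f : (Y.C₀ (Y.lev k)).T →ₐ[𝒪] (Y.C₀ j).T :=
    { f₀ with
      commutes' := fun o => by
        have h1 : algebraMap 𝒪 (Y.C₀ (Y.lev k)).T o = Y.A₀.pr (Y.lev k) (algebraMap 𝒪 _ o) :=
          ((Y.A₀.pr (Y.lev k)).commutes o).symm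
        show f₀ (algebraMap 𝒪 _ o) = _
        rw [h1, hf₀, AlgHom.commutes] }
  refine ⟨f, ?_⟩
  refine MonoidHom.ext fun σ => ?_
  have h1 := Y.A₀.pr_r0_apply (Y.lev k) σ
  have h2 := Y.A₀.pr_r0_apply j σ
  have h3 : mapRep (f : (Y.C₀ (Y.lev k)).T →+* (Y.C₀ j).T) (Y.C₀ (Y.lev k)).r σ =
      ((Y.C₀ (Y.lev k)).r σ).map f₀ := rfl
  rw [h3, ← h1, ← h2]
  refine Matrix.ext fun a b => ?_
  exact hf₀ _

variable (hp : p.Prime) (hp𝒪 : (p : 𝒪) ∈ maximalIdeal 𝒪) (hN : NumC Y.q)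

section caseA

variable {g' : ℕ} (Z : Frm Y Empty g') (hg : g' ≤ g)

/-- the comparison in case (A) -/
theorem Frm.cmpA (hN : NumC Y.q) (hg : g' ≤ g) : Cmp Z.V (fun _ : Unit => RingHom.id Z.V.R)
    (fun l => Z.V.ι (Y.q l)) Z.V.F Z.V.N g (Λ × Fin 3) Y.q := by
  refine RT8.cmpA Z.V hN ?_
  rw [Nat.card_eq_fintype_card, Fintype.card_sum, Fintype.card_prod, Fintype.card_fin,
    Fintype.card_fin, Fintype.card_empty]
  omega

theorem Frm.ppA (k : K) : Z.PP hp hp𝒪 Z.V (fun _ : Unit => RingHom.id Z.V.R) k Set.univ := by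
  intro P _ _
  refine ⟨(), trivial, ?_⟩
  intro x hx
  have h1 : x = 0 := hx
  rw [h1]
  exact Ideal.zero_mem _

include Z hp hp𝒪 hN hg

/-- **Lowering, case (A).** -/
theorem Frm.lowerA (k : K) (hd : 0 < Y.d k) (l : Λ) (hnew : NewAt Y k l) : rbar (Y.τ l) ≠ 1 := by
  have i1 : NeZero p := ⟨hp.ne_zero⟩
  have h1 := Z.lower hp hp𝒪 (Z.cmpA hN hg) k hd (Z.ppA hp hp𝒪 k) l hnew
  intro h2
  apply h1
  rw [Z.hN₀, h2, sub_self]

/-- **Modularity, case (A).** -/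
theorem Frm.modularA (κ : Finset Λ → K) (S₀ : Finset Λ)
    (hram : ∀ S, S₀ ⊆ S → Y.ram (κ S) = S) (hd : 0 < Y.d (κ S₀))
    (hnew : ∀ l ∈ S₀, NewAt Y (κ S₀) l)
    (W : ∀ S, S₀ ⊆ S → ∀ l ∉ S, DegPrime Y (κ (insert l S)) (κ S) l)
    (S : Finset Λ) (j : J) [IsDomain (Y.C₀ j).T] (hjS : ∀ l ∉ S, (Y.C₀ j).r (Y.τ l) = 1)
    (hinj : Function.Injective (Y.act₀ (κ S))) :
    S₀ ⊆ S ∧ ∃ f : (Y.C₀ (Y.lev (κ S))).T →ₐ[𝒪] (Y.C₀ j).T,
      mapRep (f : (Y.C₀ (Y.lev (κ S))).T →+* (Y.C₀ j).T) (Y.C₀ (Y.lev (κ S))).r = (Y.C₀ j).r := by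
  have i1 : NeZero p := ⟨hp.ne_zero⟩
  have hC := Z.cmpA hN hg
  have hlow : ∀ l ∈ S₀, (Z.N₀ l).map (residue 𝒪) ≠ 0 := fun l hl =>
    Z.lower hp hp𝒪 hC (κ S₀) hd (Z.ppA hp hp𝒪 _) l (hnew l hl)
  have hSS : S₀ ⊆ S := by
    intro l hl
    by_contra hlS
    exact ram_of_res Z l j (hlow l hl) (hjS l hlS)
  refine ⟨hSS, Sys.exists_hom (κ S) j hinj fun t ht => ?_⟩
  obtain ⟨b, -, c₀, hc₀⟩ := Z.exists_sup hp hp𝒪 hC (κ S₀) hd (Z.ppA hp hp𝒪 _)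
  refine Z.point hp hp𝒪 hC (κ S) j () (fun n r hr => ?_) ?_ ?_ t ht
  · have h1 : r = 0 := hr
    rw [h1, map_zero, map_zero, map_zero, map_zero]
  · rw [hram S hSS]; exact hjS
  · rw [hram S hSS]
    exact fun c hc => Z.all_sup hp hp𝒪 hC κ S₀ hram () Set.univ (fun S _ => Z.ppA hp hp𝒪 _) hlow
      ⟨c₀, hc₀⟩ W S hSS c hc

end caseA

section caseB

variable {g' : ℕ} (Z : Frm Y Bool g') {U : FPkg (Unit ⊕ Fin g') Z.F₀ Z.N₀}
  {θ : Bool → Z.V.R →+* U.R} (hθ : SpecB Z.V U θ)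

/-- the two extra variables -/
noncomputable def Frm.xu (b : Bool) : Z.V.R := Z.V.x (Sum.inl b)

theorem Frm.th_xu (n : ℕ) (b : Bool) : Z.th n (Z.xu b) = MvPowerSeries.C (Z.s n b) := Z.Θs n b

include hθ

theorem Frm.ppB (huv : ∀ n, Z.s n false * Z.s n true = 0) (k : K) :
    Z.PP hp hp𝒪 U θ k Set.univ := by
  intro P hP hle
  have h1 : Z.xu false * Z.xu true ∈ kerInf hp hp𝒪 Z.th (Y.rh k) := by
    refine mem_kerInf hp hp𝒪 fun n => ?_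
    have h2 : Z.th n (Z.xu false * Z.xu true) = 0 := by
      rw [map_mul, Z.th_xu, Z.th_xu, ← map_mul, huv, map_zero]
    rw [rhoB, RingHom.comp_apply, h2, map_zero]
  obtain ⟨b, hb⟩ := hθ.cover P hP (hle h1)
  exact ⟨b, trivial, hb⟩

theorem Frm.ppB_single (k : K) (b : Bool) (h : ∀ n, Y.ρ n k (Z.s n b) = 0) :
    Z.PP hp hp𝒪 U θ k {b} := by
  intro P hP hle
  refine ⟨b, rfl, ?_⟩
  have h1 : Z.xu b ∈ kerInf hp hp𝒪 Z.th (Y.rh k) :=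
    mem_kerInf hp hp𝒪 fun n => rhoB_zero_of_C (Z.th_xu n b) (h n)
  rw [(hθ.surj b).2, Ideal.span_singleton_le_iff_mem]
  exact hle h1

theorem Frm.cmpB (hN : NumC Y.q) (hg : g' + 1 ≤ g) :
    Cmp U θ (fun l => Z.V.ι (Y.q l)) Z.V.F Z.V.N g (Λ × Fin 3) Y.q := by
  refine hθ.cmp hN ?_
  rw [Nat.card_eq_fintype_card, Fintype.card_sum, Fintype.card_prod, Fintype.card_fin,
    Fintype.card_fin, Fintype.card_unit]
  omega

end caseB

/-- the modular input at `p` in case (B): either all forms are `p`-new at the level `k`, or there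
is a level `k'` prime to `p`. -/
def PInput {g' : ℕ} (Z : Frm Y Bool g') (k : K) (S₀ : Finset Λ) : Prop :=
  (∀ n, Y.ρ n k (Z.s n false) = 0) ∨
  ∃ (k' : K) (W : DegL Y k k') (z₀ : 𝒪), Y.ram k' = S₀ ∧ 0 < Y.d k' ∧
    (∀ n, Y.ρ n k' (Z.s n true) = 0) ∧ z₀ ^ 2 = 1 ∧
    (∀ n (zi : (Y.A n).R), (algebraMap 𝒪 _ z₀ + Z.s n false) * zi = 1 →
      W.ι' n * W.ι n = Matrix.fromBlocks (Y.ρ n k' ((p : (Y.A n).R) + 1))
        (Y.ρ n k' (algebraMap 𝒪 _ z₀ + Z.s n false + (p : (Y.A n).R) * zi))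
        (Y.ρ n k' (algebraMap 𝒪 _ z₀ + Z.s n false + (p : (Y.A n).R) * zi))
        (Y.ρ n k' ((p : (Y.A n).R) + 1))) ∧
    ∀ n, ∃ X : Matrix (Fin (Y.d k') ⊕ Fin (Y.d k')) (Fin (Y.d k)) (Lam p g 𝒪 n),
      Y.ρ n k (Z.s n false) = W.ι n * X

include hp hp𝒪 hN

theorem Frm.baseB {g' : ℕ} (Z : Frm Y Bool g') (hg : g' + 1 ≤ g)
    {U : FPkg (Unit ⊕ Fin g') Z.F₀ Z.N₀} {θ : Bool → Z.V.R →+* U.R} (hθ : SpecB Z.V U θ)
    (huv : ∀ n, Z.s n false * Z.s n true = 0) (k : K) (S₀ : Finset Λ) (hram : Y.ram k = S₀)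
    (hd : 0 < Y.d k) (hin : PInput Z k S₀) :
    ∃ c, Z.Sup hp hp𝒪 U θ k false c := by
  have i1 : NeZero p := ⟨hp.ne_zero⟩
  have hC := Z.cmpB hθ hN hg
  rcases hin with h | ⟨k', W, z₀, hram', hd', hv, hz₀, hcomp, hnew⟩
  · obtain ⟨b, hb, c, hc⟩ := Z.exists_sup hp hp𝒪 hC k hd (Z.ppB_single hp hp𝒪 hθ k false h)
    have hb' : b = false := hb
    subst hb'
    exact ⟨c, hc⟩
  · obtain ⟨b, hb, c, hc⟩ := Z.exists_sup hp hp𝒪 hC k' hd' (Z.ppB_single hp hp𝒪 hθ k' true hv)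
    have hb' : b = true := hb
    subst hb'
    obtain ⟨P, hP, hP1, hP2, hP3⟩ := hθ.exists_prime hN c
    -- the unit `z`
    have hz₀u : IsUnit z₀ := IsUnit.of_pow_eq_one hz₀ two_ne_zero
    have hzu : IsUnit (Z.V.ι z₀ + Z.xu false) := by
      have h1 : IsUnit (Z.V.ι z₀) := hz₀u.map _
      by_contra hcon
      have h2 : Z.V.ι z₀ + Z.xu false ∈ maximalIdeal Z.V.R := hcon
      have h3 := Ideal.sub_mem _ h2 (Z.V.x_mem (Sum.inl false))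
      have h4 : Z.V.ι z₀ + Z.xu false - Z.V.x (Sum.inl false) = Z.V.ι z₀ := by
        rw [Frm.xu, add_sub_cancel_right]
      rw [h4] at h3
      exact h3 h1
    obtain ⟨zi, hzi⟩ := hzu.exists_right_inv
    have hthz : ∀ n, Z.th n (Z.V.ι z₀ + Z.xu false) =
        MvPowerSeries.C (algebraMap 𝒪 _ z₀ + Z.s n false) := by
      intro n
      have h1 : Z.th n (Z.V.ι z₀) = MvPowerSeries.C (algebraMap 𝒪 (Y.A n).R z₀) := by
        have h2 := (Z.Θ n).commutes z₀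
        rw [MvPowerSeries.algebraMap_apply, MvPowerSeries.algebraMap_apply] at h2
        exact h2
      rw [map_add, Z.th_xu, h1, map_add]
    -- finite level inverses
    let zn : ∀ n, (Y.A n).R := fun n => algebraMap 𝒪 _ z₀ + Z.s n false
    let zin : ∀ n, (Y.A n).R := fun n => MvPowerSeries.constantCoeff (Z.th n zi)
    have hzin : ∀ n, zn n * zin n = 1 := by
      intro n
      have h1 : Z.th n ((Z.V.ι z₀ + Z.xu false) * zi) = 1 := by rw [hzi, map_one]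
      rw [map_mul, hthz] at h1
      have h2 := congrArg (MvPowerSeries.constantCoeff (σ := Λ × Fin 3) (R := (Y.A n).R)) h1
      rw [map_mul, MvPowerSeries.constantCoeff_C, map_one] at h2
      exact h2
    have hthzi : ∀ n, Z.th n zi = MvPowerSeries.C (zin n) := by
      intro n
      have h1 : Z.th n ((Z.V.ι z₀ + Z.xu false) * zi) = 1 := by rw [hzi, map_one]
      rw [map_mul, hthz] at h1
      calc Z.th n zi = MvPowerSeries.C (zn n * zin n) * Z.th n zi := by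
            rw [hzin, map_one, one_mul]
        _ = MvPowerSeries.C (zin n) * (MvPowerSeries.C (zn n) * Z.th n zi) := by
            rw [map_mul]; ring
        _ = _ := by rw [h1, mul_one]
    refine ⟨c, Z.raise_p hp hp𝒪 hC k k' (Z.ppB hp hp𝒪 hθ huv k) W false true c hc
      (fun n => zn n + (p : (Y.A n).R) * zin n)
      (Z.V.ι z₀ + Z.xu false + (p : Z.V.R) * zi) (fun n => ?_) (fun n => hcomp n _ (hzin n))
      (Z.xu false) (fun n => Z.s n false) (fun n => Z.th_xu n false) hnew P hP (hP1 true) ?_ hP3⟩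
    · rw [map_add, hthz, map_mul, hthzi, map_natCast, map_add MvPowerSeries.C (zn n),
        map_mul MvPowerSeries.C, map_natCast]
    · have h1 : Z.xu false ∈ P := hP2 false
      have h2 : (Z.V.ι z₀) ^ 2 = 1 := by rw [← map_pow, hz₀, map_one]
      have e : ((p : Z.V.R) + 1) ^ 2 - (Z.V.ι z₀ + Z.xu false + (p : Z.V.R) * zi) ^ 2 =
          Z.xu false * (-(2 * Z.V.ι z₀ + Z.xu false) * (1 - (p : Z.V.R) ^ 2 * zi ^ 2)) := by
        linear_combination (-1 + (p : Z.V.R) ^ 2 * zi ^ 2) * h2 -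
          (2 * (p : Z.V.R) + (p : Z.V.R) ^ 2 * ((Z.V.ι z₀ + Z.xu false) * zi + 1)) * hzi
      rw [e]
      exact Ideal.mul_mem_right _ _ h1

/-- **Modularity, case (B).** -/
theorem Frm.modularB {g' : ℕ} (Z : Frm Y Bool g') (hg : g' + 1 ≤ g)
    (huv : ∀ n, Z.s n false * Z.s n true = 0) (κ : Finset Λ → K) (S₀ : Finset Λ)
    (hram : ∀ S, S₀ ⊆ S → Y.ram (κ S) = S) (hd : 0 < Y.d (κ S₀))
    (hnew : ∀ l ∈ S₀, NewAt Y (κ S₀) l)
    (W : ∀ S, S₀ ⊆ S → ∀ l ∉ S, DegPrime Y (κ (insert l S)) (κ S) l)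
    (hin : PInput Z (κ S₀) S₀)
    (S : Finset Λ) (j : J) [IsDomain (Y.C₀ j).T] (hjS : ∀ l ∉ S, (Y.C₀ j).r (Y.τ l) = 1)
    (hju : ∀ n, Y.A₀.pr j (Y.π n (Z.s n false)) = 0)
    (hinj : Function.Injective (Y.act₀ (κ S))) :
    S₀ ⊆ S ∧ ∃ f : (Y.C₀ (Y.lev (κ S))).T →ₐ[𝒪] (Y.C₀ j).T,
      mapRep (f : (Y.C₀ (Y.lev (κ S))).T →+* (Y.C₀ j).T) (Y.C₀ (Y.lev (κ S))).r = (Y.C₀ j).r := by
  have i1 : NeZero p := ⟨hp.ne_zero⟩
  obtain ⟨θ, hθ⟩ := exists_specB Z.V (fullPkg (Unit ⊕ Fin g') Z.F₀ Z.N₀)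
  have hC := Z.cmpB hθ hN hg
  have hlow : ∀ l ∈ S₀, (Z.N₀ l).map (residue 𝒪) ≠ 0 := fun l hl =>
    Z.lower hp hp𝒪 hC (κ S₀) hd (Z.ppB hp hp𝒪 hθ huv _) l (hnew l hl)
  have hSS : S₀ ⊆ S := by
    intro l hl
    by_contra hlS
    exact ram_of_res Z l j (hlow l hl) (hjS l hlS)
  refine ⟨hSS, Sys.exists_hom (κ S) j hinj fun t ht => ?_⟩
  have hbase := Z.baseB hp hp𝒪 hN hg hθ huv (κ S₀) S₀ (hram S₀ (Finset.Subset.refl _)) hd hin
  refine Z.point hp hp𝒪 hC (κ S) j false (fun n r hr => ?_) ?_ ?_ t ht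
  · have h1 : r ∈ RingHom.ker (θ false) := hr
    rw [(hθ.surj false).2, Ideal.mem_span_singleton] at h1
    obtain ⟨y, rfl⟩ := h1
    have h2 : Z.th n (Z.V.x (Sum.inl false)) = MvPowerSeries.C (Z.s n false) := Z.th_xu n false
    rw [map_mul, h2, map_mul, MvPowerSeries.constantCoeff_C, map_mul, map_mul, hju, zero_mul]
  · rw [hram S hSS]; exact hjS
  · rw [hram S hSS]
    exact fun c hc => Z.all_sup hp hp𝒪 hC κ S₀ hram false Set.univ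
      (fun S _ => Z.ppB hp hp𝒪 hθ huv _) hlow hbase W S hSS c hc

end

end Fermat.Agent.RT8
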