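import Fermat.Agent.RT8.Build

/-!
# From modules to matrices
-/

set_option autoImplicit false
set_option linter.unusedSectionVars false
set_option linter.unusedVariables false

namespace Fermat.Agent.RT8

open IsLocalRing Module

section act

variable {𝒪 L T M : Type*} [CommRing 𝒪] [CommRing L] [CommRing T] [Algebra 𝒪 L] [Algebra 𝒪 T]
  [AddCommGroup M] [Module L M] [Module T M] [SMulCommClass T L M]
  {d : Type*} [Fintype d] [DecidableEq d] (b : Basis d L M)

/-- the action in coordinates, as a ring hom -/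
noncomputable def actR (T : Type*) [CommRing T] [Module T M] [SMulCommClass T L M] :
    T →+* Matrix d d L :=
  ((LinearMap.toMatrixAlgEquiv b : (M →ₗ[L] M) ≃ₐ[L] Matrix d d L) : (M →ₗ[L] M) →+*
    Matrix d d L).comp (Module.toModuleEnd L M)

theorem actR_apply (t : T) : actR b T t = LinearMap.toMatrix b b (Module.toModuleEnd L M t) :=
  rfl

theorem sum_actR (t : T) (j : d) : ∑ i, actR b T t i j • b i = t • b j := by
  rw [actR_apply]
  have h := Basis.sum_repr b (t • b j)
  conv_rhs => rw [← h]
  refine Finset.sum_congr rfl fun i _ => ?_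
  rw [LinearMap.toMatrix_apply]
  rfl

theorem eq_actR {t : T} {A : Matrix d d L} (h : ∀ j, ∑ i, A i j • b i = t • b j) :
    A = actR b T t := by
  refine Matrix.ext fun i j => ?_
  have h1 : b.repr (t • b j) i = A i j := by
    rw [← h j, Basis.repr_sum_self]
  rw [← h1, actR_apply, LinearMap.toMatrix_apply]
  rfl

theorem actR_smul (γ : L →+* T) (hγ : ∀ a (x : M), γ a • x = a • x) (a : L) :
    actR b T (γ a) = a • (1 : Matrix d d L) := by
  symm
  refine eq_actR b fun j => ?_
  rw [hγ]
  rw [Finset.sum_eq_single j]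
  · rw [Matrix.smul_apply, Matrix.one_apply_eq, smul_eq_mul, mul_one]
  · intro i _ hij
    rw [Matrix.smul_apply, Matrix.one_apply_ne hij, smul_zero, zero_smul]
  · intro h
    exact absurd (Finset.mem_univ j) h

/-- the action in coordinates -/
noncomputable def actA (h𝒪 : ∀ (o : 𝒪) (x : M), algebraMap 𝒪 T o • x = algebraMap 𝒪 L o • x) :
    T →ₐ[𝒪] Matrix d d L :=
  { actR b T with
    commutes' := fun o => by
      show actR b T (algebraMap 𝒪 T o) = _
      have h2 : algebraMap 𝒪 (Matrix d d L) o = algebraMap 𝒪 L o • (1 : Matrix d d L) := by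
        rw [Algebra.algebraMap_eq_smul_one, algebraMap_smul]
      rw [h2]
      symm
      refine eq_actR b fun j => ?_
      rw [h𝒪, Finset.sum_eq_single j]
      · rw [Matrix.smul_apply, Matrix.one_apply_eq, smul_eq_mul, mul_one]
      · intro i _ hij
        rw [Matrix.smul_apply, Matrix.one_apply_ne hij, smul_zero, zero_smul]
      · intro h
        exact absurd (Finset.mem_univ j) h }

theorem actA_apply (h𝒪 : ∀ (o : 𝒪) (x : M), algebraMap 𝒪 T o • x = algebraMap 𝒪 L o • x)
    (t : T) : actA b h𝒪 t = actR b T t := rfl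

theorem actR_injective (hf : ∀ t : T, (∀ x : M, t • x = 0) → t = 0) :
    Function.Injective (actR b T) := by
  rw [injective_iff_map_eq_zero]
  intro t ht
  apply hf
  intro x
  have h1 : ∀ j, t • b j = 0 := fun j => by
    rw [← sum_actR, ht]; simp
  rw [← Basis.sum_repr b x, Finset.smul_sum]
  refine Finset.sum_eq_zero fun i _ => ?_
  rw [smul_comm, h1, smul_zero]

end act

section base

variable {L L₀ T T₀ M M₀ : Type*} [CommRing L] [CommRing L₀] [CommRing T] [CommRing T₀]
  [AddCommGroup M] [Module L M] [Module T M] [SMulCommClass T L M]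
  [AddCommGroup M₀] [Module L₀ M₀] [Module T₀ M₀] [SMulCommClass T₀ L₀ M₀]
  {d d' : Type*} [Fintype d] [DecidableEq d] [Fintype d'] [DecidableEq d']
  (b : Basis d L M) (b₀ : Basis d L₀ M₀)
  (ε : L →+* L₀) (pr : T →+* T₀) (π : M →+ M₀)

theorem actR_map (hπL : ∀ a x, π (a • x) = ε a • π x)
    (hπT : ∀ (t : T) x, π (t • x) = pr t • π x) (hb : ∀ i, π (b i) = b₀ i) (t : T) :
    (actR b T t).map ε = actR b₀ T₀ (pr t) := by
  refine eq_actR b₀ fun j => ?_
  have h1 := congrArg π (sum_actR b t j)
  rw [map_sum, hπT, hb] at h1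
  rw [← h1]
  refine Finset.sum_congr rfl fun i _ => ?_
  rw [hπL, hb, Matrix.map_apply]

variable {N N₀ : Type*} [AddCommGroup N] [Module L N] [AddCommGroup N₀] [Module L₀ N₀]
  (c : Basis d' L N) (c₀ : Basis d' L₀ N₀) (π' : N →+ N₀)

theorem toMatrix_map (hπL : ∀ a x, π (a • x) = ε a • π x)
    (hπL' : ∀ a x, π' (a • x) = ε a • π' x) (hb : ∀ i, π (b i) = b₀ i)
    (hc : ∀ i, π' (c i) = c₀ i) (f : M →ₗ[L] N) (f₀ : M₀ →ₗ[L₀] N₀)
    (hf : ∀ x, π' (f x) = f₀ (π x)) :
    (LinearMap.toMatrix b c f).map ε = LinearMap.toMatrix b₀ c₀ f₀ := by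
  refine Matrix.ext fun i j => ?_
  rw [Matrix.map_apply, LinearMap.toMatrix_apply, LinearMap.toMatrix_apply]
  have h1 : f₀ (b₀ j) = ∑ i, ε (c.repr (f (b j)) i) • c₀ i := by
    rw [← hb, ← hf]
    conv_lhs => rw [← Basis.sum_repr c (f (b j))]
    rw [map_sum]
    refine Finset.sum_congr rfl fun i _ => ?_
    rw [hπL', hc]
  rw [h1, Basis.repr_sum_self]

end base

section residue

variable {O : Type*} [CommRing O] [IsLocalRing O] {M N : Type*} [AddCommGroup M] [Module O M]
  [AddCommGroup N] [Module O N] {d d' : Type*} [Fintype d] [DecidableEq d] [Fintype d']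
  [DecidableEq d'] (b : Basis d O M) (c : Basis d' O N) (f : M →ₗ[O] N)

theorem basis_mem_smul_top_iff (I : Ideal O) (x : M) :
    x ∈ (I • ⊤ : Submodule O M) ↔ ∀ i, b.repr x i ∈ I := by
  constructor
  · intro hx i
    refine Submodule.smul_induction_on hx (fun a ha y _ => ?_) (fun y z hy hz => ?_)
    · rw [map_smul]
      exact Ideal.mul_mem_right _ _ ha
    · rw [map_add]
      exact Ideal.add_mem _ hy hz
  · intro h
    rw [← Basis.sum_repr b x]
    exact Submodule.sum_mem _ fun i _ => Submodule.smul_mem_smul (h i) trivial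

theorem exists_lift_vec (v : d → ResidueField O) : ∃ x : M, ∀ i, residue O (b.repr x i) = v i := by
  choose o ho using fun i => residue_surjective (R := O) (v i)
  refine ⟨∑ i, o i • b i, fun i => ?_⟩
  rw [Basis.repr_sum_self, ho]

theorem mulVec_residue (x : M) (i : d') :
    ((LinearMap.toMatrix b c f).map (residue O)).mulVec (fun j => residue O (b.repr x j)) i =
      residue O (c.repr (f x) i) := by
  have h1 : (LinearMap.toMatrix b c f).mulVec (b.repr x) = c.repr (f x) :=
    LinearMap.toMatrix_mulVec_repr b c f x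
  rw [← h1]
  simp only [Matrix.mulVec, dotProduct, Matrix.map_apply, map_sum, map_mul]

/-- injectivity of the residual matrix -/
theorem mulVec_injective_of_sat
    (hf : ∀ x, f x ∈ (maximalIdeal O • ⊤ : Submodule O N) →
      x ∈ (maximalIdeal O • ⊤ : Submodule O M)) :
    Function.Injective (((LinearMap.toMatrix b c f).map (residue O)).mulVec) := by
  have h0 : ∀ v : d → ResidueField O,
      ((LinearMap.toMatrix b c f).map (residue O)).mulVec v = 0 → v = 0 := by
    intro v hv
    obtain ⟨x, hx⟩ := exists_lift_vec b v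
    have hv' : v = fun i => residue O (b.repr x i) := funext fun i => (hx i).symm
    have h1 : f x ∈ (maximalIdeal O • ⊤ : Submodule O N) := by
      rw [basis_mem_smul_top_iff c]
      intro i
      rw [← residue_eq_zero_iff, ← mulVec_residue b c f x i, ← hv', hv]
      rfl
    have h2 := (basis_mem_smul_top_iff b _ _).mp (hf x h1)
    rw [hv']
    funext i
    exact (residue_eq_zero_iff _).mpr (h2 i)
  intro v w hvw
  rw [← sub_eq_zero]
  apply h0
  rw [Matrix.mulVec_sub, hvw, sub_self]

theorem mulVec_surjective_of_surj (hf : Function.Surjective f) :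
    Function.Surjective (((LinearMap.toMatrix b c f).map (residue O)).mulVec) := by
  intro w
  obtain ⟨y, hy⟩ := exists_lift_vec c w
  obtain ⟨x, rfl⟩ := hf y
  refine ⟨fun j => residue O (b.repr x j), ?_⟩
  funext i
  rw [mulVec_residue, hy]

end residue

section prod

variable {L T M : Type*} [CommRing L] [CommRing T]
  [AddCommGroup M] [Module L M] [Module T M] [SMulCommClass T L M]
  {d : Type*} [Fintype d] [DecidableEq d] (b : Basis d L M)

theorem prod_repr_inl (x y : M) (i : d) : (b.prod b).repr (x, y) (Sum.inl i) = b.repr x i := by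
  simp

theorem prod_repr_inr (x y : M) (i : d) : (b.prod b).repr (x, y) (Sum.inr i) = b.repr y i := by
  simp

/-- endomorphisms of `M × M` given by `2 × 2` matrices -/
theorem toMatrix_prod (h : M × M →ₗ[L] M × M) (t₁ t₂ t₃ t₄ : T)
    (hh : ∀ x y, h (x, y) = (t₁ • x + t₂ • y, t₃ • x + t₄ • y)) :
    LinearMap.toMatrix (b.prod b) (b.prod b) h =
      Matrix.fromBlocks (actR b T t₁) (actR b T t₂) (actR b T t₃) (actR b T t₄) := by
  refine Matrix.ext fun i j => ?_
  rw [LinearMap.toMatrix_apply]
  rcases j with j | j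
  · have e : (b.prod b) (Sum.inl j) = (b j, 0) := by
      rw [Basis.prod_apply]; simp
    rw [e, hh, smul_zero, smul_zero, add_zero, add_zero]
    rcases i with i | i
    · rw [prod_repr_inl, Matrix.fromBlocks_apply₁₁, actR_apply, LinearMap.toMatrix_apply]; rfl
    · rw [prod_repr_inr, Matrix.fromBlocks_apply₂₁, actR_apply, LinearMap.toMatrix_apply]; rfl
  · have e : (b.prod b) (Sum.inr j) = (0, b j) := by
      rw [Basis.prod_apply]; simp
    rw [e, hh, smul_zero, smul_zero, zero_add, zero_add]
    rcases i with i | i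
    · rw [prod_repr_inl, Matrix.fromBlocks_apply₁₂, actR_apply, LinearMap.toMatrix_apply]; rfl
    · rw [prod_repr_inr, Matrix.fromBlocks_apply₂₂, actR_apply, LinearMap.toMatrix_apply]; rfl

/-- diagonal action -/
noncomputable def diagL (T : Type*) [CommRing T] [Module T M] [SMulCommClass T L M] (t : T) :
    M × M →ₗ[L] M × M :=
  (Module.toModuleEnd L M t).prodMap (Module.toModuleEnd L M t)

theorem toMatrix_diagL (t : T) : LinearMap.toMatrix (b.prod b) (b.prod b) (diagL (L := L) T t) =
    Matrix.fromBlocks (actR b T t) 0 0 (actR b T t) := by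
  have h := toMatrix_prod (T := T) b (diagL (L := L) T t) t 0 0 t (fun x y => by
    rw [zero_smul, zero_smul, add_zero, zero_add]; rfl)
  rw [map_zero] at h
  exact h

variable {T' M' : Type*} [CommRing T'] [AddCommGroup M'] [Module L M'] [Module T' M']
  [SMulCommClass T' L M'] {d' : Type*} [Fintype d'] [DecidableEq d'] (b' : Basis d' L M')

/-- equivariance of maps out of two copies -/
theorem toMatrix_up (f : M' × M' →ₗ[L] M) (t : T) (t' : T')
    (h : ∀ x y, f (t' • x, t' • y) = t • f (x, y)) :
    LinearMap.toMatrix (b'.prod b') b f * Matrix.fromBlocks (actR b' T' t') 0 0 (actR b' T' t') =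
      actR b T t * LinearMap.toMatrix (b'.prod b') b f := by
  rw [← toMatrix_diagL b' t', actR_apply, ← LinearMap.toMatrix_comp, ← LinearMap.toMatrix_comp]
  congr 1
  refine LinearMap.ext fun z => ?_
  exact h z.1 z.2

/-- equivariance of maps to two copies -/
theorem toMatrix_down (f : M →ₗ[L] M' × M') (t : T) (t' : T')
    (h : ∀ x, f (t • x) = (t' • (f x).1, t' • (f x).2)) :
    LinearMap.toMatrix b (b'.prod b') f * actR b T t =
      Matrix.fromBlocks (actR b' T' t') 0 0 (actR b' T' t') *
        LinearMap.toMatrix b (b'.prod b') f := by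
  rw [← toMatrix_diagL b' t', actR_apply, ← LinearMap.toMatrix_comp, ← LinearMap.toMatrix_comp]
  congr 1
  refine LinearMap.ext fun x => ?_
  exact h x

/-- composition down after up -/
theorem toMatrix_down_up (f : M' × M' →ₗ[L] M) (f' : M →ₗ[L] M' × M') (t₁ t₂ t₃ t₄ : T')
    (h : ∀ x y, f' (f (x, y)) = (t₁ • x + t₂ • y, t₃ • x + t₄ • y)) :
    LinearMap.toMatrix b (b'.prod b') f' * LinearMap.toMatrix (b'.prod b') b f =
      Matrix.fromBlocks (actR b' T' t₁) (actR b' T' t₂) (actR b' T' t₃) (actR b' T' t₄) := by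
  rw [← LinearMap.toMatrix_comp]
  exact toMatrix_prod b' (f' ∘ₗ f) t₁ t₂ t₃ t₄ h

/-- an element mapping `M` into the image of `f`. -/
theorem exists_factor (f : M' × M' →ₗ[L] M) (t : T) (h : ∀ x : M, t • x ∈ LinearMap.range f) :
    ∃ X : Matrix (d' ⊕ d') d L, actR b T t = LinearMap.toMatrix (b'.prod b') b f * X := by
  choose y hy using fun j => h (b j)
  refine ⟨fun i j => (b'.prod b').repr (y j) i, ?_⟩
  refine Matrix.ext fun i j => ?_
  have h1 := LinearMap.toMatrix_mulVec_repr (b'.prod b') b f (y j)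
  have h2 := congrFun h1 i
  rw [hy] at h2
  rw [actR_apply, LinearMap.toMatrix_apply]
  have h3 : (Module.toModuleEnd L M t) (b j) = t • b j := rfl
  rw [h3, ← h2]
  rfl

end prod

end Fermat.Agent.RT8
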