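import Fermat.Agent.RT8.TWMod

/-!
# Patching systems from modules
-/

set_option autoImplicit false
set_option linter.unusedSectionVars false
set_option linter.unusedVariables false

namespace Fermat.Agent.RT8

open IsLocalRing Module Fermat.Agent.RT1 Fermat.Agent.LocRing Fermat.Agent.DefRing
  Fermat.Agent.RT8J

variable {𝒪 : Type} [CommRing 𝒪] [IsDomain 𝒪] [IsDiscreteValuationRing 𝒪]
  [IsAdicComplete (maximalIdeal 𝒪) 𝒪] [Finite (ResidueField 𝒪)]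
  {rbar : GQ →* M2 (ResidueField 𝒪)}
  {sd : SliceData rbar}

/-- A family of levels given by modules. -/
structure MSys (sd : SliceData rbar) (p g : ℕ) (Λ K : Type) where
  ℓ : Λ → ℕ
  φ : Λ → GQ
  τ : Λ → GQ
  /-- the point to be proved modular -/
  pt : Cpt sd
  /-- base levels -/
  B : K → BMod sd
  /-- Taylor-Wiles primes -/
  P : ℕ → Fin g → TWP rbar
  /-- Taylor-Wiles levels -/
  L : ∀ n k, TMod p (P n) n (B k)
  /-- ramification of the levels -/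
  ram : K → Finset Λ
  hpt : LocU ℓ φ τ pt
  hB : ∀ k, LocU ℓ φ τ (B k).C
  hL : ∀ n k, LocU ℓ φ τ (L n k).C
  hIpt : ∀ n i, pt.r (P n i).s = 1
  hram : ∀ n k, ∀ l ∉ ram k, (L n k).C.r (τ l) = 1

variable {p g : ℕ} {Λ K : Type} [Fintype Λ] [DecidableEq Λ] [Finite K]
  (X : MSys sd p g Λ K) (hp : p.Prime) (hp𝒪 : (p : 𝒪) ∈ maximalIdeal 𝒪)

/-- the patching system -/
noncomputable def MSys.toSys : Sys sd p g Λ (Option K) K :=
  Sys.ofLevels X.ℓ X.φ X.τ X.pt (fun k => (X.B k).toBLev) (fun n => IQs (X.P n))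
    (fun n k => (X.L n k).toTLev hp hp𝒪) X.ram X.hpt X.hB X.hL
    (fun n => by rintro _ ⟨i, rfl⟩; exact X.hIpt n i)
    (fun n k => by rintro _ ⟨i, rfl⟩; exact (X.L n k).triv i) X.hram

/-- the joint rings -/
noncomputable abbrev MSys.A (n : ℕ) := (X.toSys hp hp𝒪).A n

theorem MSys.ρ_eq (n : ℕ) (k : K) (z : (X.A hp hp𝒪 n).R) : (X.toSys hp hp𝒪).ρ n k z =
    actR ((X.L n k).b hp hp𝒪) (X.L n k).C.T ((X.A hp hp𝒪 n).pr (some k) z) := rfl

theorem MSys.act_eq (n : ℕ) (k : K) (t : (X.L n k).C.T) : (X.toSys hp hp𝒪).act n k t =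
    actR ((X.L n k).b hp hp𝒪) (X.L n k).C.T t := rfl

theorem theta_pow [NeZero p] {n : ℕ} {P : Fin g → TWP rbar} {B : BMod sd} (L : TMod p P n B)
    (i : Fin g) : theta (P i) L.C.r ^ p ^ (n + 1) = 1 := by
  have h1 := L.γ_delm i
  rw [delm, map_sub, map_one] at h1
  have h2 : L.γ (MonoidAlgebra.of 𝒪 (Del p g n) (del p g n i)) = theta (P i) L.C.r :=
    sub_left_injective h1
  rw [← h2, ← map_pow, ← map_pow, del_pow, map_one, map_one]

theorem MSys.theta_joint (n : ℕ) (i : Fin g) :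
    theta (X.P n i) (X.A hp hp𝒪 n).r0 ^ p ^ (n + 1) = 1 := by
  have hne : NeZero p := ⟨hp.ne_zero⟩
  rw [← sub_eq_zero]
  apply (X.A hp hp𝒪 n).inj
  intro j
  rw [map_sub, map_one, map_pow, sub_eq_zero]
  cases j with
  | none =>
    rw [map_theta (X.P n i) ((X.A hp hp𝒪 n).pr none) ((X.A hp hp𝒪 n).pr_r0 none)
      (X.A hp hp𝒪 n).red X.pt.red]
    have h1 : theta (X.P n i) X.pt.r = 1 := theta_eq_one (X.P n i) X.pt.red (X.hIpt n i)
    have h2 : theta (X.P n i) X.pt.r ^ p ^ (n + 1) = 1 := by rw [h1, one_pow]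
    exact h2
  | some k =>
    rw [map_theta (X.P n i) ((X.A hp hp𝒪 n).pr (some k)) ((X.A hp hp𝒪 n).pr_r0 (some k))
      (X.A hp hp𝒪 n).red (X.L n k).C.red]
    exact theta_pow (X.L n k) i

/-- the group algebra acts through the joint ring -/
noncomputable def MSys.γJ (n : ℕ) : Lam p g 𝒪 n →ₐ[𝒪] (X.A hp hp𝒪 n).R :=
  gam (X.P n) hp.pos (X.A hp hp𝒪 n).r0 (X.theta_joint hp hp𝒪 n)

/-- projection to a component -/
noncomputable abbrev MSys.prK (X : MSys sd p g Λ K) (n : ℕ) (k : K) :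
    (X.A hp hp𝒪 n).R →ₐ[𝒪] (X.L n k).C.T := (X.A hp hp𝒪 n).pr (some k)

theorem MSys.prK_r0 (n : ℕ) (k : K) :
    mapRep (X.prK hp hp𝒪 n k : (X.A hp hp𝒪 n).R →+* (X.L n k).C.T) (X.A hp hp𝒪 n).r0 = (X.L n k).C.r :=
  (X.A hp hp𝒪 n).pr_r0 (some k)

theorem MSys.pr_γJ (n : ℕ) (k : K) (a : Lam p g 𝒪 n) :
    (X.A hp hp𝒪 n).pr (some k) (X.γJ hp hp𝒪 n a) = (X.L n k).γ a := by
  have hne : NeZero p := ⟨hp.ne_zero⟩
  have h : (X.prK hp hp𝒪 n k).comp (X.γJ hp hp𝒪 n) = (X.L n k).γ := by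
    refine gam_unique (T := (X.L n k).C.T) fun i => ?_
    rw [AlgHom.comp_apply, MSys.γJ, gam_delm, map_sub, map_one]
    refine Eq.trans ?_ ((X.L n k).γ_delm i).symm
    rw [map_theta (X.P n i) (X.prK hp hp𝒪 n k) (X.prK_r0 hp hp𝒪 n k)
      (X.A hp hp𝒪 n).red (X.L n k).C.red]
  exact DFunLike.congr_fun h a

/-- Degeneracy maps between modules. -/
structure DegM (n : ℕ) (k k' : K) where
  up : (X.L n k').M × (X.L n k').M →+ (X.L n k).M
  down : (X.L n k).M →+ (X.L n k').M × (X.L n k').M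
  upO : ∀ (o : 𝒪) x y, up (algebraMap 𝒪 (X.L n k').C.T o • x, algebraMap 𝒪 (X.L n k').C.T o • y) =
    algebraMap 𝒪 (X.L n k).C.T o • up (x, y)
  downO : ∀ (o : 𝒪) x, down (algebraMap 𝒪 (X.L n k).C.T o • x) =
    (algebraMap 𝒪 (X.L n k').C.T o • (down x).1, algebraMap 𝒪 (X.L n k').C.T o • (down x).2)
  /-- Frobenius elements -/
  𝓕 : Set GQ
  htr : ∀ A : JRing sd (fun j => (cpts X.pt (fun k => (X.L n k).C) j).T)
    (fun j => (cpts X.pt (fun k => (X.L n k).C) j).r),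
    Algebra.adjoin 𝒪 {x : A.R | ∃ σ ∈ 𝓕, x = (A.r0 σ).trace} = ⊤
  up_tr : ∀ σ ∈ 𝓕, ∀ x y, up (((X.L n k').C.r σ).trace • x, ((X.L n k').C.r σ).trace • y) =
    ((X.L n k).C.r σ).trace • up (x, y)
  down_tr : ∀ σ ∈ 𝓕, ∀ x, down (((X.L n k).C.r σ).trace • x) =
    (((X.L n k').C.r σ).trace • (down x).1, ((X.L n k').C.r σ).trace • (down x).2)
  inj : ∀ x y, up (x, y) ∈ (JLam p g 𝒪 n • ⊤ : Submodule (Lam p g 𝒪 n) (X.L n k).M) →
    x ∈ (JLam p g 𝒪 n • ⊤ : Submodule (Lam p g 𝒪 n) (X.L n k').M) ∧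
    y ∈ (JLam p g 𝒪 n • ⊤ : Submodule (Lam p g 𝒪 n) (X.L n k').M)
  surj : Function.Surjective down

variable {X} {n : ℕ} {k k' : K} (W : DegM X n k k')


theorem MSys.prK_tr (X : MSys sd p g Λ K) (n : ℕ) (k : K) (σ : GQ) :
    X.prK hp hp𝒪 n k (((X.A hp hp𝒪 n).r0 σ).trace) = ((X.L n k).C.r σ).trace := by
  have h1 : ((X.A hp hp𝒪 n).r0 σ).map (X.prK hp hp𝒪 n k) = (X.L n k).C.r σ :=
    (X.A hp hp𝒪 n).pr_r0_apply (some k) σ
  rw [← h1]
  exact (trace_map' (X.prK hp hp𝒪 n k : (X.A hp hp𝒪 n).R →+* (X.L n k).C.T)).symm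

theorem DegM.up_lin (z : (X.A hp hp𝒪 n).R) (x y : (X.L n k').M) :
    W.up (X.prK hp hp𝒪 n k' z • x, X.prK hp hp𝒪 n k' z • y) =
      X.prK hp hp𝒪 n k z • W.up (x, y) := by
  have hz : z ∈ Algebra.adjoin 𝒪 {x : (X.A hp hp𝒪 n).R |
      ∃ σ ∈ W.𝓕, x = ((X.A hp hp𝒪 n).r0 σ).trace} := by
    rw [W.htr (X.A hp hp𝒪 n)]; trivial
  induction hz using Algebra.adjoin_induction generalizing x y with
  | mem z hz =>
    obtain ⟨σ, hσ, rfl⟩ := hz
    rw [MSys.prK_tr, MSys.prK_tr]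
    exact W.up_tr σ hσ x y
  | algebraMap o =>
    rw [AlgHom.commutes, AlgHom.commutes]
    exact W.upO o x y
  | add z w _ _ hz hw =>
    rw [map_add, map_add, add_smul, add_smul, add_smul, ← hz, ← hw, ← map_add, Prod.mk_add_mk]
  | mul z w _ _ hz hw =>
    rw [map_mul, map_mul, mul_smul, mul_smul, mul_smul, hz, hw]

theorem DegM.down_lin (z : (X.A hp hp𝒪 n).R) (x : (X.L n k).M) :
    W.down (X.prK hp hp𝒪 n k z • x) =
      (X.prK hp hp𝒪 n k' z • (W.down x).1, X.prK hp hp𝒪 n k' z • (W.down x).2) := by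
  have hz : z ∈ Algebra.adjoin 𝒪 {x : (X.A hp hp𝒪 n).R |
      ∃ σ ∈ W.𝓕, x = ((X.A hp hp𝒪 n).r0 σ).trace} := by
    rw [W.htr (X.A hp hp𝒪 n)]; trivial
  induction hz using Algebra.adjoin_induction generalizing x with
  | mem z hz =>
    obtain ⟨σ, hσ, rfl⟩ := hz
    rw [MSys.prK_tr, MSys.prK_tr]
    exact W.down_tr σ hσ x
  | algebraMap o =>
    rw [AlgHom.commutes, AlgHom.commutes]
    exact W.downO o x
  | add z w _ _ hz hw =>
    rw [map_add, map_add, add_smul, add_smul, add_smul, map_add, hz, hw, Prod.mk_add_mk]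
  | mul z w _ _ hz hw =>
    rw [map_mul, map_mul, mul_smul, mul_smul, mul_smul, hz, hw]

/-- the map `up` is linear over the group algebra -/
noncomputable def DegM.upL : (X.L n k').M × (X.L n k').M →ₗ[Lam p g 𝒪 n] (X.L n k).M :=
  { W.up with
    map_smul' := fun a x => by
      show W.up (a • x.1, a • x.2) = a • W.up x
      rw [← (X.L n k').γ_smul, ← (X.L n k').γ_smul, ← (X.L n k).γ_smul,
        ← X.pr_γJ hp hp𝒪 n k', ← X.pr_γJ hp hp𝒪 n k]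
      exact W.up_lin hp hp𝒪 _ x.1 x.2 }

/-- the map `down` is linear over the group algebra -/
noncomputable def DegM.downL : (X.L n k).M →ₗ[Lam p g 𝒪 n] (X.L n k').M × (X.L n k').M :=
  { W.down with
    map_smul' := fun a x => by
      show W.down (a • x) = (a • (W.down x).1, a • (W.down x).2)
      rw [← (X.L n k').γ_smul, ← (X.L n k').γ_smul, ← (X.L n k).γ_smul,
        ← X.pr_γJ hp hp𝒪 n k', ← X.pr_γJ hp hp𝒪 n k]
      exact W.down_lin hp hp𝒪 _ x }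

theorem DegM.upL_apply (x : (X.L n k').M × (X.L n k').M) : W.upL hp hp𝒪 x = W.up x := rfl
theorem DegM.downL_apply (x : (X.L n k).M) : W.downL hp hp𝒪 x = W.down x := rfl

theorem mem_smul_top_prod {R M : Type*} [CommRing R] [AddCommGroup M] [Module R M] (I : Ideal R)
    {x : M × M} (h1 : x.1 ∈ (I • ⊤ : Submodule R M)) (h2 : x.2 ∈ (I • ⊤ : Submodule R M)) :
    x ∈ (I • ⊤ : Submodule R (M × M)) := by
  have e : x = LinearMap.inl R M M x.1 + LinearMap.inr R M M x.2 := by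
    ext <;> simp
  rw [e]
  refine Submodule.add_mem _ ?_ ?_
  · have h3 := Submodule.mem_map_of_mem (f := LinearMap.inl R M M) h1
    rw [Submodule.map_smul''] at h3
    exact Submodule.smul_mono le_rfl le_top h3
  · have h3 := Submodule.mem_map_of_mem (f := LinearMap.inr R M M) h2
    rw [Submodule.map_smul''] at h3
    exact Submodule.smul_mono le_rfl le_top h3

/-- degeneracy data in matrix form -/
noncomputable def DegM.toDegL {k k' : K} (W : ∀ n, DegM X n k k') :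
    DegL (X.toSys hp hp𝒪) k k' where
  ι n := LinearMap.toMatrix (((X.L n k').b hp hp𝒪).prod ((X.L n k').b hp hp𝒪))
    ((X.L n k).b hp hp𝒪) ((W n).upL hp hp𝒪)
  ι' n := LinearMap.toMatrix ((X.L n k).b hp hp𝒪)
    (((X.L n k').b hp hp𝒪).prod ((X.L n k').b hp hp𝒪)) ((W n).downL hp hp𝒪)
  hι n z := toMatrix_up ((X.L n k).b hp hp𝒪) ((X.L n k').b hp hp𝒪) ((W n).upL hp hp𝒪)
    (X.prK hp hp𝒪 n k z) (X.prK hp hp𝒪 n k' z) fun x y => (W n).up_lin hp hp𝒪 z x y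
  hι' n z := toMatrix_down ((X.L n k).b hp hp𝒪) ((X.L n k').b hp hp𝒪) ((W n).downL hp hp𝒪)
    (X.prK hp hp𝒪 n k z) (X.prK hp hp𝒪 n k' z) fun x => (W n).down_lin hp hp𝒪 z x
  inj n := by
    have hne : NeZero p := ⟨hp.ne_zero⟩
    refine mulVec_injective_of_sat' (kapL p g 𝒪 n) kapL_surjective _ _ _ fun x hx => ?_
    rw [ker_kapL] at hx ⊢
    obtain ⟨h1, h2⟩ := (W n).inj x.1 x.2 hx
    exact mem_smul_top_prod _ h1 h2
  surj n := mulVec_surjective_of_surj' (kapL p g 𝒪 n) kapL_surjective _ _ _ (W n).surj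

theorem MSys.ρ_tr (X : MSys sd p g Λ K) (n : ℕ) (k : K) (σ : GQ) :
    (X.toSys hp hp𝒪).ρ n k ((X.A hp hp𝒪 n).r0 σ).trace =
      actR ((X.L n k).b hp hp𝒪) (X.L n k).C.T ((X.L n k).C.r σ).trace := by
  rw [MSys.ρ_eq]
  exact congrArg _ (X.prK_tr hp hp𝒪 n k σ)

theorem MSys.ρ_nat (X : MSys sd p g Λ K) (n : ℕ) (k : K) (q : ℕ) :
    (X.toSys hp hp𝒪).ρ n k ((q : (X.A hp hp𝒪 n).R) + 1) =
      actR ((X.L n k).b hp hp𝒪) (X.L n k).C.T ((q : (X.L n k).C.T) + 1) := by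
  rw [MSys.ρ_eq]
  congr 1
  rw [map_add, map_natCast, map_one]
  rfl

/-- degeneracy data at a prime in matrix form -/
noncomputable def DegM.toDegPrime {k k' : K} {l : Λ} (W : ∀ n, DegM X n k k')
    (hcomp : ∀ n x y, (W n).down ((W n).up (x, y)) =
      ((((X.ℓ l : ℕ) : (X.L n k').C.T) + 1) • x + ((X.L n k').C.r (X.φ l)).trace • y,
       ((X.L n k').C.r (X.φ l)).trace • x + (((X.ℓ l : ℕ) : (X.L n k').C.T) + 1) • y))
    (hnew : ∀ n (x : (X.L n k).M), ∃ y,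
      (((X.L n k).C.r (X.φ l)).trace ^ 2 - (((X.ℓ l : ℕ) : (X.L n k).C.T) + 1) ^ 2) • x =
        (W n).up y) :
    DegPrime (X.toSys hp hp𝒪) k k' l where
  toDegL := DegM.toDegL hp hp𝒪 W
  comp n := by
    have h := toMatrix_down_up ((X.L n k).b hp hp𝒪) ((X.L n k').b hp hp𝒪) ((W n).upL hp hp𝒪)
      ((W n).downL hp hp𝒪) (((X.ℓ l : ℕ) : (X.L n k').C.T) + 1) ((X.L n k').C.r (X.φ l)).trace
      ((X.L n k').C.r (X.φ l)).trace (((X.ℓ l : ℕ) : (X.L n k').C.T) + 1) (hcomp n)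
    rw [← X.ρ_nat hp hp𝒪, ← X.ρ_tr hp hp𝒪] at h
    exact h
  new n := by
    obtain ⟨Z, hZ⟩ := exists_factor ((X.L n k).b hp hp𝒪) ((X.L n k').b hp hp𝒪)
      ((W n).upL hp hp𝒪)
      (((X.L n k).C.r (X.φ l)).trace ^ 2 - (((X.ℓ l : ℕ) : (X.L n k).C.T) + 1) ^ 2)
      (fun x => by
        obtain ⟨y, hy⟩ := hnew n x
        exact ⟨y, hy.symm⟩)
    refine ⟨Z, ?_⟩
    rw [map_sub, map_pow, map_pow]
    rw [map_sub, map_pow, map_pow, ← X.ρ_nat hp hp𝒪, ← X.ρ_tr hp hp𝒪] at hZ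
    exact hZ

end Fermat.Agent.RT8
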