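import Fermat.Agent.RT8.Induct

/-!
# Maps between the full rings of pairs: specialising the extra variables
-/

set_option autoImplicit false
set_option linter.unusedSectionVars false
set_option linter.unusedVariables false

namespace Fermat.Agent.RT8

open IsLocalRing Fermat.Agent.RT1 Fermat.Agent.LocRing

universe u v w

section

variable {O : Type u} [CommRing O] [IsLocalRing O] {Λ : Type v} {γ γ' : Type w}
    {F₀ N₀ : Λ → Matrix (Fin 2) (Fin 2) O} (V : FPkg γ' F₀ N₀) (U : FPkg γ F₀ N₀)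

/-- specialisation of variables -/
theorem exists_spec (y : γ' → U.R) (hy : ∀ i, y i ∈ maximalIdeal U.R) :
    ∃ θ : V.R →+* U.R, IsLocalHom θ ∧ θ.comp V.ι = U.ι ∧ (∀ l, (V.F l).map θ = U.F l) ∧
      (∀ l, (V.N l).map θ = U.N l) ∧ ∀ i, θ (V.x i) = y i :=
  V.lift U.ι U.isLocalHom U.F U.N U.resF U.resN y hy

variable {V U}

/-- The specialisation which kills some of the variables: surjectivity and kernel. -/
theorem spec_kill {θ : V.R →+* U.R} (h0 : IsLocalHom θ) (h1 : θ.comp V.ι = U.ι)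
    (h2 : ∀ l, (V.F l).map θ = U.F l) (h3 : ∀ l, (V.N l).map θ = U.N l)
    (s : γ → γ') (hs : ∀ j, θ (V.x (s j)) = U.x j) (hk : ∀ i, i ∉ Set.range s → θ (V.x i) = 0) :
    Function.Surjective θ ∧
      RingHom.ker θ = Ideal.span (V.x '' (Set.range s)ᶜ) := by
  set I : Ideal V.R := Ideal.span (V.x '' (Set.range s)ᶜ) with hI
  have hIle : I ≤ RingHom.ker θ := by
    rw [hI, Ideal.span_le]
    rintro _ ⟨i, hi, rfl⟩
    exact hk i hi
  have hne : I ≠ ⊤ := by
    intro h
    rw [h, top_le_iff] at hIle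
    have : θ 1 = 0 := by rw [← RingHom.mem_ker, hIle]; trivial
    rw [map_one] at this
    exact one_ne_zero this
  have hnt : Nontrivial (V.R ⧸ I) := Ideal.Quotient.nontrivial_iff.mpr hne
  have hsurj : Function.Surjective (Ideal.Quotient.mk I) := Ideal.Quotient.mk_surjective
  have hlocq : IsLocalRing (V.R ⧸ I) := IsLocalRing.of_surjective' _ hsurj
  have hlh : IsLocalHom (Ideal.Quotient.mk I) := IsLocalHom.of_surjective _ hsurj
  have hcomp : IsAdicComplete (maximalIdeal (V.R ⧸ I)) (V.R ⧸ I) := by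
    have : IsLocalHom (algebraMap V.R (V.R ⧸ I)) := hlh
    exact IsLocalRing.isAdicComplete_of_module_finite (𝒪 := V.R)
  set π := Ideal.Quotient.mk I with hπ
  have hιl := V.isLocalHom
  obtain ⟨χ, k0, k1, k2, k3, k4⟩ := U.lift (π.comp V.ι) inferInstance
    (fun l => (V.F l).map π) (fun l => (V.N l).map π)
    (fun l i j => by
      have := mem_of_isLocalHom hlh (V.resF l i j)
      rwa [map_sub] at this)
    (fun l i j => by
      have := mem_of_isLocalHom hlh (V.resN l i j)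
      rwa [map_sub] at this)
    (fun j => π (V.x (s j))) (fun j => mem_of_isLocalHom hlh (V.x_mem (s j)))
  have k1' : ∀ b, χ (U.ι b) = π (V.ι b) := fun b => DFunLike.congr_fun k1 b
  have h1' : ∀ b, θ (V.ι b) = U.ι b := fun b => DFunLike.congr_fun h1 b
  have hcomp1 : χ.comp θ = π := by
    refine V.uniq _ _ inferInstance inferInstance ?_ (fun l => ?_) (fun l => ?_) (fun i => ?_)
    · rw [RingHom.comp_assoc, h1, k1]
    · rw [← k2 l, ← h2 l]; rfl
    · rw [← k3 l, ← h3 l]; rfl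
    · rw [RingHom.comp_apply]
      by_cases hi : i ∈ Set.range s
      · obtain ⟨j, rfl⟩ := hi
        rw [hs, k4]
      · rw [hk i hi, map_zero]
        symm
        rw [hπ, Ideal.Quotient.eq_zero_iff_mem]
        exact Ideal.subset_span ⟨i, hi, rfl⟩
  have hker : RingHom.ker θ ≤ I := by
    intro r hr
    rw [RingHom.mem_ker] at hr
    rw [← Ideal.Quotient.eq_zero_iff_mem, ← hπ, ← hcomp1, RingHom.comp_apply, hr, map_zero]
  refine ⟨?_, le_antisymm hker hIle⟩
  let θ' : (V.R ⧸ I) →+* U.R := Ideal.Quotient.lift I θ (fun a ha => hIle ha)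
  have hθ' : ∀ r, θ' (π r) = θ r := fun r => Ideal.Quotient.lift_mk _ _ _
  have hθ'loc : IsLocalHom θ' := by
    refine isLocalHom_of_mem _ fun r hr => ?_
    obtain ⟨s, rfl⟩ := hsurj r
    rw [hθ']
    refine mem_of_isLocalHom h0 ?_
    rw [mem_maximalIdeal, mem_nonunits_iff] at hr ⊢
    exact fun h => hr (h.map _)
  have hid : θ'.comp χ = RingHom.id U.R := by
    refine U.uniq _ _ inferInstance inferInstance ?_ (fun l => ?_) (fun l => ?_) (fun i => ?_)
    · ext b
      simp only [RingHom.comp_apply, k1', hθ', h1', RingHom.id_apply]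
    · ext i j
      have e1 : χ (U.F l i j) = π (V.F l i j) := congrFun (congrFun (k2 l) i) j
      have e2 : θ (V.F l i j) = U.F l i j := congrFun (congrFun (h2 l) i) j
      simp only [Matrix.map_apply, RingHom.comp_apply, e1, hθ', e2, RingHom.id_apply]
    · ext i j
      have e1 : χ (U.N l i j) = π (V.N l i j) := congrFun (congrFun (k3 l) i) j
      have e2 : θ (V.N l i j) = U.N l i j := congrFun (congrFun (h3 l) i) j
      simp only [Matrix.map_apply, RingHom.comp_apply, e1, hθ', e2, RingHom.id_apply]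
    · rw [RingHom.comp_apply, k4, hθ', hs]; rfl
  intro y
  obtain ⟨r, hr⟩ := hsurj (χ y)
  refine ⟨r, ?_⟩
  rw [← hθ', hr]
  exact DFunLike.congr_fun hid y

end

section

variable {O : Type u} [CommRing O] [IsDomain O] [IsDiscreteValuationRing O]
  [IsAdicComplete (maximalIdeal O) O] {Λ γ γ' : Type} [Fintype Λ] [Fintype γ]
  {q : Λ → O} {F₀ N₀ : Λ → Matrix (Fin 2) (Fin 2) O} (U : FPkg γ F₀ N₀)

/-- an endomorphism fixing the pairs preserves the ideals of types. -/
theorem qI_le_comap {U' : FPkg γ' F₀ N₀} {ψ : U.R →+* U'.R} (h1 : ψ.comp U.ι = U'.ι)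
    (h2 : ∀ l, (U.F l).map ψ = U'.F l) (h3 : ∀ l, (U.N l).map ψ = U'.N l) (T : Λ → Ty) :
    U.qI q T ≤ (U'.qI q T).comap ψ := by
  have h4 : U.qI q T ≤ RingHom.ker ((Ideal.Quotient.mk (U'.qI q T)).comp ψ) := by
    rw [U.qI_le_ker_iff]
    intro l
    have h5 := (U'.qI_le_ker_iff (Ideal.Quotient.mk (U'.qI q T)) T).mp (by rw [Ideal.mk_ker]) l
    have e1 : ((Ideal.Quotient.mk (U'.qI q T)).comp ψ) (U.ι (q l)) =
        Ideal.Quotient.mk (U'.qI q T) (U'.ι (q l)) := by
      rw [RingHom.comp_apply]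
      exact congrArg _ (DFunLike.congr_fun h1 (q l))
    have e2 : (U.F l).map ((Ideal.Quotient.mk (U'.qI q T)).comp ψ) =
        (U'.F l).map (Ideal.Quotient.mk (U'.qI q T)) := by
      rw [← h2 l]; rfl
    have e3 : (U.N l).map ((Ideal.Quotient.mk (U'.qI q T)).comp ψ) =
        (U'.N l).map (Ideal.Quotient.mk (U'.qI q T)) := by
      rw [← h3 l]; rfl
    rw [e1, e2, e3]
    exact h5
  intro r hr
  have h6 := h4 hr
  rw [RingHom.mem_ker, RingHom.comp_apply, Ideal.Quotient.eq_zero_iff_mem] at h6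
  exact h6

/-- and conversely (an ideal of type contained in the preimage of an ideal of type). -/
theorem qI_le_of_comap {U' : FPkg γ' F₀ N₀} {ψ : U.R →+* U'.R} (h1 : ψ.comp U.ι = U'.ι)
    (h2 : ∀ l, (U.F l).map ψ = U'.F l) (h3 : ∀ l, (U.N l).map ψ = U'.N l) (T T' : Λ → Ty)
    (h : U.qI q T ≤ (U'.qI q T').comap ψ) : U'.qI q T ≤ U'.qI q T' := by
  have h4 : U.qI q T ≤ RingHom.ker ((Ideal.Quotient.mk (U'.qI q T')).comp ψ) := by
    intro r hr
    rw [RingHom.mem_ker, RingHom.comp_apply, Ideal.Quotient.eq_zero_iff_mem]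
    exact h hr
  rw [U.qI_le_ker_iff] at h4
  have h5 : U'.qI q T ≤ RingHom.ker (Ideal.Quotient.mk (U'.qI q T')) := by
    rw [U'.qI_le_ker_iff]
    intro l
    have h6 := h4 l
    have e1 : ((Ideal.Quotient.mk (U'.qI q T')).comp ψ) (U.ι (q l)) =
        Ideal.Quotient.mk (U'.qI q T') (U'.ι (q l)) := by
      rw [RingHom.comp_apply]
      exact congrArg _ (DFunLike.congr_fun h1 (q l))
    have e2 : (U.F l).map ((Ideal.Quotient.mk (U'.qI q T')).comp ψ) =
        (U'.F l).map (Ideal.Quotient.mk (U'.qI q T')) := by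
      rw [← h2 l]; rfl
    have e3 : (U.N l).map ((Ideal.Quotient.mk (U'.qI q T')).comp ψ) =
        (U'.N l).map (Ideal.Quotient.mk (U'.qI q T')) := by
      rw [← h3 l]; rfl
    rw [e1, e2, e3] at h6
    exact h6
  rwa [Ideal.mk_ker] at h5

/-- The variables are not in the ideals of types. -/
theorem x_notMem (hq : ∀ l, IsUnit (q l)) (T : Λ → Ty)
    (hT : ∀ l, ResHolds (T l) (q l) (F₀ l) (N₀ l)) (j : γ) : U.x j ∉ U.qI q T := by
  classical
  intro hj
  obtain ⟨ϖ, hϖ⟩ := IsDiscreteValuationRing.exists_irreducible O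
  have hϖm : ϖ ∈ maximalIdeal O := by
    rw [(IsDiscreteValuationRing.irreducible_iff_uniformizer ϖ).mp hϖ]
    exact Ideal.mem_span_singleton_self ϖ
  have hιϖ : U.ι ϖ ∈ maximalIdeal U.R := mem_of_isLocalHom U.isLocalHom hϖm
  obtain ⟨ψ, -, h1, h2, h3, h4⟩ := exists_spec U U
    (fun i => if i = j then U.x j + U.ι ϖ else U.x i) (fun i => by
      beta_reduce
      split_ifs
      · exact Ideal.add_mem _ (U.x_mem j) hιϖ
      · exact U.x_mem i)
  have h5 := qI_le_comap U (q := q) h1 h2 h3 T hj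
  rw [Ideal.mem_comap, h4 j, if_pos rfl] at h5
  have h6 := Ideal.sub_mem _ h5 hj
  rw [add_sub_cancel_left] at h6
  exact U.ι_notMem hq T hT ϖ hϖ.ne_zero h6

end

end Fermat.Agent.RT8
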