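import Fermat.Agent.RT8.GrpAlg

/-!
# The patching steps at the framed level
-/

set_option autoImplicit false
set_option linter.unusedSectionVars false
set_option linter.unusedVariables false

namespace Fermat.Agent.RT8

open IsLocalRing Filter Fermat.Agent.RT1

/-- restriction to a subset of components -/
def subComponents {S R : Type*} [CommRing S] [CommRing R] {C : Type*} (K : Components S R C)
    (P : C → Prop) : Components S R {c // P c} where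
  q c := K.q c.1
  prime c := K.prime c.1
  δ := K.δ
  dim_le c := K.dim_le c.1
  le_dim := K.le_dim

section

variable {p g : ℕ} {𝒪 : Type} [CommRing 𝒪] 

/-- augmentation -/
noncomputable def augL (p g : ℕ) (𝒪 : Type) [CommRing 𝒪] (n : ℕ) : Lam p g 𝒪 n →ₐ[𝒪] 𝒪 :=
  MonoidAlgebra.lift 𝒪 𝒪 (Del p g n) 1

theorem augL_delm (n : ℕ) (i : Fin g) : augL p g 𝒪 n (delm p g 𝒪 n i) = 0 := by
  rw [delm, map_sub, map_one]
  have h : augL p g 𝒪 n (MonoidAlgebra.of 𝒪 (Del p g n) (del p g n i)) = 1 :=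
    MonoidAlgebra.lift_of _ _
  rw [h, sub_self]

end

section

variable {p g : ℕ} {𝒪 : Type} [CommRing 𝒪] [IsDomain 𝒪] [IsDiscreteValuationRing 𝒪]
  [IsAdicComplete (maximalIdeal 𝒪) 𝒪] [Finite (ResidueField 𝒪)] (hp : p.Prime)
  (hp𝒪 : (p : 𝒪) ∈ maximalIdeal 𝒪) (τ : Type) [Finite τ]

/-- the base ring `S_∞` -/
abbrev SInf (g : ℕ) (𝒪 : Type) [CommRing 𝒪] (τ : Type) : Type :=
  MvPowerSeries τ (MvPowerSeries (Fin g) 𝒪)

instance isDomain_SInf (g : ℕ) (𝒪 : Type) [CommRing 𝒪] [IsDomain 𝒪] (τ : Type) :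
    IsDomain (SInf g 𝒪 τ) := by
  have h1 : IsDomain (MvPowerSeries (Fin g) 𝒪) := NoZeroDivisors.to_isDomain _
  exact NoZeroDivisors.to_isDomain _

/-- the framed levels -/
noncomputable def LB (g : ℕ) : Levels (SInf g 𝒪 τ) (fun n => MvPowerSeries τ (Lam p g 𝒪 n)) :=
  mvLevels τ (lamLevels g hp hp𝒪)

theorem augL_lamHom (n : ℕ) (s : MvPowerSeries (Fin g) 𝒪) :
    augL p g 𝒪 n (lamHom hp hp𝒪 n s) = MvPowerSeries.constantCoeff s := by
  have h : ((augL p g 𝒪 n).toRingHom.comp (lamHom (g := g) hp hp𝒪 n).toRingHom) =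
      (MvPowerSeries.constantCoeff (σ := Fin g) (R := 𝒪)) := by
    refine hom_ext (maximalIdeal 𝒪) _ _ ?_ ?_ ?_
    · intro o
      have h5 := ((augL p g 𝒪 n).comp (lamHom (g := g) hp hp𝒪 n)).commutes o
      rw [MvPowerSeries.constantCoeff_C]
      exact h5
    · intro i
      show augL p g 𝒪 n (lamHom (g := g) hp hp𝒪 n (MvPowerSeries.X i)) = _
      rw [lamHom_X, augL_delm, MvPowerSeries.constantCoeff_X]
    · intro i
      show augL p g 𝒪 n (lamHom (g := g) hp hp𝒪 n (MvPowerSeries.X i)) ∈ _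
      rw [lamHom_X, augL_delm]
      exact Ideal.zero_mem _
  exact RingHom.congr_fun h s

/-- `S_∞ → 𝒪` -/
noncomputable def epsS (g : ℕ) (𝒪 : Type) [CommRing 𝒪] (τ : Type) : SInf g 𝒪 τ →+* 𝒪 :=
  (MvPowerSeries.constantCoeff (σ := Fin g) (R := 𝒪)).comp
    (MvPowerSeries.constantCoeff (σ := τ) (R := MvPowerSeries (Fin g) 𝒪))

/-- `B_n → 𝒪` -/
noncomputable def epsB (p g : ℕ) (𝒪 : Type) [CommRing 𝒪] (τ : Type) (n : ℕ) :
    MvPowerSeries τ (Lam p g 𝒪 n) →+* 𝒪 :=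
  (augL p g 𝒪 n).toRingHom.comp (MvPowerSeries.constantCoeff (σ := τ) (R := Lam p g 𝒪 n))

theorem epsB_q (n : ℕ) (s : SInf g 𝒪 τ) :
    epsB p g 𝒪 τ n ((LB hp hp𝒪 τ g).q n s) = epsS g 𝒪 τ s := by
  show augL p g 𝒪 n (MvPowerSeries.constantCoeff (MvPowerSeries.map _ s)) = _
  rw [MvPowerSeries.constantCoeff_map]
  exact augL_lamHom hp hp𝒪 n _

/-- `S_∞ → k` -/
noncomputable def kapS (g : ℕ) (𝒪 : Type) [CommRing 𝒪] [IsLocalRing 𝒪] (τ : Type) :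
    SInf g 𝒪 τ →+* ResidueField 𝒪 := (residue 𝒪).comp (epsS g 𝒪 τ)

/-- `B_n → k` -/
noncomputable def kapB (p g : ℕ) (𝒪 : Type) [CommRing 𝒪] [IsLocalRing 𝒪] (τ : Type) (n : ℕ) :
    MvPowerSeries τ (Lam p g 𝒪 n) →+* ResidueField 𝒪 := (residue 𝒪).comp (epsB p g 𝒪 τ n)

/-- `𝒪[Δ_n] → k` -/
noncomputable def kapL (p g : ℕ) (𝒪 : Type) [CommRing 𝒪] [IsLocalRing 𝒪] (n : ℕ) :
    Lam p g 𝒪 n →+* ResidueField 𝒪 := (residue 𝒪).comp (augL p g 𝒪 n).toRingHom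

theorem kapS_surjective : Function.Surjective (kapS g 𝒪 τ) := by
  intro x
  obtain ⟨o, rfl⟩ := residue_surjective x
  refine ⟨MvPowerSeries.C (MvPowerSeries.C o), ?_⟩
  rw [kapS, RingHom.comp_apply, epsS, RingHom.comp_apply, MvPowerSeries.constantCoeff_C,
    MvPowerSeries.constantCoeff_C]

theorem kapB_q (n : ℕ) (s : SInf g 𝒪 τ) :
    kapB p g 𝒪 τ n ((LB hp hp𝒪 τ g).q n s) = kapS g 𝒪 τ s := by
  show residue 𝒪 (epsB p g 𝒪 τ n _) = residue 𝒪 (epsS g 𝒪 τ s)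
  rw [epsB_q]

theorem kapB_C (n : ℕ) (a : Lam p g 𝒪 n) :
    kapB p g 𝒪 τ n (MvPowerSeries.C a) = kapL p g 𝒪 n a := by
  show residue 𝒪 (augL p g 𝒪 n (MvPowerSeries.constantCoeff _)) = residue 𝒪 (augL p g 𝒪 n a)
  rw [MvPowerSeries.constantCoeff_C]

theorem le_dim_SInf : ((Nat.card τ + g + 1 : ℕ) : WithBot ℕ∞) ≤ ringKrullDim (SInf g 𝒪 τ) := by
  have h1 := add_le_ringKrullDim_mv (A := MvPowerSeries (Fin g) 𝒪) (σ := τ)
  have h2 := le_ringKrullDim_mv_dvr (O := 𝒪) (σ := Fin g)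
  have h3 : ((Nat.card τ + g + 1 : ℕ) : WithBot ℕ∞) =
      ((g + 1 : ℕ) : WithBot ℕ∞) + (Nat.card τ : ℕ) := by
    rw [← Nat.cast_add]
    congr 1
    ring
  rw [h3]
  refine le_trans ?_ h1
  rw [Nat.card_eq_fintype_card, Fintype.card_fin] at h2
  gcongr

end

section Main

variable {p g : ℕ} {𝒪 : Type} [CommRing 𝒪] [IsDomain 𝒪] [IsDiscreteValuationRing 𝒪]
  [IsAdicComplete (maximalIdeal 𝒪) 𝒪] [Finite (ResidueField 𝒪)] (hp : p.Prime)
  (hp𝒪 : (p : 𝒪) ∈ maximalIdeal 𝒪) {τ : Type} [Finite τ]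
  {RR : Type} [CommRing RR] [IsLocalRing RR] [IsNoetherianRing RR]
  [IsAdicComplete (maximalIdeal RR) RR] [Finite (ResidueField RR)]
  {R : ℕ → Type} [∀ n, CommRing (R n)]
  (Θ : ∀ n, RR →+* MvPowerSeries τ (R n)) (hΘ : ∀ n, Function.Surjective (Θ n))

theorem exists_mvRep_scalar' {m : Type*} [Fintype m] [DecidableEq m] {R A : Type*} [CommRing R]
    [CommRing A] (ρ : R →+* Matrix m m A)
    (h : ∀ a : A, ∃ r : R, ρ r = a • (1 : Matrix m m A)) (f : MvPowerSeries τ A) :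
    ∃ r : MvPowerSeries τ R, mvRep τ ρ r = f • (1 : Matrix m m (MvPowerSeries τ A)) := by
  choose r hr1 using h
  refine ⟨mkMv fun e => r (MvPowerSeries.coeff e f), ?_⟩
  ext i j e
  rw [coeff_mvRep, coeff_mkMv, Matrix.smul_apply, hr1, Matrix.smul_apply]
  by_cases hij : i = j
  · rw [hij, Matrix.one_apply_eq, Matrix.one_apply_eq, smul_eq_mul, smul_eq_mul, mul_one, mul_one]
  · rw [Matrix.one_apply_ne hij, Matrix.one_apply_ne hij, smul_zero, smul_zero, map_zero]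

/-- the framed representation at level `n` -/
noncomputable def rhoB {m : Type} [Fintype m] [DecidableEq m]
    (ρ : ∀ n, R n →+* Matrix m m (Lam p g 𝒪 n)) (n : ℕ) :
    RR →+* Matrix m m (MvPowerSeries τ (Lam p g 𝒪 n)) :=
  (mvRep τ (ρ n)).comp (Θ n)

/-- the kernel of the patched representation -/
noncomputable def kerInf {m : Type} [Fintype m] [DecidableEq m]
    (ρ : ∀ n, R n →+* Matrix m m (Lam p g 𝒪 n)) : Ideal RR :=
  RingHom.ker ((LB hp hp𝒪 τ g).rho (rhoB Θ ρ))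

section

variable {m : Type} [Fintype m] [DecidableEq m]
  (ρ : ∀ n, R n →+* Matrix m m (Lam p g 𝒪 n))
  (hsc : ∀ n (a : Lam p g 𝒪 n), ∃ r : R n, ρ n r = a • (1 : Matrix m m (Lam p g 𝒪 n)))

include hΘ hsc in
theorem hS_rhoB (n : ℕ) (s : SInf g 𝒪 τ) : ∃ r, rhoB Θ ρ n r =
    (LB hp hp𝒪 τ g).q n s • (1 : Matrix m m (MvPowerSeries τ (Lam p g 𝒪 n))) := by
  obtain ⟨r, hr⟩ := exists_mvRep_scalar' (τ := τ) (ρ n) (hsc n) ((LB hp hp𝒪 τ g).q n s)
  obtain ⟨r', rfl⟩ := hΘ n r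
  exact ⟨r', hr⟩

theorem rhoB_of_C (n : ℕ) (r : RR) (a : R n) (h : Θ n r = MvPowerSeries.C a) :
    rhoB Θ ρ n r = (ρ n a).map
      (MvPowerSeries.C : Lam p g 𝒪 n →+* MvPowerSeries τ (Lam p g 𝒪 n)) := by
  rw [rhoB, RingHom.comp_apply, h, mvRep_C]

end

/-- two copies of a representation -/
noncomputable def diagRep {m : Type*} [Fintype m] [DecidableEq m] {R A : Type*} [CommRing R]
    [CommRing A] (ρ : R →+* Matrix m m A) : R →+* Matrix (m ⊕ m) (m ⊕ m) A where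
  toFun r := Matrix.fromBlocks (ρ r) 0 0 (ρ r)
  map_one' := by rw [map_one, Matrix.fromBlocks_one]
  map_zero' := by rw [map_zero, Matrix.fromBlocks_zero]
  map_add' a b := by rw [map_add, Matrix.fromBlocks_add, add_zero]
  map_mul' a b := by rw [map_mul, Matrix.fromBlocks_multiply]; simp

theorem mvRep_diagRep {m : Type*} [Fintype m] [DecidableEq m] {R A : Type*} [CommRing R]
    [CommRing A] (ρ : R →+* Matrix m m A) (f : MvPowerSeries τ R) :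
    mvRep τ (diagRep ρ) f = Matrix.fromBlocks (mvRep τ ρ f) 0 0 (mvRep τ ρ f) := by
  ext i j e
  rw [coeff_mvRep]
  rcases i with i | i <;> rcases j with j | j
  · exact (coeff_mvRep ρ f i j e).symm
  · exact (map_zero _).symm
  · exact (map_zero _).symm
  · exact (coeff_mvRep ρ f i j e).symm

theorem rhoB_intertwine {m m' : Type} [Fintype m] [DecidableEq m] [Fintype m'] [DecidableEq m']
    (ρ : ∀ n, R n →+* Matrix m m (Lam p g 𝒪 n)) (ρ' : ∀ n, R n →+* Matrix m' m' (Lam p g 𝒪 n))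
    (n : ℕ) (ι : Matrix m (m' ⊕ m') (Lam p g 𝒪 n))
    (hι : ∀ r, ι * Matrix.fromBlocks (ρ' n r) 0 0 (ρ' n r) = ρ n r * ι) (r : RR) :
    ι.map (MvPowerSeries.C : Lam p g 𝒪 n →+* MvPowerSeries τ (Lam p g 𝒪 n)) *
      Matrix.fromBlocks (rhoB Θ ρ' n r) 0 0 (rhoB Θ ρ' n r) =
    rhoB Θ ρ n r * ι.map (MvPowerSeries.C : Lam p g 𝒪 n →+* MvPowerSeries τ (Lam p g 𝒪 n)) := by
  have h := mvRep_intertwine (τ := τ) (ρ n) (diagRep (ρ' n)) ι hι (Θ n r)
  rw [mvRep_diagRep] at h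
  exact h

theorem mvRep_intertwine' {m m' : Type*} [Fintype m] [DecidableEq m] [Fintype m'] [DecidableEq m']
    {R A : Type*} [CommRing R] [CommRing A] (ρ : R →+* Matrix m m A)
    (ρ' : R →+* Matrix m' m' A) (I : Matrix m' m A) (h : ∀ r, I * ρ r = ρ' r * I)
    (f : MvPowerSeries τ R) :
    I.map (MvPowerSeries.C : A →+* MvPowerSeries τ A) * mvRep τ ρ f =
      mvRep τ ρ' f * I.map (MvPowerSeries.C : A →+* MvPowerSeries τ A) :=
  mvRep_intertwine ρ' ρ I h f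

theorem rhoB_intertwine' {m m' : Type} [Fintype m] [DecidableEq m] [Fintype m'] [DecidableEq m']
    (ρ : ∀ n, R n →+* Matrix m m (Lam p g 𝒪 n)) (ρ' : ∀ n, R n →+* Matrix m' m' (Lam p g 𝒪 n))
    (n : ℕ) (ι : Matrix (m' ⊕ m') m (Lam p g 𝒪 n))
    (hι : ∀ r, ι * ρ n r = Matrix.fromBlocks (ρ' n r) 0 0 (ρ' n r) * ι) (r : RR) :
    ι.map (MvPowerSeries.C : Lam p g 𝒪 n →+* MvPowerSeries τ (Lam p g 𝒪 n)) * rhoB Θ ρ n r =
      Matrix.fromBlocks (rhoB Θ ρ' n r) 0 0 (rhoB Θ ρ' n r) *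
      ι.map (MvPowerSeries.C : Lam p g 𝒪 n →+* MvPowerSeries τ (Lam p g 𝒪 n)) := by
  have h := mvRep_intertwine' (τ := τ) (ρ n) (diagRep (ρ' n)) ι hι (Θ n r)
  rw [mvRep_diagRep] at h
  exact h

include hΘ in
/-- some component is in the support -/
theorem exists_supp {m : Type} [Fintype m] [DecidableEq m] [Nonempty m] {C : Type*} [Finite C]
    (K : Components (SInf g 𝒪 τ) RR C)
    (ρ : ∀ n, R n →+* Matrix m m (Lam p g 𝒪 n))
    (hsc : ∀ n (a : Lam p g 𝒪 n), ∃ r : R n, ρ n r = a • (1 : Matrix m m (Lam p g 𝒪 n)))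
    (hcov : ∀ P : Ideal RR, P.IsPrime → kerInf hp hp𝒪 Θ ρ ≤ P → ∃ c, K.q c ≤ P) :
    ∃ c, kerInf hp hp𝒪 Θ ρ ≤ K.q c :=
  exists_supported (LB hp hp𝒪 τ g) K (rhoB Θ ρ) (hS_rhoB hp hp𝒪 Θ hΘ ρ hsc) hcov

theorem kapB_map_C {m m' : Type*} (n : ℕ) (M : Matrix m m' (Lam p g 𝒪 n)) :
    (M.map (MvPowerSeries.C : Lam p g 𝒪 n →+* MvPowerSeries τ (Lam p g 𝒪 n))).map
      (kapB p g 𝒪 τ n) = M.map (kapL p g 𝒪 n) := by
  ext i j
  rw [Matrix.map_apply, Matrix.map_apply, Matrix.map_apply, kapB_C]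

/-- old forms: the support increases with the level -/
theorem kerInf_le_of_injective {m m' : Type} [Fintype m] [DecidableEq m] [Fintype m']
    [DecidableEq m']
    (ρ : ∀ n, R n →+* Matrix m m (Lam p g 𝒪 n)) (ρ' : ∀ n, R n →+* Matrix m' m' (Lam p g 𝒪 n))
    (ι : ∀ n, Matrix m (m' ⊕ m') (Lam p g 𝒪 n))
    (hι : ∀ n r, ι n * Matrix.fromBlocks (ρ' n r) 0 0 (ρ' n r) = ρ n r * ι n)
    (hinj : ∀ n, Function.Injective ((ι n).map (kapL p g 𝒪 n)).mulVec) :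
    kerInf hp hp𝒪 Θ ρ ≤ kerInf hp hp𝒪 Θ ρ' := by
  intro r hr
  set L := LB hp hp𝒪 τ g with hL
  set J : ∀ n, Matrix m (m' ⊕ m') (MvPowerSeries τ (Lam p g 𝒪 n)) := fun n =>
    (ι n).map (MvPowerSeries.C : Lam p g 𝒪 n →+* MvPowerSeries τ (Lam p g 𝒪 n)) with hJ
  have hleft : ∃ N : Matrix (m' ⊕ m') m (SInf g 𝒪 τ), N * L.mat J = 1 := by
    refine exists_left_inverse_lift (kapS g 𝒪 τ) (kapS_surjective τ) (L.mat J) ?_
    obtain ⟨n, hn⟩ := (eventually_map_eq L (kapS g 𝒪 τ) (kapS_surjective τ) (kapB p g 𝒪 τ)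
      (kapB_q hp hp𝒪 τ) J).exists
    rw [hn, hJ, kapB_map_C]
    exact hinj n
  obtain ⟨N, hN⟩ := hleft
  have h1 : L.mat J * L.mat (fun n => Matrix.fromBlocks (rhoB Θ ρ' n r) 0 0 (rhoB Θ ρ' n r)) =
      0 := by
    rw [← L.mat_mul]
    simp only [hJ, rhoB_intertwine Θ ρ ρ' _ _ (hι _)]
    have h2 : L.rho (rhoB Θ ρ) r = 0 := hr
    rw [L.rho_apply] at h2
    have h3 := L.mat_mul (fun n => rhoB Θ ρ n r) J
    rw [h2, Matrix.zero_mul] at h3
    exact h3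
  have h4 : L.mat (fun n => Matrix.fromBlocks (rhoB Θ ρ' n r) 0 0 (rhoB Θ ρ' n r)) = 0 := by
    calc _ = (N * L.mat J) * L.mat (fun n => Matrix.fromBlocks (rhoB Θ ρ' n r) 0 0
            (rhoB Θ ρ' n r)) := by rw [hN, Matrix.one_mul]
      _ = 0 := by rw [Matrix.mul_assoc, h1, Matrix.mul_zero]
  show L.rho (rhoB Θ ρ') r = 0
  exact Matrix.ext fun i j => congrFun (congrFun h4 (Sum.inl i)) (Sum.inl j)

include hΘ in
/-- Level raising step. -/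
theorem raise_step {m m' : Type} [Fintype m] [DecidableEq m] [Fintype m'] [DecidableEq m']
    {C : Type*} [Finite C] (K : Components (SInf g 𝒪 τ) RR C)
    (ρ : ∀ n, R n →+* Matrix m m (Lam p g 𝒪 n)) (ρ' : ∀ n, R n →+* Matrix m' m' (Lam p g 𝒪 n))
    (hsc : ∀ n (a : Lam p g 𝒪 n), ∃ r : R n, ρ n r = a • (1 : Matrix m m (Lam p g 𝒪 n)))
    (hsc' : ∀ n (a : Lam p g 𝒪 n), ∃ r : R n, ρ' n r = a • (1 : Matrix m' m' (Lam p g 𝒪 n)))
    (hcov : ∀ P : Ideal RR, P.IsPrime → kerInf hp hp𝒪 Θ ρ ≤ P → ∃ c, K.q c ≤ P)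
    (ι : ∀ n, Matrix m (m' ⊕ m') (Lam p g 𝒪 n)) (ι' : ∀ n, Matrix (m' ⊕ m') m (Lam p g 𝒪 n))
    (hι : ∀ n r, ι n * Matrix.fromBlocks (ρ' n r) 0 0 (ρ' n r) = ρ n r * ι n)
    (hι' : ∀ n r, ι' n * ρ n r = Matrix.fromBlocks (ρ' n r) 0 0 (ρ' n r) * ι' n)
    (hinj : ∀ n, Function.Injective ((ι n).map (kapL p g 𝒪 n)).mulVec)
    (hsurj : ∀ n, Function.Surjective ((ι' n).map (kapL p g 𝒪 n)).mulVec)
    (a b c d : ∀ n, R n) (hcomp : ∀ n, ι' n * ι n =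
      Matrix.fromBlocks (ρ' n (a n)) (ρ' n (b n)) (ρ' n (c n)) (ρ' n (d n)))
    (a' b' c' d' : RR) (ha : ∀ n, Θ n a' = MvPowerSeries.C (a n))
    (hb : ∀ n, Θ n b' = MvPowerSeries.C (b n)) (hc : ∀ n, Θ n c' = MvPowerSeries.C (c n))
    (hd : ∀ n, Θ n d' = MvPowerSeries.C (d n))
    (P : Ideal RR) (hP : P.IsPrime) (hdet : a' * d' - b' * c' ∈ P)
    (hsupp : kerInf hp hp𝒪 Θ ρ' ≤ P)
    (r₀ : RR) (r₁ : ∀ n, R n) (hr₁ : ∀ n, Θ n r₀ = MvPowerSeries.C (r₁ n))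
    (hr₀ : ∀ n, ∃ Y : Matrix (m' ⊕ m') m (Lam p g 𝒪 n), ρ n (r₁ n) = ι n * Y)
    (c₀ : C) (hc₀ : ∀ c, K.q c ≤ P → r₀ ∈ K.q c → c = c₀) :
    kerInf hp hp𝒪 Θ ρ ≤ K.q c₀ := by
  refine raise_component (LB hp hp𝒪 τ g) (kapS g 𝒪 τ) (kapS_surjective τ) (kapB p g 𝒪 τ)
    (kapB_q hp hp𝒪 τ) K (rhoB Θ ρ) (rhoB Θ ρ') (hS_rhoB hp hp𝒪 Θ hΘ ρ hsc)
    (hS_rhoB hp hp𝒪 Θ hΘ ρ' hsc') hcov
    (fun n => (ι n).map (MvPowerSeries.C : Lam p g 𝒪 n →+* MvPowerSeries τ (Lam p g 𝒪 n)))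
    (fun n => (ι' n).map (MvPowerSeries.C : Lam p g 𝒪 n →+* MvPowerSeries τ (Lam p g 𝒪 n)))
    (fun n r => rhoB_intertwine Θ ρ ρ' n (ι n) (hι n) r)
    (fun n r => rhoB_intertwine' Θ ρ ρ' n (ι' n) (hι' n) r)
    (fun n => by rw [kapB_map_C]; exact hinj n)
    (fun n => by rw [kapB_map_C]; exact hsurj n)
    a' b' c' d' (fun n => ?_) P hP hdet hsupp r₀ (fun n => ?_) c₀ hc₀
  · rw [← Matrix.map_mul, hcomp n, rhoB_of_C Θ ρ' n a' _ (ha n), rhoB_of_C Θ ρ' n b' _ (hb n),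
      rhoB_of_C Θ ρ' n c' _ (hc n), rhoB_of_C Θ ρ' n d' _ (hd n), Matrix.fromBlocks_map]
  · obtain ⟨Y, hY⟩ := hr₀ n
    refine ⟨Y.map (MvPowerSeries.C : Lam p g 𝒪 n →+* MvPowerSeries τ (Lam p g 𝒪 n)), ?_⟩
    rw [rhoB_of_C Θ ρ n r₀ _ (hr₁ n), hY, Matrix.map_mul]

section Lower

theorem mvRep_conj_zero {m : Type*} [Fintype m] [DecidableEq m] {R A : Type*} [CommRing R]
    [CommRing A] (ρ : R →+* Matrix m m A) (G H : Matrix (Fin 2) (Fin 2) (MvPowerSeries τ R))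
    (M : Matrix (Fin 2) (Fin 2) R) (hM : ∀ i j, ρ (M i j) = 0) (i j : Fin 2) :
    mvRep τ ρ ((H * M.map (MvPowerSeries.C : R →+* MvPowerSeries τ R) * G) i j) = 0 := by
  have h0 : ∀ a b, mvRep τ ρ (MvPowerSeries.C (M a b)) = 0 := by
    intro a b
    rw [mvRep_C, hM]
    ext i j
    rw [Matrix.map_apply, Matrix.zero_apply, map_zero]
    rfl
  simp only [Matrix.mul_apply, Matrix.map_apply, map_sum, map_mul, h0, mul_zero, zero_mul,
    Finset.sum_const_zero]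

theorem constantCoeff_mvRep {m : Type*} [Fintype m] [DecidableEq m] {R A : Type*} [CommRing R]
    [CommRing A] (ρ : R →+* Matrix m m A) (f : MvPowerSeries τ R) :
    (mvRep τ ρ f).map (MvPowerSeries.constantCoeff (σ := τ) (R := A)) =
      ρ (MvPowerSeries.constantCoeff f) := by
  ext i j
  rw [Matrix.map_apply, ← MvPowerSeries.coeff_zero_eq_constantCoeff_apply, coeff_mvRep,
    MvPowerSeries.coeff_zero_eq_constantCoeff_apply]

theorem rhoB_map_kapB {m : Type} [Fintype m] [DecidableEq m]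
    (ρ : ∀ n, R n →+* Matrix m m (Lam p g 𝒪 n)) (n : ℕ) (r : RR) :
    (rhoB Θ ρ n r).map (kapB p g 𝒪 τ n) =
      (ρ n (MvPowerSeries.constantCoeff (Θ n r))).map (kapL p g 𝒪 n) := by
  rw [← constantCoeff_mvRep]
  ext i j
  rfl

include hΘ in
/-- Level lowering step (patched Mazur principle). -/
theorem lower_step {m : Type} [Fintype m] [DecidableEq m]
    {C : Type*} [Finite C] (K : Components (SInf g 𝒪 τ) RR C)
    (ρ : ∀ n, R n →+* Matrix m m (Lam p g 𝒪 n))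
    (hsc : ∀ n (a : Lam p g 𝒪 n), ∃ r : R n, ρ n r = a • (1 : Matrix m m (Lam p g 𝒪 n)))
    (hcov : ∀ P : Ideal RR, P.IsPrime → kerInf hp hp𝒪 Θ ρ ≤ P → ∃ c, K.q c ≤ P)
    (N X : Matrix (Fin 2) (Fin 2) RR) (w : RR)
    (Nn Xn : ∀ n, Matrix (Fin 2) (Fin 2) (R n)) (wn : ∀ n, R n)
    (G H : ∀ n, Matrix (Fin 2) (Fin 2) (MvPowerSeries τ (R n)))
    (hGH : ∀ n, G n * H n = 1) (hHG : ∀ n, H n * G n = 1)
    (hG : ∀ n, (G n).map (MvPowerSeries.constantCoeff (σ := τ) (R := R n)) = 1)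
    (hN : ∀ n, N.map (Θ n) = H n * (Nn n).map (MvPowerSeries.C : R n →+* _) * G n)
    (hX : ∀ n, X.map (Θ n) = H n * (Xn n).map (MvPowerSeries.C : R n →+* _) * G n)
    (hw : ∀ n, Θ n w = MvPowerSeries.C (wn n))
    (r1 : ∀ n i j, ρ n ((Nn n * Nn n) i j) = 0)
    (r2 : ∀ n i j, ρ n ((Xn n * Nn n - wn n • Nn n) i j) = 0)
    (r3 : ∀ n i j, ρ n ((Nn n * Xn n) i j) = 0)
    (r4 : ∀ n, ρ n ((Xn n).trace - wn n) = 0) (r5 : ∀ n, ρ n (Xn n).det = 0)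
    (hexact : ∀ n, ∀ v : m ⊕ m → ResidueField 𝒪,
      ((Matrix.fromBlocks (ρ n (Nn n 0 0)) (ρ n (Nn n 0 1)) (ρ n (Nn n 1 0))
        (ρ n (Nn n 1 1))).map (kapL p g 𝒪 n)).mulVec v = 0 →
      ∃ u, ((Matrix.fromBlocks (ρ n (Nn n 0 0)) (ρ n (Nn n 0 1)) (ρ n (Nn n 1 0))
        (ρ n (Nn n 1 1))).map (kapL p g 𝒪 n)).mulVec u = v)
    (P : Ideal RR) (hP : P.IsPrime) (hNP : ∀ i j, N i j ∈ P) (hwP : w ∉ P)
    (hsupp : kerInf hp hp𝒪 Θ ρ ≤ P)
    (hNc : ∀ c, K.q c ≤ P → ∃ i j, N i j ∉ K.q c) : False := by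
  have hH : ∀ n, (H n).map (MvPowerSeries.constantCoeff (σ := τ) (R := R n)) = 1 := by
    intro n
    have h1 := congrArg (fun M => M.map (MvPowerSeries.constantCoeff (σ := τ) (R := R n))) (hGH n)
    simp only [Matrix.map_mul, hG n, one_mul] at h1
    rw [h1]
    exact Matrix.map_one _ (map_zero _) (map_one _)
  have hconst : ∀ n i j, MvPowerSeries.constantCoeff (Θ n (N i j)) = Nn n i j := by
    intro n i j
    have h1 : Θ n (N i j) = (H n * (Nn n).map (MvPowerSeries.C : R n →+* MvPowerSeries τ (R n)) *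
        G n) i j :=
      congrFun (congrFun (hN n) i) j
    rw [h1]
    have h2 : (H n * (Nn n).map (MvPowerSeries.C : R n →+* MvPowerSeries τ (R n)) * G n).map
        (MvPowerSeries.constantCoeff (σ := τ) (R := R n)) = Nn n := by
      rw [Matrix.map_mul, Matrix.map_mul, hG n, hH n, mul_one, one_mul]
      ext a b
      rw [Matrix.map_apply, Matrix.map_apply, MvPowerSeries.constantCoeff_C]
    exact congrFun (congrFun h2 i) j
  have hmid : ∀ (n : ℕ) (A B : Matrix (Fin 2) (Fin 2) (MvPowerSeries τ (R n))),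
      (H n * A * G n) * (H n * B * G n) = H n * (A * B) * G n := by
    intro n A B
    calc (H n * A * G n) * (H n * B * G n) = H n * A * (G n * H n) * B * G n := by
          simp only [Matrix.mul_assoc]
      _ = _ := by rw [hGH n]; simp only [Matrix.mul_assoc, Matrix.one_mul]
  refine lower_component (LB hp hp𝒪 τ g) (kapS g 𝒪 τ) (kapS_surjective τ) (kapB p g 𝒪 τ)
    (kapB_q hp hp𝒪 τ) K (rhoB Θ ρ) (hS_rhoB hp hp𝒪 Θ hΘ ρ hsc) hcov N X w
    ?_ ?_ ?_ ?_ ?_ ?_ P hP hNP hwP hsupp hNc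
  · intro n i j
    have h1 : Θ n ((N * N) i j) = (H n * (Nn n * Nn n).map
        (MvPowerSeries.C : R n →+* MvPowerSeries τ (R n)) * G n) i j := by
      rw [Matrix.map_mul, ← hmid, ← hN n, ← Matrix.map_mul, Matrix.map_apply]
    rw [rhoB, RingHom.comp_apply, h1]
    exact mvRep_conj_zero (ρ n) (G n) (H n) _ (r1 n) i j
  · intro n i j
    have h1 : Θ n ((X * N - w • N) i j) = (H n * (Xn n * Nn n - wn n • Nn n).map
        (MvPowerSeries.C : R n →+* MvPowerSeries τ (R n)) * G n) i j := by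
      have e1 : (Xn n * Nn n - wn n • Nn n).map
          (MvPowerSeries.C : R n →+* MvPowerSeries τ (R n)) =
          (Xn n).map (MvPowerSeries.C : R n →+* MvPowerSeries τ (R n)) *
            (Nn n).map (MvPowerSeries.C : R n →+* MvPowerSeries τ (R n)) -
          (MvPowerSeries.C (wn n) : MvPowerSeries τ (R n)) •
            (Nn n).map (MvPowerSeries.C : R n →+* MvPowerSeries τ (R n)) := by
        rw [← Matrix.map_mul]
        refine Matrix.ext fun a b => ?_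
        simp only [Matrix.map_apply, Matrix.sub_apply, Matrix.smul_apply, map_sub, smul_eq_mul,
          map_mul]
      rw [e1, Matrix.mul_sub, Matrix.sub_mul, Matrix.mul_smul, Matrix.smul_mul, ← hmid, ← hN n,
        ← hX n, ← Matrix.map_mul, ← hw n]
      simp only [Matrix.map_apply, Matrix.sub_apply, Matrix.smul_apply, map_sub, smul_eq_mul,
          map_mul]
    rw [rhoB, RingHom.comp_apply, h1]
    exact mvRep_conj_zero (ρ n) (G n) (H n) _ (r2 n) i j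
  · intro n i j
    have h1 : Θ n ((N * X) i j) = (H n * (Nn n * Xn n).map
        (MvPowerSeries.C : R n →+* MvPowerSeries τ (R n)) * G n) i j := by
      rw [Matrix.map_mul, ← hmid, ← hN n, ← hX n, ← Matrix.map_mul, Matrix.map_apply]
    rw [rhoB, RingHom.comp_apply, h1]
    exact mvRep_conj_zero (ρ n) (G n) (H n) _ (r3 n) i j
  · intro n
    have h1 : Θ n (X 0 0 + X 1 1 - w) = MvPowerSeries.C ((Xn n).trace - wn n) := by
      have h2 : (X.map (Θ n)).trace = MvPowerSeries.C (Xn n).trace := by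
        rw [hX n, Matrix.trace_mul_comm, ← Matrix.mul_assoc, hGH n, Matrix.one_mul]
        simp [Matrix.trace_fin_two]
      have h3 : (X.map (Θ n)).trace = Θ n (X 0 0) + Θ n (X 1 1) := by
        simp [Matrix.trace_fin_two]
      rw [map_sub, map_add, ← h3, h2, hw n, map_sub]
    rw [rhoB_of_C Θ ρ n _ _ h1, r4 n]
    ext i j
    simp
  · intro n
    have h1 : Θ n (X 0 0 * X 1 1 - X 0 1 * X 1 0) = MvPowerSeries.C ((Xn n).det) := by
      have h2 : (X.map (Θ n)).det = MvPowerSeries.C (Xn n).det := by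
        rw [hX n, Matrix.det_mul, Matrix.det_mul, mul_comm (H n).det, mul_assoc,
          ← Matrix.det_mul, hHG n, Matrix.det_one, mul_one]
        simp [Matrix.det_fin_two]
      rw [Matrix.det_fin_two] at h2
      rw [← h2]
      simp
    rw [rhoB_of_C Θ ρ n _ _ h1, r5 n]
    ext i j
    simp
  · intro n v
    have h1 : (Matrix.fromBlocks (rhoB Θ ρ n (N 0 0)) (rhoB Θ ρ n (N 0 1)) (rhoB Θ ρ n (N 1 0))
        (rhoB Θ ρ n (N 1 1))).map (kapB p g 𝒪 τ n) =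
        (Matrix.fromBlocks (ρ n (Nn n 0 0)) (ρ n (Nn n 0 1)) (ρ n (Nn n 1 0))
        (ρ n (Nn n 1 1))).map (kapL p g 𝒪 n) := by
      rw [Matrix.fromBlocks_map, Matrix.fromBlocks_map, rhoB_map_kapB, rhoB_map_kapB,
        rhoB_map_kapB, rhoB_map_kapB, hconst, hconst, hconst, hconst]
    rw [h1]
    exact hexact n v

end Lower

section Point

/-- Points on supported components are modular. -/
theorem point_step {m : Type} [Fintype m] [DecidableEq m]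
    (ρ : ∀ n, R n →+* Matrix m m (Lam p g 𝒪 n))
    {R₀ : Type} [CommRing R₀] [IsLocalRing R₀] [IsNoetherianRing R₀]
    [IsAdicComplete (maximalIdeal R₀) R₀] [Finite (ResidueField R₀)] (alg₀ : 𝒪 →+* R₀)
    (π : ∀ n, R n →+* R₀) (hπ : ∀ n, Function.Surjective (π n)) (hΘ : ∀ n, Function.Surjective (Θ n))
    (hsc : ∀ n (a : Lam p g 𝒪 n), ∃ r : R n, ρ n r = a • (1 : Matrix m m (Lam p g 𝒪 n)) ∧
      π n r = alg₀ (augL p g 𝒪 n a))
    (ρ₀ : R₀ →+* Matrix m m 𝒪) (hρ : ∀ n r, (ρ n r).map (augL p g 𝒪 n) = ρ₀ (π n r))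
    {A : Type*} [CommRing A] [IsDomain A] (x : R₀ →+* A) (q : Ideal RR)
    (hq : kerInf hp hp𝒪 Θ ρ ≤ q)
    (hx : ∀ n r, r ∈ q → x (π n (MvPowerSeries.constantCoeff (Θ n r))) = 0)
    (t : R₀) (ht : ρ₀ t = 0) : x t = 0 := by
  refine point_kills (LB hp hp𝒪 τ g) (epsS g 𝒪 τ) (epsB p g 𝒪 τ) (epsB_q hp hp𝒪 τ) (rhoB Θ ρ)
    (fun n => ((π n).comp (MvPowerSeries.constantCoeff (σ := τ) (R := R n))).comp (Θ n)) ρ₀
    ?_ ?_ ?_ x q hq hx t ht
  · intro n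
    refine ((hπ n).comp ?_).comp (hΘ n)
    intro r
    exact ⟨MvPowerSeries.C r, MvPowerSeries.constantCoeff_C r⟩
  · intro n r
    show (rhoB Θ ρ n r).map (epsB p g 𝒪 τ n) = ρ₀ (π n (MvPowerSeries.constantCoeff (Θ n r)))
    rw [← hρ, ← constantCoeff_mvRep]
    ext i j
    rfl
  · intro n s hs
    obtain ⟨r, hr, hr'⟩ := exists_mvRep_scalar (τ := τ) (A := Lam p g 𝒪 n) (R := R n) (R₀ := R₀)
      (ρ n) (π n) (alg₀.comp (augL p g 𝒪 n : Lam p g 𝒪 n →+* 𝒪)) (hsc n)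
      ((LB hp hp𝒪 τ g).q n s)
    obtain ⟨r', rfl⟩ := hΘ n r
    refine ⟨r', ?_, hr⟩
    show π n (MvPowerSeries.constantCoeff (Θ n r')) = 0
    rw [← MvPowerSeries.constantCoeff_map, hr', MvPowerSeries.constantCoeff_map,
      RingHom.comp_apply]
    have h1 : (augL p g 𝒪 n : Lam p g 𝒪 n →+* 𝒪)
        (MvPowerSeries.constantCoeff ((LB hp hp𝒪 τ g).q n s)) =
        epsS g 𝒪 τ s := epsB_q hp hp𝒪 τ n s
    rw [h1, hs, map_zero]

end Point

end Main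

end Fermat.Agent.RT8
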