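import Fermat.Agent.RT8.ModSys
import Fermat.Agent.TW.PGroup

/-!
# Freeness over the group algebra acting through the Galois representation
-/

set_option autoImplicit false
set_option linter.unusedSectionVars false
set_option linter.unusedVariables false

namespace Fermat.Agent.RT8

open IsLocalRing Module

section pow

variable {R M : Type*} [CommRing R] [AddCommGroup M] [Module R M]

/-- the sums `∑ d^(m-1-j) e^j` -/
def gS (d e : R) : ℕ → R
  | 0 => 0
  | m + 1 => d * gS d e m + e ^ m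

variable {d e : R}

theorem gS_succ' (m : ℕ) : gS d e (m + 1) = e * gS d e m + d ^ m := by
  induction m with
  | zero => simp [gS]
  | succ m ih =>
    have h : gS d e (m + 1) = d * gS d e m + e ^ m := rfl
    have h' : gS d e (m + 1 + 1) = d * gS d e (m + 1) + e ^ (m + 1) := rfl
    rw [h', pow_succ, pow_succ]
    linear_combination d * ih - e * h

theorem gS_rec (hde : d * e = 1) (m : ℕ) :
    gS d e (m + 2) = (d + e) * gS d e (m + 1) - gS d e m := by
  have h1 : gS d e (m + 2) = d * gS d e (m + 1) + e ^ (m + 1) := rfl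
  have h2 : gS d e (m + 1) = d * gS d e m + e ^ m := rfl
  rw [h1, pow_succ]
  linear_combination (-e) * h2 - gS d e m * hde

variable {θ : M →ₗ[R] M} (hθ : ∀ x : M, θ (θ x) = (d + e) • θ x - x)

include hθ in
theorem pow_smul_eq (hde : d * e = 1) (m : ℕ) (x : M) :
    (θ ^ (m + 1)) x = gS d e (m + 1) • θ x - gS d e m • x := by
  induction m with
  | zero => simp [gS]
  | succ m ih =>
    rw [pow_succ', Module.End.mul_apply, ih, map_sub, map_smul, map_smul,
      hθ, smul_sub, gS_rec hde, sub_smul, mul_smul, smul_comm (gS d e (m + 1)) (d + e)]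
    abel

theorem gS_mul (hde : d * e = 1) {P : ℕ} (hd : d ^ P = 1) (hP : Odd P) :
    d * gS d e P = gS d e P ∧ ∃ m, P = m + 1 ∧ gS d e m + 1 = gS d e P := by
  obtain ⟨k, rfl⟩ := hP
  have he : e ^ (2 * k + 1) = 1 := by
    have h : d ^ (2 * k + 1) * e ^ (2 * k + 1) = 1 := by rw [← mul_pow, hde, one_pow]
    rwa [hd, one_mul] at h
  -- `d^(P-1) = e`, `e^(P-1) = d`
  have hd' : d ^ (2 * k) = e := by
    calc d ^ (2 * k) = d ^ (2 * k) * (d * e) := by rw [hde, mul_one]
      _ = d ^ (2 * k + 1) * e := by ring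
      _ = e := by rw [hd, one_mul]
  have he' : e ^ (2 * k) = d := by
    calc e ^ (2 * k) = e ^ (2 * k) * (d * e) := by rw [hde, mul_one]
      _ = e ^ (2 * k + 1) * d := by ring
      _ = d := by rw [he, one_mul]
  have h1 : gS d e (2 * k + 1) = d * (gS d e (2 * k) + 1) := by
    have h : gS d e (2 * k + 1) = d * gS d e (2 * k) + e ^ (2 * k) := rfl
    rw [h, he']; ring
  have h2 : gS d e (2 * k + 1) = e * (gS d e (2 * k) + 1) := by
    rw [gS_succ', hd']; ring
  have h3 : gS d e (2 * k) + 1 = d * gS d e (2 * k + 1) := by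
    calc gS d e (2 * k) + 1 = (d * e) * (gS d e (2 * k) + 1) := by rw [hde, one_mul]
      _ = d * gS d e (2 * k + 1) := by rw [h2]; ring
  have h4 : d * (d * gS d e (2 * k + 1)) = gS d e (2 * k + 1) := by rw [← h3, ← h1]
  have h5 : ∀ m : ℕ, d ^ (2 * m) * gS d e (2 * k + 1) = gS d e (2 * k + 1) := by
    intro m
    induction m with
    | zero => simp
    | succ m ih =>
      calc d ^ (2 * (m + 1)) * gS d e (2 * k + 1) =
          d ^ (2 * m) * (d * (d * gS d e (2 * k + 1))) := by ring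
        _ = _ := by rw [h4, ih]
  have h6 : d * gS d e (2 * k + 1) = gS d e (2 * k + 1) := by
    have h7 := h5 (k + 1)
    have h8 : d ^ (2 * (k + 1)) = d := by
      calc d ^ (2 * (k + 1)) = d ^ (2 * k + 1) * d := by ring
        _ = d := by rw [hd, one_mul]
    rwa [h8] at h7
  exact ⟨h6, 2 * k, rfl, by rw [h3, h6]⟩

include hθ in
/-- `θ^P = 1` -/
theorem pow_smul_eq_self (hde : d * e = 1) {P : ℕ} (hd : d ^ P = 1) (hP : Odd P)
    (h1 : ∀ x : M, ∃ y : M, θ x - x = (d - 1) • y) (x : M) : (θ ^ P) x = x := by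
  obtain ⟨h2, m, rfl, h3⟩ := gS_mul hde hd hP
  rw [pow_smul_eq hθ hde]
  obtain ⟨y, hy⟩ := h1 x
  have h4 : gS d e (m + 1) • (θ x - x) = 0 := by
    rw [hy, ← mul_smul, mul_sub, mul_one, mul_comm, h2, sub_self, zero_smul]
  rw [smul_sub, sub_eq_zero] at h4
  rw [h4, ← h3, add_smul, one_smul, add_sub_cancel_left]

variable [Module.Free R M] [Module.Finite R M] (J : Ideal R) (hJ : J ≤ Ideal.jacobson ⊥)
  (hann : ∀ a : R, (d - 1) ^ 2 * a = 0 → a ∈ J)
  (h1 : ∀ x : M, ∃ y : M, θ x - x = (d - 1) • y)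

include hJ hann h1 hθ in
theorem exists_sub_eq (hde : d * e = 1) (hdJ : d - 1 ∈ J) (y : M) :
    ∃ x, (d - 1) • y = θ x - x := by
  classical
  let b := Module.Free.chooseBasis R M
  choose Y hY using fun j => h1 (b j)
  let A : M →ₗ[R] M := b.constr R Y
  have hA : ∀ x, θ x = x + (d - 1) • A x := by
    intro x
    have h : θ = LinearMap.id + (d - 1) • A := b.ext fun j => by
      rw [LinearMap.add_apply, LinearMap.smul_apply, LinearMap.id_apply]
      have h2 : A (b j) = Y j := b.constr_basis R Y j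
      rw [h2, ← hY]
      abel
    rw [h]
    rfl
  have key : ∀ m, (d - 1) ^ 2 • (A (A m) - ((d - 1) * e) • A m - e • m) = 0 := by
    intro m
    have h2 := hθ m
    rw [hA m, map_add, map_smul, hA (A m), hA m] at h2
    have h3 : (d - 1) ^ 2 * e = d + e - 2 := by linear_combination (d - 2) * hde
    have h4 : (d - 1) ^ 2 • (A (A m) - ((d - 1) * e) • A m - e • m) =
        (d - 1) ^ 2 • A (A m) - ((d - 1) ^ 2 * e) • (d - 1) • A m - ((d - 1) ^ 2 * e) • m := by
      module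
    rw [h4, h3]
    have h5 := sub_eq_zero.mpr h2
    rw [← h5]
    module
  have hmem : ∀ z : M, (d - 1) ^ 2 • z = 0 → z ∈ (J • ⊤ : Submodule R M) := by
    intro z hz
    rw [basis_mem_smul_top_iff' b]
    intro i
    apply hann
    have h2 := congrArg (fun z => b.repr z i) hz
    simpa using h2
  have hr : (⊤ : Submodule R M) ≤ LinearMap.range A ⊔ J • ⊤ := by
    intro z _
    have h2 : z = A (A (d • z)) - (((d - 1) * e) • A (d • z) +
        (A (A (d • z)) - ((d - 1) * e) • A (d • z) - e • d • z)) := by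
      have h3 : e • d • z = z := by rw [smul_smul, mul_comm, hde, one_smul]
      rw [h3]
      abel
    rw [h2]
    refine Submodule.sub_mem _ (Submodule.mem_sup_left ⟨_, rfl⟩) (Submodule.mem_sup_right ?_)
    refine Submodule.add_mem _ ?_ (hmem _ (key _))
    exact Submodule.smul_mem_smul (J.mul_mem_right _ hdJ) trivial
  have htop : (⊤ : Submodule R M) ≤ LinearMap.range A :=
    Submodule.le_of_le_smul_of_le_jacobson_bot Module.Finite.fg_top hJ hr
  obtain ⟨x, hx⟩ := htop (x := y) trivial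
  exact ⟨x, by rw [hA, hx]; abel⟩

end pow

section lam

variable {p g : ℕ} {𝒪 : Type} [CommRing 𝒪] [IsDomain 𝒪] [IsDiscreteValuationRing 𝒪]
  [IsAdicComplete (maximalIdeal 𝒪) 𝒪] {n : ℕ} (hp : p.Prime) (hp2 : p ≠ 2)
  (hp𝒪 : (p : 𝒪) ∈ maximalIdeal 𝒪)

include hp hp2 in
theorem three_le : 3 ≤ p ^ (n + 1) := by
  have h1 : 3 ≤ p := by
    have := hp.two_le
    omega
  calc 3 ≤ p := h1
    _ = p ^ 1 := (pow_one p).symm
    _ ≤ p ^ (n + 1) := Nat.pow_le_pow_right hp.pos (by omega)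

include hp hp2 in
theorem delm_sq_ne_zero (i : Fin g) : (delm p g 𝒪 n i) ^ 2 ≠ 0 := by
  have h3 := three_le (n := n) hp hp2
  have hz : ∀ k : ℕ, 0 < k → k < p ^ (n + 1) → del p g n i ^ k ≠ 1 := by
    intro k hk hk' h
    have h1 := congrFun (congrArg Multiplicative.toAdd h) i
    rw [toAdd_pow, del, toAdd_ofAdd, Pi.smul_apply, Pi.single_eq_same, toAdd_one,
      Pi.zero_apply, nsmul_one, ZMod.natCast_eq_zero_iff] at h1
    exact absurd (Nat.le_of_dvd hk h1) (by omega)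
  intro h
  have h1 : (delm p g 𝒪 n i) ^ 2 = MonoidAlgebra.single (del p g n i ^ 2) (1 : 𝒪) -
      (MonoidAlgebra.single (del p g n i) (1 : 𝒪) + MonoidAlgebra.single (del p g n i) (1 : 𝒪)) +
        MonoidAlgebra.single 1 1 := by
    have h2 : (MonoidAlgebra.single (del p g n i ^ 2) (1 : 𝒪) : Lam p g 𝒪 n) =
        MonoidAlgebra.single (del p g n i) (1 : 𝒪) ^ 2 := by
      rw [MonoidAlgebra.single_pow, one_pow]
    have h3 : (MonoidAlgebra.single 1 1 : Lam p g 𝒪 n) = 1 := rfl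
    rw [h2, h3, delm, MonoidAlgebra.of_apply]
    ring
  rw [h1] at h
  have h2 := congrArg (fun f : Lam p g 𝒪 n => f.coeff 1) h
  have e2 : del p g n i ≠ 1 := by
    have := hz 1 (by omega) (by omega)
    rwa [pow_one] at this
  simp only [MonoidAlgebra.coeff_add, MonoidAlgebra.coeff_sub, MonoidAlgebra.coeff_single,
    Finsupp.add_apply, Finsupp.sub_apply, MonoidAlgebra.coeff_zero, Finsupp.zero_apply] at h2
  rw [Finsupp.single_apply, Finsupp.single_apply, Finsupp.single_apply,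
    if_neg (hz 2 (by omega) (by omega)), if_neg e2, if_pos rfl] at h2
  norm_num at h2

include hp hp2 hp𝒪 in
theorem mem_J_of_mul (i : Fin g) (a : Lam p g 𝒪 n) (ha : (delm p g 𝒪 n i) ^ 2 * a = 0) :
    a ∈ JLam p g 𝒪 n := by
  have hne : NeZero p := ⟨hp.ne_zero⟩
  by_contra hcon
  rw [← ker_kapL, RingHom.mem_ker] at hcon
  obtain ⟨b, hb⟩ := kapL_surjective (p := p) (g := g) (𝒪 := 𝒪) (n := n) (kapL p g 𝒪 n a)⁻¹
  have h1 : a * b - 1 ∈ JLam p g 𝒪 n := by
    rw [← ker_kapL, RingHom.mem_ker, map_sub, map_mul, hb, map_one, mul_inv_cancel₀ hcon, sub_self]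
  have hcpl := isAdicComplete_Lam (g := g) hp hp𝒪 n
  have h2 := IsAdicComplete.le_jacobson_bot (JLam p g 𝒪 n) h1
  have h3 : IsUnit (a * b) := by
    have h4 := (Ideal.mem_jacobson_bot.mp h2) 1
    rwa [mul_one, sub_add_cancel] at h4
  apply delm_sq_ne_zero (𝒪 := 𝒪) (n := n) hp hp2 i
  obtain ⟨u, hu⟩ := h3
  have h5 : (delm p g 𝒪 n i) ^ 2 * (u : Lam p g 𝒪 n) = 0 := by
    rw [hu, ← mul_assoc, ha, zero_mul]
  exact (Units.mul_left_eq_zero u).mp h5

end lam


section del

variable {p g : ℕ} {n : ℕ}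

/-- homs of groups out of `Del` -/
theorem exists_grpHom_del {B : Type*} [CommGroup B] (n : ℕ) (u : Fin g → B)
    (hu : ∀ i, u i ^ (p ^ (n + 1)) = 1) :
    ∃ f : Del p g n →* B, ∀ i, f (del p g n i) = u i := by
  classical
  let z : ∀ i : Fin g, {f : ℤ →+ Additive B // f (p ^ (n + 1) : ℕ) = 0} := fun i =>
    ⟨(zmultiplesHom (Additive B)) (Additive.ofMul (u i)), by
      rw [zmultiplesHom_apply, natCast_zsmul, ← ofMul_pow, hu i, ofMul_one]⟩
  let f₁ : ∀ i : Fin g, ZMod (p ^ (n + 1)) →+ Additive B := fun i =>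
    ZMod.lift (p ^ (n + 1)) (z i)
  have hf₁ : ∀ i, f₁ i 1 = Additive.ofMul (u i) := by
    intro i
    have h1 := ZMod.lift_coe (p ^ (n + 1)) (z i) 1
    rw [Int.cast_one] at h1
    refine h1.trans ?_
    show (zmultiplesHom (Additive B)) (Additive.ofMul (u i)) 1 = _
    rw [zmultiplesHom_apply, one_zsmul]
  let f₂ : (Fin g → ZMod (p ^ (n + 1))) →+ Additive B :=
    ∑ i, (f₁ i).comp (Pi.evalAddMonoidHom _ i)
  have hf₂ : ∀ i, f₂ (Pi.single i 1) = Additive.ofMul (u i) := by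
    intro i
    show (∑ j, (f₁ j).comp (Pi.evalAddMonoidHom _ j)) (Pi.single i 1) = _
    rw [AddMonoidHom.finsetSum_apply, Finset.sum_eq_single i]
    · show f₁ i ((Pi.single i (1 : ZMod (p ^ (n + 1))) : Fin g → ZMod (p ^ (n + 1))) i) = _
      rw [Pi.single_eq_same, hf₁]
    · intro j _ hij
      show f₁ j ((Pi.single i (1 : ZMod (p ^ (n + 1))) : Fin g → ZMod (p ^ (n + 1))) j) = _
      rw [Pi.single_eq_of_ne hij, map_zero]
    · intro h
      exact absurd (Finset.mem_univ i) h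
  refine ⟨AddMonoidHom.toMultiplicativeLeft f₂, fun i => ?_⟩
  show (f₂ (Pi.single i 1)).toMul = u i
  rw [hf₂]
  rfl

/-- `Del` is isomorphic to any group with the right generators and the right order -/
theorem exists_delEquiv (hp : 0 < p) {Δ : Type*} [CommGroup Δ] [Fintype Δ]
    (hcard : Fintype.card Δ = (p ^ (n + 1)) ^ g) (d : Fin g → Δ)
    (hd : Subgroup.closure (Set.range d) = ⊤) (hd1 : ∀ i, d i ^ (p ^ (n + 1)) = 1) :
    ∃ e : Del p g n ≃* Δ, ∀ i, e (del p g n i) = d i := by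
  have hne : NeZero (p ^ (n + 1)) := ⟨(pow_pos hp _).ne'⟩
  obtain ⟨f, hf⟩ := exists_grpHom_del n d hd1
  have hs : Function.Surjective f := by
    rw [← MonoidHom.range_eq_top, ← top_le_iff, ← hd, Subgroup.closure_le]
    rintro _ ⟨i, rfl⟩
    exact ⟨_, hf i⟩
  have hc : Fintype.card (Del p g n) = Fintype.card Δ := by
    rw [hcard, Fintype.card_multiplicative, Fintype.card_fun, ZMod.card, Fintype.card_fin]
  have hb : Function.Bijective f := (Fintype.bijective_iff_surjective_and_card f).mpr ⟨hs, hc⟩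
  exact ⟨MulEquiv.ofBijective f hb, hf⟩

end del

section main

variable {p g n : ℕ} {𝒪 : Type} [CommRing 𝒪] [IsDomain 𝒪] [IsDiscreteValuationRing 𝒪]
  [IsAdicComplete (maximalIdeal 𝒪) 𝒪] (hp : p.Prime) (hp2 : p ≠ 2)
  (hp𝒪 : (p : 𝒪) ∈ maximalIdeal 𝒪)

include hp hp2 hp𝒪 in
/-- the version for `Del` -/
theorem range_eq_del {M : Type} [AddCommGroup M] [Module 𝒪 M]
    (ρ : Representation 𝒪 (Del p g n) M) {r : ℕ} (w : Fin r → M)
    (hb : Function.Bijective (fun c : Fin r → Lam p g 𝒪 n => ∑ i, ρ.asAlgebraHom (c i) (w i)))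
    (i : Fin g) (θ : M →ₗ[𝒪] M) (hc : ∀ δ x, θ (ρ δ x) = ρ δ (θ x))
    (hplus : ∀ x, θ (θ x) + x = θ (ρ (del p g n i) x) + θ (ρ (del p g n i)⁻¹ x))
    (h1 : ∀ x, ∃ y, θ x - x = ρ (del p g n i) y - y) :
    (∀ x, (θ ^ (p ^ (n + 1))) x = x) ∧
      ∀ y, (∃ x, ρ (del p g n i) x - x = y) ↔ ∃ x, θ x - x = y := by
  have hpne : NeZero p := ⟨hp.ne_zero⟩
  let modD : Module (Lam p g 𝒪 n) M := Module.compHom M (ρ.asAlgebraHom : _ →ₐ[𝒪] _).toRingHom
  have hsm : ∀ (a : Lam p g 𝒪 n) (x : M), a • x = ρ.asAlgebraHom a x := fun a x => rfl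
  have hof : ∀ (δ : Del p g n) (x : M), MonoidAlgebra.of 𝒪 (Del p g n) δ • x = ρ δ x := fun δ x => by
    rw [hsm, Representation.asAlgebraHom_of]
  let L : (Fin r → Lam p g 𝒪 n) →ₗ[Lam p g 𝒪 n] M := Fintype.linearCombination _ w
  have hL : Function.Bijective L := hb
  have hfree : Module.Free (Lam p g 𝒪 n) M := Module.Free.of_equiv (LinearEquiv.ofBijective L hL)
  have hfin : Module.Finite (Lam p g 𝒪 n) M := Module.Finite.equiv (LinearEquiv.ofBijective L hL)
  -- `θ` is linear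
  have hlin : ∀ (a : Lam p g 𝒪 n) (x : M), θ (a • x) = a • θ x := by
    intro a x
    induction a using MonoidAlgebra.induction_on with
    | of z => rw [hof, hof, hc]
    | add a b ha hb => rw [add_smul, map_add, ha, hb, add_smul]
    | smul o a ha =>
      have e : ∀ y : M, (o • a) • y = o • a • y := fun y => by
        rw [hsm, map_smul, LinearMap.smul_apply, hsm]
      rw [e, map_smul, ha, e]
  let θ' : M →ₗ[Lam p g 𝒪 n] M :=
    { toFun := θ, map_add' := θ.map_add, map_smul' := fun a x => hlin a x }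
  set d : Lam p g 𝒪 n := MonoidAlgebra.of 𝒪 (Del p g n) (del p g n i) with hd
  set e : Lam p g 𝒪 n := MonoidAlgebra.of 𝒪 (Del p g n) (del p g n i)⁻¹ with he
  have hde : d * e = 1 := by rw [hd, he, ← map_mul, mul_inv_cancel, map_one]
  have hdP : d ^ (p ^ (n + 1)) = 1 := by rw [hd, ← map_pow, del_pow, map_one]
  have hθ : ∀ x : M, θ' (θ' x) = (d + e) • θ' x - x := by
    intro x
    have h2 := hplus x
    rw [hc, hc, ← hof, ← hof, ← hd, ← he, ← add_smul] at h2
    exact eq_sub_of_add_eq h2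
  have h1' : ∀ x : M, ∃ y : M, θ' x - x = (d - 1) • y := by
    intro x
    obtain ⟨y, hy⟩ := h1 x
    exact ⟨y, by rw [sub_smul, one_smul, hof]; exact hy⟩
  have hodd : Odd (p ^ (n + 1)) := (hp.odd_of_ne_two hp2).pow
  have hpow : ∀ (k : ℕ) (x : M), (θ' ^ k) x = (θ ^ k) x := by
    intro k
    induction k with
    | zero => intro x; rfl
    | succ k ih =>
      intro x
      rw [pow_succ θ' k, pow_succ θ k, Module.End.mul_apply, Module.End.mul_apply, ih]
      rfl
  refine ⟨fun x => ?_, fun y => ⟨?_, ?_⟩⟩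
  · rw [← hpow]
    exact pow_smul_eq_self hθ hde hdP hodd h1' x
  · rintro ⟨x, rfl⟩
    have hJ : JLam p g 𝒪 n ≤ Ideal.jacobson ⊥ := by
      have := isAdicComplete_Lam (g := g) hp hp𝒪 n
      exact IsAdicComplete.le_jacobson_bot (JLam p g 𝒪 n)
    obtain ⟨x', hx'⟩ := exists_sub_eq hθ (JLam p g 𝒪 n) hJ
      (fun a ha => mem_J_of_mul hp hp2 hp𝒪 i a ha) h1' hde (delm_mem n i) x
    exact ⟨x', by rw [sub_smul, one_smul, hof] at hx'; exact hx'.symm⟩
  · rintro ⟨x, rfl⟩
    obtain ⟨y, hy⟩ := h1 x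
    exact ⟨y, hy.symm⟩

theorem freeMap_comp_equiv {Δ Δ' M : Type} [Group Δ] [Fintype Δ] [Group Δ'] [Fintype Δ']
    [AddCommGroup M] [Module 𝒪 M] (ρ : Representation 𝒪 Δ M) (e : Δ' ≃* Δ) {r : ℕ} (w : Fin r → M)
    (hb : Function.Bijective (TW.freeMap ρ w)) :
    Function.Bijective (TW.freeMap (ρ.comp e.toMonoidHom : Representation 𝒪 Δ' M) w) := by
  have h : (TW.freeMap (ρ.comp e.toMonoidHom : Representation 𝒪 Δ' M) w : _ → M) =
      TW.freeMap ρ w ∘ (Equiv.piCongrRight fun _ : Fin r => (Equiv.arrowCongr e.toEquiv (Equiv.refl 𝒪))) := by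
    funext c
    rw [Function.comp_apply, TW.freeMap_apply, TW.freeMap_apply]
    refine Finset.sum_congr rfl fun i _ => ?_
    refine Fintype.sum_equiv e.toEquiv _ _ fun δ => ?_
    simp [Equiv.arrowCongr]
  rw [h]
  exact hb.comp (Equiv.bijective _)

theorem bijective_asAlgebraHom {Δ M : Type} [Group Δ] [Fintype Δ] [AddCommGroup M] [Module 𝒪 M]
    (ρ : Representation 𝒪 Δ M) {r : ℕ} (w : Fin r → M)
    (hb : Function.Bijective (TW.freeMap ρ w)) :
    Function.Bijective (fun c : Fin r → MonoidAlgebra 𝒪 Δ => ∑ i, ρ.asAlgebraHom (c i) (w i)) := by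
  classical
  let eq : (Fin r → MonoidAlgebra 𝒪 Δ) ≃ (Fin r → Δ → 𝒪) :=
    Equiv.piCongrRight fun _ : Fin r =>
      { toFun := fun a δ => a.coeff δ
        invFun := fun f => ∑ δ, MonoidAlgebra.single δ (f δ)
        left_inv := fun a => by
          ext δ
          rw [MonoidAlgebra.coeff_sum, Finsupp.finsetSum_apply]
          simp only [MonoidAlgebra.coeff_single, Finsupp.single_apply]
          rw [Finset.sum_ite_eq' Finset.univ δ, if_pos (Finset.mem_univ _)]
        right_inv := fun f => by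
          funext δ
          change (∑ δ, MonoidAlgebra.single δ (f δ)).coeff δ = f δ
          rw [MonoidAlgebra.coeff_sum, Finsupp.finsetSum_apply]
          simp only [MonoidAlgebra.coeff_single, Finsupp.single_apply]
          rw [Finset.sum_ite_eq' Finset.univ δ, if_pos (Finset.mem_univ _)] }
  have h : (fun c : Fin r → MonoidAlgebra 𝒪 Δ => ∑ i, ρ.asAlgebraHom (c i) (w i)) =
      TW.freeMap ρ w ∘ eq := by
    funext c
    rw [Function.comp_apply, TW.freeMap_apply]
    refine Finset.sum_congr rfl fun i _ => ?_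
    rw [Representation.asAlgebraHom_def, MonoidAlgebra.lift_apply, Finsupp.sum_fintype _ _ (fun δ => by
      rw [zero_smul]), LinearMap.sum_apply]
    rfl
  rw [h]
  exact hb.comp (Equiv.bijective _)

include hp hp2 hp𝒪 in
/-- **Range equality**: if `M` is free over the group algebra of `Δ ≃ (ℤ/p^{n+1})^g`, and
`θ + θ⁻¹ = δ_i + δ_i⁻¹` on `M` with `(θ - 1) M ⊆ (δ_i - 1) M`, then `θ^{p^{n+1}} = 1` and
`(θ - 1) M = (δ_i - 1) M`. -/
theorem range_eq {Δ : Type} [CommGroup Δ] [Fintype Δ]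
    (hcard : Fintype.card Δ = (p ^ (n + 1)) ^ g) (d : Fin g → Δ)
    (hd : Subgroup.closure (Set.range d) = ⊤) (hd1 : ∀ i, d i ^ (p ^ (n + 1)) = 1)
    {M : Type} [AddCommGroup M] [Module 𝒪 M]
    (ρ : Representation 𝒪 Δ M) {r : ℕ} (w : Fin r → M)
    (hb : Function.Bijective (TW.freeMap ρ w))
    (i : Fin g) (θ : M →ₗ[𝒪] M) (hc : ∀ δ x, θ (ρ δ x) = ρ δ (θ x))
    (hplus : ∀ x, θ (θ x) + x = θ (ρ (d i) x) + θ (ρ (d i)⁻¹ x))
    (h1 : ∀ x, ∃ y, θ x - x = ρ (d i) y - y) :
    (∀ x, (θ ^ (p ^ (n + 1))) x = x) ∧ ∀ y, (∃ x, ρ (d i) x - x = y) ↔ ∃ x, θ x - x = y := by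
  have hpne : NeZero p := ⟨hp.ne_zero⟩
  obtain ⟨e, he⟩ := exists_delEquiv hp.pos hcard d hd hd1
  let ρ' : Representation 𝒪 (Del p g n) M := ρ.comp e.toMonoidHom
  have h2 : ∀ (δ : Del p g n) x, ρ' δ x = ρ (e δ) x := fun δ x => rfl
  have h4 : ∀ x, ρ' (del p g n i) x = ρ (d i) x := fun x => by rw [h2, he]
  have h3 := range_eq_del hp hp2 hp𝒪 ρ' w
    (bijective_asAlgebraHom ρ' w (freeMap_comp_equiv ρ e w hb)) i θ
    (fun δ x => hc (e δ) x) (fun x => by rw [h2, h2, map_inv, he]; exact hplus x)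
    (fun x => by simp only [h4]; exact h1 x)
  simpa only [h4] using h3

end main

end Fermat.Agent.RT8
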