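import Fermat.Agent.DefRing.Final
import Fermat.Prelude.Def_GaloisRep_DeformationRingData

/-!
# Universal matrix representations (R = T, Galois side)
-/

set_option autoImplicit false
set_option linter.unusedSectionVars false
set_option linter.unusedVariables false

namespace Fermat.Agent.RT8

open IsLocalRing Module Matrix Fermat.Agent.DefRing

section

variable {𝒪 : Type} [CommRing 𝒪] [IsLocalRing 𝒪]
  {rbar : GQ →* M2 (ResidueField 𝒪)} (sd : SliceData rbar)
  (𝒟 : ∀ ⦃A : Type⦄ [CommRing A] [IsLocalRing A] [Algebra 𝒪 A], GaloisRepAdic A → Prop)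

/-- `r` is a universal normalised lift of `rbar` of type `𝒟`. -/
structure MU {R : Type} [CommRing R] [IsLocalRing R] [Algebra 𝒪 R] (r : GQ →* M2 R) : Prop where
  cont : MatCont R r
  red : Red rbar r
  norm : Norm sd r
  univ : ∀ (A : Type) [CommRing A] [IsLocalRing A] [IsNoetherianRing A]
      [IsAdicComplete (maximalIdeal A) A] [Algebra 𝒪 A] [IsLocalHom (algebraMap 𝒪 A)],
      Function.Surjective (residue A ∘ algebraMap 𝒪 A) →
      ∀ (rA : GQ →* M2 A) (hc : MatCont A rA), Red rbar rA → Norm sd rA → 𝒟 (ofMat rA hc) →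
        ∃! φ : R →ₐ[𝒪] A, mapRep (φ : R →+* A) r = rA

end

section

variable {𝒪 : Type} [CommRing 𝒪] [IsDomain 𝒪] [IsDiscreteValuationRing 𝒪]
  [IsAdicComplete (maximalIdeal 𝒪) 𝒪] {ρbar : ResidualGaloisRep (ResidueField 𝒪)}
  {𝒟 : ∀ ⦃A : Type⦄ [CommRing A] [IsLocalRing A] [Algebra 𝒪 A], GaloisRepAdic A → Prop}

/-- Existence of the universal normalised matrix representation. -/
theorem exists_MU (D : GaloisRep.DeformationRingData 𝒪 ρbar 𝒟)
    (bbar : Basis (Fin 2) (ResidueField 𝒪) ρbar.V) (sd : SliceData (matOfRes ρbar bbar)) :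
    ∃ (r : GQ →* M2 D.R) (h : MU sd 𝒟 r), D.ρ.IsEquiv (ofMat r h.cont) := by
  obtain ⟨r₀, hc₀, hred₀, heq₀⟩ := exists_red ρbar bbar
    (ResidueField.map (algebraMap 𝒪 D.R)) (fun o => ResidueField.map_residue _ o) D.ρ
    D.residual_isEquiv
  obtain ⟨u, hred, hnorm⟩ := slice_exists sd hred₀
  have hc := conjRep_cont u r₀ hc₀
  have heq : D.ρ.IsEquiv (ofMat (conjRep u r₀) hc) :=
    isEquiv_trans heq₀ (ofMat_conjRep u r₀ hc₀)
  refine ⟨conjRep u r₀, ⟨hc, hred, hnorm, ?_⟩, heq⟩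
  intro A _ _ _ _ _ _ hsurj rA hcA hredA hnormA h𝒟
  have hres : (ofMat rA hcA).residual.IsEquiv
      (ρbar.baseChangeAlong (ResidueField.map (algebraMap 𝒪 A))) :=
    residual_of_red ρbar bbar (ResidueField.map (algebraMap 𝒪 A))
      (fun o => ResidueField.map_residue _ o) rA hcA hredA
  obtain ⟨φ, ⟨hφ, h1⟩, huniq⟩ := D.universal A hsurj (ofMat rA hcA) h𝒟 hres
  have key : ∀ (ψ : D.R →ₐ[𝒪] A) (hψ : IsLocalHom (ψ : D.R →+* A)),
      (D.ρ.baseChangeAlong (ψ : D.R →+* A) hψ).IsEquiv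
        (ofMat (mapRep (ψ : D.R →+* A) (conjRep u r₀))
          (mapRep_cont (ψ : D.R →+* A) hψ _ hc)) := fun ψ hψ =>
    isEquiv_trans (baseChange_congr (ψ : D.R →+* A) hψ heq)
      (ofMat_baseChange (ψ : D.R →+* A) hψ _ hc)
  refine ⟨φ, ?_, ?_⟩
  · have h2 := isEquiv_trans (isEquiv_symm (key φ hφ)) h1
    obtain ⟨X, hX, h3⟩ := (ofMat_isEquiv_iff _ _ _ _).mp h2
    exact slice_unique sd (hred.map φ hφ) hredA (hnorm.map φ) hnormA X hX h3
  · intro ψ hψ
    have hloc : IsLocalHom (ψ : D.R →+* A) := isLocalHom_of_surjective_residue hsurj ψ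
    refine huniq ψ ⟨hloc, ?_⟩
    have h2 := key ψ hloc
    have hψ' : mapRep (ψ : D.R →+* A) (conjRep u r₀) = rA := hψ
    refine isEquiv_trans h2 ?_
    rw [ofMat_isEquiv_iff]
    exact ⟨1, isUnit_one, fun σ => by rw [hψ', one_mul, mul_one]⟩

end

end Fermat.Agent.RT8
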